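/-
P2, block 3: abstract data of a definite quaternion order with its Atkin-Lehner ideals,
lattices which are locally principal right modules, their classes, neighbours.
-/
import Mathlib

open scoped Pointwise

namespace Fermat.Agent.P2.Quat

/-! ### Local comparison of lattices -/

section loc

variable {D : Type*} [AddCommGroup D]

/-- `I` is contained in `J` locally at `p`. -/
def LLE (p : ℕ) (I J : Submodule ℤ D) : Prop :=
  ∃ n : ℕ, n.Coprime p ∧ ∀ x ∈ I, n • x ∈ J

/-- `I` and `J` are equal locally at `p`. -/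
def LEq (p : ℕ) (I J : Submodule ℤ D) : Prop :=
  LLE p I J ∧ LLE p J I

/-- The index `[I : J]` (as a natural number, `0` if infinite). -/
noncomputable def idx (J I : Submodule ℤ D) : ℕ :=
  J.toAddSubgroup.relIndex I.toAddSubgroup

end loc

/-! ### Quaternion algebras and orders -/

/-- A definite "quaternion algebra": a division ring with a positive standard involution. -/
structure QAlg (D : Type) [DivisionRing D] [Algebra ℚ D] where
  conj : D → D
  trd : D → ℚ
  nrd : D → ℚ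
  conj_add : ∀ x y, conj (x + y) = conj x + conj y
  conj_mul : ∀ x y, conj (x * y) = conj y * conj x
  conj_conj : ∀ x, conj (conj x) = x
  add_conj : ∀ x, x + conj x = algebraMap ℚ D (trd x)
  mul_conj : ∀ x, x * conj x = algebraMap ℚ D (nrd x)
  nrd_pos : ∀ x, x ≠ 0 → 0 < nrd x

/-- A quaternion order of level `M` with its Atkin-Lehner ideals `P m`, `m ∣ M`.
`ram q` says that the algebra is ramified at `q`. -/
structure QOrder (D : Type) [DivisionRing D] [Algebra ℚ D] extends QAlg D where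
  M : ℕ
  M_sqf : Squarefree M
  O : Subalgebra ℤ D
  basis : Module.Basis (Fin 4) ℤ O
  full : ∀ x : D, ∃ n : ℕ, n ≠ 0 ∧ n • x ∈ O
  trd_int : ∀ x ∈ O, ∃ t : ℤ, trd x = t
  nrd_int : ∀ x ∈ O, ∃ t : ℤ, nrd x = t
  index : ∀ x : D, x ≠ 0 → x ∈ O →
    (idx (x • Subalgebra.toSubmodule O) (Subalgebra.toSubmodule O) : ℚ) = nrd x ^ 2
  split : ∀ l : ℕ, l.Prime → ¬ l ∣ M → ∃ π : O →+* Matrix (Fin 2) (Fin 2) (ZMod l),
    Function.Surjective π ∧ ∀ x, π x = 0 → ∃ y, x = (l : ℤ) • y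
  P : ℕ → Submodule ℤ D
  P_one : P 1 = Subalgebra.toSubmodule O
  P_mul : ∀ m m', m * m' ∣ M → m.Coprime m' → P m * P m' = P (m * m')
  P_sq : ∀ m, m ∣ M → P m * P m = (m : D) • Subalgebra.toSubmodule O
  O_P : ∀ m, m ∣ M → Subalgebra.toSubmodule O * P m = P m
  P_O : ∀ m, m ∣ M → P m * Subalgebra.toSubmodule O = P m
  P_le : ∀ m, m ∣ M → P m ≤ Subalgebra.toSubmodule O
  P_loc : ∀ m, m ∣ M → ∀ p, p.Prime → ∃ g : D, g ≠ 0 ∧
    LEq p (P m) (g • Subalgebra.toSubmodule O)
  P_index : ∀ m, m ∣ M → idx (P m) (Subalgebra.toSubmodule O) = m ^ 2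
  ram : ℕ → Prop
  ram_dvd : ∀ q, q.Prime → ram q → q ∣ M
  ram_P : ∀ q, q.Prime → ram q → ∀ x ∈ O, (∃ t : ℤ, nrd x = q * t) → x ∈ P q
  dual : ∀ z : D, (∀ y ∈ O, ∃ t : ℤ, trd (z * y) = t) ↔ M • z ∈ P M

/-- An embedding `√-N`: `i² = -N`, `i O = P N`. -/
structure QOrder.Root {D : Type} [DivisionRing D] [Algebra ℚ D] (S : QOrder D) (N : ℕ) where
  dvd : N ∣ S.M
  i : D
  sq : i * i = -(N : D)
  smul : i • Subalgebra.toSubmodule S.O = S.P N

/-! ### Locally principal right lattices -/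

variable {D : Type} [DivisionRing D] [Algebra ℚ D] (S : QOrder D)

/-- The order as a `ℤ`-submodule. -/
def QOrder.OO : Submodule ℤ D := Subalgebra.toSubmodule S.O

/-- Locally principal right `O`-lattices. -/
def QOrder.IsLat (I : Submodule ℤ D) : Prop :=
  ∀ p : ℕ, p.Prime → ∃ x : D, x ≠ 0 ∧ LEq p I (x • S.OO)

/-- Sublattices `J ⊆ I` (locally principal) of index `n²`. -/
def QOrder.Nb (n : ℕ) (I : Submodule ℤ D) : Set (Submodule ℤ D) :=
  {J | S.IsLat J ∧ J ≤ I ∧ idx J I = n ^ 2}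

/-- The setoid: `I ~ J` iff `J = d I`. -/
def QOrder.setoid : Setoid {I : Submodule ℤ D // S.IsLat I} where
  r I J := ∃ d : D, d ≠ 0 ∧ J.1 = d • I.1
  iseqv := by
    refine ⟨fun I => ⟨1, one_ne_zero, (one_smul _ _).symm⟩, ?_, ?_⟩
    · rintro I J ⟨d, hd, h⟩
      exact ⟨d⁻¹, inv_ne_zero hd, by rw [h, smul_smul, inv_mul_cancel₀ hd, one_smul]⟩
    · rintro I J K ⟨d, hd, h⟩ ⟨e, he, h'⟩
      exact ⟨e * d, mul_ne_zero he hd, by rw [h', h, smul_smul]⟩

/-- The class set `Dˣ \ {locally principal right lattices}`. -/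
def QOrder.X : Type := Quotient S.setoid

/-- The class of a lattice. -/
def QOrder.cls (I : Submodule ℤ D) (h : S.IsLat I) : S.X := Quotient.mk S.setoid ⟨I, h⟩

/-- A representative of a class. -/
noncomputable def QOrder.rep (x : S.X) : Submodule ℤ D := (Quotient.out x).1

/-- Brandt matrices: `B n x y` = number of `J ⊆ I_x` in the class `y`, of index `n²`. -/
noncomputable def QOrder.B (n : ℕ) (x y : S.X) : ℕ :=
  Nat.card {J : Submodule ℤ D // ∃ h : J ∈ S.Nb n (S.rep x), S.cls J h.1 = y}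

end Fermat.Agent.P2.Quat
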