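/-
P2, block 3: calculus of local inclusions of lattices and of indices.
-/
import Fermat.Agent.P2.Quat.Defs

open scoped Pointwise

namespace Fermat.Agent.P2.Quat

section loc

variable {D : Type*} [AddCommGroup D] {p : ℕ} {I J K : Submodule ℤ D}

theorem mem_of_coprime {n m : ℕ} (h : n.Coprime m) {x : D} (h1 : n • x ∈ I) (h2 : m • x ∈ I) :
    x ∈ I := by
  obtain ⟨u, v, huv⟩ := Nat.isCoprime_iff_coprime.mpr h
  have e : x = u • (n • x) + v • (m • x) := by
    rw [← natCast_zsmul, ← natCast_zsmul, smul_smul, smul_smul, ← add_smul, huv, one_smul]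
  rw [e]
  exact I.add_mem (I.smul_mem _ h1) (I.smul_mem _ h2)

theorem LLE.of_le (h : I ≤ J) : LLE p I J := ⟨1, Nat.coprime_one_left p, fun x hx => by
  rw [one_smul]; exact h hx⟩

theorem LLE.refl : LLE p I I := LLE.of_le le_rfl

theorem LLE.trans (h1 : LLE p I J) (h2 : LLE p J K) : LLE p I K := by
  obtain ⟨n, hn, h1⟩ := h1
  obtain ⟨m, hm, h2⟩ := h2
  exact ⟨m * n, Nat.Coprime.mul_left hm hn, fun x hx => by
    rw [mul_smul]; exact h2 _ (h1 x hx)⟩

theorem LEq.refl : LEq p I I := ⟨LLE.refl, LLE.refl⟩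

theorem LEq.symm (h : LEq p I J) : LEq p J I := ⟨h.2, h.1⟩

theorem LEq.trans (h1 : LEq p I J) (h2 : LEq p J K) : LEq p I K :=
  ⟨h1.1.trans h2.1, h2.2.trans h1.2⟩

theorem LEq.of_eq (h : I = J) : LEq p I J := h ▸ LEq.refl

/-- A common multiplier. -/
theorem LEq.exists_common (h : LEq p I J) : ∃ n : ℕ, n.Coprime p ∧ (∀ x ∈ I, n • x ∈ J) ∧
    ∀ x ∈ J, n • x ∈ I := by
  obtain ⟨⟨n, hn, h1⟩, ⟨m, hm, h2⟩⟩ := h
  refine ⟨n * m, Nat.Coprime.mul_left hn hm, fun x hx => ?_, fun x hx => ?_⟩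
  · rw [mul_comm, mul_smul]; exact J.smul_of_tower_mem _ (h1 x hx)
  · rw [mul_smul]; exact I.smul_of_tower_mem _ (h2 x hx)

theorem LEq.inf {I' J' : Submodule ℤ D} (h : LEq p I J) (h' : LEq p I' J') :
    LEq p (I ⊓ I') (J ⊓ J') := by
  have key : ∀ {A A' B B' : Submodule ℤ D}, LLE p A B → LLE p A' B' →
      LLE p (A ⊓ A') (B ⊓ B') := by
    rintro A A' B B' ⟨n, hn, h1⟩ ⟨m, hm, h2⟩
    refine ⟨n * m, Nat.Coprime.mul_left hn hm, fun x hx => ⟨?_, ?_⟩⟩
    · rw [mul_comm, mul_smul]; exact B.smul_of_tower_mem _ (h1 x hx.1)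
    · rw [mul_smul]; exact B'.smul_of_tower_mem _ (h2 x hx.2)
  exact ⟨key h.1 h'.1, key h.2 h'.2⟩

theorem LEq.sup {I' J' : Submodule ℤ D} (h : LEq p I J) (h' : LEq p I' J') :
    LEq p (I ⊔ I') (J ⊔ J') := by
  have key : ∀ {A A' B B' : Submodule ℤ D}, LLE p A B → LLE p A' B' →
      LLE p (A ⊔ A') (B ⊔ B') := by
    rintro A A' B B' ⟨n, hn, h1⟩ ⟨m, hm, h2⟩
    refine ⟨n * m, Nat.Coprime.mul_left hn hm, fun x hx => ?_⟩
    obtain ⟨y, hy, z, hz, rfl⟩ := Submodule.mem_sup.mp hx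
    rw [smul_add]
    refine Submodule.add_mem_sup ?_ ?_
    · rw [mul_comm, mul_smul]; exact B.smul_of_tower_mem _ (h1 y hy)
    · rw [mul_smul]; exact B'.smul_of_tower_mem _ (h2 z hz)
  exact ⟨key h.1 h'.1, key h.2 h'.2⟩

/-- Local-global principle. -/
theorem le_of_forall_LLE (h : ∀ p : ℕ, p.Prime → LLE p I J) : I ≤ J := by
  intro x hx
  let a : Ideal ℤ := (J.comap (LinearMap.toSpanSingleton ℤ D x))
  have ha : ∀ n : ℤ, n ∈ a ↔ n • x ∈ J := fun n => Iff.rfl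
  have h1 : a = ⊤ := by
    by_contra hne
    obtain ⟨m, hm, ham⟩ := Ideal.exists_le_maximal a hne
    obtain ⟨g, rfl⟩ := (IsPrincipalIdealRing.principal m).principal
    have hg0 : g ≠ 0 := by
      rintro rfl
      obtain ⟨n, hn, hn'⟩ := h 2 Nat.prime_two
      have h3 : (n : ℤ) ∈ a := (ha _).mpr (by rw [natCast_zsmul]; exact hn' x hx)
      have h4 := ham h3
      rw [Submodule.mem_span_singleton] at h4
      obtain ⟨c, hc⟩ := h4
      rw [smul_zero] at hc
      have h5 : n = 0 := by exact_mod_cast hc.symm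
      rw [h5, Nat.coprime_zero_left] at hn
      omega
    have hgp : g.natAbs.Prime :=
      Int.prime_iff_natAbs_prime.mp ((Ideal.span_singleton_prime hg0).mp hm.isPrime)
    obtain ⟨n, hn, hn'⟩ := h _ hgp
    have h3 : (n : ℤ) ∈ a := (ha _).mpr (by rw [natCast_zsmul]; exact hn' x hx)
    have h4 : g ∣ (n : ℤ) := Ideal.mem_span_singleton.mp (ham h3)
    have h5 : g.natAbs ∣ n := Int.natAbs_dvd_natAbs.mpr h4
    exact hgp.one_lt.ne' (Nat.Coprime.eq_one_of_dvd hn.symm h5)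
  have h2 : (1 : ℤ) ∈ a := h1 ▸ Submodule.mem_top
  rw [ha, one_smul] at h2
  exact h2

theorem eq_of_forall_LEq (h : ∀ p : ℕ, p.Prime → LEq p I J) : I = J :=
  le_antisymm (le_of_forall_LLE fun p hp => (h p hp).1)
    (le_of_forall_LLE fun p hp => (h p hp).2)

/-! ### Indices -/

theorem idx_self : idx I I = 1 := AddSubgroup.relIndex_self _

theorem idx_mul (h1 : I ≤ J) (h2 : J ≤ K) : idx I J * idx J K = idx I K :=
  AddSubgroup.relIndex_mul_relIndex _ _ _ h1 h2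

theorem idx_eq_one : idx I J = 1 ↔ J ≤ I := AddSubgroup.relIndex_eq_one

theorem idx_dvd_of_le (h : I ≤ J) : idx J K ∣ idx I K := AddSubgroup.relIndex_dvd_of_le_left _ h

theorem idx_ne_zero_trans (h1 : idx I J ≠ 0) (h2 : idx J K ≠ 0) : idx I K ≠ 0 :=
  AddSubgroup.relIndex_ne_zero_trans h1 h2

theorem idx_ne_zero_of_le_left (h : I ≤ J) (h1 : idx I K ≠ 0) : idx J K ≠ 0 := fun h0 =>
  h1 (AddSubgroup.relIndex_eq_zero_of_le_left h h0)

theorem idx_ne_zero_of_le_right (h : J ≤ K) (h1 : idx I K ≠ 0) : idx I J ≠ 0 := fun h0 =>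
  h1 (AddSubgroup.relIndex_eq_zero_of_le_right h h0)

/-- The index kills the quotient. -/
theorem idx_smul_mem {x : D} (hx : x ∈ J) : idx I J • x ∈ I := by
  have h1 := AddSubgroup.nsmul_index_mem (I.toAddSubgroup.addSubgroupOf J.toAddSubgroup) ⟨x, hx⟩
  rw [AddSubgroup.mem_addSubgroupOf] at h1
  exact h1

/-- The index lemma: indices can be computed locally. -/
theorem idx_congr {A A' B B' : Submodule ℤ D} (hA' : A' ≤ A) (hB' : B' ≤ B) {k j : ℕ}
    (hA : ∀ x ∈ A, p ^ k • x ∈ A') (hB : ∀ x ∈ B, p ^ j • x ∈ B') (h : LEq p A B)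
    (h' : LEq p A' B') : idx A' A = idx B' B := by
  obtain ⟨n, hn, h1, h2⟩ := h.exists_common
  obtain ⟨m, hm, h1', h2'⟩ := h'.exists_common
  -- common multiplier
  set c := n * m with hc
  have hcp : c.Coprime p := Nat.Coprime.mul_left hn hm
  have e1 : ∀ x ∈ A, c • x ∈ B := fun x hx => by
    rw [hc, mul_comm, mul_smul]; exact B.smul_of_tower_mem _ (h1 x hx)
  have e2 : ∀ x ∈ B, c • x ∈ A := fun x hx => by
    rw [hc, mul_comm, mul_smul]; exact A.smul_of_tower_mem _ (h2 x hx)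
  have e3 : ∀ x ∈ A', c • x ∈ B' := fun x hx => by
    rw [hc, mul_smul]; exact B'.smul_of_tower_mem _ (h1' x hx)
  have e4 : ∀ x ∈ B', c • x ∈ A' := fun x hx => by
    rw [hc, mul_smul]; exact A'.smul_of_tower_mem _ (h2' x hx)
  let f0 : A →+ B :=
    { toFun := fun a => ⟨c • a.1, e1 a.1 a.2⟩
      map_zero' := Subtype.ext (smul_zero _)
      map_add' := fun a b => Subtype.ext (smul_add _ _ _) }
  let Q := B'.toAddSubgroup.addSubgroupOf B.toAddSubgroup
  let f : A →+ (B.toAddSubgroup ⧸ Q) := (QuotientAddGroup.mk' Q).comp f0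
  have hker : f.ker = A'.toAddSubgroup.addSubgroupOf A.toAddSubgroup := by
    ext a
    have e5 : a ∈ f.ker ↔ c • a.1 ∈ B' := by
      change f a = 0 ↔ _
      change (QuotientAddGroup.mk' Q) (f0 a) = 0 ↔ _
      rw [QuotientAddGroup.mk'_apply, QuotientAddGroup.eq_zero_iff]
      rfl
    rw [e5]
    have e9 : a ∈ A'.toAddSubgroup.addSubgroupOf A.toAddSubgroup ↔ a.1 ∈ A' := Iff.rfl
    rw [e9]
    refine ⟨fun h5 => ?_, fun h5 => e3 _ h5⟩
    have h6 : (c * c) • a.1 ∈ A' := by rw [mul_smul]; exact e4 _ h5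
    exact mem_of_coprime (I := A')
      (Nat.Coprime.pow_right k (Nat.Coprime.mul_left hcp hcp)) h6 (hA a.1 a.2)
  have hrange : f.range = ⊤ := by
    rw [AddMonoidHom.range_eq_top]
    intro y
    obtain ⟨b, rfl⟩ := QuotientAddGroup.mk'_surjective Q y
    obtain ⟨u, v, huv⟩ := Nat.isCoprime_iff_coprime.mpr
      (Nat.Coprime.pow_right j (Nat.Coprime.mul_left hcp hcp) : Nat.Coprime (c * c) (p ^ j))
    refine ⟨⟨u • (c • b.1), A.smul_mem _ (e2 _ b.2)⟩, ?_⟩
    change (QuotientAddGroup.mk' Q) _ = _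
    rw [QuotientAddGroup.mk'_apply, QuotientAddGroup.mk'_apply, eq_comm, QuotientAddGroup.eq]
    change -b.1 + c • (u • (c • b.1)) ∈ B'
    have e6 : -b.1 + c • (u • (c • b.1)) = -(v • (p ^ j • b.1)) := by
      have e7 : c • (u • (c • b.1)) = (u * ((c * c : ℕ) : ℤ)) • b.1 := by
        rw [← natCast_zsmul, ← natCast_zsmul, smul_smul, smul_smul]
        congr 1
        push_cast
        ring
      have e8 : v • (p ^ j • b.1) = (v * ((p ^ j : ℕ) : ℤ)) • b.1 := by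
        rw [← natCast_zsmul, smul_smul]
      rw [e7, e8, neg_add_eq_iff_eq_add, ← sub_eq_add_neg, eq_sub_iff_add_eq, ← add_smul, huv,
        one_smul]
    rw [e6]
    exact B'.neg_mem (B'.smul_mem _ (hB _ b.2))
  calc idx A' A = (A'.toAddSubgroup.addSubgroupOf A.toAddSubgroup).index := rfl
    _ = f.ker.index := by rw [hker]
    _ = Nat.card f.range := AddSubgroup.index_ker f
    _ = Nat.card (B.toAddSubgroup ⧸ Q) := by
      rw [hrange]
      exact Nat.card_congr AddSubgroup.topEquiv.toEquiv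
    _ = idx B' B := rfl

end loc

end Fermat.Agent.P2.Quat
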