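/-
P2, block 3: the embedding of the imaginary quadratic field `K = ℚ(√-N)` in the quaternion
algebra.
-/
import Fermat.Agent.P2.Quat.Loc

open scoped Pointwise nonZeroDivisors NumberField

namespace Fermat.Agent.P2.Quat

/-- `K = ℚ(√-N)` -/
structure ImQuad (N : ℕ) (K : Type) [Field K] [NumberField K] where
  pos : 0 < N
  s : K
  sq : s * s = -(N : K)
  finrank : Module.finrank ℚ K = 2

namespace ImQuad

variable {N : ℕ} {K : Type} [Field K] [NumberField K] (Q : ImQuad N K)

theorem ne_rat (q : ℚ) : algebraMap ℚ K q ≠ Q.s := by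
  intro h
  have h1 : algebraMap ℚ K (q * q) = algebraMap ℚ K (-(N : ℚ)) := by
    rw [map_mul, h, Q.sq, map_neg, map_natCast]
  have h2 : q * q = -(N : ℚ) := (algebraMap ℚ K).injective h1
  have h3 : (0 : ℚ) < N := by exact_mod_cast Q.pos
  nlinarith [mul_self_nonneg q]

theorem eq_zero_of {a b : ℚ} (h : algebraMap ℚ K a + algebraMap ℚ K b * Q.s = 0) :
    a = 0 ∧ b = 0 := by
  have hb : b = 0 := by
    by_contra hb
    apply Q.ne_rat (-a / b)
    have hb' : algebraMap ℚ K b ≠ 0 := fun h0 => hb ((algebraMap ℚ K).injective (by simpa using h0))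
    rw [map_div₀, map_neg, div_eq_iff hb', mul_comm, ← add_eq_zero_iff_neg_eq]
    exact h
  subst hb
  rw [map_zero, zero_mul, add_zero] at h
  exact ⟨(algebraMap ℚ K).injective (by simpa using h), rfl⟩

theorem exists_coord (x : K) : ∃ a b : ℚ, x = algebraMap ℚ K a + algebraMap ℚ K b * Q.s := by
  have hli : LinearIndependent ℚ ![(1 : K), Q.s] := by
    rw [LinearIndependent.pair_iff]
    intro a b h
    refine Q.eq_zero_of ?_
    rw [Algebra.smul_def, Algebra.smul_def, mul_one] at h
    exact h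
  let B := basisOfLinearIndependentOfCardEqFinrank hli (by rw [Q.finrank]; rfl)
  refine ⟨B.repr x 0, B.repr x 1, ?_⟩
  conv_lhs => rw [← B.sum_repr x]
  rw [Fin.sum_univ_two]
  simp [B, Algebra.smul_def]

/-- real part -/
noncomputable def re (x : K) : ℚ := (Q.exists_coord x).choose
/-- imaginary part -/
noncomputable def im (x : K) : ℚ := (Q.exists_coord x).choose_spec.choose

theorem eq_re_im (x : K) : x = algebraMap ℚ K (Q.re x) + algebraMap ℚ K (Q.im x) * Q.s :=
  (Q.exists_coord x).choose_spec.choose_spec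

theorem re_im_unique {x : K} {a b : ℚ} (h : x = algebraMap ℚ K a + algebraMap ℚ K b * Q.s) :
    Q.re x = a ∧ Q.im x = b := by
  have h1 : algebraMap ℚ K (Q.re x - a) + algebraMap ℚ K (Q.im x - b) * Q.s = 0 := by
    have h2 := Q.eq_re_im x
    rw [map_sub, map_sub]
    linear_combination h - h2
  have := Q.eq_zero_of h1
  exact ⟨sub_eq_zero.mp this.1, sub_eq_zero.mp this.2⟩

theorem re_add (x y : K) : Q.re (x + y) = Q.re x + Q.re y := by
  refine (Q.re_im_unique (b := Q.im x + Q.im y) ?_).1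
  have hx := Q.eq_re_im x
  have hy := Q.eq_re_im y
  rw [map_add, map_add]
  linear_combination hx + hy

theorem im_add (x y : K) : Q.im (x + y) = Q.im x + Q.im y := by
  refine (Q.re_im_unique (a := Q.re x + Q.re y) ?_).2
  have hx := Q.eq_re_im x
  have hy := Q.eq_re_im y
  rw [map_add, map_add]
  linear_combination hx + hy

theorem mul_aux (x y : K) : x * y = algebraMap ℚ K (Q.re x * Q.re y - N * (Q.im x * Q.im y)) +
    algebraMap ℚ K (Q.re x * Q.im y + Q.im x * Q.re y) * Q.s := by
  have hx := Q.eq_re_im x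
  have hy := Q.eq_re_im y
  have hs := Q.sq
  simp only [map_sub, map_mul, map_add, map_natCast]
  conv_lhs => rw [hx, hy]
  linear_combination (algebraMap ℚ K (Q.im x)) * (algebraMap ℚ K (Q.im y)) * hs

theorem re_mul (x y : K) : Q.re (x * y) = Q.re x * Q.re y - N * (Q.im x * Q.im y) :=
  (Q.re_im_unique (Q.mul_aux x y)).1

theorem im_mul (x y : K) : Q.im (x * y) = Q.re x * Q.im y + Q.im x * Q.re y :=
  (Q.re_im_unique (Q.mul_aux x y)).2

@[simp] theorem re_algebraMap (a : ℚ) : Q.re (algebraMap ℚ K a) = a :=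
  (Q.re_im_unique (b := 0) (by simp)).1

@[simp] theorem im_algebraMap (a : ℚ) : Q.im (algebraMap ℚ K a) = 0 :=
  (Q.re_im_unique (a := a) (by simp)).2

@[simp] theorem re_s : Q.re Q.s = 0 := (Q.re_im_unique (b := 1) (by simp)).1
@[simp] theorem im_s : Q.im Q.s = 1 := (Q.re_im_unique (a := 0) (by simp)).2

@[simp] theorem re_one : Q.re (1 : K) = 1 := by
  have := Q.re_algebraMap 1
  rwa [map_one] at this
@[simp] theorem im_one : Q.im (1 : K) = 0 := by
  have := Q.im_algebraMap 1
  rwa [map_one] at this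
@[simp] theorem re_zero : Q.re (0 : K) = 0 := by
  have := Q.re_algebraMap 0
  rwa [map_zero] at this
@[simp] theorem im_zero : Q.im (0 : K) = 0 := by
  have := Q.im_algebraMap 0
  rwa [map_zero] at this

/-- conjugation -/
noncomputable def conjFun (x : K) : K := algebraMap ℚ K (Q.re x) - algebraMap ℚ K (Q.im x) * Q.s

theorem re_conjFun (x : K) : Q.re (Q.conjFun x) = Q.re x :=
  (Q.re_im_unique (b := - Q.im x) (by rw [conjFun, map_neg]; ring)).1

theorem im_conjFun (x : K) : Q.im (Q.conjFun x) = - Q.im x :=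
  (Q.re_im_unique (a := Q.re x) (by rw [conjFun, map_neg]; ring)).2

theorem ext_re_im {x y : K} (h1 : Q.re x = Q.re y) (h2 : Q.im x = Q.im y) : x = y := by
  rw [Q.eq_re_im x, Q.eq_re_im y, h1, h2]

/-- conjugation -/
noncomputable def conj : K ≃+* K where
  toFun := Q.conjFun
  invFun := Q.conjFun
  left_inv x := Q.ext_re_im (by rw [re_conjFun, re_conjFun]) (by rw [im_conjFun, im_conjFun, neg_neg])
  right_inv x := Q.ext_re_im (by rw [re_conjFun, re_conjFun]) (by rw [im_conjFun, im_conjFun, neg_neg])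
  map_mul' x y := Q.ext_re_im
    (by rw [re_mul, re_conjFun, re_conjFun, re_conjFun, im_conjFun, im_conjFun, re_mul]; ring)
    (by rw [im_mul, im_conjFun, re_conjFun, re_conjFun, im_conjFun, im_conjFun, im_mul]; ring)
  map_add' x y := Q.ext_re_im
    (by rw [re_add, re_conjFun, re_conjFun, re_conjFun, re_add])
    (by rw [im_add, im_conjFun, im_conjFun, im_conjFun, im_add]; ring)

@[simp] theorem re_conj (x : K) : Q.re (Q.conj x) = Q.re x := Q.re_conjFun x
@[simp] theorem im_conj (x : K) : Q.im (Q.conj x) = - Q.im x := Q.im_conjFun x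

@[simp] theorem conj_conj (x : K) : Q.conj (Q.conj x) = x :=
  Q.ext_re_im (by simp) (by simp)

@[simp] theorem conj_s : Q.conj Q.s = - Q.s := by
  have h : Q.s + Q.conj Q.s = 0 := Q.ext_re_im (by rw [re_add]; simp) (by rw [im_add]; simp)
  exact (neg_eq_of_add_eq_zero_right h).symm

theorem mul_conj (x : K) : x * Q.conj x =
    algebraMap ℚ K (Q.re x * Q.re x + N * (Q.im x * Q.im x)) :=
  Q.ext_re_im (by rw [re_mul, re_algebraMap]; simp)
    (by rw [im_mul, im_algebraMap]; simp; ring)

theorem add_conj (x : K) : x + Q.conj x = algebraMap ℚ K (2 * Q.re x) :=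
  Q.ext_re_im (by rw [re_add, re_algebraMap]; simp; ring) (by rw [im_add, im_algebraMap]; simp)

theorem conj_algebraMap (a : ℚ) : Q.conj (algebraMap ℚ K a) = algebraMap ℚ K a :=
  Q.ext_re_im (by simp) (by simp)

theorem isIntegral_conj {x : K} (h : IsIntegral ℤ x) : IsIntegral ℤ (Q.conj x) :=
  h.map Q.conj.toRingHom.toIntAlgHom

theorem int_of_isIntegral {q : ℚ} (h : IsIntegral ℤ (algebraMap ℚ K q)) : ∃ n : ℤ, q = n := by
  have h1 : IsIntegral ℤ q := (isIntegral_algebraMap_iff (algebraMap ℚ K).injective).mp h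
  obtain ⟨n, hn⟩ := IsIntegrallyClosed.isIntegral_iff.mp h1
  exact ⟨n, hn.symm⟩

/-- a rational number whose square times a squarefree number is integral is integral -/
theorem int_of_sq {n : ℕ} (hn : Squarefree n) {v : ℚ} {m : ℤ} (h : (n : ℚ) * (v * v) = m) :
    ∃ k : ℤ, v = k := by
  have hd : (v.den : ℚ) ≠ 0 := by exact_mod_cast v.den_ne_zero
  have h1 : (n : ℤ) * (v.num * v.num) = m * (v.den * v.den) := by
    have h2 : v = v.num / v.den := (Rat.num_div_den v).symm
    rw [h2] at h
    field_simp at h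
    have h8 : (n : ℤ) * v.num ^ 2 = v.den ^ 2 * m := by exact_mod_cast h
    linear_combination h8
  have h3 : (v.den * v.den : ℤ) ∣ n * (v.num * v.num) := ⟨m, by rw [h1]; ring⟩
  have hc : IsCoprime (v.den * v.den : ℤ) (v.num * v.num : ℤ) := by
    have h4 : IsCoprime (v.den : ℤ) v.num := by
      rw [isCoprime_comm, Int.isCoprime_iff_gcd_eq_one, Int.gcd_eq_natAbs, Int.natAbs_natCast]
      exact v.reduced
    exact (h4.mul_left h4).mul_right (h4.mul_left h4)
  have h5 : (v.den * v.den : ℤ) ∣ n := hc.dvd_of_dvd_mul_right h3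
  have h6 : v.den * v.den ∣ n := by exact_mod_cast h5
  have h7 : v.den = 1 := Nat.isUnit_iff.mp (hn _ h6)
  exact ⟨v.num, by rw [← Rat.num_div_den v, h7]; simp⟩

/-- the ring of integers is `ℤ[√-N]` -/
theorem isIntegral_iff (h2 : N % 4 = 2) (hN : Squarefree N) (x : K) : IsIntegral ℤ x ↔
    (∃ m : ℤ, Q.re x = m) ∧ ∃ n : ℤ, Q.im x = n := by
  constructor
  · intro h
    have h' := Q.isIntegral_conj h
    obtain ⟨t, ht⟩ := int_of_isIntegral (K := K) (q := 2 * Q.re x) (by
      rw [← Q.add_conj]; exact h.add h')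
    obtain ⟨n, hn⟩ := int_of_isIntegral (K := K)
      (q := Q.re x * Q.re x + N * (Q.im x * Q.im x)) (by
      rw [← Q.mul_conj]; exact h.mul h')
    obtain ⟨v, hv⟩ := int_of_sq hN (v := 2 * Q.im x) (m := 4 * n - t * t) (by
      push_cast
      rw [← ht, ← hn]
      ring)
    have key : t * t + N * (v * v) = 4 * n := by
      have : (t : ℚ) * t + N * (v * v) = 4 * n := by
        rw [← ht, ← hv, ← hn]; ring
      exact_mod_cast this
    obtain ⟨a, ha⟩ : ∃ a : ℤ, (N : ℤ) = 4 * a + 2 := ⟨N / 4, by omega⟩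
    rw [ha] at key
    have ht2 : Even t := by
      by_contra hodd
      rw [Int.not_even_iff_odd] at hodd
      have h3 : Odd (t * t) := hodd.mul hodd
      have h4 : Even (t * t) := ⟨2 * n - (2 * a + 1) * (v * v), by linarith⟩
      exact (Int.not_even_iff_odd.mpr h3) h4
    obtain ⟨t', rfl⟩ := ht2
    have hv2 : Even v := by
      by_contra hodd
      rw [Int.not_even_iff_odd] at hodd
      have h3 : Odd (v * v) := hodd.mul hodd
      have h4 : Even (v * v) := ⟨n - t' * t' - a * (v * v), by linarith⟩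
      exact (Int.not_even_iff_odd.mpr h3) h4
    obtain ⟨v', rfl⟩ := hv2
    refine ⟨⟨t', ?_⟩, ⟨v', ?_⟩⟩
    · push_cast at ht; linarith
    · push_cast at hv; linarith
  · rintro ⟨⟨m, hm⟩, n, hn⟩
    rw [Q.eq_re_im x, hm, hn]
    have hs : IsIntegral ℤ Q.s := by
      refine ⟨Polynomial.X ^ 2 + Polynomial.C (N : ℤ), Polynomial.monic_X_pow_add_C _ two_ne_zero,
        ?_⟩
      simp [pow_two, Q.sq]
    refine IsIntegral.add ?_ (IsIntegral.mul ?_ hs)
    · rw [map_intCast]; exact isIntegral_intCast m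
    · rw [map_intCast]; exact isIntegral_intCast n

end ImQuad

end Fermat.Agent.P2.Quat
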