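/-
P2, block 3: the embedding of the imaginary quadratic field `K = ℚ(√-N)` in the quaternion
algebra.
-/
import Fermat.Agent.P2.Quat.Emb

open scoped Pointwise nonZeroDivisors NumberField

namespace Fermat.Agent.P2.Quat

namespace EmbD

variable {D : Type} [DivisionRing D] [Algebra ℚ D] (A : QAlg D)

theorem conj_one : A.conj 1 = 1 := by
  have h1 : A.conj 1 = A.conj 1 * A.conj 1 := by
    conv_lhs => rw [← mul_one (1 : D)]
    exact A.conj_mul 1 1
  have h2 : A.conj 1 ≠ 0 := by
    intro h0
    have h3 := A.conj_conj 1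
    rw [h0] at h3
    have h4 : A.conj 0 = 0 := by
      have := A.conj_add 0 0
      rw [add_zero] at this
      simpa using this
    rw [h4] at h3
    exact zero_ne_one h3
  exact (mul_right_cancel₀ h2 (by rw [one_mul]; exact h1)).symm

/-- conjugation as an additive map -/
def conjAdd : D →+ D where
  toFun := A.conj
  map_zero' := by
    have := A.conj_add 0 0
    rw [add_zero] at this
    simpa using this
  map_add' := A.conj_add

theorem conj_algebraMap (q : ℚ) : A.conj (algebraMap ℚ D q) = algebraMap ℚ D q := by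
  have h : (conjAdd A).comp (algebraMap ℚ D).toAddMonoidHom = (algebraMap ℚ D).toAddMonoidHom := by
    have : CharZero D := algebraRat.charZero D
    have h1 : ((conjAdd A).comp (algebraMap ℚ D).toAddMonoidHom).toRatLinearMap =
        (algebraMap ℚ D).toAddMonoidHom.toRatLinearMap := by
      apply LinearMap.ext_ring
      show A.conj (algebraMap ℚ D 1) = algebraMap ℚ D 1
      rw [map_one, conj_one]
    ext q
    exact congr($h1 q)
  exact congr($h q)

theorem conj_neg (x : D) : A.conj (-x) = - A.conj x := (conjAdd A).map_neg x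

theorem conj_sub (x y : D) : A.conj (x - y) = A.conj x - A.conj y := (conjAdd A).map_sub x y

theorem nrd_mul (x y : D) : A.nrd (x * y) = A.nrd x * A.nrd y := by
  apply (algebraMap ℚ D).injective
  rw [← A.mul_conj, A.conj_mul, map_mul, ← A.mul_conj x]
  calc x * y * (A.conj y * A.conj x) = x * (y * A.conj y) * A.conj x := by
        simp only [mul_assoc]
    _ = x * algebraMap ℚ D (A.nrd y) * A.conj x := by rw [A.mul_conj]
    _ = x * A.conj x * algebraMap ℚ D (A.nrd y) := by
        rw [mul_assoc, Algebra.commutes (A.nrd y) (A.conj x), ← mul_assoc]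

theorem nrd_algebraMap (q : ℚ) : A.nrd (algebraMap ℚ D q) = q * q := by
  apply (algebraMap ℚ D).injective
  rw [← A.mul_conj, conj_algebraMap, map_mul]

/-- elements equal to their conjugate are rational -/
theorem rat_of_conj_eq {x : D} (h : A.conj x = x) :
    x = algebraMap ℚ D (A.trd x / 2) := by
  have : CharZero D := algebraRat.charZero D
  have h1 := A.add_conj x
  rw [h] at h1
  have h2 : (2 : D) ≠ 0 := two_ne_zero
  apply mul_left_cancel₀ h2
  have h3 : (2 : D) * algebraMap ℚ D (A.trd x / 2) = algebraMap ℚ D (A.trd x) := by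
    rw [← map_ofNat (algebraMap ℚ D) 2, ← map_mul]
    congr 1
    ring
  rw [h3, two_mul, h1]

section root

variable {S : QOrder D} {N : ℕ} (T : S.Root N)

/-- the norm of the root -/
theorem nrd_i (hN : 0 < N) : S.nrd T.i = N := by
  have h1 : S.nrd T.i * S.nrd T.i = (-(N : ℚ)) * (-(N : ℚ)) := by
    rw [← nrd_mul, T.sq, ← nrd_algebraMap S.toQAlg, map_neg, map_natCast]
  have h2 : T.i ≠ 0 := by
    intro h0
    have := T.sq
    rw [h0, mul_zero] at this
    have : CharZero D := algebraRat.charZero D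
    have h3 : (N : D) = 0 := by
      rw [← neg_eq_zero]
      exact (‹(0 : D) = -(N : D)›).symm
    exact hN.ne' (by exact_mod_cast h3)
  have h3 := S.nrd_pos T.i h2
  have h4 : (0 : ℚ) < N := by exact_mod_cast hN
  nlinarith

theorem i_ne_zero (hN : 0 < N) : T.i ≠ 0 := by
  intro h0
  have h := T.sq
  rw [h0, mul_zero] at h
  have : CharZero D := algebraRat.charZero D
  have h3 : (N : D) = 0 := by
    rw [← neg_eq_zero]
    exact h.symm
  exact hN.ne' (by exact_mod_cast h3)

theorem conj_i (hN : 0 < N) : S.conj T.i = - T.i := by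
  apply mul_left_cancel₀ (i_ne_zero T hN)
  rw [S.mul_conj, nrd_i T hN, mul_neg, T.sq, neg_neg, map_natCast]

/-- the centralizer of `i` is `ℚ(i)` -/
theorem exists_of_commute (hN : 0 < N) {y : D} (h : y * T.i = T.i * y) :
    ∃ a b : ℚ, y = algebraMap ℚ D a + algebraMap ℚ D b * T.i := by
  have : CharZero D := algebraRat.charZero D
  set t := algebraMap ℚ D (S.trd y / 2) with ht
  have htc : ∀ z : D, t * z = z * t := fun z => Algebra.commutes _ z
  have h1 : S.conj (y - t) = -(y - t) := by
    rw [conj_sub, ht, conj_algebraMap, ← ht]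
    have h2 := S.add_conj y
    have h3 : t + t = algebraMap ℚ D (S.trd y) := by
      rw [ht, ← map_add]
      congr 1
      ring
    rw [← h3] at h2
    have h4 : S.conj y = t + t - y := eq_sub_of_add_eq' h2
    rw [h4]
    abel
  have h2 : S.conj ((y - t) * T.i) = (y - t) * T.i := by
    rw [S.conj_mul, conj_i T hN, h1, neg_mul_neg, mul_sub, sub_mul, h, htc]
  have h3 := rat_of_conj_eq S.toQAlg h2
  set r := S.trd ((y - t) * T.i) / 2 with hr
  refine ⟨S.trd y / 2, - r / N, ?_⟩
  have h4 : (y - t) * (T.i * T.i) = algebraMap ℚ D r * T.i := by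
    rw [← mul_assoc, h3]
  have hN' : (N : D) ≠ 0 := by exact_mod_cast hN.ne'
  have h5 : y - t = algebraMap ℚ D (- r / N) * T.i := by
    apply mul_right_cancel₀ hN'
    have h6 : (y - t) * (N : D) = - (algebraMap ℚ D r * T.i) := by
      rw [← h4, T.sq, mul_neg, neg_neg]
    rw [h6, mul_assoc, ((Nat.cast_commute N T.i).eq).symm, ← mul_assoc, ← map_natCast
      (algebraMap ℚ D) N, ← map_mul, ← neg_mul, ← map_neg]
    congr 2
    have : (N : ℚ) ≠ 0 := by exact_mod_cast hN.ne'
    field_simp
  rw [← h5]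
  abel

variable {K : Type} [Field K] [NumberField K] (Q : ImQuad N K)

/-- the embedding -/
noncomputable def ι : K →+* D where
  toFun x := algebraMap ℚ D (Q.re x) + algebraMap ℚ D (Q.im x) * T.i
  map_one' := by rw [Q.re_one, Q.im_one, map_one, map_zero, zero_mul, add_zero]
  map_zero' := by rw [Q.re_zero, Q.im_zero, map_zero, zero_mul, add_zero]
  map_add' x y := by
    rw [Q.re_add, Q.im_add, map_add, map_add, add_mul]
    abel
  map_mul' x y := by
    have hc : ∀ (q : ℚ) (z : D), algebraMap ℚ D q * z = z * algebraMap ℚ D q :=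
      fun q z => Algebra.commutes q z
    rw [Q.re_mul, Q.im_mul]
    simp only [map_sub, map_mul, map_add, map_natCast, mul_add, add_mul]
    have e1 : algebraMap ℚ D (Q.im x) * T.i * (algebraMap ℚ D (Q.im y) * T.i) =
        -((N : D) * (algebraMap ℚ D (Q.im x) * algebraMap ℚ D (Q.im y))) := by
      calc algebraMap ℚ D (Q.im x) * T.i * (algebraMap ℚ D (Q.im y) * T.i)
          = algebraMap ℚ D (Q.im x) * (T.i * algebraMap ℚ D (Q.im y)) * T.i := by
            simp only [mul_assoc]
        _ = algebraMap ℚ D (Q.im x) * algebraMap ℚ D (Q.im y) * (T.i * T.i) := by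
            rw [← hc]; simp only [mul_assoc]
        _ = _ := by rw [T.sq, mul_neg, (Nat.cast_commute N _).eq]
    have e2 : algebraMap ℚ D (Q.im x) * T.i * algebraMap ℚ D (Q.re y) =
        algebraMap ℚ D (Q.im x) * algebraMap ℚ D (Q.re y) * T.i := by
      rw [mul_assoc, ← hc, ← mul_assoc]
    rw [e1, e2, mul_assoc (algebraMap ℚ D (Q.re x))]
    abel

theorem ι_apply (x : K) : ι T Q x = algebraMap ℚ D (Q.re x) + algebraMap ℚ D (Q.im x) * T.i := rfl

@[simp] theorem ι_s : ι T Q Q.s = T.i := by
  rw [ι_apply, Q.re_s, Q.im_s, map_zero, map_one, one_mul, zero_add]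

theorem ι_algebraMap (q : ℚ) : ι T Q (algebraMap ℚ K q) = algebraMap ℚ D q := by
  rw [ι_apply, Q.re_algebraMap, Q.im_algebraMap, map_zero, zero_mul, add_zero]

theorem ι_injective : Function.Injective (ι T Q) := (ι T Q).injective

theorem ι_ne_zero {x : K} (hx : x ≠ 0) : ι T Q x ≠ 0 := fun h => hx (ι_injective T Q (by
  rw [h, map_zero]))

theorem exists_ι_of_commute {y : D} (h : y * T.i = T.i * y) : ∃ x : K, ι T Q x = y := by
  obtain ⟨a, b, hab⟩ := exists_of_commute T Q.pos h
  refine ⟨algebraMap ℚ K a + algebraMap ℚ K b * Q.s, ?_⟩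
  rw [map_add, map_mul, ι_algebraMap, ι_algebraMap, ι_s, hab]

theorem ι_commute {y : D} (h : y * T.i = T.i * y) (x : K) : y * ι T Q x = ι T Q x * y := by
  rw [ι_apply, mul_add, add_mul, ← mul_assoc, ← Algebra.commutes (Q.re x) y,
    ← Algebra.commutes (Q.im x) y, mul_assoc, h, mul_assoc]

theorem ι_anti {y : D} (h : y * T.i = - (T.i * y)) (x : K) :
    y * ι T Q x = ι T Q (Q.conj x) * y := by
  rw [ι_apply, ι_apply, mul_add, add_mul, Q.re_conj, Q.im_conj, ← mul_assoc,
    ← Algebra.commutes (Q.re x) y, ← Algebra.commutes (Q.im x) y, mul_assoc, h, map_neg,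
    mul_neg, neg_mul, neg_mul, mul_assoc]

/-- conjugation in `D` restricts to conjugation in `K` -/
theorem conj_ι (x : K) : S.conj (ι T Q x) = ι T Q (Q.conj x) := by
  rw [ι_apply, ι_apply, S.conj_add, S.conj_mul, conj_i T Q.pos, conj_algebraMap, conj_algebraMap,
    Q.re_conj, Q.im_conj, map_neg, neg_mul, neg_mul, Algebra.commutes (Q.im x) T.i]

theorem i_mem : T.i ∈ S.O := by
  have h1 : T.i • (1 : D) ∈ T.i • Subalgebra.toSubmodule S.O :=
    Submodule.smul_mem_pointwise_smul _ _ _ S.O.one_mem
  rw [T.smul, smul_eq_mul, mul_one] at h1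
  exact S.P_le N T.dvd h1

theorem isIntegral_of_mem {x : D} (hx : x ∈ S.O) : IsIntegral ℤ x := by
  have : Module.Finite ℤ S.O := Module.Finite.of_basis S.basis
  have h : IsIntegral ℤ (⟨x, hx⟩ : S.O) := IsIntegral.of_finite ℤ _
  exact h.map S.O.val

/-- `O ∩ K` is the ring of integers -/
theorem ι_mem_iff (h2 : N % 4 = 2) (x : K) : ι T Q x ∈ S.O ↔ IsIntegral ℤ x := by
  constructor
  · intro h
    have h1 := isIntegral_of_mem h
    exact (isIntegral_algHom_iff (ι T Q).toIntAlgHom (ι_injective T Q)).mp h1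
  · intro h
    have hsq : Squarefree N := S.M_sqf.squarefree_of_dvd T.dvd
    obtain ⟨⟨m, hm⟩, n, hn⟩ := (Q.isIntegral_iff h2 hsq x).mp h
    rw [ι_apply, hm, hn, map_intCast, map_intCast]
    exact S.O.add_mem (intCast_mem S.O m) (S.O.mul_mem (intCast_mem S.O n) (i_mem T))

end root

end EmbD

end Fermat.Agent.P2.Quat
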