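/-
P2, block 3: locally principal right lattices.
-/
import Fermat.Agent.P2.Quat.Loc

open scoped Pointwise

namespace Fermat.Agent.P2.Quat

section ring

variable {D : Type*} [DivisionRing D] {p : ℕ} {I J K : Submodule ℤ D}

theorem mem_smul {d x : D} : x ∈ d • I ↔ ∃ y ∈ I, d * y = x :=
  Submodule.mem_smul_pointwise_iff_exists _ _ _

theorem mul_mem_smul {d x : D} (hd : d ≠ 0) : d * x ∈ d • I ↔ x ∈ I := by
  rw [mem_smul]
  refine ⟨?_, fun h => ⟨x, h, rfl⟩⟩
  rintro ⟨y, hy, h⟩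
  rwa [← mul_left_cancel₀ hd h]

theorem mem_smul_iff {d x : D} (hd : d ≠ 0) : x ∈ d • I ↔ d⁻¹ * x ∈ I := by
  rw [← mul_mem_smul (I := I) hd, mul_inv_cancel_left₀ hd]

theorem smul_le_smul {d : D} (h : I ≤ J) : d • I ≤ d • J := by
  intro x hx
  obtain ⟨y, hy, rfl⟩ := mem_smul.mp hx
  exact mem_smul.mpr ⟨y, h hy, rfl⟩

theorem inv_smul_smul' {d : D} (hd : d ≠ 0) : d⁻¹ • (d • I) = I := by
  rw [smul_smul, inv_mul_cancel₀ hd, one_smul]

theorem smul_inv_smul' {d : D} (hd : d ≠ 0) : d • (d⁻¹ • I) = I := by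
  rw [smul_smul, mul_inv_cancel₀ hd, one_smul]

theorem smul_le_smul_iff {d : D} (hd : d ≠ 0) : d • I ≤ d • J ↔ I ≤ J := by
  refine ⟨fun h => ?_, smul_le_smul⟩
  have := smul_le_smul (d := d⁻¹) h
  rwa [inv_smul_smul' hd, inv_smul_smul' hd] at this

theorem smul_inj {d : D} (hd : d ≠ 0) : d • I = d • J ↔ I = J := by
  refine ⟨fun h => ?_, fun h => h ▸ rfl⟩
  have := congrArg (fun K : Submodule ℤ D => d⁻¹ • K) h
  simp only [inv_smul_smul' hd] at this
  exact this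

theorem smul_mul_assoc' (d : D) : (d • I) * J = d • (I * J) := smul_mul_assoc d I J

theorem LLE.smul (h : LLE p I J) (d : D) : LLE p (d • I) (d • J) := by
  obtain ⟨n, hn, h⟩ := h
  refine ⟨n, hn, fun x hx => ?_⟩
  obtain ⟨y, hy, rfl⟩ := mem_smul.mp hx
  exact mem_smul.mpr ⟨n • y, h y hy, mul_smul_comm _ _ _⟩

theorem LEq.smul (h : LEq p I J) (d : D) : LEq p (d • I) (d • J) := ⟨h.1.smul d, h.2.smul d⟩

theorem LLE.mul {I' J' : Submodule ℤ D} (h : LLE p I J) (h' : LLE p I' J') :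
    LLE p (I * I') (J * J') := by
  obtain ⟨n, hn, h⟩ := h
  obtain ⟨m, hm, h'⟩ := h'
  refine ⟨n * m, Nat.Coprime.mul_left hn hm, fun x hx => ?_⟩
  refine Submodule.mul_induction_on hx (fun a ha b hb => ?_) fun a b ha hb => ?_
  · have : (n * m) • (a * b) = (n • a) * (m • b) := by
      rw [mul_smul, smul_mul_assoc, mul_smul_comm]
    rw [this]
    exact Submodule.mul_mem_mul (h a ha) (h' b hb)
  · rw [smul_add]
    exact Submodule.add_mem _ ha hb

theorem LEq.mul {I' J' : Submodule ℤ D} (h : LEq p I J) (h' : LEq p I' J') :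
    LEq p (I * I') (J * J') := ⟨h.1.mul h'.1, h.2.mul h'.2⟩

theorem natCast_smul_le (n : ℕ) : (n : D) • I ≤ I := by
  intro x hx
  obtain ⟨y, hy, rfl⟩ := mem_smul.mp hx
  rw [← nsmul_eq_mul]
  exact I.smul_of_tower_mem n hy

theorem nsmul_mem_smul (n : ℕ) {x : D} (hx : x ∈ I) : n • x ∈ (n : D) • I :=
  mem_smul.mpr ⟨x, hx, (nsmul_eq_mul _ _).symm⟩

theorem LEq.natCast {n : ℕ} (hn : n.Coprime p) : LEq p ((n : D) • I) I :=
  ⟨LLE.of_le (natCast_smul_le n), n, hn, fun _ hx => nsmul_mem_smul n hx⟩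

theorem natCast_smul_le_iff {n : ℕ} : (n : D) • I ≤ J ↔ ∀ x ∈ I, n • x ∈ J := by
  refine ⟨fun h x hx => h (nsmul_mem_smul n hx), fun h x hx => ?_⟩
  obtain ⟨y, hy, rfl⟩ := mem_smul.mp hx
  rw [← nsmul_eq_mul]
  exact h y hy

theorem natCast_smul_comm (n : ℕ) (d : D) : (n : D) • (d • I) = d • ((n : D) • I) := by
  rw [smul_smul, smul_smul, (Nat.cast_commute n d).eq]

theorem mul_natCast_smul (n : ℕ) : I * ((n : D) • J) = (n : D) • (I * J) := by
  refine le_antisymm ?_ ?_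
  · rw [Submodule.mul_le]
    intro a ha b hb
    obtain ⟨c, hc, rfl⟩ := mem_smul.mp hb
    rw [← mul_assoc, ← (Nat.cast_commute n a).eq, mul_assoc]
    exact mem_smul.mpr ⟨_, Submodule.mul_mem_mul ha hc, rfl⟩
  · intro x hx
    obtain ⟨y, hy, rfl⟩ := mem_smul.mp hx
    refine Submodule.mul_induction_on hy (fun a ha b hb => ?_) fun a b ha hb => ?_
    · rw [← mul_assoc, (Nat.cast_commute n a).eq, mul_assoc]
      exact Submodule.mul_mem_mul ha (mem_smul.mpr ⟨b, hb, rfl⟩)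
    · rw [mul_add]
      exact Submodule.add_mem _ ha hb

theorem idx_smul {d : D} (hd : d ≠ 0) : idx (d • I) (d • J) = idx I J := by
  have h := AddSubgroup.relIndex_pointwise_smul (Units.mk0 d hd) I.toAddSubgroup J.toAddSubgroup
  exact h

theorem not_dvd_idx {n : ℕ} (hp : p.Prime) (hn : n.Coprime p) (h : ∀ x ∈ J, n • x ∈ I)
    (h0 : idx I J ≠ 0) : ¬ p ∣ idx I J := by
  intro hdvd
  let Q := I.toAddSubgroup.addSubgroupOf J.toAddSubgroup
  have hfin : Finite (J.toAddSubgroup ⧸ Q) := AddSubgroup.index_ne_zero_iff_finite.mp h0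
  have := Fact.mk hp
  obtain ⟨x, hx⟩ := exists_prime_addOrderOf_dvd_card' (G := J.toAddSubgroup ⧸ Q) p hdvd
  obtain ⟨y, rfl⟩ := QuotientAddGroup.mk'_surjective Q x
  have h1 : n • (QuotientAddGroup.mk' Q y) = 0 := by
    rw [← map_nsmul, QuotientAddGroup.mk'_apply, QuotientAddGroup.eq_zero_iff]
    exact h y.1 y.2
  have h2 : p ∣ n := hx ▸ addOrderOf_dvd_of_nsmul_eq_zero h1
  exact hp.one_lt.ne' (Nat.Coprime.eq_one_of_dvd hn.symm h2)

end ring

/-! ### The norm -/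

section alg

variable {D : Type} [DivisionRing D] [Algebra ℚ D] (A : QAlg D)

omit A in
theorem algebraMap_inj {a b : ℚ} (h : algebraMap ℚ D a = algebraMap ℚ D b) : a = b :=
  (algebraMap ℚ D).injective h

theorem QAlg.conj_eq (x : D) : A.conj x = algebraMap ℚ D (A.trd x) - x := by
  rw [← A.add_conj, add_sub_cancel_left]

theorem QAlg.conj_mul_self (x : D) : A.conj x * x = algebraMap ℚ D (A.nrd x) := by
  rw [← A.mul_conj, A.conj_eq, sub_mul, mul_sub, Algebra.commutes]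

theorem QAlg.nrd_mul (x y : D) : A.nrd (x * y) = A.nrd x * A.nrd y := by
  refine algebraMap_inj (D := D) ?_
  rw [← A.mul_conj, A.conj_mul, mul_assoc, ← mul_assoc y, A.mul_conj y, Algebra.commutes,
    ← mul_assoc, A.mul_conj, map_mul]

theorem QAlg.nrd_zero : A.nrd 0 = 0 := by
  refine algebraMap_inj (D := D) ?_
  rw [← A.mul_conj, zero_mul, map_zero]

theorem QAlg.nrd_eq_zero {x : D} : A.nrd x = 0 ↔ x = 0 := by
  refine ⟨fun h => ?_, fun h => h ▸ A.nrd_zero⟩
  by_contra hx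
  exact (A.nrd_pos x hx).ne' h

theorem QAlg.nrd_ne_zero {x : D} (hx : x ≠ 0) : A.nrd x ≠ 0 := fun h => hx (A.nrd_eq_zero.mp h)

theorem QAlg.nrd_one : A.nrd 1 = 1 := by
  have h := A.nrd_mul 1 1
  rw [one_mul] at h
  have h0 := A.nrd_ne_zero (one_ne_zero (α := D))
  exact (mul_eq_left₀ h0).mp h.symm

theorem QAlg.nrd_inv (x : D) : A.nrd x⁻¹ = (A.nrd x)⁻¹ := by
  by_cases hx : x = 0
  · rw [hx, inv_zero, A.nrd_zero, inv_zero]
  · refine eq_inv_of_mul_eq_one_left ?_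
    rw [← A.nrd_mul, inv_mul_cancel₀ hx, A.nrd_one]

theorem QAlg.trd_add (x y : D) : A.trd (x + y) = A.trd x + A.trd y := by
  refine algebraMap_inj (D := D) ?_
  rw [map_add, ← A.add_conj, ← A.add_conj, ← A.add_conj, A.conj_add]
  abel

theorem QAlg.conj_zero : A.conj 0 = 0 := by
  have h := A.conj_add 0 0
  rw [add_zero] at h
  exact (add_eq_left.mp h.symm)

theorem QAlg.conj_neg (x : D) : A.conj (-x) = -A.conj x := by
  have h := A.conj_add x (-x)
  rw [add_neg_cancel, A.conj_zero] at h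
  exact (neg_eq_of_add_eq_zero_right h.symm).symm

theorem QAlg.conj_one : A.conj 1 = 1 := by
  have h := A.mul_conj 1
  rw [one_mul, A.nrd_one, map_one] at h
  exact h

theorem QAlg.trd_one : A.trd 1 = 2 := by
  refine algebraMap_inj (D := D) ?_
  rw [← A.add_conj, A.conj_one, one_add_one_eq_two, map_ofNat]

theorem QAlg.conj_natCast (n : ℕ) : A.conj n = n := by
  induction n with
  | zero => rw [Nat.cast_zero, A.conj_zero]
  | succ n ih => rw [Nat.cast_succ, A.conj_add, ih, A.conj_one]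

theorem QAlg.conj_intCast (n : ℤ) : A.conj n = n := by
  obtain ⟨m, rfl | rfl⟩ := n.eq_nat_or_neg
  · rw [Int.cast_natCast, A.conj_natCast]
  · rw [Int.cast_neg, Int.cast_natCast, A.conj_neg, A.conj_natCast]

theorem QAlg.nrd_natCast (n : ℕ) : A.nrd n = (n : ℚ) ^ 2 := by
  refine algebraMap_inj (D := D) ?_
  rw [← A.mul_conj, A.conj_natCast, map_pow, map_natCast, sq]

theorem QAlg.nrd_intCast (n : ℤ) : A.nrd n = (n : ℚ) ^ 2 := by
  refine algebraMap_inj (D := D) ?_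
  rw [← A.mul_conj, A.conj_intCast, map_pow, map_intCast, sq]

theorem QAlg.trd_intCast (n : ℤ) : A.trd n = 2 * (n : ℚ) := by
  refine algebraMap_inj (D := D) ?_
  rw [← A.add_conj, A.conj_intCast, map_mul, map_intCast, map_ofNat, two_mul]

theorem QAlg.conj_algebraMap (a : ℚ) : A.conj (algebraMap ℚ D a) = algebraMap ℚ D a := by
  have hd : (algebraMap ℚ D a) * (a.den : D) = (a.num : D) := by
    rw [← map_natCast (algebraMap ℚ D), ← map_mul, Rat.mul_den_eq_num, map_intCast]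
  have h0 : (a.den : D) ≠ 0 := by
    rw [← map_natCast (algebraMap ℚ D)]
    exact fun h => (Nat.cast_ne_zero (R := ℚ).mpr a.den_ne_zero)
      ((algebraMap ℚ D).injective (h.trans (map_zero _).symm))
  refine mul_left_cancel₀ h0 ?_
  have h1 := congrArg A.conj hd
  rw [A.conj_mul, A.conj_natCast, A.conj_intCast] at h1
  rw [h1, ← hd, (Nat.cast_commute a.den _).eq]

theorem QAlg.nrd_algebraMap (a : ℚ) : A.nrd (algebraMap ℚ D a) = a ^ 2 := by
  refine algebraMap_inj (D := D) ?_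
  rw [← A.mul_conj, A.conj_algebraMap, map_pow, sq]

theorem QAlg.nrd_neg (x : D) : A.nrd (-x) = A.nrd x := by
  refine algebraMap_inj (D := D) ?_
  rw [← A.mul_conj, ← A.mul_conj, A.conj_neg, neg_mul_neg]

theorem QAlg.nrd_conj (x : D) : A.nrd (A.conj x) = A.nrd x := by
  refine algebraMap_inj (D := D) ?_
  rw [← A.mul_conj, A.conj_conj, A.conj_mul_self]

/-- The quadratic equation. -/
theorem QAlg.mul_self (x : D) :
    x * x = algebraMap ℚ D (A.trd x) * x - algebraMap ℚ D (A.nrd x) := by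
  rw [← A.conj_mul_self, ← sub_mul, A.conj_eq, sub_sub_cancel]

theorem QAlg.inv_eq {x : D} (hx : x ≠ 0) : x⁻¹ = algebraMap ℚ D (A.nrd x)⁻¹ * A.conj x := by
  refine inv_eq_of_mul_eq_one_left ?_
  rw [mul_assoc, A.conj_mul_self, ← map_mul, inv_mul_cancel₀ (A.nrd_ne_zero hx), map_one]

end alg

end Fermat.Agent.P2.Quat
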