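/-
P2, block 3: the basic theory of locally principal right lattices.
-/
import Fermat.Agent.P2.Quat.Lat

open scoped Pointwise

namespace Fermat.Agent.P2.Quat

variable {D : Type} [DivisionRing D] [Algebra ℚ D] (S : QOrder D)
  {I J K : Submodule ℤ D} {p m : ℕ}

theorem natCast_ne_zero' {n : ℕ} (hn : n ≠ 0) : (n : D) ≠ 0 := by
  rw [← map_natCast (algebraMap ℚ D)]
  exact fun h => (Nat.cast_ne_zero (R := ℚ).mpr hn)
    ((algebraMap ℚ D).injective (h.trans (map_zero _).symm))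

namespace QOrder

theorem mem_OO {x : D} : x ∈ S.OO ↔ x ∈ S.O := Iff.rfl

theorem one_mem_OO : (1 : D) ∈ S.OO := S.O.one_mem

theorem OO_mul_OO : S.OO * S.OO = S.OO := by
  refine le_antisymm ?_ fun x hx => ?_
  · rw [Submodule.mul_le]
    exact fun a ha b hb => S.O.mul_mem ha hb
  · rw [← mul_one x]
    exact Submodule.mul_mem_mul hx S.one_mem_OO

theorem M_ne_zero : S.M ≠ 0 := S.M_sqf.ne_zero

theorem smul_OO_le {x : D} (hx : x ∈ S.OO) : x • S.OO ≤ S.OO := by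
  intro y hy
  obtain ⟨z, hz, rfl⟩ := mem_smul.mp hy
  exact S.O.mul_mem hx hz

/-- commensurability of principal lattices -/
theorem idx_smul_OO_ne_zero {x y : D} (hx : x ≠ 0) (hy : y ≠ 0) :
    idx (x • S.OO) (y • S.OO) ≠ 0 := by
  obtain ⟨n, hn, h⟩ := S.full (y⁻¹ * x)
  have h0 : n • (y⁻¹ * x) ≠ 0 := by
    rw [nsmul_eq_mul]
    exact mul_ne_zero (natCast_ne_zero' hn) (mul_ne_zero (inv_ne_zero hy) hx)
  have h1 := S.index _ h0 h
  have h2 : idx ((n • (y⁻¹ * x)) • S.OO) S.OO ≠ 0 := by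
    intro h3
    have h4 : ((idx ((n • (y⁻¹ * x)) • S.OO) S.OO : ℕ) : ℚ) = S.nrd (n • (y⁻¹ * x)) ^ 2 := h1
    rw [h3, Nat.cast_zero] at h4
    exact (pow_ne_zero 2 (S.nrd_ne_zero h0)) h4.symm
  rw [← idx_smul hy, smul_smul] at h2
  refine idx_ne_zero_of_le_left ?_ h2
  have e : y * (n • (y⁻¹ * x)) = (n : D) * x := by
    rw [nsmul_eq_mul, ← mul_assoc, ← (Nat.cast_commute n y).eq, mul_assoc, mul_inv_cancel_left₀ hy]
  rw [e, ← smul_smul]
  exact natCast_smul_le n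

variable {S}

theorem isLat_OO : S.IsLat S.OO := fun _ _ => ⟨1, one_ne_zero, LEq.of_eq (one_smul _ _).symm⟩

theorem IsLat.smul (h : S.IsLat I) {d : D} (hd : d ≠ 0) : S.IsLat (d • I) := by
  intro p hp
  obtain ⟨x, hx, h1⟩ := h p hp
  exact ⟨d * x, mul_ne_zero hd hx, (h1.smul d).trans (LEq.of_eq (smul_smul _ _ _))⟩

theorem isLat_smul_iff {d : D} (hd : d ≠ 0) : S.IsLat (d • I) ↔ S.IsLat I :=
  ⟨fun h => by
    have := h.smul (inv_ne_zero hd)
    rwa [inv_smul_smul' hd] at this, fun h => h.smul hd⟩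

theorem IsLat.of_LEq (h : ∀ p : ℕ, p.Prime → ∃ J, S.IsLat J ∧ LEq p I J) : S.IsLat I := by
  intro p hp
  obtain ⟨J, hJ, h1⟩ := h p hp
  obtain ⟨x, hx, h2⟩ := hJ p hp
  exact ⟨x, hx, h1.trans h2⟩

theorem IsLat.mul_OO (h : S.IsLat I) : I * S.OO = I := by
  refine eq_of_forall_LEq fun p hp => ?_
  obtain ⟨x, hx, h1⟩ := h p hp
  refine (h1.mul LEq.refl).trans (LEq.trans (LEq.of_eq ?_) h1.symm)
  rw [smul_mul_assoc', S.OO_mul_OO]

theorem IsLat.mul_mem (h : S.IsLat I) {x y : D} (hx : x ∈ I) (hy : y ∈ S.O) : x * y ∈ I := by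
  rw [← h.mul_OO]
  exact Submodule.mul_mem_mul hx hy

theorem isLat_P (hm : m ∣ S.M) : S.IsLat (S.P m) := fun p hp => S.P_loc m hm p hp

theorem IsLat.mul_P (h : S.IsLat I) (hm : m ∣ S.M) : S.IsLat (I * S.P m) := by
  intro p hp
  obtain ⟨x, hx, h1⟩ := h p hp
  obtain ⟨g, hg, h2⟩ := S.P_loc m hm p hp
  refine ⟨x * g, mul_ne_zero hx hg, (h1.mul LEq.refl).trans ?_⟩
  rw [smul_mul_assoc', ← smul_smul]
  have e : S.OO * S.P m = S.P m := S.O_P m hm
  rw [e]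
  exact h2.smul x

theorem IsLat.idx_ne_zero (hI : S.IsLat I) (hJ : S.IsLat J) : idx I J ≠ 0 := by
  obtain ⟨x, hx, h1⟩ := hI 2 Nat.prime_two
  obtain ⟨y, hy, h2⟩ := hJ 2 Nat.prime_two
  obtain ⟨n, hn, h1, -⟩ := h1.symm.exists_common
  obtain ⟨k, hk, h2, -⟩ := h2.exists_common
  have hn0 : n ≠ 0 := by rintro rfl; rw [Nat.coprime_zero_left] at hn; omega
  have hk0 : k ≠ 0 := by rintro rfl; rw [Nat.coprime_zero_left] at hk; omega
  have e1 : (((n : D) * x) • S.OO) ≤ I := by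
    rw [← smul_smul, natCast_smul_le_iff]; exact h1
  have e2 : J ≤ (((k : D)⁻¹ * y) • S.OO) := by
    have : (k : D) • J ≤ y • S.OO := natCast_smul_le_iff.mpr h2
    rw [← smul_smul, ← inv_smul_smul' (I := J) (natCast_ne_zero' hk0)]
    exact smul_le_smul this
  have h3 := S.idx_smul_OO_ne_zero (mul_ne_zero (natCast_ne_zero' hn0) hx)
    (mul_ne_zero (inv_ne_zero (natCast_ne_zero' hk0)) hy)
  exact idx_ne_zero_of_le_left e1 (idx_ne_zero_of_le_right e2 h3)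

theorem IsLat.idx_pos (hI : S.IsLat I) (hJ : S.IsLat J) : 0 < idx I J :=
  Nat.pos_of_ne_zero (hI.idx_ne_zero hJ)

/-- Lattices are comparable up to integers. -/
theorem IsLat.exists_smul_le (hI : S.IsLat I) (hJ : S.IsLat J) :
    ∃ n : ℕ, n ≠ 0 ∧ (n : D) • I ≤ J := by
  exact ⟨idx J I, hJ.idx_ne_zero hI, natCast_smul_le_iff.mpr fun x hx => idx_smul_mem hx⟩

theorem IsLat.exists_ne_zero (hI : S.IsLat I) : ∃ x ∈ I, x ≠ 0 := by
  obtain ⟨n, hn, h⟩ := isLat_OO.exists_smul_le hI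
  refine ⟨n • 1, natCast_smul_le_iff.mp h 1 S.one_mem_OO, ?_⟩
  rw [nsmul_eq_mul, mul_one]
  exact natCast_ne_zero' hn

theorem idx_smul_OO {x y : D} (hx : x ≠ 0) (hy : y ≠ 0) (h : x • S.OO ≤ y • S.OO) :
    (idx (x • S.OO) (y • S.OO) : ℚ) = S.nrd (y⁻¹ * x) ^ 2 := by
  have h1 : y⁻¹ * x ∈ S.O := by
    have : x ∈ y • S.OO := h (mem_smul.mpr ⟨1, S.one_mem_OO, mul_one x⟩)
    exact (mem_smul_iff hy).mp this
  have h2 := S.index _ (mul_ne_zero (inv_ne_zero hy) hx) h1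
  change (idx ((y⁻¹ * x) • S.OO) S.OO : ℚ) = _ at h2
  rw [← idx_smul hy, smul_smul, mul_inv_cancel_left₀ hy] at h2
  exact h2

/-- The index away from `p` does not see prime-to-`p` multiples. -/
theorem IsLat.not_dvd_idx (hI : S.IsLat I) (hJ : S.IsLat J) (hp : p.Prime) (h : LLE p J I) :
    ¬ p ∣ idx I J := by
  obtain ⟨n, hn, h⟩ := h
  exact Quat.not_dvd_idx hp hn h (hI.idx_ne_zero hJ)

/-- The local formula for the index. -/
theorem IsLat.padicVal_idx (hI : S.IsLat I) (hJ : S.IsLat J) (hJI : J ≤ I) (hp : p.Prime)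
    {x y : D} (hx : x ≠ 0) (hy : y ≠ 0) (hIx : LEq p I (x • S.OO)) (hJy : LEq p J (y • S.OO)) :
    (padicValNat p (idx J I) : ℤ) = 2 * padicValRat p (S.nrd (x⁻¹ * y)) := by
  have := Fact.mk hp
  obtain ⟨n, hn, h1, h2⟩ := hIx.exists_common
  obtain ⟨k, hk, h3, h4⟩ := hJy.exists_common
  have hn0 : n ≠ 0 := by
    rintro rfl; rw [Nat.coprime_zero_left] at hn; exact hp.one_lt.ne' hn
  have hk0 : k ≠ 0 := by
    rintro rfl; rw [Nat.coprime_zero_left] at hk; exact hp.one_lt.ne' hk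
  -- chain `(n k y) O ≤ n J ≤ n I ≤ x O`
  have c1 : ((n : D) * ((k : D) * y)) • S.OO ≤ (n : D) • J := by
    rw [← smul_smul]
    refine smul_le_smul ?_
    rw [← smul_smul, natCast_smul_le_iff]
    exact h4
  have c2 : (n : D) • J ≤ (n : D) • I := smul_le_smul hJI
  have c3 : (n : D) • I ≤ x • S.OO := natCast_smul_le_iff.mpr h1
  have hnD := natCast_ne_zero' (D := D) hn0
  have hkD := natCast_ne_zero' (D := D) hk0
  have hLy : S.IsLat (((n : D) * ((k : D) * y)) • S.OO) :=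
    isLat_OO.smul (mul_ne_zero hnD (mul_ne_zero hkD hy))
  have hLx : S.IsLat (x • S.OO) := isLat_OO.smul hx
  have i1 := idx_mul c1 c2
  have i2 := idx_mul (c1.trans c2) c3
  rw [idx_smul hnD] at i1
  rw [← i1] at i2
  have hd1 : ¬ p ∣ idx (((n : D) * ((k : D) * y)) • S.OO) ((n : D) • J) := by
    refine hLy.not_dvd_idx (hJ.smul hnD) hp ?_
    rw [← smul_smul]
    refine LLE.smul ?_ _
    rw [← smul_smul]
    exact hJy.1.trans (LEq.natCast hk).2
  have hd2 : ¬ p ∣ idx ((n : D) • I) (x • S.OO) :=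
    (hI.smul hnD).not_dvd_idx hLx hp (hIx.2.trans (LEq.natCast hn).2)
  have h5 := idx_smul_OO (mul_ne_zero hnD (mul_ne_zero hkD hy)) hx (c1.trans (c2.trans c3))
  have h6 := congrArg (padicValRat p) h5
  have hxy : x⁻¹ * y ≠ 0 := mul_ne_zero (inv_ne_zero hx) hy
  have e1 : x⁻¹ * ((n : D) * ((k : D) * y)) = ((n * k : ℕ) : D) * (x⁻¹ * y) := by
    push_cast
    rw [← mul_assoc, ← (Nat.cast_commute n x⁻¹).eq, mul_assoc, mul_assoc, ← mul_assoc x⁻¹,
      ← (Nat.cast_commute k x⁻¹).eq, mul_assoc]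
  have hnk : ¬ p ∣ n * k := by
    intro h
    rcases hp.dvd_mul.mp h with h | h
    · exact hp.one_lt.ne' (Nat.Coprime.eq_one_of_dvd hn.symm h)
    · exact hp.one_lt.ne' (Nat.Coprime.eq_one_of_dvd hk.symm h)
  have hnk0 : n * k ≠ 0 := mul_ne_zero hn0 hk0
  rw [padicValRat.of_nat, e1, S.nrd_mul, S.nrd_natCast, padicValRat.pow,
    padicValRat.mul (pow_ne_zero _ (Nat.cast_ne_zero.mpr hnk0)) (S.nrd_ne_zero hxy),
    padicValRat.pow, padicValRat.of_nat,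
    padicValNat.eq_zero_of_not_dvd hnk, Nat.cast_zero, mul_zero, zero_add] at h6
  have hJI0 := hJ.idx_ne_zero hI
  have h7 : idx (((n : D) * ((k : D) * y)) • S.OO) ((n : D) • J) ≠ 0 :=
    hLy.idx_ne_zero (hJ.smul hnD)
  have h8 : idx ((n : D) • I) (x • S.OO) ≠ 0 := (hI.smul hnD).idx_ne_zero hLx
  rw [← i2, padicValNat.mul (mul_ne_zero h7 hJI0) h8, padicValNat.mul h7 hJI0,
    padicValNat.eq_zero_of_not_dvd hd1, padicValNat.eq_zero_of_not_dvd hd2, zero_add,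
    add_zero] at h6
  exact_mod_cast h6

/-! ### The Atkin-Lehner operators -/

theorem IsLat.mul_P_le (h : S.IsLat I) (hm : m ∣ S.M) : I * S.P m ≤ I := by
  conv_rhs => rw [← h.mul_OO]
  exact mul_le_mul_right (S.P_le m hm) I

theorem IsLat.mul_P_mul_P (h : S.IsLat I) (hm : m ∣ S.M) :
    (I * S.P m) * S.P m = (m : D) • I := by
  rw [mul_assoc, S.P_sq m hm, mul_natCast_smul]
  congr 1
  exact h.mul_OO

theorem mul_P_mul_P' {m' : ℕ} (h : m * m' ∣ S.M) :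
    (I * S.P m) * S.P m' = I * S.P (m * m') := by
  rw [mul_assoc, S.P_mul m m' h (Nat.coprime_of_squarefree_mul (S.M_sqf.squarefree_of_dvd h))]

theorem mul_P_comm {m' : ℕ} (h : m * m' ∣ S.M) :
    (I * S.P m) * S.P m' = (I * S.P m') * S.P m := by
  rw [mul_P_mul_P' h, mul_P_mul_P' (by rwa [mul_comm]), mul_comm m]

theorem IsLat.mul_P_one (h : S.IsLat I) : I * S.P 1 = I := by
  rw [S.P_one]; exact h.mul_OO

/-- away from `m`, `I P_m` is `I` -/
theorem IsLat.mul_P_LEq (h : S.IsLat I) (hm : m ∣ S.M) (hpm : m.Coprime p) :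
    LEq p (I * S.P m) I := by
  refine ⟨LLE.of_le (h.mul_P_le hm), m, hpm, fun x hx => ?_⟩
  have h1 : m • x ∈ (m : D) • I := nsmul_mem_smul m hx
  rw [← h.mul_P_mul_P hm] at h1
  exact (h.mul_P hm).mul_P_le hm h1

/-- `[I : I P_m] = m²`. -/
theorem IsLat.idx_mul_P (h : S.IsLat I) (hm : m ∣ S.M) : idx (I * S.P m) I = m ^ 2 := by
  refine (Nat.eq_iff_prime_padicValNat_eq _ _ ((h.mul_P hm).idx_ne_zero h)
    (pow_ne_zero 2 (ne_zero_of_dvd_ne_zero S.M_ne_zero hm))).mpr fun p hp => ?_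
  obtain ⟨x, hx, h1⟩ := h p hp
  obtain ⟨g, hg, h2⟩ := S.P_loc m hm p hp
  have h3 : LEq p (I * S.P m) ((x * g) • S.OO) := by
    refine (h1.mul LEq.refl).trans ?_
    rw [smul_mul_assoc', ← smul_smul]
    have e : S.OO * S.P m = S.P m := S.O_P m hm
    rw [e]
    exact h2.smul x
  have h4 := h.padicVal_idx (h.mul_P hm) (h.mul_P_le hm) hp hx (mul_ne_zero hx hg) h1 h3
  have h5 := isLat_OO.padicVal_idx (isLat_P hm) (S.P_le m hm) hp one_ne_zero hg
    (LEq.of_eq (one_smul _ _).symm) h2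
  have h6 : idx (S.P m) S.OO = m ^ 2 := S.P_index m hm
  rw [inv_mul_cancel_left₀ hx] at h4
  rw [inv_one, one_mul, ← h4, h6] at h5
  exact_mod_cast h5.symm

end QOrder

end Fermat.Agent.P2.Quat
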