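/-
P2, block 3: ideals of the imaginary quadratic field `K = ℚ(√-N)` as lattices in the quaternion
algebra.
-/
import Fermat.Agent.P2.Quat.EmbD
import Fermat.Agent.P2.Quat.IsLat

set_option autoImplicit false

open scoped Pointwise nonZeroDivisors NumberField
open FractionalIdeal

namespace Fermat.Agent.P2.Quat

namespace EmbI

/-! ### Ideals of `𝓞 K` -/

section ideals

variable {K : Type} [Field K] [NumberField K]

theorem span_natCast_prime_ne_top {p : ℕ} (hp : p.Prime) :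
    Ideal.span {(p : 𝓞 K)} ≠ ⊤ := by
  intro h
  have h1 : Ideal.absNorm (Ideal.span {(p : 𝓞 K)}) = 1 := by rw [h, Ideal.absNorm_top]
  rw [Ideal.absNorm_span_singleton, ← map_natCast (algebraMap ℤ (𝓞 K)) p,
    Algebra.norm_algebraMap] at h1
  rw [Int.natAbs_pow, Int.natAbs_natCast] at h1
  have h2 : 0 < Module.finrank ℤ (𝓞 K) := Module.finrank_pos
  exact (Nat.one_lt_pow h2.ne' hp.one_lt).ne' h1

/-- Local principality of ideals. -/
theorem exists_local (I : Ideal (𝓞 K)) (hI : I ≠ ⊥) {p : ℕ} (hp : p.Prime) :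
    ∃ a ∈ I, a ≠ 0 ∧ ∃ n : ℕ, n.Coprime p ∧ ∀ x ∈ I, ∃ y : 𝓞 K, (n : 𝓞 K) * x = a * y := by
  have hp0 : Ideal.span {(p : 𝓞 K)} ≠ ⊥ := by
    rw [Ne, Ideal.span_singleton_eq_bot]
    exact_mod_cast hp.ne_zero
  obtain ⟨a, ha⟩ := IsDedekindDomain.exists_sup_span_eq
    (I := Ideal.span {(p : 𝓞 K)} * I) (J := I) Ideal.mul_le_right (mul_ne_zero hp0 hI)
  have haI : a ∈ I := by
    rw [← ha]
    exact Ideal.mem_sup_right (Ideal.mem_span_singleton_self a)
  obtain ⟨C, hC⟩ := Ideal.dvd_iff_le.mpr ((Ideal.span_singleton_le_iff_mem I).mpr haI)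
  have hC1 : Ideal.span {(p : 𝓞 K)} ⊔ C = ⊤ := by
    rw [hC, mul_comm (Ideal.span _) I, ← Ideal.add_eq_sup, ← mul_add] at ha
    have h2 : I * (Ideal.span {(p : 𝓞 K)} + C) = I * 1 := by rw [ha, mul_one]
    have h3 := mul_left_cancel₀ (show I ≠ 0 from hI) h2
    rw [Ideal.add_eq_sup, Ideal.one_eq_top] at h3
    exact h3
  have hC0 : C ≠ ⊥ := by
    rintro rfl
    rw [sup_bot_eq] at hC1
    exact span_natCast_prime_ne_top hp hC1
  have ha0 : a ≠ 0 := by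
    rintro rfl
    rw [Ideal.span_singleton_zero] at hC
    rcases mul_eq_zero.mp hC.symm with h | h
    · exact hI h
    · exact hC0 h
  refine ⟨a, haI, ha0, ?_⟩
  have hm0 : Ideal.absNorm C ≠ 0 := by
    rw [Ne, Ideal.absNorm_eq_zero_iff]; exact hC0
  obtain ⟨k, n, hn, hkn⟩ := Nat.exists_eq_pow_mul_and_not_dvd hm0 p hp.ne_one
  refine ⟨n, ((Nat.Prime.coprime_iff_not_dvd hp).mpr hn).symm, ?_⟩
  have hnC : (n : 𝓞 K) ∈ C := by
    have h4 : Ideal.span {(p : 𝓞 K)} ^ k ⊔ C = ⊤ := Ideal.pow_sup_eq_top hC1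
    have h5 : (1 : 𝓞 K) ∈ Ideal.span {(p : 𝓞 K)} ^ k ⊔ C := by rw [h4]; trivial
    rw [Ideal.span_singleton_pow] at h5
    obtain ⟨u, hu, c, hc, huc⟩ := Submodule.mem_sup.mp h5
    obtain ⟨y, rfl⟩ := Ideal.mem_span_singleton'.mp hu
    have h6 : (n : 𝓞 K) = y * ((Ideal.absNorm C : ℕ) : 𝓞 K) + n * c := by
      rw [hkn]
      push_cast
      calc (n : 𝓞 K) = n * (y * (p : 𝓞 K) ^ k + c) := by rw [huc, mul_one]
        _ = _ := by ring
    rw [h6]
    exact C.add_mem (C.mul_mem_left _ (Ideal.absNorm_mem C)) (C.mul_mem_left _ hc)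
  intro x hx
  have h7 : (n : 𝓞 K) * x ∈ Ideal.span {a} := by
    rw [hC, mul_comm I C]
    exact Ideal.mul_mem_mul hnC hx
  obtain ⟨y, hy⟩ := Ideal.mem_span_singleton'.mp h7
  exact ⟨y, by rw [← hy, mul_comm]⟩

/-- equality in the class group -/
theorem mk_eq_mk_iff (I J : (FractionalIdeal (𝓞 K)⁰ K)ˣ) :
    ClassGroup.mk K I = ClassGroup.mk K J ↔ ∃ x : K, x ≠ 0 ∧
      (J : FractionalIdeal (𝓞 K)⁰ K) = spanSingleton (𝓞 K)⁰ x * I := by
  have e1 : ClassGroup.mk K I = ClassGroup.mk K J ↔ ClassGroup.mk K (J * I⁻¹) = 1 := by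
    rw [map_mul, map_inv, mul_inv_eq_one, eq_comm]
  rw [e1, ClassGroup.mk_eq_one_iff]
  constructor
  · intro h
    obtain ⟨x, hx⟩ := @Submodule.IsPrincipal.principal _ _ _ _ _ _ h
    have hx' : ((J * I⁻¹ : (FractionalIdeal (𝓞 K)⁰ K)ˣ) : FractionalIdeal (𝓞 K)⁰ K) =
        spanSingleton (𝓞 K)⁰ x := by
      apply Subtype.coe_injective
      simp only [val_eq_coe, hx, coe_spanSingleton]
    have h2 : (J : FractionalIdeal (𝓞 K)⁰ K) = spanSingleton (𝓞 K)⁰ x * I := by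
      rw [← hx', ← Units.val_mul, inv_mul_cancel_right]
    refine ⟨x, ?_, h2⟩
    rintro rfl
    rw [spanSingleton_zero, zero_mul] at h2
    exact J.ne_zero h2
  · rintro ⟨x, hx, h⟩
    have h2 : ((J * I⁻¹ : (FractionalIdeal (𝓞 K)⁰ K)ˣ) : FractionalIdeal (𝓞 K)⁰ K) =
        spanSingleton (𝓞 K)⁰ x := by
      rw [Units.val_mul, h, mul_assoc, Units.mul_inv, mul_one]
    rw [h2]
    exact ⟨⟨x, by rw [coe_spanSingleton]⟩⟩

end ideals

/-! ### The lattices -/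

variable {D : Type} [DivisionRing D] [Algebra ℚ D] {S : QOrder D} {N : ℕ} (T : S.Root N)
  {K : Type} [Field K] [NumberField K] (Q : ImQuad N K)

/-- the image of a fractional ideal in `D` -/
noncomputable def idl (I : FractionalIdeal (𝓞 K)⁰ K) : Submodule ℤ D where
  carrier := {y | ∃ x ∈ I, EmbD.ι T Q x = y}
  add_mem' := by
    rintro _ _ ⟨a, ha, rfl⟩ ⟨b, hb, rfl⟩
    exact ⟨a + b, I.1.add_mem ha hb, map_add _ _ _⟩
  zero_mem' := ⟨0, I.1.zero_mem, map_zero _⟩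
  smul_mem' := by
    rintro n _ ⟨a, ha, rfl⟩
    refine ⟨n • a, I.1.smul_of_tower_mem n ha, map_zsmul _ _ _⟩

variable {I J : FractionalIdeal (𝓞 K)⁰ K} {M M' : Submodule ℤ D}

theorem mem_idl {y : D} : y ∈ idl T Q I ↔ ∃ x ∈ I, EmbD.ι T Q x = y := Iff.rfl

theorem ι_mem_idl {x : K} : EmbD.ι T Q x ∈ idl T Q I ↔ x ∈ I := by
  refine ⟨fun ⟨x', h, e⟩ => ?_, fun h => ⟨x, h, rfl⟩⟩
  rwa [← EmbD.ι_injective T Q e]

theorem idl_mono (h : I ≤ J) : idl T Q I ≤ idl T Q J := by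
  rintro _ ⟨x, hx, rfl⟩
  exact ⟨x, h hx, rfl⟩

theorem idl_mul (I J : FractionalIdeal (𝓞 K)⁰ K) : idl T Q (I * J) = idl T Q I * idl T Q J := by
  apply le_antisymm
  · rintro _ ⟨x, hx, rfl⟩
    refine FractionalIdeal.mul_induction_on hx (fun a ha b hb => ?_) (fun a b ha hb => ?_)
    · rw [map_mul]
      exact Submodule.mul_mem_mul ⟨a, ha, rfl⟩ ⟨b, hb, rfl⟩
    · rw [map_add]
      exact add_mem ha hb
  · rw [Submodule.mul_le]
    rintro _ ⟨a, ha, rfl⟩ _ ⟨b, hb, rfl⟩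
    exact ⟨a * b, FractionalIdeal.mul_mem_mul ha hb, map_mul _ _ _⟩

theorem idl_span_mul (x : K) (I : FractionalIdeal (𝓞 K)⁰ K) :
    idl T Q (spanSingleton (𝓞 K)⁰ x * I) = EmbD.ι T Q x • idl T Q I := by
  ext y
  rw [mem_smul]
  constructor
  · rintro ⟨z, hz, rfl⟩
    rw [FractionalIdeal.mem_singleton_mul] at hz
    obtain ⟨w, hw, rfl⟩ := hz
    exact ⟨_, ⟨w, hw, rfl⟩, (map_mul _ _ _).symm⟩
  · rintro ⟨_, ⟨w, hw, rfl⟩, rfl⟩
    exact ⟨x * w, FractionalIdeal.mem_singleton_mul.mpr ⟨w, hw, rfl⟩, map_mul _ _ _⟩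

omit [NumberField K] in
theorem mem_one_iff {x : K} : x ∈ (1 : FractionalIdeal (𝓞 K)⁰ K) ↔ IsIntegral ℤ x := by
  rw [FractionalIdeal.mem_one_iff]
  exact ⟨fun ⟨a, ha⟩ => ha ▸ a.2, fun h => ⟨⟨x, h⟩, rfl⟩⟩

theorem idl_le_OO_iff (h2 : N % 4 = 2) : idl T Q I ≤ S.OO ↔ I ≤ 1 := by
  constructor
  · intro h x hx
    rw [mem_one_iff, ← EmbD.ι_mem_iff T Q h2]
    exact h ⟨x, hx, rfl⟩
  · rintro h _ ⟨x, hx, rfl⟩
    have := h hx
    rw [mem_one_iff, ← EmbD.ι_mem_iff T Q h2] at this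
    exact this

theorem one_mem_idl_one : (1 : D) ∈ idl T Q 1 :=
  ⟨1, FractionalIdeal.one_mem_one _, map_one _⟩

/-- `𝔞 O` -/
noncomputable def idlO (I : FractionalIdeal (𝓞 K)⁰ K) : Submodule ℤ D := idl T Q I * S.OO

theorem idl_mul_idlO (I J : FractionalIdeal (𝓞 K)⁰ K) :
    idl T Q I * idlO T Q J = idlO T Q (I * J) := by
  rw [idlO, idlO, idl_mul, mul_assoc]

theorem idlO_mul_OO (I : FractionalIdeal (𝓞 K)⁰ K) : idlO T Q I * S.OO = idlO T Q I := by
  rw [idlO, mul_assoc, S.OO_mul_OO]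

theorem idlO_one (h2 : N % 4 = 2) : idlO T Q 1 = S.OO := by
  apply le_antisymm
  · rw [idlO, Submodule.mul_le]
    intro a ha b hb
    exact S.O.mul_mem ((idl_le_OO_iff T Q h2).mpr le_rfl ha) hb
  · intro x hx
    rw [← one_mul x]
    exact Submodule.mul_mem_mul (one_mem_idl_one T Q) hx

theorem idl_le_idlO (I : FractionalIdeal (𝓞 K)⁰ K) : idl T Q I ≤ idlO T Q I := by
  intro x hx
  rw [← mul_one x]
  exact Submodule.mul_mem_mul hx S.one_mem_OO

theorem idlO_span_mul (x : K) (I : FractionalIdeal (𝓞 K)⁰ K) :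
    idlO T Q (spanSingleton (𝓞 K)⁰ x * I) = EmbD.ι T Q x • idlO T Q I := by
  rw [idlO, idl_span_mul, smul_mul_assoc', idlO]

theorem idlO_span (h2 : N % 4 = 2) (x : K) :
    idlO T Q (spanSingleton (𝓞 K)⁰ x) = EmbD.ι T Q x • S.OO := by
  rw [← mul_one (spanSingleton _ x), idlO_span_mul, idlO_one T Q h2]

theorem idlO_mono (h : I ≤ J) : idlO T Q I ≤ idlO T Q J :=
  mul_le_mul_left (idl_mono T Q h) _

/-- faithfulness -/
theorem idlO_le_iff (h2 : N % 4 = 2) (hI : I ≠ 0) : idlO T Q J ≤ idlO T Q I ↔ J ≤ I := by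
  refine ⟨fun h => ?_, idlO_mono T Q⟩
  have h1 : idl T Q I⁻¹ * idlO T Q J ≤ S.OO := by
    rw [← idlO_one T Q h2, ← inv_mul_cancel₀ hI, ← idl_mul_idlO]
    exact mul_le_mul_right h _
  have h3 : idl T Q (I⁻¹ * J) ≤ S.OO := by
    refine le_trans (idl_le_idlO T Q _) ?_
    rwa [← idl_mul_idlO]
  rw [idl_le_OO_iff T Q h2] at h3
  calc J = I * (I⁻¹ * J) := by rw [mul_inv_cancel_left₀ hI]
    _ ≤ I * 1 := mul_le_mul_right h3 I
    _ = I := mul_one I

theorem idlO_inj (h2 : N % 4 = 2) (hI : I ≠ 0) (hJ : J ≠ 0) : idlO T Q I = idlO T Q J ↔ I = J :=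
  ⟨fun h => le_antisymm ((idlO_le_iff T Q h2 hJ).mp h.le) ((idlO_le_iff T Q h2 hI).mp h.ge),
    fun h => h ▸ rfl⟩

/-- lattices are locally principal -/
theorem isLat_idlO_ideal (h2 : N % 4 = 2) (I : Ideal (𝓞 K)) (hI : I ≠ ⊥) :
    S.IsLat (idlO T Q (I : FractionalIdeal (𝓞 K)⁰ K)) := by
  intro p hp
  obtain ⟨a, ha, ha0, n, hn, h⟩ := exists_local I hI hp
  have ha0' : (a : K) ≠ 0 := by
    simpa using ha0
  refine ⟨EmbD.ι T Q a, EmbD.ι_ne_zero T Q ha0', ⟨n, hn, ?_⟩, ?_⟩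
  · intro x hx
    refine Submodule.mul_induction_on hx (fun b hb c hc => ?_) fun b c hb hc => ?_
    · obtain ⟨z, hz, rfl⟩ := hb
      rw [FractionalIdeal.mem_coeIdeal] at hz
      obtain ⟨z, hz, rfl⟩ := hz
      obtain ⟨y, hy⟩ := h z hz
      have hy' : (n : K) * algebraMap (𝓞 K) K z = algebraMap (𝓞 K) K a * algebraMap (𝓞 K) K y := by
        rw [← map_mul, ← hy, map_mul, map_natCast]
      refine mem_smul.mpr ⟨EmbD.ι T Q y * c, S.O.mul_mem ?_ hc, ?_⟩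
      · exact (EmbD.ι_mem_iff T Q h2 _).mpr y.2
      · rw [← mul_assoc, ← map_mul, ← smul_mul_assoc, nsmul_eq_mul]
        congr 1
        rw [← map_natCast (EmbD.ι T Q) n, ← map_mul (EmbD.ι T Q)]
        exact congrArg _ hy'.symm
    · rw [smul_add]
      exact add_mem hb hc
  · apply LLE.of_le
    rw [← idlO_span T Q h2]
    apply idlO_mono
    rw [FractionalIdeal.spanSingleton_le_iff_mem]
    exact FractionalIdeal.mem_coeIdeal_of_mem _ ha

theorem isLat_idlO (h2 : N % 4 = 2) (hI : I ≠ 0) : S.IsLat (idlO T Q I) := by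
  obtain ⟨a, J, ha, hJ⟩ := FractionalIdeal.exists_eq_spanSingleton_mul I
  have hJ0 : J ≠ ⊥ := by
    rintro rfl
    apply hI
    rw [hJ, FractionalIdeal.coeIdeal_bot, mul_zero]
  rw [hJ, idlO_span_mul]
  refine (isLat_idlO_ideal T Q h2 J hJ0).smul (EmbD.ι_ne_zero T Q (inv_ne_zero ?_))
  simpa using ha

/-! ### Elements of `D` normalising `K` -/

theorem smul_idl_mul {y : D} (h1 : ∀ x ∈ I, ∃ x' ∈ J, y * EmbD.ι T Q x = EmbD.ι T Q x' * y)
    (h2 : ∀ x ∈ J, ∃ x' ∈ I, y * EmbD.ι T Q x' = EmbD.ι T Q x * y)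
    (M : Submodule ℤ D) : y • (idl T Q I * M) = idl T Q J * (y • M) := by
  apply le_antisymm
  · intro x hx
    obtain ⟨w, hw, rfl⟩ := mem_smul.mp hx
    refine Submodule.mul_induction_on hw (fun b hb c hc => ?_) fun b c hb hc => ?_
    · obtain ⟨z, hz, rfl⟩ := hb
      obtain ⟨z', hz', e⟩ := h1 z hz
      rw [← mul_assoc, e, mul_assoc]
      exact Submodule.mul_mem_mul ⟨z', hz', rfl⟩ (mem_smul.mpr ⟨c, hc, rfl⟩)
    · rw [mul_add]
      exact add_mem hb hc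
  · rw [Submodule.mul_le]
    rintro _ ⟨z, hz, rfl⟩ _ hc'
    obtain ⟨c, hc, rfl⟩ := mem_smul.mp hc'
    obtain ⟨z', hz', e⟩ := h2 z hz
    rw [← mul_assoc, ← e, mul_assoc]
    exact mem_smul.mpr ⟨_, Submodule.mul_mem_mul ⟨z', hz', rfl⟩ hc, rfl⟩

theorem smul_idl_mul_of_commute {y : D} (h : y * T.i = T.i * y) (I : FractionalIdeal (𝓞 K)⁰ K)
    (M : Submodule ℤ D) : y • (idl T Q I * M) = idl T Q I * (y • M) :=
  smul_idl_mul T Q (fun x hx => ⟨x, hx, EmbD.ι_commute T Q h x⟩)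
    (fun x hx => ⟨x, hx, EmbD.ι_commute T Q h x⟩) M

/-- conjugation on `𝓞 K` -/
noncomputable def conjO : 𝓞 K ≃+* 𝓞 K := NumberField.RingOfIntegers.mapRingEquiv Q.conj

theorem coe_conjO (z : 𝓞 K) : algebraMap (𝓞 K) K (conjO Q z) = Q.conj (algebraMap (𝓞 K) K z) := rfl

theorem conj_smul (z : 𝓞 K) (x : K) : Q.conj (z • x) = conjO Q z • Q.conj x := by
  rw [Algebra.smul_def, Algebra.smul_def, map_mul, coe_conjO]

theorem conjO_conjO (z : 𝓞 K) : conjO Q (conjO Q z) = z :=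
  NumberField.RingOfIntegers.ext (Q.conj_conj z)

/-- the conjugate of a fractional ideal -/
noncomputable def conjF (I : FractionalIdeal (𝓞 K)⁰ K) : FractionalIdeal (𝓞 K)⁰ K :=
  ⟨{ carrier := {x | Q.conj x ∈ I}
     add_mem' := fun {a b} ha hb => by
       rw [Set.mem_ofPred_eq, map_add]
       exact I.1.add_mem ha hb
     zero_mem' := by
       rw [Set.mem_ofPred_eq, map_zero]
       exact I.1.zero_mem
     smul_mem' := fun r a ha => by
       rw [Set.mem_ofPred_eq, conj_smul]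
       exact I.1.smul_mem _ ha }, by
    obtain ⟨a, ha, h⟩ := I.2
    refine ⟨conjO Q a, ?_, fun b hb => ?_⟩
    · rw [mem_nonZeroDivisors_iff_ne_zero] at ha ⊢
      rwa [Ne, _root_.map_eq_zero_iff _ (conjO Q).injective]
    · obtain ⟨c, hc⟩ := h _ hb
      refine ⟨conjO Q c, ?_⟩
      rw [coe_conjO, hc, conj_smul, Q.conj_conj]⟩

variable {Q} in
theorem mem_conjF {x : K} : x ∈ conjF Q I ↔ Q.conj x ∈ I := Iff.rfl

theorem conjF_conjF (I : FractionalIdeal (𝓞 K)⁰ K) : conjF Q (conjF Q I) = I := by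
  ext x
  rw [mem_conjF, mem_conjF, Q.conj_conj]

theorem conjF_mono (h : I ≤ J) : conjF Q I ≤ conjF Q J := fun _ hx => h hx

theorem conjF_mul (I J : FractionalIdeal (𝓞 K)⁰ K) :
    conjF Q (I * J) = conjF Q I * conjF Q J := by
  have key : ∀ I J : FractionalIdeal (𝓞 K)⁰ K, conjF Q I * conjF Q J ≤ conjF Q (I * J) := by
    intro I J
    rw [FractionalIdeal.mul_le]
    intro a ha b hb
    rw [mem_conjF, map_mul]
    exact FractionalIdeal.mul_mem_mul ha hb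
  refine le_antisymm ?_ (key I J)
  rw [← conjF_conjF Q (conjF Q I * conjF Q J)]
  apply conjF_mono
  refine le_trans ?_ (key _ _)
  rw [conjF_conjF, conjF_conjF]

theorem conjF_zero : conjF Q (0 : FractionalIdeal (𝓞 K)⁰ K) = 0 := by
  ext x
  rw [mem_conjF, FractionalIdeal.mem_zero_iff, FractionalIdeal.mem_zero_iff,
    _root_.map_eq_zero_iff _ Q.conj.injective]

theorem conjF_ne_zero (h : I ≠ 0) : conjF Q I ≠ 0 := by
  intro h0
  apply h
  rw [← conjF_conjF Q I, h0, conjF_zero]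

theorem conjF_spanSingleton (x : K) :
    conjF Q (spanSingleton (𝓞 K)⁰ x) = spanSingleton (𝓞 K)⁰ (Q.conj x) := by
  ext y
  rw [mem_conjF, FractionalIdeal.mem_spanSingleton, FractionalIdeal.mem_spanSingleton]
  constructor
  · rintro ⟨z, hz⟩
    refine ⟨conjO Q z, ?_⟩
    rw [← Q.conj_conj y, ← hz, conj_smul]
  · rintro ⟨z, hz⟩
    refine ⟨conjO Q z, ?_⟩
    rw [← hz, conj_smul, Q.conj_conj]

theorem smul_idl_mul_of_anti {y : D} (h : y * T.i = -(T.i * y)) (I : FractionalIdeal (𝓞 K)⁰ K)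
    (M : Submodule ℤ D) : y • (idl T Q I * M) = idl T Q (conjF Q I) * (y • M) := by
  refine smul_idl_mul T Q (fun x hx => ⟨Q.conj x, ?_, EmbD.ι_anti T Q h x⟩)
    (fun x hx => ⟨Q.conj x, hx, ?_⟩) M
  · rw [mem_conjF, Q.conj_conj]
    exact hx
  · rw [EmbD.ι_anti T Q h, Q.conj_conj]

/-- `I Ī` is generated by a rational number. -/
theorem mul_conjF_integral (hI : I ≠ 0) (hI1 : I ≤ 1) :
    ∃ g : ℤ, g ≠ 0 ∧ I * conjF Q I = spanSingleton (𝓞 K)⁰ (g : K) := by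
  set B := I * conjF Q I with hB
  have hBc : ∀ {x : K}, x ∈ B → Q.conj x ∈ B := by
    intro x hx
    have : conjF Q B = B := by rw [hB, conjF_mul, conjF_conjF, mul_comm]
    rw [← this] at hx
    exact hx
  have hI1' : conjF Q I ≤ 1 := by
    have h1 := conjF_mono Q hI1
    have h2 : conjF Q (1 : FractionalIdeal (𝓞 K)⁰ K) = 1 := by
      rw [← FractionalIdeal.spanSingleton_one, conjF_spanSingleton, map_one]
    rwa [h2] at h1
  -- the ideal `B ∩ ℤ`
  let Z : Ideal ℤ :=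
    { carrier := {n : ℤ | (n : K) ∈ B}
      add_mem' := fun {a b} ha hb => by
        rw [Set.mem_ofPred_eq, Int.cast_add]
        exact B.1.add_mem ha hb
      zero_mem' := by
        rw [Set.mem_ofPred_eq, Int.cast_zero]
        exact B.1.zero_mem
      smul_mem' := fun r a ha => by
        rw [Set.mem_ofPred_eq, smul_eq_mul, Int.cast_mul, ← zsmul_eq_mul]
        exact B.1.smul_of_tower_mem r ha }
  have hZ : ∀ n : ℤ, n ∈ Z ↔ (n : K) ∈ B := fun n => Iff.rfl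
  obtain ⟨g, hg⟩ := (IsPrincipalIdealRing.principal Z).principal
  have hgB : (g : K) ∈ B := by
    rw [← hZ, hg]
    exact Submodule.mem_span_singleton_self g
  have hdvd : ∀ n : ℤ, (n : K) ∈ B → g ∣ n := by
    intro n hn
    rw [← hZ, hg] at hn
    exact Ideal.mem_span_singleton.mp hn
  -- norms and traces
  have hnorm : ∀ x ∈ I, ∃ n : ℤ, (n : K) = x * Q.conj x := by
    intro x hx
    have hx1 : IsIntegral ℤ x := mem_one_iff.mp (hI1 hx)
    have h1 : IsIntegral ℤ (x * Q.conj x) := hx1.mul (Q.isIntegral_conj hx1)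
    rw [Q.mul_conj] at h1
    obtain ⟨n, hn⟩ := ImQuad.int_of_isIntegral h1
    refine ⟨n, ?_⟩
    rw [Q.mul_conj, hn, map_intCast]
  have hnormB : ∀ x ∈ I, x * Q.conj x ∈ B := by
    intro x hx
    refine FractionalIdeal.mul_mem_mul hx ?_
    rw [mem_conjF, Q.conj_conj]
    exact hx
  have hg0 : g ≠ 0 := by
    rintro rfl
    obtain ⟨x, hx, hx0⟩ : ∃ x ∈ I, x ≠ 0 := by
      by_contra h0
      push Not at h0
      apply hI
      rw [FractionalIdeal.eq_zero_iff]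
      exact h0
    obtain ⟨n, hn⟩ := hnorm x hx
    have h1 := hdvd n (by rw [hn]; exact hnormB x hx)
    rw [zero_dvd_iff] at h1
    rw [h1, Int.cast_zero, eq_comm, mul_eq_zero, _root_.map_eq_zero_iff _ Q.conj.injective, or_self] at hn
    exact hx0 hn
  refine ⟨g, hg0, le_antisymm ?_ ?_⟩
  · rw [hB, FractionalIdeal.mul_le]
    intro a ha b hb
    have hbI : Q.conj b ∈ I := hb
    have hab : a * b ∈ B := FractionalIdeal.mul_mem_mul ha hb
    obtain ⟨t, ht⟩ : ∃ t : ℤ, (t : K) = a * b + Q.conj (a * b) := by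
      have ha1 : IsIntegral ℤ (a * b) := by
        refine (mem_one_iff.mp (hI1 ha)).mul (mem_one_iff.mp (hI1' hb))
      have h1 := ha1.add (Q.isIntegral_conj ha1)
      rw [Q.add_conj] at h1
      obtain ⟨t, ht⟩ := ImQuad.int_of_isIntegral h1
      exact ⟨t, by rw [Q.add_conj, ht, map_intCast]⟩
    obtain ⟨t', ht'⟩ := hdvd t (by rw [ht]; exact B.1.add_mem hab (hBc hab))
    obtain ⟨n, hn⟩ := hnorm a ha
    obtain ⟨m, hm⟩ := hnorm _ hbI
    obtain ⟨n', hn'⟩ := hdvd n (by rw [hn]; exact hnormB _ ha)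
    obtain ⟨m', hm'⟩ := hdvd m (by rw [hm]; exact hnormB _ hbI)
    rw [Q.conj_conj] at hm
    have hgK : (g : K) ≠ 0 := by exact_mod_cast hg0
    -- `a b / g` is integral
    have hint : IsIntegral ℤ (a * b / g) := by
      refine ⟨Polynomial.X ^ 2 - Polynomial.C t' * Polynomial.X + Polynomial.C (n' * m'), ?_, ?_⟩
      · monicity!
      · rw [Polynomial.eval₂_add, Polynomial.eval₂_sub, Polynomial.eval₂_mul,
          Polynomial.eval₂_pow, Polynomial.eval₂_X, Polynomial.eval₂_C, Polynomial.eval₂_C,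
          eq_intCast, eq_intCast]
        have e1 : a * b + Q.conj (a * b) = g * t' := by rw [← ht, ht']; push_cast; ring
        have e2 : (a * b) * Q.conj (a * b) = (g * n') * (g * m') := by
          rw [map_mul]
          have : a * b * (Q.conj a * Q.conj b) = (a * Q.conj a) * (Q.conj b * b) := by ring
          rw [this, ← hn, ← hm, hn', hm']
          push_cast
          ring
        have e3 : Q.conj (a * b) = g * t' - a * b := by rw [← e1]; ring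
        rw [e3] at e2
        have e4 : (a * b / g) ^ 2 - t' * (a * b / g) + (n' * m' : ℤ) =
            ((g * n') * (g * m') - a * b * (g * t' - a * b)) / g ^ 2 := by
          push_cast
          field_simp
          ring
        rw [e4, e2, sub_self, zero_div]
    rw [FractionalIdeal.mem_spanSingleton]
    obtain ⟨z, hz⟩ : ∃ z : 𝓞 K, algebraMap (𝓞 K) K z = a * b / g := ⟨⟨a * b / g, hint⟩, rfl⟩
    refine ⟨z, ?_⟩
    rw [Algebra.smul_def, hz]
    field_simp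
  · rwa [FractionalIdeal.spanSingleton_le_iff_mem]

/-- `I Ī` is generated by a rational number. -/
theorem mul_conjF (hI : I ≠ 0) : ∃ g : ℚ, g ≠ 0 ∧
    I * conjF Q I = spanSingleton (𝓞 K)⁰ (algebraMap ℚ K g) := by
  obtain ⟨a, J, ha, hJ⟩ := FractionalIdeal.exists_eq_spanSingleton_mul I
  have hJ0 : (J : FractionalIdeal (𝓞 K)⁰ K) ≠ 0 := by
    intro h
    apply hI
    rw [hJ, h, mul_zero]
  obtain ⟨g, hg, hg'⟩ := mul_conjF_integral Q hJ0 FractionalIdeal.coeIdeal_le_one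
  have haK : algebraMap (𝓞 K) K a ≠ 0 := by simpa using ha
  set x : K := (algebraMap (𝓞 K) K a)⁻¹ with hx
  have hx0 : x ≠ 0 := inv_ne_zero haK
  have hxx : x * Q.conj x ≠ 0 :=
    mul_ne_zero hx0 (by rwa [Ne, _root_.map_eq_zero_iff _ Q.conj.injective])
  refine ⟨(Q.re x * Q.re x + N * (Q.im x * Q.im x)) * g, ?_, ?_⟩
  · rw [Q.mul_conj] at hxx
    refine mul_ne_zero (fun h => hxx (by rw [h, map_zero])) (by exact_mod_cast hg)
  · rw [map_mul, ← Q.mul_conj, ← spanSingleton_mul_spanSingleton, map_intCast, ← hg', hJ,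
      conjF_mul, conjF_spanSingleton, ← spanSingleton_mul_spanSingleton]
    ring

/-- the conjugate of a unit fractional ideal -/
noncomputable def conjU (I : (FractionalIdeal (𝓞 K)⁰ K)ˣ) : (FractionalIdeal (𝓞 K)⁰ K)ˣ :=
  Units.mk0 (conjF Q I) (conjF_ne_zero Q I.ne_zero)

theorem coe_conjU (I : (FractionalIdeal (𝓞 K)⁰ K)ˣ) :
    (conjU Q I : FractionalIdeal (𝓞 K)⁰ K) = conjF Q I := rfl

/-- the class of the conjugate is the inverse -/
theorem mk_conjU (I : (FractionalIdeal (𝓞 K)⁰ K)ˣ) :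
    ClassGroup.mk K (conjU Q I) = (ClassGroup.mk K I)⁻¹ := by
  rw [eq_inv_iff_mul_eq_one, ← map_mul, ClassGroup.mk_eq_one_iff]
  obtain ⟨g, hg, h⟩ := mul_conjF Q I.ne_zero
  rw [Units.val_mul, coe_conjU, mul_comm, h]
  exact ⟨⟨algebraMap ℚ K g, by rw [coe_spanSingleton]⟩⟩

/-! ### Classes -/

theorem idlO_mul_P (I : FractionalIdeal (𝓞 K)⁰ K) : idlO T Q I * S.P N = T.i • idlO T Q I := by
  have e : S.OO * S.P N = S.P N := S.O_P N T.dvd
  rw [idlO, mul_assoc, e, ← T.smul, ← smul_idl_mul_of_commute T Q rfl]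
  rfl

omit [NumberField K] in
theorem exists_mk [NumberField K] (c : ClassGroup (𝓞 K)) :
    ∃ I : (FractionalIdeal (𝓞 K)⁰ K)ˣ, ClassGroup.mk K I = c := by
  obtain ⟨I, hI⟩ := ClassGroup.mk0_surjective c
  exact ⟨FractionalIdeal.mk0 K I, by rw [ClassGroup.mk_mk0, hI]⟩

/-- a fractional ideal in a class -/
noncomputable def repI (c : ClassGroup (𝓞 K)) : (FractionalIdeal (𝓞 K)⁰ K)ˣ := (exists_mk c).choose

theorem mk_repI (c : ClassGroup (𝓞 K)) : ClassGroup.mk K (repI c) = c := (exists_mk c).choose_spec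

theorem cls_eq_iff' {I J : Submodule ℤ D} (hI : S.IsLat I) (hJ : S.IsLat J) :
    S.cls I hI = S.cls J hJ ↔ ∃ d : D, d ≠ 0 ∧ J = d • I :=
  Quotient.eq (r := S.setoid)

/-- the map `Cl(K) → X`, `[𝔞] ↦ [𝔞 O]` -/
noncomputable def e (h2 : N % 4 = 2) (c : ClassGroup (𝓞 K)) : S.X :=
  S.cls (idlO T Q (repI c : FractionalIdeal (𝓞 K)⁰ K)) (isLat_idlO T Q h2 (repI c).ne_zero)

theorem e_mk (h2 : N % 4 = 2) (I : (FractionalIdeal (𝓞 K)⁰ K)ˣ) :
    e T Q h2 (ClassGroup.mk K I) = S.cls (idlO T Q (I : FractionalIdeal (𝓞 K)⁰ K))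
      (isLat_idlO T Q h2 I.ne_zero) := by
  obtain ⟨x, hx, h⟩ := (mk_eq_mk_iff _ I).mp (mk_repI (ClassGroup.mk K I))
  rw [e, cls_eq_iff']
  exact ⟨EmbD.ι T Q x, EmbD.ι_ne_zero T Q hx, by rw [← idlO_span_mul, ← h]⟩

/-- the points `e c` are fixed by `w_N` -/
theorem cls_e_mul_P (h2 : N % 4 = 2) (I : (FractionalIdeal (𝓞 K)⁰ K)ˣ) :
    S.cls (idlO T Q (I : FractionalIdeal (𝓞 K)⁰ K) * S.P N)
      ((isLat_idlO T Q h2 I.ne_zero).mul_P T.dvd) = e T Q h2 (ClassGroup.mk K I) := by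
  rw [e_mk, eq_comm, cls_eq_iff']
  exact ⟨T.i, EmbD.i_ne_zero T Q.pos, idlO_mul_P T Q _⟩

end EmbI

end Fermat.Agent.P2.Quat
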