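/-
P2, block 3: reduction modulo a good prime `l`.
-/
import Fermat.Agent.P2.Quat.IsLat

open scoped Pointwise

namespace Fermat.Agent.P2.Quat

/-! ### Two general lemmas on indices -/

section gen

variable {D : Type*} [AddCommGroup D] {I J : Submodule ℤ D} {p : ℕ}

theorem LEq.of_idx (hp : p.Prime) (h : I ≤ J) (h1 : ¬ p ∣ idx I J) : LEq p I J :=
  ⟨LLE.of_le h, idx I J, ((Nat.Prime.coprime_iff_not_dvd hp).mpr h1).symm,
    fun _ hx => idx_smul_mem hx⟩

theorem not_dvd_idx_of_add (hp : p.Prime) (h0 : idx I J ≠ 0)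
    (h : ∀ x ∈ J, ∃ y ∈ I, ∃ z ∈ J, x = y + p • z) : ¬ p ∣ idx I J := by
  intro hdvd
  let Q := I.toAddSubgroup.addSubgroupOf J.toAddSubgroup
  have hfin : Finite (J.toAddSubgroup ⧸ Q) := AddSubgroup.index_ne_zero_iff_finite.mp h0
  have := Fact.mk hp
  obtain ⟨x, hx⟩ := exists_prime_addOrderOf_dvd_card' (G := J.toAddSubgroup ⧸ Q) p hdvd
  have hsurj : Function.Surjective (fun x : J.toAddSubgroup ⧸ Q => p • x) := by
    intro x
    obtain ⟨y, rfl⟩ := QuotientAddGroup.mk'_surjective Q x
    obtain ⟨a, ha, z, hz, h1⟩ := h y.1 y.2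
    refine ⟨QuotientAddGroup.mk' Q ⟨z, hz⟩, ?_⟩
    change p • (QuotientAddGroup.mk' Q ⟨z, hz⟩) = _
    rw [← map_nsmul, QuotientAddGroup.mk'_apply, QuotientAddGroup.mk'_apply, QuotientAddGroup.eq]
    change -(p • z) + y.1 ∈ I
    rw [h1, add_comm a, neg_add_cancel_left]
    exact ha
  have hinj := Finite.injective_iff_surjective.mpr hsurj
  have h1 : x = 0 := hinj (a₁ := x) (a₂ := 0) (by
    change p • x = p • 0
    rw [← hx, addOrderOf_nsmul_eq_zero, smul_zero])
  rw [h1, addOrderOf_zero] at hx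
  exact hp.one_lt.ne hx

end gen

/-! ### 2×2 matrices -/

section mat

variable {k : Type*} [Field k]

theorem mat_sq (A : Matrix (Fin 2) (Fin 2) k) :
    A * A = A.trace • A - A.det • (1 : Matrix (Fin 2) (Fin 2) k) := by
  ext i j
  fin_cases i <;> fin_cases j <;>
    simp [Matrix.mul_apply, Fin.sum_univ_two, Matrix.trace, Matrix.det_fin_two] <;> ring

theorem mat_nonscalar {A : Matrix (Fin 2) (Fin 2) k} (hA : ∀ c : k, A ≠ c • 1) {t n : k}
    (h : A * A = t • A - n • (1 : Matrix (Fin 2) (Fin 2) k)) : A.trace = t ∧ A.det = n := by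
  have h1 := mat_sq A
  rw [h] at h1
  have h2 : (A.trace - t) • A = (A.det - n) • (1 : Matrix (Fin 2) (Fin 2) k) := by
    rw [sub_smul, sub_smul, sub_eq_sub_iff_add_eq_add, add_comm (A.det • _), ← sub_eq_sub_iff_add_eq_add]
    have h3 := h1.symm
    rw [sub_eq_sub_iff_add_eq_add] at h3
    rw [sub_eq_sub_iff_add_eq_add, h3]
  have h3 : A.trace - t = 0 := by
    by_contra h4
    refine hA ((A.trace - t)⁻¹ * (A.det - n)) ?_
    rw [← smul_smul, ← h2, smul_smul, inv_mul_cancel₀ h4, one_smul]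
  rw [h3, zero_smul] at h2
  refine ⟨sub_eq_zero.mp h3, sub_eq_zero.mp ?_⟩
  have h4 := congrFun (congrFun h2 0) 0
  simpa using h4.symm

end mat

namespace QOrder

variable {D : Type} [DivisionRing D] [Algebra ℚ D] {S : QOrder D}

theorem conj_mem {y : D} (hy : y ∈ S.O) : S.conj y ∈ S.O := by
  obtain ⟨t, ht⟩ := S.trd_int y hy
  rw [S.conj_eq, ht, map_intCast]
  exact S.O.sub_mem (intCast_mem _ t) hy

/-- The conjugate on the order. -/
def oconj (y : S.O) : S.O := ⟨S.conj y, conj_mem y.2⟩

section pi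

variable {l : ℕ} [Fact l.Prime] {π : S.O →+* Matrix (Fin 2) (Fin 2) (ZMod l)}
  (hπ : Function.Surjective π)

theorem pi_intCast (n : ℤ) : π n = (n : ZMod l) • (1 : Matrix (Fin 2) (Fin 2) (ZMod l)) := by
  rw [map_intCast, Int.cast_smul_eq_zsmul, zsmul_one]

theorem pi_oconj (y : S.O) {t : ℤ} (ht : S.trd y = t) :
    π (oconj y) = (t : ZMod l) • (1 : Matrix (Fin 2) (Fin 2) (ZMod l)) - π y := by
  have h : oconj y = (t : S.O) - y := by
    refine Subtype.ext ?_
    change S.conj y = _
    rw [S.conj_eq, ht, map_intCast]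
    push_cast
    rfl
  rw [h, map_sub, pi_intCast]

theorem pi_mul_self (y : S.O) {t n : ℤ} (ht : S.trd y = t) (hn : S.nrd y = n) :
    π y * π y = (t : ZMod l) • π y - (n : ZMod l) • (1 : Matrix (Fin 2) (Fin 2) (ZMod l)) := by
  have h : y * y = (t : S.O) * y - (n : S.O) := by
    refine Subtype.ext ?_
    change (y : D) * y = _
    rw [S.mul_self, ht, hn, map_intCast, map_intCast]
    push_cast
    rfl
  rw [← map_mul, h, map_sub, map_mul, pi_intCast, pi_intCast, smul_mul_assoc, one_mul]

include hπ in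
theorem trace_pi (y : S.O) {t : ℤ} (ht : S.trd y = t) : (π y).trace = t := by
  obtain ⟨z, hz⟩ := hπ !![0, 1; 0, 0]
  have hns : ∀ c : ZMod l, π z ≠ c • 1 := by
    intro c h
    rw [hz] at h
    have := congrFun (congrFun h 0) 1
    simp at this
  obtain ⟨n, hn⟩ := S.nrd_int y y.2
  obtain ⟨t', ht'⟩ := S.trd_int z z.2
  obtain ⟨n', hn'⟩ := S.nrd_int z z.2
  obtain ⟨n'', hn''⟩ := S.nrd_int (y + z : S.O) (y + z).2
  by_cases hy : ∀ c : ZMod l, π y ≠ c • 1
  · exact (mat_nonscalar hy (pi_mul_self y ht hn)).1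
  · push Not at hy
    obtain ⟨c, hc⟩ := hy
    have h1 : ∀ c' : ZMod l, π (y + z) ≠ c' • 1 := by
      intro c' h
      rw [map_add, hc] at h
      refine hns (c' - c) ?_
      rw [sub_smul, ← h, add_sub_cancel_left]
    have ht'' : S.trd (y + z : S.O) = ((t + t' : ℤ) : ℚ) := by
      have := S.trd_add y z
      push_cast
      rw [← ht, ← ht']
      exact this
    have h2 := (mat_nonscalar h1 (pi_mul_self (y + z) ht'' hn'')).1
    have h3 := (mat_nonscalar hns (pi_mul_self z ht' hn')).1
    rw [map_add, Matrix.trace_add, h3] at h2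
    push_cast at h2
    exact add_right_cancel h2

include hπ in
theorem det_pi (y : S.O) {n : ℤ} (hn : S.nrd y = n) : (π y).det = n := by
  obtain ⟨t, ht⟩ := S.trd_int y y.2
  have h1 := pi_mul_self (π := π) y ht hn
  rw [mat_sq, trace_pi hπ y ht, sub_right_inj] at h1
  have h2 := congrFun (congrFun h1 0) 0
  simpa using h2

include hπ in
/-- Lifting a singular nonzero matrix with norm of valuation exactly one. -/
theorem exists_lift {α : Matrix (Fin 2) (Fin 2) (ZMod l)} (hα : α ≠ 0) (hdet : α.det = 0) :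
    ∃ y : S.O, π y = α ∧ ∃ n : ℤ, S.nrd y = (l : ℤ) * n ∧ ¬ (l : ℤ) ∣ n := by
  obtain ⟨y, hy⟩ := hπ α
  obtain ⟨n, hn⟩ := S.nrd_int y y.2
  have h1 := det_pi hπ y hn
  rw [hy, hdet] at h1
  obtain ⟨n', rfl⟩ := (ZMod.intCast_zmod_eq_zero_iff_dvd n l).mp h1.symm
  by_cases h2 : (l : ℤ) ∣ n'
  · -- modify
    -- find `β` with `trace (α β) ≠ 0`
    have h3 : ∃ β : Matrix (Fin 2) (Fin 2) (ZMod l), (α * β).trace ≠ 0 := by
      by_contra h
      push Not at h
      refine hα ?_
      ext i j
      have := h (Matrix.single j i 1)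
      rw [Matrix.trace_mul_single] at this
      simpa using this
    obtain ⟨β, hβ⟩ := h3
    obtain ⟨z, hz⟩ := hπ β
    -- use `conj z`
    have hcc : oconj (oconj z) = z := Subtype.ext (S.conj_conj z)
    set w := oconj z with hw
    obtain ⟨t, ht⟩ := S.trd_int (y * z : S.O) (y * z).2
    obtain ⟨k, hk⟩ := S.nrd_int w w.2
    have htr : ((t : ℤ) : ZMod l) ≠ 0 := by
      have := trace_pi hπ (y * z) ht
      rw [map_mul, hy, hz] at this
      rw [← this]
      exact hβ
    refine ⟨y + (l : S.O) * w, ?_, n' + t + l * k, ?_, ?_⟩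
    · rw [map_add, map_mul, hy, map_natCast]
      have : ((l : ℕ) : Matrix (Fin 2) (Fin 2) (ZMod l)) = 0 := by
        rw [← map_natCast (algebraMap (ZMod l) (Matrix (Fin 2) (Fin 2) (ZMod l))),
          ZMod.natCast_self, map_zero]
      rw [this, zero_mul, add_zero]
    · refine algebraMap_inj (D := D) ?_
      have e1 : ((y + (l : S.O) * w : S.O) : D) = (y : D) + (l : D) * (w : D) := by
        push_cast
        rfl
      have e2 : S.conj (w : D) = (z : D) := congrArg (Subtype.val) hcc
      have e3 : (y : D) * (z : D) + S.conj ((y : D) * (z : D)) = (t : D) := by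
        rw [S.add_conj]
        have : S.trd ((y : D) * (z : D)) = t := ht
        rw [this, map_intCast]
      rw [S.conj_mul] at e3
      have e4 : (w : D) = S.conj (z : D) := rfl
      have e5 : (y : D) * S.conj (y : D) = ((l : ℤ) * n' : ℤ) := by
        rw [S.mul_conj, hn, map_intCast]
      have e6 : (w : D) * (z : D) = (k : D) := by
        rw [← e2, S.mul_conj, hk, map_intCast]
      rw [← S.mul_conj, e1, S.conj_add, S.conj_mul, S.conj_natCast, e2]
      have hc1 : ∀ a : D, a * (l : D) = (l : D) * a := fun a => (Nat.cast_commute l a).eq.symm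
      calc ((y : D) + (l : D) * (w : D)) * (S.conj (y : D) + (z : D) * (l : D))
          = (y : D) * S.conj (y : D) + (l : D) * ((y : D) * (z : D) + (w : D) * S.conj (y : D)) +
            (l : D) * ((l : D) * ((w : D) * (z : D))) := by
            rw [hc1, mul_add, add_mul, add_mul, ← mul_assoc (y : D), hc1 (y : D),
              mul_assoc (l : D) (y : D), mul_add (l : D), mul_assoc (l : D) (w : D),
              mul_assoc (l : D) (w : D), ← mul_assoc (w : D) (l : D), hc1 (w : D),
              mul_assoc (l : D) (w : D)]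
            abel
        _ = _ := by
          have e7 : algebraMap ℚ D ((l : ℤ) * ((n' + t + l * k : ℤ) : ℚ)) =
              ((l * (n' + t + l * k) : ℤ) : D) := by
            rw [← Int.cast_mul, map_intCast]
          rw [e5, e6, e4, e3, e7]
          push_cast
          rw [mul_add, mul_add]
    · intro h
      have h4 : (l : ℤ) ∣ t := by
        have h5 : n' + t + l * k = t + (n' + l * k) := by ring
        rw [h5] at h
        exact (Int.dvd_add_left (dvd_add h2 (dvd_mul_right _ _))).mp h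
      exact htr ((ZMod.intCast_zmod_eq_zero_iff_dvd t l).mpr h4)
  · exact ⟨y, hy, n', by rw [hn]; push_cast; ring, h2⟩

end pi

end QOrder

end Fermat.Agent.P2.Quat
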