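/-
P2, block 3: neighbours at a good prime `l` and the projective line.
-/
import Fermat.Agent.P2.Quat.Red

open scoped Pointwise

namespace Fermat.Agent.P2.Quat

variable {D : Type} [DivisionRing D] [Algebra ℚ D] {S : QOrder D}

/-- Reduction data for a lattice `I` at `l`. -/
structure Red (S : QOrder D) (l : ℕ) (I : Submodule ℤ D) where
  π : S.O →+* Matrix (Fin 2) (Fin 2) (ZMod l)
  π_surj : Function.Surjective π
  ρ : D → Matrix (Fin 2) (Fin 2) (ZMod l)
  add : ∀ x ∈ I, ∀ y ∈ I, ρ (x + y) = ρ x + ρ y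
  mul : ∀ x ∈ I, ∀ y : S.O, ρ (x * y) = ρ x * π y
  surj : ∀ a, ∃ x ∈ I, ρ x = a
  ker : ∀ x ∈ I, ρ x = 0 ↔ x ∈ (l : D) • I

theorem QOrder.IsLat.exists_red {I : Submodule ℤ D} (h : S.IsLat I) {l : ℕ} (hl : l.Prime)
    (hlM : ¬ l ∣ S.M) : Nonempty (Red S l I) := by
  classical
  have := Fact.mk hl
  obtain ⟨π, hπ, hker⟩ := S.split l hl hlM
  obtain ⟨x₀, hx₀, h1⟩ := h l hl
  obtain ⟨n, hn, h1, h2⟩ := h1.exists_common
  have hnl : (n : ZMod l) ≠ 0 := by
    rw [Ne, ZMod.natCast_eq_zero_iff]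
    intro h3
    exact hl.one_lt.ne' (Nat.Coprime.eq_one_of_dvd hn.symm h3)
  have hO : ∀ x ∈ I, x₀⁻¹ * (n • x) ∈ S.O := fun x hx => (mem_smul_iff hx₀).mp (h1 x hx)
  have h0 : ∀ z : S.O, π ((l : ℤ) • z) = 0 := fun z => by
    rw [map_zsmul, ← Int.cast_smul_eq_zsmul (ZMod l)]
    simp
  refine ⟨⟨π, hπ, fun x => if hx : x₀⁻¹ * (n • x) ∈ S.O then π ⟨_, hx⟩ else 0, ?_, ?_, ?_, ?_⟩⟩
  · intro x hx y hy
    rw [dif_pos (hO x hx), dif_pos (hO y hy), dif_pos (hO _ (I.add_mem hx hy)), ← map_add]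
    congr 1
    refine Subtype.ext ?_
    change x₀⁻¹ * (n • (x + y)) = x₀⁻¹ * (n • x) + x₀⁻¹ * (n • y)
    rw [smul_add, mul_add]
  · intro x hx y
    rw [dif_pos (hO x hx), dif_pos (hO _ (h.mul_mem hx y.2)), ← map_mul]
    congr 1
    refine Subtype.ext ?_
    change x₀⁻¹ * (n • (x * (y : D))) = x₀⁻¹ * (n • x) * (y : D)
    rw [← smul_mul_assoc, mul_assoc]
  · intro a
    obtain ⟨z, hz⟩ := hπ (((n : ZMod l) ^ 2)⁻¹ • a)
    have hz1 : n • (x₀ * (z : D)) ∈ I := h2 _ (mem_smul.mpr ⟨_, z.2, rfl⟩)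
    have hz2 : x₀⁻¹ * (n • (n • (x₀ * (z : D)))) = ((n ^ 2 • z : S.O) : D) := by
      rw [smul_smul, ← sq, mul_smul_comm, inv_mul_cancel_left₀ hx₀]
      rfl
    refine ⟨_, hz1, ?_⟩
    rw [dif_pos (hO _ hz1)]
    have h3 : (⟨_, hO _ hz1⟩ : S.O) = n ^ 2 • z := Subtype.ext hz2
    rw [h3, map_nsmul, hz, ← Nat.cast_smul_eq_nsmul (ZMod l), smul_smul, Nat.cast_pow,
      mul_inv_cancel₀ (pow_ne_zero 2 hnl), one_smul]
  · intro x hx
    rw [dif_pos (hO x hx)]
    constructor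
    · intro h3
      obtain ⟨y, hy⟩ := hker _ h3
      have h4 : x₀⁻¹ * (n • x) = (l : D) * (y : D) := by
        have h5 : x₀⁻¹ * (n • x) = (l : ℤ) • (y : D) := congrArg Subtype.val hy
        rw [h5, natCast_zsmul, nsmul_eq_mul]
      have h5 : n • x = (l : D) * (x₀ * (y : D)) := by
        rw [← mul_assoc, (Nat.cast_commute l x₀).eq, mul_assoc, ← h4, mul_inv_cancel_left₀ hx₀]
      have h6 : n • (n • x) ∈ (l : D) • I := by
        rw [h5, ← mul_smul_comm]
        exact mem_smul.mpr ⟨_, h2 _ (mem_smul.mpr ⟨_, y.2, rfl⟩), rfl⟩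
      rw [smul_smul] at h6
      exact mem_of_coprime (Nat.Coprime.mul_left hn hn) h6 (nsmul_mem_smul l hx)
    · intro h3
      obtain ⟨y, hy, rfl⟩ := mem_smul.mp h3
      have h4 : (⟨_, hO _ hx⟩ : S.O) = (l : ℤ) • ⟨_, hO y hy⟩ := by
        refine Subtype.ext ?_
        change x₀⁻¹ * (n • ((l : D) * y)) = (l : ℤ) • (x₀⁻¹ * (n • y))
        rw [natCast_zsmul, nsmul_eq_mul, nsmul_eq_mul, nsmul_eq_mul, ← mul_assoc (l : D),
          (Nat.cast_commute l x₀⁻¹).eq, mul_assoc, ← mul_assoc (l : D),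
          (Nat.cast_commute l (n : D)).eq, mul_assoc]
      rw [h4, h0]

namespace Red

variable {l : ℕ} [hl : Fact l.Prime] {I : Submodule ℤ D} (R : Red S l I)

theorem zero : R.ρ 0 = 0 := by
  have := R.add 0 I.zero_mem 0 I.zero_mem
  rw [add_zero] at this
  exact left_eq_add.mp this

theorem neg {x : D} (hx : x ∈ I) : R.ρ (-x) = -R.ρ x := by
  have := R.add x hx (-x) (I.neg_mem hx)
  rw [add_neg_cancel, R.zero] at this
  exact (neg_eq_of_add_eq_zero_right this.symm).symm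

theorem sub {x y : D} (hx : x ∈ I) (hy : y ∈ I) : R.ρ (x - y) = R.ρ x - R.ρ y := by
  rw [sub_eq_add_neg, R.add x hx _ (I.neg_mem hy), R.neg hy, sub_eq_add_neg]

theorem nsmul {x : D} (hx : x ∈ I) (n : ℕ) : R.ρ (n • x) = n • R.ρ x := by
  induction n with
  | zero => rw [zero_smul, zero_smul, R.zero]
  | succ n ih =>
    rw [add_smul, one_smul, R.add _ (I.smul_of_tower_mem n hx) x hx, ih, add_smul, one_smul]

/-- The sublattice attached to a covector. -/
def lat (u : Fin 2 → ZMod l) : Submodule ℤ D where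
  carrier := {x | x ∈ I ∧ Matrix.vecMul u (R.ρ x) = 0}
  zero_mem' := ⟨I.zero_mem, by rw [R.zero, Matrix.vecMul_zero]⟩
  add_mem' := fun {x y} hx hy => ⟨I.add_mem hx.1 hy.1, by
    rw [R.add x hx.1 y hy.1, Matrix.vecMul_add, hx.2, hy.2, add_zero]⟩
  smul_mem' := fun c x hx => by
    refine ⟨I.smul_mem c hx.1, ?_⟩
    obtain ⟨n, rfl | rfl⟩ := c.eq_nat_or_neg
    · rw [natCast_zsmul, R.nsmul hx.1, Matrix.vecMul_smul, hx.2, smul_zero]
    · rw [neg_smul, natCast_zsmul, R.neg (I.smul_of_tower_mem n hx.1), R.nsmul hx.1,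
        Matrix.vecMul_neg, Matrix.vecMul_smul, hx.2, smul_zero, neg_zero]

variable {u v : Fin 2 → ZMod l}

theorem mem_lat {x : D} : x ∈ R.lat u ↔ x ∈ I ∧ Matrix.vecMul u (R.ρ x) = 0 := Iff.rfl

theorem lat_le : R.lat u ≤ I := fun _ hx => hx.1

theorem le_lat : (l : D) • I ≤ R.lat u := fun x hx =>
  ⟨natCast_smul_le l hx, by rw [(R.ker x (natCast_smul_le l hx)).mpr hx, Matrix.vecMul_zero]⟩

theorem lat_mul (hI : S.IsLat I) {x : D} (hx : x ∈ R.lat u) (y : S.O) : x * y ∈ R.lat u :=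
  ⟨hI.mul_mem hx.1 y.2, by rw [R.mul x hx.1, ← Matrix.vecMul_vecMul, hx.2, Matrix.zero_vecMul]⟩

/-- The hom `x ↦ u ρ(x)`. -/
def uhom (u : Fin 2 → ZMod l) : I →+ (Fin 2 → ZMod l) where
  toFun x := Matrix.vecMul u (R.ρ x)
  map_zero' := by
    change Matrix.vecMul u (R.ρ 0) = 0
    rw [R.zero, Matrix.vecMul_zero]
  map_add' x y := by
    change Matrix.vecMul u (R.ρ (x + y)) = _
    rw [R.add x x.2 y y.2, Matrix.vecMul_add]

theorem exists_vecMul (hu : u ≠ 0) (w : Fin 2 → ZMod l) :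
    ∃ a : Matrix (Fin 2) (Fin 2) (ZMod l), Matrix.vecMul u a = w := by
  obtain ⟨i, hi⟩ : ∃ i, u i ≠ 0 := by
    by_contra h
    push Not at h
    exact hu (funext h)
  refine ⟨Matrix.of fun k j => if k = i then (u i)⁻¹ * w j else 0, ?_⟩
  ext j
  rw [Matrix.vecMul, dotProduct, Finset.sum_eq_single i]
  · rw [Matrix.of_apply, if_pos rfl, mul_inv_cancel_left₀ hi]
  · intro k _ hk
    rw [Matrix.of_apply, if_neg hk, mul_zero]
  · intro h
    exact absurd (Finset.mem_univ i) h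

theorem uhom_surjective (hu : u ≠ 0) : Function.Surjective (R.uhom u) := by
  intro w
  obtain ⟨a, ha⟩ := exists_vecMul hu w
  obtain ⟨x, hx, hxa⟩ := R.surj a
  exact ⟨⟨x, hx⟩, by rw [← ha, ← hxa]; rfl⟩

theorem idx_lat (hu : u ≠ 0) : idx (R.lat u) I = l ^ 2 := by
  have hker : (R.uhom u).ker = (R.lat u).toAddSubgroup.addSubgroupOf I.toAddSubgroup := by
    ext x
    exact ⟨fun h => ⟨x.2, h⟩, fun h => h.2⟩
  calc idx (R.lat u) I = (R.uhom u).ker.index := by rw [hker]; rfl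
    _ = Nat.card (R.uhom u).range := AddSubgroup.index_ker _
    _ = Nat.card (Fin 2 → ZMod l) := by
      rw [AddMonoidHom.range_eq_top.mpr (R.uhom_surjective hu)]
      exact Nat.card_congr AddSubgroup.topEquiv.toEquiv
    _ = l ^ 2 := by rw [Nat.card_fun, Nat.card_zmod, Nat.card_eq_fintype_card, Fintype.card_fin]

/-- A local generator. -/
theorem exists_gen (hI : S.IsLat I) : ∃ e ∈ I, R.ρ e = 1 ∧ e ≠ 0 ∧ e • S.OO ≤ I ∧
    ¬ l ∣ idx (e • S.OO) I := by
  obtain ⟨e, he, h1⟩ := R.surj 1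
  have he0 : e ≠ 0 := by
    rintro rfl
    rw [R.zero] at h1
    exact zero_ne_one h1
  have hle : e • S.OO ≤ I := by
    intro x hx
    obtain ⟨y, hy, rfl⟩ := mem_smul.mp hx
    exact hI.mul_mem he hy
  refine ⟨e, he, h1, he0, hle, ?_⟩
  refine not_dvd_idx_of_add hl.out ((QOrder.isLat_OO.smul he0).idx_ne_zero hI) fun x hx => ?_
  obtain ⟨y, hy⟩ := R.π_surj (R.ρ x)
  have h2 : R.ρ (x - e * y) = 0 := by
    rw [R.sub hx (hI.mul_mem he y.2), R.mul e he, h1, one_mul, hy, sub_self]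
  obtain ⟨z, hz, hz'⟩ := mem_smul.mp ((R.ker _ (I.sub_mem hx (hI.mul_mem he y.2))).mp h2)
  refine ⟨e * y, mem_smul.mpr ⟨_, y.2, rfl⟩, z, hz, ?_⟩
  rw [nsmul_eq_mul, hz', add_sub_cancel]

/-- The covector lattices are locally principal. -/
theorem isLat_lat (hI : S.IsLat I) (hu : u ≠ 0) : S.IsLat (R.lat u) := by
  intro p hp
  by_cases hpl : p = l
  · subst hpl
    obtain ⟨e, he, h1, he0, hle, hidx⟩ := R.exists_gen hI
    -- a rank one matrix killed by `u`
    set α : Matrix (Fin 2) (Fin 2) (ZMod p) := !![u 1, 0; -u 0, 0] with hα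
    have hα0 : α ≠ 0 := by
      intro h
      refine hu (funext fun i => ?_)
      fin_cases i
      · have := congrFun (congrFun h 1) 0
        rw [hα] at this
        simpa using this
      · have := congrFun (congrFun h 0) 0
        rw [hα] at this
        simpa using this
    have hdet : α.det = 0 := by rw [hα, Matrix.det_fin_two_of, mul_zero, zero_mul, sub_zero]
    have huα : Matrix.vecMul u α = 0 := by
      ext j
      fin_cases j
      · rw [hα]; simp [Matrix.vecMul, dotProduct, Fin.sum_univ_two, mul_comm]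
      · rw [hα]; simp [Matrix.vecMul, dotProduct, Fin.sum_univ_two]
    obtain ⟨y, hy, n, hn, hpn⟩ := QOrder.exists_lift R.π_surj hα0 hdet
    have hy0 : (y : D) ≠ 0 := by
      intro h
      have : S.nrd (y : D) = 0 := by rw [h, S.nrd_zero]
      rw [hn] at this
      have hp0 : ((p : ℤ) : ℚ) ≠ 0 := by exact_mod_cast hp.ne_zero
      have h2 : (n : ℚ) = 0 := (mul_eq_zero.mp this).resolve_left hp0
      exact hpn (by rw [Int.cast_eq_zero.mp h2]; exact dvd_zero _)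
    have hmem : e * y ∈ R.lat u := ⟨hI.mul_mem he y.2, by
      rw [R.mul e he, h1, one_mul, hy]; exact huα⟩
    have hle2 : (e * (y : D)) • S.OO ≤ R.lat u := by
      intro x hx
      obtain ⟨z, hz, rfl⟩ := mem_smul.mp hx
      exact R.lat_mul hI hmem ⟨z, hz⟩
    refine ⟨e * y, mul_ne_zero he0 hy0, LEq.symm (LEq.of_idx hp hle2 ?_)⟩
    -- index computation
    have i1 := idx_mul hle2 R.lat_le
    have hle3 : (e * (y : D)) • S.OO ≤ e • S.OO := by
      rw [← smul_smul]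
      exact smul_le_smul (S.smul_OO_le y.2)
    have i2 := idx_mul hle3 hle
    have i3 : (idx ((e * (y : D)) • S.OO) (e • S.OO) : ℚ) = ((p : ℤ) * n : ℚ) ^ 2 := by
      rw [QOrder.idx_smul_OO (mul_ne_zero he0 hy0) he0 hle3, inv_mul_cancel_left₀ he0, hn]
    have i4 : idx ((e * (y : D)) • S.OO) (e • S.OO) = p ^ 2 * n.natAbs ^ 2 := by
      have : ((idx ((e * (y : D)) • S.OO) (e • S.OO) : ℕ) : ℤ) = ((p ^ 2 * n.natAbs ^ 2 : ℕ) : ℤ) := by
        push_cast
        rw [sq_abs, ← mul_pow]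
        exact_mod_cast i3
      exact_mod_cast this
    rw [R.idx_lat hu, ← i2, i4] at i1
    have i5 : idx ((e * (y : D)) • S.OO) (R.lat u) = n.natAbs ^ 2 * idx (e • S.OO) I := by
      have hp2 : p ^ 2 ≠ 0 := pow_ne_zero 2 hp.ne_zero
      refine Nat.eq_of_mul_eq_mul_right (Nat.pos_of_ne_zero hp2) ?_
      rw [i1]
      ring
    rw [i5]
    intro h
    rcases hp.dvd_mul.mp h with h | h
    · have := hp.dvd_of_dvd_pow h
      exact hpn (Int.natCast_dvd.mpr this)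
    · exact hidx h
  · obtain ⟨x, hx, h1⟩ := hI p hp
    refine ⟨x, hx, LEq.trans ⟨LLE.of_le R.lat_le, ?_⟩ h1⟩
    have hc : l.Coprime p := (Nat.coprime_primes hl.out hp).mpr fun h => hpl h.symm
    exact (LEq.natCast hc).2.trans (LLE.of_le R.le_lat)

theorem lat_mem_Nb (hI : S.IsLat I) (hu : u ≠ 0) : R.lat u ∈ S.Nb l I :=
  ⟨R.isLat_lat hI hu, R.lat_le, R.idx_lat hu⟩

/-- Every `O`-stable lattice strictly between `l I` and `I` is a covector lattice. -/
theorem exists_eq_lat {L : Submodule ℤ D} (h1 : (l : D) • I ≤ L)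
    (h2 : L ≤ I) (hmul : ∀ x ∈ L, ∀ y : S.O, x * y ∈ L) (h3 : ¬ L ≤ (l : D) • I)
    (h4 : ¬ I ≤ L) : ∃ u : Fin 2 → ZMod l, u ≠ 0 ∧ L = R.lat u := by
  obtain ⟨x₀, hx₀, hx₀'⟩ := SetLike.not_le_iff_exists.mp h3
  have hρ0 : R.ρ x₀ ≠ 0 := fun h => hx₀' ((R.ker x₀ (h2 hx₀)).mp h)
  obtain ⟨i, j, hij⟩ : ∃ i j, R.ρ x₀ i j ≠ 0 := by
    by_contra h
    push Not at h
    exact hρ0 (Matrix.ext fun i j => h i j)
  set w : Fin 2 → ZMod l := fun i => R.ρ x₀ i j with hw
  have hw0 : w ≠ 0 := fun h => hij (congrFun h i)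
  -- every `w ⊗ v` is in the image of `L`
  have hwv : ∀ v : Fin 2 → ZMod l, ∃ x ∈ L, R.ρ x = Matrix.vecMulVec w v := by
    intro v
    obtain ⟨y, hy⟩ := R.π_surj (Matrix.vecMulVec (Pi.single j 1) v)
    refine ⟨x₀ * y, hmul x₀ hx₀ y, ?_⟩
    rw [R.mul x₀ (h2 hx₀), hy]
    ext a b
    simp [Matrix.mul_apply, Matrix.vecMulVec_apply, Fin.sum_univ_two, hw]
    fin_cases j <;> simp
  refine ⟨![w 1, -w 0], ?_, ?_⟩
  · intro h
    refine hw0 (funext fun i => ?_)
    fin_cases i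
    · have := congrFun h 1
      simpa using this
    · have := congrFun h 0
      simpa using this
  · -- all columns are multiples of `w`
    have hcol : ∀ x ∈ L, ∀ b, w 1 * R.ρ x 0 b = w 0 * R.ρ x 1 b := by
      intro x hx b
      by_contra hne
      refine h4 fun y hy => ?_
      -- `w` and the column `w' = ρ(x)_b` span
      set w' : Fin 2 → ZMod l := fun i => R.ρ x i b with hw'
      have hΔ : w 0 * w' 1 - w 1 * w' 0 ≠ 0 := by
        intro h
        rw [sub_eq_zero] at h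
        exact hne h.symm
      have hw'v : ∀ v : Fin 2 → ZMod l, ∃ x ∈ L, R.ρ x = Matrix.vecMulVec w' v := by
        intro v
        obtain ⟨y, hy⟩ := R.π_surj (Matrix.vecMulVec (Pi.single b 1) v)
        refine ⟨x * y, hmul x hx y, ?_⟩
        rw [R.mul x (h2 hx), hy]
        ext a c
        simp [Matrix.mul_apply, Matrix.vecMulVec_apply, Fin.sum_univ_two, hw']
        fin_cases b <;> simp
      set Δ := w 0 * w' 1 - w 1 * w' 0 with hΔ'
      obtain ⟨a, ha, ha'⟩ := hwv fun c => Δ⁻¹ * (w' 1 * R.ρ y 0 c - w' 0 * R.ρ y 1 c)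
      obtain ⟨a2, ha2, ha2'⟩ := hw'v fun c => Δ⁻¹ * (w 0 * R.ρ y 1 c - w 1 * R.ρ y 0 c)
      have hsum : R.ρ (a + a2) = R.ρ y := by
        rw [R.add a (h2 ha) a2 (h2 ha2), ha', ha2']
        ext c d
        rw [Matrix.add_apply, Matrix.vecMulVec_apply, Matrix.vecMulVec_apply]
        fin_cases c
        · change w 0 * (Δ⁻¹ * (w' 1 * R.ρ y 0 d - w' 0 * R.ρ y 1 d)) +
            w' 0 * (Δ⁻¹ * (w 0 * R.ρ y 1 d - w 1 * R.ρ y 0 d)) = R.ρ y 0 d
          have : w 0 * (Δ⁻¹ * (w' 1 * R.ρ y 0 d - w' 0 * R.ρ y 1 d)) +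
            w' 0 * (Δ⁻¹ * (w 0 * R.ρ y 1 d - w 1 * R.ρ y 0 d)) = Δ⁻¹ * Δ * R.ρ y 0 d := by
            rw [hΔ']; ring
          rw [this, inv_mul_cancel₀ hΔ, one_mul]
        · change w 1 * (Δ⁻¹ * (w' 1 * R.ρ y 0 d - w' 0 * R.ρ y 1 d)) +
            w' 1 * (Δ⁻¹ * (w 0 * R.ρ y 1 d - w 1 * R.ρ y 0 d)) = R.ρ y 1 d
          have : w 1 * (Δ⁻¹ * (w' 1 * R.ρ y 0 d - w' 0 * R.ρ y 1 d)) +
            w' 1 * (Δ⁻¹ * (w 0 * R.ρ y 1 d - w 1 * R.ρ y 0 d)) = Δ⁻¹ * Δ * R.ρ y 1 d := by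
            rw [hΔ']; ring
          rw [this, inv_mul_cancel₀ hΔ, one_mul]
      have haL := L.add_mem ha ha2
      have hd : R.ρ (y - (a + a2)) = 0 := by rw [R.sub hy (h2 haL), hsum, sub_self]
      have hd' := h1 ((R.ker _ (I.sub_mem hy (h2 haL))).mp hd)
      have := L.add_mem hd' haL
      rwa [sub_add_cancel] at this
    apply le_antisymm
    · intro x hx
      refine ⟨h2 hx, ?_⟩
      ext b
      have h5 := hcol x hx b
      simp [Matrix.vecMul, dotProduct, Fin.sum_univ_two, h5]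
    · rintro x ⟨hx, hxu⟩
      have h5 : ∀ b, w 1 * R.ρ x 0 b = w 0 * R.ρ x 1 b := by
        intro b
        have := congrFun hxu b
        simp [Matrix.vecMul, dotProduct, Fin.sum_univ_two] at this
        exact sub_eq_zero.mp (by rw [sub_eq_add_neg]; exact this)
      -- so `ρ x = w ⊗ v`
      obtain ⟨v, hv⟩ : ∃ v : Fin 2 → ZMod l, R.ρ x = Matrix.vecMulVec w v := by
        by_cases hw00 : w 0 = 0
        · have hw1 : w 1 ≠ 0 := by
            intro h
            refine hw0 (funext fun i => ?_)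
            fin_cases i
            · exact hw00
            · exact h
          refine ⟨fun b => (w 1)⁻¹ * R.ρ x 1 b, ?_⟩
          ext a b
          fin_cases a
          · have := h5 b
            rw [hw00, zero_mul] at this
            change R.ρ x 0 b = w 0 * _
            rw [(mul_eq_zero.mp this).resolve_left hw1, hw00, zero_mul]
          · change R.ρ x 1 b = w 1 * ((w 1)⁻¹ * R.ρ x 1 b)
            rw [mul_inv_cancel_left₀ hw1]
        · refine ⟨fun b => (w 0)⁻¹ * R.ρ x 0 b, ?_⟩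
          ext a b
          fin_cases a
          · change R.ρ x 0 b = w 0 * ((w 0)⁻¹ * R.ρ x 0 b)
            rw [mul_inv_cancel_left₀ hw00]
          · change R.ρ x 1 b = w 1 * ((w 0)⁻¹ * R.ρ x 0 b)
            rw [mul_left_comm, h5 b, inv_mul_cancel_left₀ hw00]
      obtain ⟨y, hy, hy'⟩ := hwv v
      have hd : R.ρ (x - y) = 0 := by rw [R.sub hx (h2 hy), hv, hy', sub_self]
      have hd' := h1 ((R.ker _ (I.sub_mem hx (h2 hy))).mp hd)
      have := L.add_mem hd' hy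
      rwa [sub_add_cancel] at this

end Red

end Fermat.Agent.P2.Quat
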