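/-
P2, block 3: neighbours: containment of `n I`, finiteness, counting, scalars.
-/
import Fermat.Agent.P2.Quat.Nbr

open scoped Pointwise LinearAlgebra.Projectivization

namespace Fermat.Agent.P2.Quat

variable {D : Type} [DivisionRing D] [Algebra ℚ D] {S : QOrder D}

/-- There are finitely many lattices between two commensurable ones. -/
theorem finite_between {D : Type*} [AddCommGroup D] {A I : Submodule ℤ D} (h : idx A I ≠ 0) :
    {J : Submodule ℤ D | A ≤ J ∧ J ≤ I}.Finite := by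
  let Q := A.toAddSubgroup.addSubgroupOf I.toAddSubgroup
  have hfin : Finite (I.toAddSubgroup ⧸ Q) := AddSubgroup.index_ne_zero_iff_finite.mp h
  let f : Submodule ℤ D → Set (I.toAddSubgroup ⧸ Q) := fun J =>
    {q | ∃ x : I.toAddSubgroup, (x : D) ∈ J ∧ QuotientAddGroup.mk' Q x = q}
  refine Set.Finite.of_finite_image (f := f) (Set.toFinite _) ?_
  have key : ∀ J J' : Submodule ℤ D, A ≤ J' → J ≤ I → f J = f J' → J ≤ J' := by
    intro J J' hA hJ hf x hx
    have h1 : QuotientAddGroup.mk' Q ⟨x, hJ hx⟩ ∈ f J := ⟨_, hx, rfl⟩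
    rw [hf] at h1
    obtain ⟨y, hy, hxy⟩ := h1
    rw [QuotientAddGroup.mk'_apply, QuotientAddGroup.mk'_apply, QuotientAddGroup.eq] at hxy
    have h2 : -(y : D) + x ∈ A := hxy
    have := J'.add_mem hy (hA h2)
    rwa [add_neg_cancel_left] at this
  rintro J ⟨hJ1, hJ2⟩ J' ⟨hJ1', hJ2'⟩ hf
  exact le_antisymm (key J J' hJ1' hJ2 hf) (key J' J hJ1 hJ2' hf.symm)

namespace QOrder

variable {I J K L : Submodule ℤ D} {n l : ℕ}

/-- A lattice in `Nb n I` contains `n I`. -/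
theorem IsLat.smul_le_of_mem_Nb (hI : S.IsLat I) (hn : n ≠ 0) (hJ : J ∈ S.Nb n I) :
    (n : D) • I ≤ J := by
  obtain ⟨hJ, hJI, hidx⟩ := hJ
  refine le_of_forall_LLE fun p hp => ?_
  have := Fact.mk hp
  obtain ⟨x, hx, h1⟩ := hI p hp
  obtain ⟨y, hy, h2⟩ := hJ p hp
  have h3 := hI.padicVal_idx hJ hJI hp hx hy h1 h2
  rw [hidx, padicValNat.pow, Nat.cast_mul, Nat.cast_ofNat] at h3
  have h4 : (padicValNat p n : ℤ) = padicValRat p (S.nrd (x⁻¹ * y)) := by linarith
  set z := x⁻¹ * y with hz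
  have hz0 : z ≠ 0 := mul_ne_zero (inv_ne_zero hx) hy
  -- `k z ∈ O`
  obtain ⟨k1, hk1, hk1'⟩ := h2.2
  obtain ⟨k2, hk2, hk2'⟩ := h1.1
  have hk : k2 * k1 ≠ 0 := by
    intro h
    rcases mul_eq_zero.mp h with h | h
    · rw [h, Nat.coprime_zero_left] at hk2; exact hp.one_lt.ne' hk2
    · rw [h, Nat.coprime_zero_left] at hk1; exact hp.one_lt.ne' hk1
  have hkp : (k2 * k1).Coprime p := Nat.Coprime.mul_left hk2 hk1
  set k := k2 * k1 with hkdef
  have hkz : (k : D) * z ∈ S.O := by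
    have h5 : k2 • (k1 • y) ∈ x • S.OO :=
      hk2' _ (hJI (hk1' y (mem_smul.mpr ⟨1, S.one_mem_OO, mul_one y⟩)))
    rw [smul_smul, ← hkdef, mem_smul_iff hx, nsmul_eq_mul, ← mul_assoc,
      ← (Nat.cast_commute k x⁻¹).eq, mul_assoc] at h5
    exact h5
  obtain ⟨a, ha⟩ := S.nrd_int _ hkz
  have ha1 : (a : ℚ) = (k : ℚ) ^ 2 * S.nrd z := by rw [← ha, S.nrd_mul, S.nrd_natCast]
  have hapos : 0 < a := by
    have : (0 : ℚ) < a := by
      rw [ha1]
      exact mul_pos (pow_pos (by exact_mod_cast Nat.pos_of_ne_zero hk) 2) (S.nrd_pos z hz0)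
    exact_mod_cast this
  obtain ⟨a, rfl⟩ := Int.eq_ofNat_of_zero_le hapos.le
  have ha0 : a ≠ 0 := by
    rintro rfl
    exact lt_irrefl _ hapos
  have hva : padicValNat p a = padicValNat p n := by
    have h5 : padicValRat p ((a : ℕ) : ℚ) = padicValRat p (S.nrd z) := by
      have h6 : (((a : ℕ) : ℤ) : ℚ) = (k : ℚ) ^ 2 * S.nrd z := ha1
      rw [Int.cast_natCast] at h6
      rw [h6, padicValRat.mul (pow_ne_zero 2 (Nat.cast_ne_zero.mpr hk)) (S.nrd_ne_zero hz0),
        padicValRat.pow, padicValRat.of_nat, padicValNat.eq_zero_of_not_dvd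
          ((Nat.Prime.coprime_iff_not_dvd hp).mp hkp.symm), Nat.cast_zero, mul_zero, zero_add]
    rw [padicValRat.of_nat, ← h4] at h5
    exact_mod_cast h5
  -- `a' n = n' a`
  obtain ⟨e, a', ha', hae⟩ := Nat.exists_eq_pow_mul_and_not_dvd ha0 p hp.ne_one
  obtain ⟨e', n', hn', hne⟩ := Nat.exists_eq_pow_mul_and_not_dvd hn p hp.ne_one
  have hee : e = e' := by
    have h5 := hva
    have ha'0 : a' ≠ 0 := by rintro rfl; exact ha' (dvd_zero _)
    have hn'0 : n' ≠ 0 := by rintro rfl; exact hn' (dvd_zero _)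
    rw [hae, hne, padicValNat.mul (pow_ne_zero _ hp.ne_zero) ha'0,
      padicValNat.mul (pow_ne_zero _ hp.ne_zero) hn'0, padicValNat.prime_pow,
      padicValNat.prime_pow, padicValNat.eq_zero_of_not_dvd ha',
      padicValNat.eq_zero_of_not_dvd hn'] at h5
    exact h5
  have hkey : a' * n = n' * a := by
    rw [hae, hne, hee]; ring
  have h5 : LLE p ((n : D) • (x • S.OO)) (y • S.OO) := by
    refine ⟨a', ((Nat.Prime.coprime_iff_not_dvd hp).mpr ha').symm, fun w₁ hw₁ => ?_⟩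
    obtain ⟨w₂, hw₂, rfl⟩ := mem_smul.mp hw₁
    obtain ⟨w, hw, rfl⟩ := mem_smul.mp hw₂
    have h6 : (a : D) = ((k : D) * z) * S.conj ((k : D) * z) := by
      rw [S.mul_conj, ha, map_intCast, Int.cast_natCast]
    have h7 : a' • ((n : D) * (x * w)) = y * ((k : D) * (S.conj ((k : D) * z) * ((n' : D) * w))) := by
      calc a' • ((n : D) * (x * w)) = ((a' * n : ℕ) : D) * (x * w) := by
            rw [nsmul_eq_mul, ← mul_assoc, Nat.cast_mul]
        _ = x * ((a : D) * ((n' : D) * w)) := by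
            rw [hkey, ← mul_assoc, (Nat.cast_commute _ x).eq, mul_assoc, Nat.cast_mul,
              (Nat.cast_commute n' (a : D)).eq, mul_assoc]
        _ = x * (((k : D) * z) * S.conj ((k : D) * z) * ((n' : D) * w)) := by rw [h6]
        _ = x * (z * ((k : D) * (S.conj ((k : D) * z) * ((n' : D) * w)))) := by
            rw [(Nat.cast_commute k z).eq, mul_assoc, mul_assoc]
        _ = _ := by rw [hz, mul_assoc, mul_inv_cancel_left₀ hx]
    rw [h7]
    refine mem_smul.mpr ⟨_, ?_, rfl⟩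
    exact S.O.mul_mem (natCast_mem _ k) (S.O.mul_mem (conj_mem hkz)
      (S.O.mul_mem (natCast_mem _ n') hw))
  exact ((h1.1.smul (n : D)).trans h5).trans h2.2

theorem IsLat.finite_Nb (hI : S.IsLat I) (hn : n ≠ 0) : (S.Nb n I).Finite :=
  (finite_between ((hI.smul (natCast_ne_zero' hn)).idx_ne_zero hI)).subset
    fun _ hJ => ⟨hI.smul_le_of_mem_Nb hn hJ, hJ.2.1⟩

/-- (B-max) -/
theorem Nb_eq_of_le (hn : n ≠ 0) (hJ : J ∈ S.Nb n I) (hK : K ∈ S.Nb n I)
    (h : J ≤ K) : J = K := by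
  refine le_antisymm h (idx_eq_one.mp ?_)
  have h1 := idx_mul h hK.2.1
  rw [hJ.2.2, hK.2.2] at h1
  exact (Nat.mul_eq_right (pow_ne_zero 2 hn)).mp h1

theorem IsLat.idx_natCast_smul (hI : S.IsLat I) (hn : n ≠ 0) : idx ((n : D) • I) I = n ^ 4 := by
  have h0 := natCast_ne_zero' (D := D) hn
  refine (Nat.eq_iff_prime_padicValNat_eq _ _ ((hI.smul h0).idx_ne_zero hI)
    (pow_ne_zero 4 hn)).mpr fun p hp => ?_
  have := Fact.mk hp
  obtain ⟨x, hx, h1⟩ := hI p hp
  have h2 : LEq p ((n : D) • I) (((n : D) * x) • S.OO) := by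
    rw [← smul_smul]; exact h1.smul _
  have h3 := hI.padicVal_idx (hI.smul h0) (natCast_smul_le n) hp hx (mul_ne_zero h0 hx) h1 h2
  have e : x⁻¹ * ((n : D) * x) = (n : D) := by
    rw [← mul_assoc, ← (Nat.cast_commute n x⁻¹).eq, mul_assoc, inv_mul_cancel₀ hx, mul_one]
  rw [e, S.nrd_natCast, padicValRat.pow, padicValRat.of_nat] at h3
  rw [padicValNat.pow]
  have h4 : (padicValNat p (idx ((n : D) • I) I) : ℤ) = ((4 * padicValNat p n : ℕ) : ℤ) := by
    rw [h3, Nat.cast_mul, Nat.cast_ofNat, Nat.cast_ofNat]; ring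
  exact_mod_cast h4

/-- `y I ⊆ I` index. -/
theorem IsLat.idx_smul_self (hI : S.IsLat I) {d : D} (hd : d ≠ 0) (h : d • I ≤ I) :
    (idx (d • I) I : ℚ) = S.nrd d ^ 2 := by
  -- the square of the norm is a natural number
  have hloc : ∀ p : ℕ, p.Prime →
      (padicValNat p (idx (d • I) I) : ℤ) = 2 * padicValRat p (S.nrd d) := by
    intro p hp
    have := Fact.mk hp
    obtain ⟨x, hx, h1⟩ := hI p hp
    have h2 : LEq p (d • I) ((d * x) • S.OO) := by
      rw [← smul_smul]; exact h1.smul _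
    have h3 := hI.padicVal_idx (hI.smul hd) h hp hx (mul_ne_zero hd hx) h1 h2
    rw [S.nrd_mul, S.nrd_mul, S.nrd_inv, mul_comm (S.nrd d), ← mul_assoc,
      inv_mul_cancel₀ (S.nrd_ne_zero hx), one_mul] at h3
    exact h3
  have hpos := S.nrd_pos d hd
  -- compare numerators and denominators
  have hr : S.nrd d ^ 2 * ((idx (d • I) I : ℕ) : ℚ)⁻¹ = 1 := by
    set r := S.nrd d ^ 2 * ((idx (d • I) I : ℕ) : ℚ)⁻¹ with hr
    have hi0 : ((idx (d • I) I : ℕ) : ℚ) ≠ 0 :=
      Nat.cast_ne_zero.mpr ((hI.smul hd).idx_ne_zero hI)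
    have hr0 : 0 < r := by
      refine mul_pos (pow_pos hpos 2) (inv_pos.mpr ?_)
      exact_mod_cast Nat.pos_of_ne_zero ((hI.smul hd).idx_ne_zero hI)
    have hval : ∀ p : ℕ, p.Prime → padicValRat p r = 0 := by
      intro p hp
      have := Fact.mk hp
      rw [hr, padicValRat.mul (pow_ne_zero 2 hpos.ne') (inv_ne_zero hi0), padicValRat.pow,
        padicValRat.inv, padicValRat.of_nat, hloc p hp]
      push_cast
      ring
    have hnum : r.num.natAbs = r.den := by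
      refine (Nat.eq_iff_prime_padicValNat_eq _ _ (Int.natAbs_ne_zero.mpr
        (Rat.num_ne_zero.mpr hr0.ne')) r.den_ne_zero).mpr fun p hp => ?_
      have h1 := hval p hp
      rw [padicValRat_def, sub_eq_zero] at h1
      exact_mod_cast h1
    have h1 : (r.num : ℤ) = r.den := by
      rw [← hnum, Int.natAbs_of_nonneg (Rat.num_nonneg.mpr hr0.le)]
    rw [← Rat.num_div_den r, h1, Int.cast_natCast]
    exact div_self (Nat.cast_ne_zero.mpr r.den_ne_zero)
  have hi0 : ((idx (d • I) I : ℕ) : ℚ) ≠ 0 :=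
    Nat.cast_ne_zero.mpr ((hI.smul hd).idx_ne_zero hI)
  exact (mul_inv_eq_one₀ hi0).mp hr |>.symm

end QOrder

namespace Red

variable {l : ℕ} [hl : Fact l.Prime] {I J : Submodule ℤ D} (R : Red S l I)

theorem lat_eq_lat_iff {u v : Fin 2 → ZMod l} (hu : u ≠ 0) (hv : v ≠ 0) :
    R.lat u = R.lat v ↔ ∃ a : (ZMod l)ˣ, a • v = u := by
  constructor
  · intro h
    obtain ⟨x, hx, hxα⟩ := R.surj !![u 1, 0; -u 0, 0]
    have h1 : x ∈ R.lat u := by
      refine ⟨hx, ?_⟩
      rw [hxα]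
      ext j
      fin_cases j
      · simp [Matrix.vecMul, dotProduct, Fin.sum_univ_two, mul_comm]
      · simp [Matrix.vecMul, dotProduct, Fin.sum_univ_two]
    rw [h] at h1
    have h2 := congrFun h1.2 0
    rw [hxα] at h2
    simp [Matrix.vecMul, dotProduct, Fin.sum_univ_two] at h2
    have h3 : v 0 * u 1 = v 1 * u 0 := sub_eq_zero.mp (by rw [sub_eq_add_neg]; exact h2)
    by_cases hv0 : v 0 = 0
    · have hv1 : v 1 ≠ 0 := by
        intro h; refine hv (funext fun i => ?_)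
        fin_cases i
        · exact hv0
        · exact h
      have hu0 : u 0 = 0 := by
        rw [hv0, zero_mul] at h3
        exact (mul_eq_zero.mp h3.symm).resolve_left hv1
      have hu1 : u 1 ≠ 0 := by
        intro h; refine hu (funext fun i => ?_)
        fin_cases i
        · exact hu0
        · exact h
      refine ⟨Units.mk0 (u 1 * (v 1)⁻¹) (mul_ne_zero hu1 (inv_ne_zero hv1)), ?_⟩
      ext i
      fin_cases i
      · change (u 1 * (v 1)⁻¹) * v 0 = u 0
        rw [hv0, hu0, mul_zero]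
      · change (u 1 * (v 1)⁻¹) * v 1 = u 1
        rw [inv_mul_cancel_right₀ hv1]
    · have hu0 : u 0 ≠ 0 := by
        intro h
        rw [h, mul_zero] at h3
        have hu1 := (mul_eq_zero.mp h3).resolve_left hv0
        refine hu (funext fun i => ?_)
        fin_cases i
        · exact h
        · exact hu1
      refine ⟨Units.mk0 (u 0 * (v 0)⁻¹) (mul_ne_zero hu0 (inv_ne_zero hv0)), ?_⟩
      ext i
      fin_cases i
      · change (u 0 * (v 0)⁻¹) * v 0 = u 0
        rw [inv_mul_cancel_right₀ hv0]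
      · change (u 0 * (v 0)⁻¹) * v 1 = u 1
        have : (u 0 * (v 0)⁻¹) * v 1 = (v 0)⁻¹ * (v 1 * u 0) := by ring
        rw [this, ← h3, inv_mul_cancel_left₀ hv0]
  · rintro ⟨a, rfl⟩
    ext x
    rw [mem_lat, mem_lat]
    refine and_congr_right fun _ => ?_
    rw [Units.smul_def, Matrix.smul_vecMul, smul_eq_zero_iff_right a.ne_zero]

/-- Neighbours are exactly the covector lattices. -/
theorem mem_Nb_iff (hI : S.IsLat I) : J ∈ S.Nb l I ↔ ∃ u : Fin 2 → ZMod l, u ≠ 0 ∧ J = R.lat u := by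
  constructor
  · intro hJ
    refine R.exists_eq_lat (hI.smul_le_of_mem_Nb hl.out.ne_zero hJ) hJ.2.1
      (fun x hx y => hJ.1.mul_mem hx y.2) (fun h => ?_) fun h => ?_
    · have h1 := le_antisymm h (hI.smul_le_of_mem_Nb hl.out.ne_zero hJ)
      have h2 := hI.idx_natCast_smul hl.out.ne_zero
      rw [← h1, hJ.2.2] at h2
      have := Nat.pow_right_injective hl.out.two_le h2
      omega
    · have h1 := idx_eq_one.mpr h
      rw [hJ.2.2] at h1
      have := (Nat.pow_eq_one.mp h1)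
      rcases this with h | h
      · exact hl.out.one_lt.ne' h
      · omega
  · rintro ⟨u, hu, rfl⟩
    exact R.lat_mem_Nb hI hu

include R in
/-- There are `l + 1` neighbours. -/
theorem card_Nb (hI : S.IsLat I) : Nat.card (S.Nb l I) = l + 1 := by
  have h1 : Nat.card (ℙ (ZMod l) (Fin 2 → ZMod l)) = l + 1 := by
    rw [Projectivization.card_of_finrank_two (ZMod l) (Fin 2 → ZMod l)
      (by rw [Module.finrank_fin_fun]), Nat.card_zmod]
  rw [← h1]
  symm
  refine Nat.card_congr (Equiv.ofBijective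
    (fun v : ℙ (ZMod l) (Fin 2 → ZMod l) => (⟨R.lat v.rep, R.lat_mem_Nb hI v.rep_nonzero⟩ :
      S.Nb l I)) ⟨fun v w h => ?_, fun J => ?_⟩)
  · have h2 := congrArg Subtype.val h
    obtain ⟨a, ha⟩ := (R.lat_eq_lat_iff v.rep_nonzero w.rep_nonzero).mp h2
    rw [← v.mk_rep, ← w.mk_rep, Projectivization.mk_eq_mk_iff]
    exact ⟨a, ha⟩
  · obtain ⟨u, hu, hJ⟩ := (R.mem_Nb_iff hI).mp J.2
    refine ⟨Projectivization.mk _ u hu, Subtype.ext ?_⟩
    obtain ⟨a, ha⟩ := Projectivization.exists_smul_eq_mk_rep (ZMod l) u hu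
    change R.lat (Projectivization.mk (ZMod l) u hu).rep = J.1
    rw [hJ, R.lat_eq_lat_iff (Projectivization.rep_nonzero _) hu]
    exact ⟨a, ha⟩

/-- The matrix of a left multiplier. -/
theorem mul_left (hI : S.IsLat I) {e y : D} (he : e ∈ I) (he1 : R.ρ e = 1) (hy : y • I ≤ I)
    {x : D} (hx : x ∈ I) : R.ρ (y * x) = R.ρ (y * e) * R.ρ x := by
  obtain ⟨o, ho⟩ := R.π_surj (R.ρ x)
  have hmem : ∀ z ∈ I, y * z ∈ I := fun z hz => hy (mem_smul.mpr ⟨z, hz, rfl⟩)
  have h1 : R.ρ (x - e * o) = 0 := by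
    rw [R.sub hx (hI.mul_mem he o.2), R.mul e he, he1, one_mul, ho, sub_self]
  obtain ⟨z, hz, hz'⟩ := mem_smul.mp ((R.ker _ (I.sub_mem hx (hI.mul_mem he o.2))).mp h1)
  have h2 : y * x = y * e * o + l • (y * z) := by
    have : x = e * o + (l : D) * z := by rw [hz', add_sub_cancel]
    rw [this, mul_add, mul_assoc, nsmul_eq_mul, ← mul_assoc y (l : D), ← (Nat.cast_commute l y).eq,
      mul_assoc]
  rw [h2, R.add _ (hI.mul_mem (hmem e he) o.2) _ (I.smul_of_tower_mem l (hmem z hz)),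
    R.mul _ (hmem e he), ho, R.nsmul (hmem z hz), ← Nat.cast_smul_eq_nsmul (ZMod l),
    ZMod.natCast_self, zero_smul, add_zero]

include R in
/-- (B-scal) a left multiplier preserving a neighbour acts by a scalar on the quotient. -/
theorem exists_scalar (hI : S.IsLat I) {y : D} (hy : y • I ≤ I) (hJ : J ∈ S.Nb l I)
    (hyJ : y • J ≤ J) : ∃ c : ℤ, ∀ x ∈ I, y * x - c * x ∈ J := by
  obtain ⟨u, hu, rfl⟩ := (R.mem_Nb_iff hI).mp hJ
  obtain ⟨e, he, he1⟩ := R.surj 1
  set δ := R.ρ (y * e) with hδ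
  have hmem : ∀ z ∈ I, y * z ∈ I := fun z hz => hy (mem_smul.mpr ⟨z, hz, rfl⟩)
  -- `u δ` is proportional to `u`
  have h1 : ∀ x ∈ I, Matrix.vecMul u (R.ρ x) = 0 → Matrix.vecMul (Matrix.vecMul u δ) (R.ρ x) = 0 := by
    intro x hx h
    have h2 : y * x ∈ R.lat u := hyJ (mem_smul.mpr ⟨x, ⟨hx, h⟩, rfl⟩)
    rw [Matrix.vecMul_vecMul, ← R.mul_left hI he he1 hy hx]
    exact h2.2
  obtain ⟨x, hx, hxα⟩ := R.surj !![u 1, 0; -u 0, 0]
  have h2 : Matrix.vecMul u (R.ρ x) = 0 := by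
    rw [hxα]
    ext j
    fin_cases j
    · simp [Matrix.vecMul, dotProduct, Fin.sum_univ_two, mul_comm]
    · simp [Matrix.vecMul, dotProduct, Fin.sum_univ_two]
  have h3 := congrFun (h1 x hx h2) 0
  set v := Matrix.vecMul u δ with hv
  rw [hxα] at h3
  simp [Matrix.vecMul, dotProduct, Fin.sum_univ_two] at h3
  have h4 : v 0 * u 1 = v 1 * u 0 := sub_eq_zero.mp (by rw [sub_eq_add_neg]; exact h3)
  obtain ⟨c, hc⟩ : ∃ c : ZMod l, v = c • u := by
    by_cases hu0 : u 0 = 0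
    · have hu1 : u 1 ≠ 0 := by
        intro h; refine hu (funext fun i => ?_)
        fin_cases i
        · exact hu0
        · exact h
      have hv0 : v 0 = 0 := by
        rw [hu0, mul_zero] at h4
        exact (mul_eq_zero.mp h4).resolve_right hu1
      refine ⟨v 1 * (u 1)⁻¹, ?_⟩
      ext i
      fin_cases i
      · change v 0 = (v 1 * (u 1)⁻¹) * u 0
        rw [hv0, hu0, mul_zero]
      · change v 1 = (v 1 * (u 1)⁻¹) * u 1
        rw [inv_mul_cancel_right₀ hu1]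
    · refine ⟨v 0 * (u 0)⁻¹, ?_⟩
      ext i
      fin_cases i
      · change v 0 = (v 0 * (u 0)⁻¹) * u 0
        rw [inv_mul_cancel_right₀ hu0]
      · change v 1 = (v 0 * (u 0)⁻¹) * u 1
        have : (v 0 * (u 0)⁻¹) * u 1 = (u 0)⁻¹ * (v 0 * u 1) := by ring
        rw [this, h4, mul_comm (v 1), inv_mul_cancel_left₀ hu0]
  refine ⟨c.val, fun x hx => ?_⟩
  have hcx : ((c.val : ℤ) : D) * x = c.val • x := by rw [Int.cast_natCast, nsmul_eq_mul]
  rw [hcx]
  refine ⟨I.sub_mem (hmem x hx) (I.smul_of_tower_mem _ hx), ?_⟩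
  rw [R.sub (hmem x hx) (I.smul_of_tower_mem _ hx), R.nsmul hx, R.mul_left hI he he1 hy hx,
    Matrix.vecMul_sub, ← Matrix.vecMul_vecMul, ← hδ, ← hv, hc, Matrix.vecMul_smul,
    Matrix.smul_vecMul, ← Nat.cast_smul_eq_nsmul (ZMod l), ZMod.natCast_zmod_val, sub_self]

end Red

end Fermat.Agent.P2.Quat
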