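/-
P2, block 3: Brandt matrices: representatives, multiplicativity, symmetry, Atkin-Lehner.
-/
import Fermat.Agent.P2.Quat.NbrMain

open scoped Pointwise

namespace Fermat.Agent.P2.Quat

variable {D : Type} [DivisionRing D] [Algebra ℚ D] {S : QOrder D}

namespace QOrder

variable {I J K L : Submodule ℤ D} {n m l : ℕ}

theorem cls_eq_iff (hI : S.IsLat I) (hJ : S.IsLat J) :
    S.cls I hI = S.cls J hJ ↔ ∃ d : D, d ≠ 0 ∧ J = d • I :=
  Quotient.eq (r := S.setoid)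

theorem isLat_rep (x : S.X) : S.IsLat (S.rep x) := (Quotient.out x).2

theorem cls_rep (x : S.X) : S.cls (S.rep x) (isLat_rep x) = x := Quotient.out_eq x

theorem exists_cls (x : S.X) : ∃ I, ∃ h : S.IsLat I, S.cls I h = x := ⟨_, _, cls_rep x⟩

theorem cls_smul (hI : S.IsLat I) {d : D} (hd : d ≠ 0) :
    S.cls (d • I) (hI.smul hd) = S.cls I hI :=
  ((cls_eq_iff hI (hI.smul hd)).mpr ⟨d, hd, rfl⟩).symm

theorem cls_congr (hI : S.IsLat I) (hJ : S.IsLat J) (h : I = J) : S.cls I hI = S.cls J hJ := by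
  subst h; rfl

theorem smul_mem_Nb_iff {d : D} (hd : d ≠ 0) : d • J ∈ S.Nb n (d • I) ↔ J ∈ S.Nb n I := by
  change S.IsLat (d • J) ∧ d • J ≤ d • I ∧ idx (d • J) (d • I) = n ^ 2 ↔ _
  rw [isLat_smul_iff hd, smul_le_smul_iff hd, idx_smul hd]
  rfl

theorem Nb_one (hI : S.IsLat I) : S.Nb 1 I = {I} := by
  ext J
  constructor
  · rintro ⟨hJ, hJI, h⟩
    rw [one_pow] at h
    exact le_antisymm hJI (idx_eq_one.mp h)
  · rintro rfl
    exact ⟨hI, le_rfl, by rw [idx_self, one_pow]⟩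

/-- `O`-stable lattices strictly between `l I` and `I` are neighbours. -/
theorem IsLat.mem_Nb_of_between (hI : S.IsLat I) (hl : l.Prime) (hlM : ¬ l ∣ S.M)
    (h1 : (l : D) • I ≤ L) (h2 : L ≤ I) (hmul : ∀ x ∈ L, ∀ y : S.O, x * y ∈ L)
    (h3 : ¬ L ≤ (l : D) • I) (h4 : ¬ I ≤ L) : L ∈ S.Nb l I := by
  have := Fact.mk hl
  obtain ⟨R⟩ := hI.exists_red hl hlM
  obtain ⟨u, hu, rfl⟩ := R.exists_eq_lat h1 h2 hmul h3 h4
  exact R.lat_mem_Nb hI hu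

theorem IsLat.card_Nb (hI : S.IsLat I) (hl : l.Prime) (hlM : ¬ l ∣ S.M) :
    Nat.card (S.Nb l I) = l + 1 := by
  have := Fact.mk hl
  obtain ⟨R⟩ := hI.exists_red hl hlM
  exact R.card_Nb hI

theorem IsLat.exists_scalar (hI : S.IsLat I) (hl : l.Prime) (hlM : ¬ l ∣ S.M) {y : D}
    (hy : y • I ≤ I) (hJ : J ∈ S.Nb l I) (hyJ : y • J ≤ J) :
    ∃ c : ℤ, ∀ x ∈ I, y * x - c * x ∈ J := by
  have := Fact.mk hl
  obtain ⟨R⟩ := hI.exists_red hl hlM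
  exact R.exists_scalar hI hy hJ hyJ

theorem card_cls_smul {d : D} (hd : d ≠ 0) (I : Submodule ℤ D) (n : ℕ) (y : S.X) :
    Nat.card {J : Submodule ℤ D // ∃ h : J ∈ S.Nb n I, S.cls J h.1 = y} =
    Nat.card {J : Submodule ℤ D // ∃ h : J ∈ S.Nb n (d • I), S.cls J h.1 = y} := by
  refine Nat.card_congr ⟨fun J => ⟨d • J.1, (smul_mem_Nb_iff hd).mpr J.2.1, ?_⟩,
    fun J => ⟨d⁻¹ • J.1, ?_⟩, fun J => ?_, fun J => ?_⟩
  · exact (cls_smul J.2.1.1 hd).trans J.2.2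
  · have h1 := (smul_mem_Nb_iff (inv_ne_zero hd)).mpr J.2.1
    rw [inv_smul_smul' hd] at h1
    exact ⟨h1, (cls_smul J.2.1.1 (inv_ne_zero hd)).trans J.2.2⟩
  · exact Subtype.ext (inv_smul_smul' hd)
  · exact Subtype.ext (smul_inv_smul' hd)

/-- Brandt numbers do not depend on the representative. -/
theorem B_cls (hI : S.IsLat I) (n : ℕ) (y : S.X) : S.B n (S.cls I hI) y =
    Nat.card {J : Submodule ℤ D // ∃ h : J ∈ S.Nb n I, S.cls J h.1 = y} := by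
  obtain ⟨d, hd, h⟩ := (cls_eq_iff (isLat_rep _) hI).mp (cls_rep (S.cls I hI))
  have key : ∀ I' : Submodule ℤ D, I' = d • S.rep (S.cls I hI) → S.B n (S.cls I hI) y =
      Nat.card {J : Submodule ℤ D // ∃ h : J ∈ S.Nb n I', S.cls J h.1 = y} := by
    rintro _ rfl
    exact card_cls_smul hd _ n y
  exact key I h

theorem IsLat.finite_sub (hI : S.IsLat I) (hn : n ≠ 0) (y : S.X) :
    Finite {J : Submodule ℤ D // ∃ h : J ∈ S.Nb n I, S.cls J h.1 = y} := by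
  have := (hI.finite_Nb hn).to_subtype
  exact Finite.of_injective (fun J : {J : Submodule ℤ D // ∃ h : J ∈ S.Nb n I, S.cls J h.1 = y} =>
    (⟨J.1, J.2.1⟩ : S.Nb n I)) fun J J' h => Subtype.ext (congrArg (fun z : S.Nb n I => z.1) h)

/-- The Brandt matrix as an operator: sum over sublattices. -/
theorem sum_B [Fintype S.X] (hI : S.IsLat I) (hn : n ≠ 0) [Fintype (S.Nb n I)] {R : Type*}
    [Semiring R] (f : S.X → R) :
    ∑ y, (S.B n (S.cls I hI) y : R) * f y = ∑ J : S.Nb n I, f (S.cls J.1 J.2.1) := by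
  classical
  rw [← Finset.sum_fiberwise_of_maps_to (s := Finset.univ) (t := Finset.univ)
    (g := fun J : S.Nb n I => S.cls J.1 J.2.1) (fun _ _ => Finset.mem_univ _)]
  refine Finset.sum_congr rfl fun y _ => ?_
  have h1 : ∀ J ∈ Finset.univ.filter (fun J : S.Nb n I => S.cls J.1 J.2.1 = y),
      f (S.cls J.1 J.2.1) = f y := fun J hJ => by rw [(Finset.mem_filter.mp hJ).2]
  rw [Finset.sum_congr rfl h1, Finset.sum_const, nsmul_eq_mul, B_cls hI]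
  congr 2
  rw [← Fintype.card_subtype, ← Nat.card_eq_fintype_card]
  exact Nat.card_congr
    { toFun := fun J => ⟨⟨J.1, J.2.1⟩, J.2.2⟩
      invFun := fun J => ⟨J.1.1, J.1.2, J.2⟩
      left_inv := fun _ => rfl
      right_inv := fun _ => rfl }

theorem B_one [DecidableEq S.X] (x y : S.X) : S.B 1 x y = if x = y then 1 else 0 := by
  obtain ⟨I, hI, rfl⟩ := exists_cls x
  rw [B_cls]
  split_ifs with h
  · rw [Nat.card_eq_one_iff_unique]
    refine ⟨⟨fun J J' => Subtype.ext ?_⟩, ⟨⟨I, by rw [Nb_one hI]; rfl, h⟩⟩⟩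
    have h1 : J.1 = I := (Set.ext_iff.mp (Nb_one hI) _).mp J.2.1
    have h2 : J'.1 = I := (Set.ext_iff.mp (Nb_one hI) _).mp J'.2.1
    exact h1.trans h2.symm
  · rw [Nat.card_eq_zero]
    refine Or.inl ⟨fun J => h ?_⟩
    obtain ⟨J, hJ, hJy⟩ := J
    rw [← hJy]
    exact cls_congr _ _ ((Set.ext_iff.mp (Nb_one hI) _).mp hJ).symm

/-! ### Multiplicativity -/

/-- the intermediate lattice -/
def mid (n : ℕ) (I K : Submodule ℤ D) : Submodule ℤ D where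
  carrier := {x | x ∈ I ∧ n ^ 2 • x ∈ K}
  zero_mem' := ⟨I.zero_mem, by rw [smul_zero]; exact K.zero_mem⟩
  add_mem' := fun hx hy => ⟨I.add_mem hx.1 hy.1, by rw [smul_add]; exact K.add_mem hx.2 hy.2⟩
  smul_mem' := fun c x hx => ⟨I.smul_mem c hx.1, by rw [smul_comm]; exact K.smul_mem c hx.2⟩

theorem mid_spec (hI : S.IsLat I) (hm : m ≠ 0) (hn : n ≠ 0) (hmn : m.Coprime n)
    (hK : K ∈ S.Nb (m * n) I) : mid n I K ∈ S.Nb m I ∧ K ∈ S.Nb n (mid n I K) := by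
  obtain ⟨hK, hKI, hidx⟩ := hK
  have hle1 : mid n I K ≤ I := fun x hx => hx.1
  have hle2 : K ≤ mid n I K := fun x hx => ⟨hKI hx, K.smul_of_tower_mem _ hx⟩
  have e1 : ∀ x ∈ I, m ^ 2 • x ∈ mid n I K := fun x hx =>
    ⟨I.smul_of_tower_mem _ hx, by
      rw [smul_smul, ← mul_pow, mul_comm n m, ← hidx]; exact idx_smul_mem hx⟩
  have e2 : ∀ x ∈ mid n I K, n ^ 2 • x ∈ K := fun x hx => hx.2
  have hL : S.IsLat (mid n I K) := by
    intro p hp
    by_cases hpm : m.Coprime p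
    · obtain ⟨x, hx, h⟩ := hI p hp
      exact ⟨x, hx, LEq.trans ⟨LLE.of_le hle1, m ^ 2, Nat.Coprime.pow_left 2 hpm, e1⟩ h⟩
    · have hpm' : p ∣ m := by
        by_contra h
        exact hpm ((Nat.Prime.coprime_iff_not_dvd hp).mpr h).symm
      have hpn : n.Coprime p := (Nat.Coprime.coprime_dvd_left hpm' hmn).symm
      obtain ⟨x, hx, h⟩ := hK p hp
      exact ⟨x, hx, LEq.trans ⟨⟨n ^ 2, Nat.Coprime.pow_left 2 hpn, e2⟩, LLE.of_le hle2⟩ h⟩
  have h1 := idx_mul hle2 hle1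
  rw [hidx, mul_pow] at h1
  have c1 : Nat.Coprime (idx K (mid n I K)) (m ^ 2) := by
    refine Nat.Coprime.pow_right 2 (Nat.Coprime.symm ?_)
    refine Nat.Coprime.symm (Nat.coprime_of_dvd fun p hp h2 h3 => ?_)
    exact Quat.not_dvd_idx hp (Nat.Coprime.pow_left 2
      ((Nat.Coprime.coprime_dvd_left h3 hmn).symm)) e2 (hK.idx_ne_zero hL) h2
  have c2 : Nat.Coprime (idx (mid n I K) I) (n ^ 2) := by
    refine Nat.Coprime.pow_right 2 (Nat.coprime_of_dvd fun p hp h2 h3 => ?_)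
    exact Quat.not_dvd_idx hp (Nat.Coprime.pow_left 2
      ((Nat.Coprime.coprime_dvd_right h3 hmn))) e1 (hL.idx_ne_zero hI) h2
  have d1 : idx K (mid n I K) ∣ n ^ 2 :=
    c1.dvd_of_dvd_mul_left (h1 ▸ Dvd.intro _ rfl)
  have d2 : idx (mid n I K) I ∣ m ^ 2 :=
    c2.dvd_of_dvd_mul_right (h1 ▸ Dvd.intro_left _ rfl)
  have hm2 : 0 < m ^ 2 := Nat.pos_of_ne_zero (pow_ne_zero 2 hm)
  have hn2 : 0 < n ^ 2 := Nat.pos_of_ne_zero (pow_ne_zero 2 hn)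
  have g1 := Nat.le_of_dvd hn2 d1
  have g2 := Nat.le_of_dvd hm2 d2
  have g3 : idx K (mid n I K) = n ^ 2 := by
    refine le_antisymm g1 (Nat.le_of_mul_le_mul_left ?_ hm2)
    rw [← h1, mul_comm]
    exact Nat.mul_le_mul_right _ g2
  have g4 : idx (mid n I K) I = m ^ 2 := by
    rw [g3, mul_comm (m ^ 2)] at h1
    exact Nat.eq_of_mul_eq_mul_left hn2 h1
  exact ⟨⟨hL, hle1, g4⟩, hK, hle2, g3⟩

theorem eq_mid (hI : S.IsLat I) (hm : m ≠ 0) (hn : n ≠ 0) (hmn : m.Coprime n)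
    (hJ : J ∈ S.Nb m I) (hK : K ∈ S.Nb n J) (hK' : K ∈ S.Nb (m * n) I) : J = mid n I K := by
  refine Nb_eq_of_le hm hJ (mid_spec hI hm hn hmn hK').1 fun x hx => ⟨hJ.2.1 hx, ?_⟩
  rw [← hK.2.2]
  exact idx_smul_mem hx

theorem mem_Nb_trans (hJ : J ∈ S.Nb m I) (hK : K ∈ S.Nb n J) : K ∈ S.Nb (m * n) I := by
  refine ⟨hK.1, hK.2.1.trans hJ.2.1, ?_⟩
  rw [← idx_mul hK.2.1 hJ.2.1, hK.2.2, hJ.2.2, mul_pow, mul_comm]

/-- `B(m) B(n) = B(mn)` for coprime `m`, `n`. -/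
theorem B_mul [Fintype S.X] (hm : m ≠ 0) (hn : n ≠ 0) (hmn : m.Coprime n) (x z : S.X) :
    ∑ y, S.B m x y * S.B n y z = S.B (m * n) x z := by
  classical
  obtain ⟨I, hI, rfl⟩ := exists_cls x
  have : Fintype (S.Nb m I) := (hI.finite_Nb hm).fintype
  have h1 := sum_B hI hm (fun y => S.B n y z)
  simp only [Nat.cast_id] at h1
  rw [h1]
  have hfin : ∀ J : S.Nb m I,
      Finite {K : Submodule ℤ D // ∃ h : K ∈ S.Nb n J.1, S.cls K h.1 = z} := fun J =>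
    J.2.1.finite_sub hn z
  have h2 : ∀ J : S.Nb m I, S.B n (S.cls J.1 J.2.1) z =
      Nat.card {K : Submodule ℤ D // ∃ h : K ∈ S.Nb n J.1, S.cls K h.1 = z} :=
    fun J => B_cls J.2.1 n z
  rw [Finset.sum_congr rfl fun J _ => h2 J, ← Nat.card_sigma, B_cls hI]
  refine Nat.card_congr (Equiv.ofBijective (fun a => ⟨a.2.1, mem_Nb_trans a.1.2 a.2.2.1, a.2.2.2⟩)
    ⟨?_, ?_⟩)
  · rintro ⟨⟨J, hJ⟩, ⟨K, hK⟩⟩ ⟨⟨J', hJ'⟩, ⟨K', hK'⟩⟩ h
    have hKK : K = K' := congrArg Subtype.val h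
    subst hKK
    have e1 := eq_mid hI hm hn hmn hJ hK.1 (mem_Nb_trans hJ hK.1)
    have e2 := eq_mid hI hm hn hmn hJ' hK'.1 (mem_Nb_trans hJ' hK'.1)
    have hJJ : J = J' := e1.trans e2.symm
    subst hJJ
    rfl
  · rintro ⟨K, hK, hz⟩
    obtain ⟨g1, g2⟩ := mid_spec hI hm hn hmn hK
    exact ⟨⟨⟨mid n I K, g1⟩, ⟨K, g2, hz⟩⟩, rfl⟩

/-! ### The Atkin-Lehner involutions -/

theorem mul_P_mem_Nb (hI : S.IsLat I) (hm : m ∣ S.M) (h : J ∈ S.Nb n I) :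
    J * S.P m ∈ S.Nb n (I * S.P m) := by
  have h1 : J * S.P m ≤ I * S.P m := Submodule.mul_le.mpr fun a ha b hb =>
    Submodule.mul_mem_mul (h.2.1 ha) hb
  refine ⟨h.1.mul_P hm, h1, ?_⟩
  have h2 := idx_mul (h.1.mul_P_le hm) h.2.1
  have h3 := idx_mul h1 (hI.mul_P_le hm)
  rw [← h2, h.1.idx_mul_P hm, h.2.2, hI.idx_mul_P hm, mul_comm] at h3
  exact Nat.eq_of_mul_eq_mul_left
    (Nat.pos_of_ne_zero (pow_ne_zero 2 (ne_zero_of_dvd_ne_zero S.M_ne_zero hm))) h3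

theorem mul_P_mem_Nb_iff (hI : S.IsLat I) (hJ : S.IsLat J) (hm : m ∣ S.M) :
    J * S.P m ∈ S.Nb n (I * S.P m) ↔ J ∈ S.Nb n I := by
  refine ⟨fun h => ?_, fun h => mul_P_mem_Nb hI hm h⟩
  have h1 := mul_P_mem_Nb (hI.mul_P hm) hm h
  rw [hJ.mul_P_mul_P hm, hI.mul_P_mul_P hm] at h1
  exact (smul_mem_Nb_iff (natCast_ne_zero' (ne_zero_of_dvd_ne_zero S.M_ne_zero hm))).mp h1

variable (S) in
/-- The Atkin-Lehner involution `[I] ↦ [I P_m]`. -/
def w (m : ℕ) (hm : m ∣ S.M) : S.X → S.X :=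
  Quotient.map' (s₁ := S.setoid) (s₂ := S.setoid) (fun I => ⟨I.1 * S.P m, I.2.mul_P hm⟩) (by
    rintro I J ⟨d, hd, h⟩
    exact ⟨d, hd, by change J.1 * S.P m = d • (I.1 * S.P m); rw [h, smul_mul_assoc']⟩)

theorem w_cls (hm : m ∣ S.M) (hI : S.IsLat I) :
    S.w m hm (S.cls I hI) = S.cls (I * S.P m) (hI.mul_P hm) := rfl

theorem w_w (hm : m ∣ S.M) (x : S.X) : S.w m hm (S.w m hm x) = x := by
  obtain ⟨I, hI, rfl⟩ := exists_cls x
  rw [w_cls, w_cls]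
  have h0 := natCast_ne_zero' (D := D) (ne_zero_of_dvd_ne_zero S.M_ne_zero hm)
  exact ((cls_eq_iff hI _).mpr ⟨m, h0, hI.mul_P_mul_P hm⟩).symm

theorem w_mul {m' : ℕ} (h : m * m' ∣ S.M) (x : S.X) :
    S.w m' (dvd_of_mul_left_dvd h) (S.w m (dvd_of_mul_right_dvd h) x) = S.w (m * m') h x := by
  obtain ⟨I, hI, rfl⟩ := exists_cls x
  rw [w_cls, w_cls, w_cls]
  exact cls_congr _ _ (mul_P_mul_P' h)

theorem w_one (x : S.X) : S.w 1 (one_dvd _) x = x := by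
  obtain ⟨I, hI, rfl⟩ := exists_cls x
  rw [w_cls]
  exact cls_congr _ _ hI.mul_P_one

/-- Brandt matrices commute with the Atkin-Lehner involutions. -/
theorem B_w (hm : m ∣ S.M) (n : ℕ) (x y : S.X) :
    S.B n (S.w m hm x) (S.w m hm y) = S.B n x y := by
  obtain ⟨I, hI, rfl⟩ := exists_cls x
  have h0 := natCast_ne_zero' (D := D) (ne_zero_of_dvd_ne_zero S.M_ne_zero hm)
  rw [w_cls, B_cls, B_cls]
  symm
  refine Nat.card_congr ⟨fun J => ⟨J.1 * S.P m, mul_P_mem_Nb hI hm J.2.1, ?_⟩,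
    fun J => ⟨(m : D)⁻¹ • (J.1 * S.P m), ?_⟩, fun J => Subtype.ext ?_, fun J => Subtype.ext ?_⟩
  · rw [← w_cls hm J.2.1.1, J.2.2]
  · have h1 := mul_P_mem_Nb (hI.mul_P hm) hm J.2.1
    rw [hI.mul_P_mul_P hm] at h1
    have h2 := (smul_mem_Nb_iff (inv_ne_zero h0)).mpr h1
    rw [inv_smul_smul' h0] at h2
    refine ⟨h2, ?_⟩
    have h3 := w_cls hm J.2.1.1
    rw [J.2.2, w_w] at h3
    exact (cls_smul _ (inv_ne_zero h0)).trans h3.symm
  · change (m : D)⁻¹ • ((J.1 * S.P m) * S.P m) = J.1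
    rw [J.2.1.1.mul_P_mul_P hm, inv_smul_smul' h0]
  · change ((m : D)⁻¹ • (J.1 * S.P m)) * S.P m = J.1
    rw [smul_mul_assoc', J.2.1.1.mul_P_mul_P hm, inv_smul_smul' h0]

/-! ### Symmetry -/

variable (S) in
/-- All units of left orders are trivial. -/
def UnitsTrivial : Prop := ∀ I : Submodule ℤ D, S.IsLat I → ∀ u : D, u • I = I → u = 1 ∨ u = -1

theorem smul_inv_mem_Nb (hI : S.IsLat I) (hJ : S.IsLat J) (hn : n ≠ 0) {d : D}
    (hd : d ≠ 0) (h : d • J ∈ S.Nb n I) : ((n : D) * d⁻¹) • I ∈ S.Nb n J := by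
  have h0 := natCast_ne_zero' (D := D) hn
  have h1 := hI.smul_le_of_mem_Nb hn h
  have h2 : (n : D) • I ∈ S.Nb n (d • J) := by
    refine ⟨hI.smul h0, h1, ?_⟩
    have h3 := idx_mul h1 h.2.1
    rw [hI.idx_natCast_smul hn, h.2.2] at h3
    have hn2 : 0 < n ^ 2 := Nat.pos_of_ne_zero (pow_ne_zero 2 hn)
    refine Nat.eq_of_mul_eq_mul_right hn2 (h3.trans ?_)
    ring
  rw [← smul_mem_Nb_iff hd, ← smul_smul, smul_smul, (Nat.cast_commute n d).eq.symm, mul_smul,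
    smul_inv_smul' hd]
  exact h2

theorem card_smul_mem_Nb (hU : S.UnitsTrivial) (hI : S.IsLat I) (hJ : S.IsLat J) (hn : n ≠ 0) :
    Nat.card {d : D // d ≠ 0 ∧ d • J ∈ S.Nb n I} = 2 * S.B n (S.cls I hI) (S.cls J hJ) := by
  classical
  rw [B_cls, mul_comm]
  have hfin := hI.finite_sub (S := S) hn (S.cls J hJ)
  -- choose `c K` with `K = c K • J`
  have hc : ∀ K : {K : Submodule ℤ D // ∃ h : K ∈ S.Nb n I, S.cls K h.1 = S.cls J hJ},
      ∃ d : D, d ≠ 0 ∧ K.1 = d • J := fun K => (cls_eq_iff hJ K.2.1.1).mp K.2.2.symm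
  choose c hc0 hc using hc
  have h2 : Nat.card (ℤˣ) = 2 := by rw [Nat.card_eq_fintype_card, Fintype.card_units_int]
  have h2' : Nat.card {K : Submodule ℤ D // ∃ h : K ∈ S.Nb n I, S.cls K h.1 = S.cls J hJ} * 2 =
      Nat.card ({K : Submodule ℤ D // ∃ h : K ∈ S.Nb n I, S.cls K h.1 = S.cls J hJ} × ℤˣ) := by
    rw [Nat.card_prod, h2]
  rw [h2']
  have hneg : ∀ (d : D) (K : Submodule ℤ D), (-d) • K = d • K := by
    intro d K
    ext x
    rw [Quat.mem_smul, Quat.mem_smul]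
    constructor
    · rintro ⟨y, hy, rfl⟩
      exact ⟨-y, K.neg_mem hy, by rw [mul_neg, neg_mul]⟩
    · rintro ⟨y, hy, rfl⟩
      exact ⟨-y, K.neg_mem hy, by rw [neg_mul_neg]⟩
  have hunit : ∀ (e : ℤˣ) (d : D) (K : Submodule ℤ D), (((e : ℤ) : D) * d) • K = d • K := by
    intro e d K
    rcases Int.units_eq_one_or e with rfl | rfl
    · rw [Units.val_one, Int.cast_one, one_mul]
    · rw [Units.val_neg, Units.val_one, Int.cast_neg, Int.cast_one, neg_one_mul, hneg]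
  symm
  refine Nat.card_congr (Equiv.ofBijective (fun a => ⟨((a.2 : ℤ) : D) * c a.1, ?_, ?_⟩) ⟨?_, ?_⟩)
  · refine mul_ne_zero ?_ (hc0 a.1)
    rcases Int.units_eq_one_or a.2 with h | h <;> rw [h] <;> simp
  · rw [hunit, ← hc]
    exact a.1.2.1
  · rintro ⟨K, e⟩ ⟨K', e'⟩ h
    have h3 : ((e : ℤ) : D) * c K = ((e' : ℤ) : D) * c K' := congrArg Subtype.val h
    have hKK : K = K' := by
      refine Subtype.ext ?_
      rw [hc K, hc K', ← hunit e, ← hunit e' (c K'), h3]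
    subst hKK
    have h4 := mul_right_cancel₀ (hc0 K) h3
    have h5 : (e : ℤ) = e' := by
      rw [← map_intCast (algebraMap ℚ D), ← map_intCast (algebraMap ℚ D)] at h4
      exact_mod_cast algebraMap_inj h4
    rw [Units.ext h5]
  · rintro ⟨d, hd, hdJ⟩
    have hK : S.cls (d • J) hdJ.1 = S.cls J hJ := cls_smul hJ hd
    set K : {K : Submodule ℤ D // ∃ h : K ∈ S.Nb n I, S.cls K h.1 = S.cls J hJ} :=
      ⟨d • J, hdJ, hK⟩ with hKdef
    have h3 : d • J = c K • J := hc K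
    have h4 : (d * (c K)⁻¹) • (c K • J) = c K • J := by
      rw [smul_smul, inv_mul_cancel_right₀ (hc0 K), h3]
    rcases hU _ (hJ.smul (hc0 K)) _ h4 with h | h
    · refine ⟨⟨K, 1⟩, Subtype.ext ?_⟩
      change (((1 : ℤˣ) : ℤ) : D) * c K = d
      rw [Units.val_one, Int.cast_one, one_mul, ← one_mul (c K), ← h,
        inv_mul_cancel_right₀ (hc0 K)]
    · refine ⟨⟨K, -1⟩, Subtype.ext ?_⟩
      change (((-1 : ℤˣ) : ℤ) : D) * c K = d
      rw [Units.val_neg, Units.val_one, Int.cast_neg, Int.cast_one, ← h,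
        inv_mul_cancel_right₀ (hc0 K)]

/-- Brandt matrices are symmetric. -/
theorem B_symm (hU : S.UnitsTrivial) (hn : n ≠ 0) (x y : S.X) : S.B n x y = S.B n y x := by
  obtain ⟨I, hI, rfl⟩ := exists_cls x
  obtain ⟨J, hJ, rfl⟩ := exists_cls y
  have h0 := natCast_ne_zero' (D := D) hn
  refine Nat.eq_of_mul_eq_mul_left two_pos ?_
  rw [← card_smul_mem_Nb hU hI hJ hn, ← card_smul_mem_Nb hU hJ hI hn]
  refine Nat.card_congr ⟨fun d => ⟨(n : D) * d.1⁻¹, mul_ne_zero h0 (inv_ne_zero d.2.1),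
    smul_inv_mem_Nb hI hJ hn d.2.1 d.2.2⟩, fun d => ⟨(n : D) * d.1⁻¹,
    mul_ne_zero h0 (inv_ne_zero d.2.1), smul_inv_mem_Nb hJ hI hn d.2.1 d.2.2⟩,
    fun d => Subtype.ext ?_, fun d => Subtype.ext ?_⟩
  · change (n : D) * ((n : D) * d.1⁻¹)⁻¹ = d.1
    rw [mul_inv_rev, inv_inv, ← mul_assoc, (Nat.cast_commute n d.1).eq,
      mul_inv_cancel_right₀ h0]
  · change (n : D) * ((n : D) * d.1⁻¹)⁻¹ = d.1
    rw [mul_inv_rev, inv_inv, ← mul_assoc, (Nat.cast_commute n d.1).eq,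
      mul_inv_cancel_right₀ h0]

end QOrder

end Fermat.Agent.P2.Quat
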