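/-
P2, block 3: primes `q` inert in `K = ℚ(√-N)`, and the ideal-theoretic lemma behind (sep).
-/
import Fermat.Agent.P2.Quat.Emb

set_option autoImplicit false

open scoped nonZeroDivisors NumberField
open IsDedekindDomain FractionalIdeal

namespace Fermat.Agent.P2.Quat

namespace ImQuad

variable {N : ℕ} {K : Type} [Field K] [NumberField K] (Q : ImQuad N K)

/-- integral coordinates -/
theorem exists_int (h2 : N % 4 = 2) (hN : Squarefree N) (x : 𝓞 K) :
    ∃ a b : ℤ, (x : K) = a + b * Q.s := by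
  obtain ⟨⟨a, ha⟩, b, hb⟩ := (Q.isIntegral_iff h2 hN (x : K)).mp x.2
  refine ⟨a, b, ?_⟩
  have h := Q.eq_re_im (x : K)
  rw [ha, hb, map_intCast, map_intCast] at h
  exact h

/-- `√-N` as an integer -/
noncomputable def sO : 𝓞 K := ⟨Q.s, by
  refine ⟨Polynomial.X ^ 2 + Polynomial.C (N : ℤ), Polynomial.monic_X_pow_add_C _ two_ne_zero, ?_⟩
  simp [pow_two, Q.sq]⟩

theorem algebraMap_sO : algebraMap (𝓞 K) K Q.sO = Q.s := rfl

theorem sO_sq : Q.sO * Q.sO = -(N : 𝓞 K) := by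
  apply FaithfulSMul.algebraMap_injective (𝓞 K) K
  rw [map_mul, map_neg, map_natCast, algebraMap_sO, Q.sq]

theorem exists_int' (h2 : N % 4 = 2) (hN : Squarefree N) (x : 𝓞 K) :
    ∃ a b : ℤ, x = a + b * Q.sO := by
  obtain ⟨a, b, h⟩ := Q.exists_int h2 hN x
  refine ⟨a, b, ?_⟩
  apply FaithfulSMul.algebraMap_injective (𝓞 K) K
  rw [map_add, map_mul, map_intCast, map_intCast, algebraMap_sO, ← h]

theorem re_int (a b : ℤ) : Q.re ((a : K) + b * Q.s) = a ∧ Q.im ((a : K) + b * Q.s) = b :=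
  Q.re_im_unique (by rw [map_intCast, map_intCast])

/-- the norm form -/
theorem nf_mul {a b c d e f : ℤ}
    (h : ((a : K) + b * Q.s) * ((c : K) + d * Q.s) = (e : K) + f * Q.s) :
    (a ^ 2 + N * b ^ 2) * (c ^ 2 + N * d ^ 2) = e ^ 2 + N * f ^ 2 := by
  have h1 := Q.re_mul ((a : K) + b * Q.s) ((c : K) + d * Q.s)
  have h2 := Q.im_mul ((a : K) + b * Q.s) ((c : K) + d * Q.s)
  rw [h, (Q.re_int a b).1, (Q.re_int a b).2, (Q.re_int c d).1, (Q.re_int c d).2,
    (Q.re_int e f).1] at h1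
  rw [h, (Q.re_int a b).1, (Q.re_int a b).2, (Q.re_int c d).1, (Q.re_int c d).2,
    (Q.re_int e f).2] at h2
  have h3 : ((a : ℚ) ^ 2 + N * b ^ 2) * (c ^ 2 + N * d ^ 2) = e ^ 2 + N * f ^ 2 := by
    rw [h1, h2]; ring
  exact_mod_cast h3

theorem dvd_of_dvd_nf {q : ℕ} (hq : q.Prime) (hns : ¬ IsSquare (-(N : ZMod q))) {a b : ℤ}
    (h : (q : ℤ) ∣ a ^ 2 + N * b ^ 2) : (q : ℤ) ∣ a ∧ (q : ℤ) ∣ b := by
  have := Fact.mk hq
  have hq' : Prime (q : ℤ) := Nat.prime_iff_prime_int.mp hq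
  have hb : (q : ℤ) ∣ b := by
    by_contra hb
    apply hns
    have h1 := (ZMod.intCast_zmod_eq_zero_iff_dvd _ q).mpr h
    push_cast at h1
    have h2 : (b : ZMod q) ≠ 0 := fun h3 => hb ((ZMod.intCast_zmod_eq_zero_iff_dvd _ q).mp h3)
    refine ⟨a / b, ?_⟩
    field_simp
    linear_combination -h1
  refine ⟨?_, hb⟩
  have h1 : (q : ℤ) ∣ a ^ 2 := by
    have h2 : (q : ℤ) ∣ N * b ^ 2 := (dvd_pow hb two_ne_zero).mul_left _
    exact (dvd_add_left h2).mp h
  exact hq'.dvd_of_dvd_pow h1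

theorem natCast_dvd_iff (h2 : N % 4 = 2) (hN : Squarefree N) {q : ℕ} {a b : ℤ} :
    (q : 𝓞 K) ∣ (a : 𝓞 K) + b * Q.sO ↔ (q : ℤ) ∣ a ∧ (q : ℤ) ∣ b := by
  constructor
  · rintro ⟨z, hz⟩
    obtain ⟨c, d, rfl⟩ := Q.exists_int' h2 hN z
    have h1 := congrArg (algebraMap (𝓞 K) K) hz
    rw [map_add, map_mul, map_mul, map_add, map_mul, map_intCast, map_intCast, map_natCast,
      map_intCast, map_intCast] at h1
    change (a : K) + b * Q.s = q * (c + d * Q.s) at h1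
    have h3 := Q.re_int a b
    have h4 : (a : K) + b * Q.s = ((q * c : ℤ) : K) + ((q * d : ℤ) : K) * Q.s := by
      rw [h1]; push_cast; ring
    have h5 := Q.re_int (q * c) (q * d)
    rw [← h4, h3.1, h3.2] at h5
    exact ⟨⟨c, by exact_mod_cast h5.1⟩, ⟨d, by exact_mod_cast h5.2⟩⟩
  · rintro ⟨⟨c, rfl⟩, d, rfl⟩
    exact ⟨c + d * Q.sO, by push_cast; ring⟩

include Q

/-- If `-N` is not a square modulo `q`, then `q` is inert. -/
theorem prime_of_inert (h2 : N % 4 = 2) (hN : Squarefree N) {q : ℕ} (hq : q.Prime)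
    (hns : ¬ IsSquare (-(N : ZMod q))) : Prime (q : 𝓞 K) := by
  have hq' : Prime (q : ℤ) := Nat.prime_iff_prime_int.mp hq
  refine ⟨Nat.cast_ne_zero.mpr hq.ne_zero, ?_, ?_⟩
  · rw [isUnit_iff_dvd_one]
    have h1 := Q.natCast_dvd_iff h2 hN (q := q) (a := 1) (b := 0)
    rw [Int.cast_one, Int.cast_zero, zero_mul, add_zero] at h1
    rw [h1]
    rintro ⟨h3, -⟩
    exact hq'.not_isUnit (isUnit_of_dvd_one h3)
  · intro x y h
    obtain ⟨a, b, rfl⟩ := Q.exists_int' h2 hN x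
    obtain ⟨c, d, rfl⟩ := Q.exists_int' h2 hN y
    obtain ⟨e, f, hef⟩ := Q.exists_int' h2 hN (((a : 𝓞 K) + b * Q.sO) * (c + d * Q.sO))
    have h1 := congrArg (algebraMap (𝓞 K) K) hef
    rw [map_mul, map_add, map_mul, map_add, map_mul, map_intCast, map_intCast, map_intCast,
      map_intCast, map_add, map_mul, map_intCast, map_intCast] at h1
    change ((a : K) + b * Q.s) * ((c : K) + d * Q.s) = (e : K) + f * Q.s at h1
    have h3 := Q.nf_mul h1
    rw [hef, Q.natCast_dvd_iff h2 hN] at h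
    have h4 : (q : ℤ) ∣ (a ^ 2 + N * b ^ 2) * (c ^ 2 + N * d ^ 2) := by
      rw [h3]
      exact dvd_add (dvd_pow h.1 two_ne_zero) ((dvd_pow h.2 two_ne_zero).mul_left _)
    rw [Q.natCast_dvd_iff h2 hN, Q.natCast_dvd_iff h2 hN]
    rcases hq'.dvd_or_dvd h4 with h5 | h5
    · exact Or.inl (dvd_of_dvd_nf hq hns h5)
    · exact Or.inr (dvd_of_dvd_nf hq hns h5)

/-- the inert place -/
noncomputable def inertPlace (h2 : N % 4 = 2) (hN : Squarefree N) {q : ℕ} (hq : q.Prime)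
    (hns : ¬ IsSquare (-(N : ZMod q))) : HeightOneSpectrum (𝓞 K) where
  asIdeal := Ideal.span {(q : 𝓞 K)}
  isPrime := (Ideal.span_singleton_prime (Nat.cast_ne_zero.mpr hq.ne_zero)).mpr
    (Q.prime_of_inert h2 hN hq hns)
  ne_bot := by
    rw [Ne, Ideal.span_singleton_eq_bot]
    exact Nat.cast_ne_zero.mpr hq.ne_zero

open Classical in
theorem count_natCast (h2 : N % 4 = 2) (hN : Squarefree N) {q : ℕ} (hq : q.Prime)
    (hns : ¬ IsSquare (-(N : ZMod q))) {A : ℕ} (hA : Squarefree A) :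
    count K (Q.inertPlace h2 hN hq hns) ((Ideal.span {(A : 𝓞 K)} : Ideal (𝓞 K)) :
      FractionalIdeal (𝓞 K)⁰ K) = if q ∣ A then 1 else 0 := by
  set v := Q.inertPlace h2 hN hq hns with hv
  have key : ∀ B : ℕ, B ≠ 0 → ¬ q ∣ B → count K v ((Ideal.span {(B : 𝓞 K)} : Ideal (𝓞 K)) :
      FractionalIdeal (𝓞 K)⁰ K) = 0 := by
    intro B hB hqB
    have hB' : (Ideal.span {(B : 𝓞 K)} : Ideal (𝓞 K)) ≠ 0 := by
      rw [Ne, Submodule.zero_eq_bot, Ideal.span_singleton_eq_bot]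
      exact Nat.cast_ne_zero.mpr hB
    rw [count_coe K v hB', Nat.cast_eq_zero]
    by_contra h
    rw [← Ne, Associates.count_ne_zero_iff_dvd hB' v.irreducible] at h
    have h3 : (B : 𝓞 K) ∈ Ideal.span {(q : 𝓞 K)} := (Ideal.dvd_iff_le.mp h)
      (Ideal.mem_span_singleton_self _)
    rw [Ideal.mem_span_singleton] at h3
    have h4 := Q.natCast_dvd_iff h2 hN (q := q) (a := B) (b := 0)
    rw [Int.cast_natCast, Int.cast_zero, zero_mul, add_zero] at h4
    exact hqB (by exact_mod_cast (h4.mp h3).1)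
  have hA0 : A ≠ 0 := hA.ne_zero
  split_ifs with h
  · obtain ⟨B, rfl⟩ := h
    have hB0 : B ≠ 0 := fun h => hA0 (by rw [h, mul_zero])
    have hqB : ¬ q ∣ B := by
      rintro ⟨c, rfl⟩
      have := hA q ⟨c, by ring⟩
      exact hq.one_lt.ne' (Nat.isUnit_iff.mp this)
    have e : (Ideal.span {((q * B : ℕ) : 𝓞 K)} : Ideal (𝓞 K)) =
        Ideal.span {(q : 𝓞 K)} * Ideal.span {(B : 𝓞 K)} := by
      rw [Ideal.span_singleton_mul_span_singleton, Nat.cast_mul]
    rw [e, coeIdeal_mul, count_mul, key B hB0 hqB, add_zero]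
    · exact count_self K v
    · exact coeIdeal_ne_zero.mpr v.ne_bot
    · rw [coeIdeal_ne_zero, Ne, Ideal.span_singleton_eq_bot]
      exact Nat.cast_ne_zero.mpr hB0
  · exact key A hA0 h

omit Q

/-- A fractional ideal with trivial square is trivial. -/
theorem eq_one_of_sq {I : FractionalIdeal (𝓞 K)⁰ K} (h : I * I = 1) : I = 1 := by
  have key : ∀ J : FractionalIdeal (𝓞 K)⁰ K, J * J = 1 → J ≤ 1 := by
    intro J hJ x hx
    have h1 : x * x ∈ J * J := FractionalIdeal.mul_mem_mul hx hx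
    rw [hJ, FractionalIdeal.mem_one_iff] at h1
    obtain ⟨y, hy⟩ := h1
    have h2 : IsIntegral (𝓞 K) (x ^ 2) := by
      rw [pow_two, ← hy]; exact isIntegral_algebraMap
    have h3 : IsIntegral (𝓞 K) x := IsIntegral.of_pow two_pos h2
    have h4 := IsIntegrallyClosed.isIntegral_iff.mp h3
    rw [FractionalIdeal.mem_one_iff]
    exact h4
  refine le_antisymm (key I h) ?_
  calc (1 : FractionalIdeal (𝓞 K)⁰ K) = I * I := h.symm
    _ ≤ I * 1 := mul_le_mul_right (key I h) I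
    _ = I := mul_one I

theorem eq_span_mul_of_sq {I J : FractionalIdeal (𝓞 K)⁰ K} (hJ : J ≠ 0) {t : K} (ht : t ≠ 0)
    (h : I * I = spanSingleton (𝓞 K)⁰ (t * t) * (J * J)) :
    I = spanSingleton (𝓞 K)⁰ t * J := by
  set L := spanSingleton (𝓞 K)⁰ t * J with hL
  have hL0 : L ≠ 0 := mul_ne_zero (by rwa [Ne, spanSingleton_eq_zero_iff]) hJ
  have h1 : I * I = L * L := by
    rw [h, hL, ← spanSingleton_mul_spanSingleton]
    ring
  have h2 : (I * L⁻¹) * (I * L⁻¹) = 1 := by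
    calc (I * L⁻¹) * (I * L⁻¹) = (I * I) * (L⁻¹ * L⁻¹) := by ring
      _ = (L * L⁻¹) * (L * L⁻¹) := by rw [h1]; ring
      _ = 1 := by rw [mul_inv_cancel₀ hL0, one_mul]
  have h3 := eq_one_of_sq h2
  calc I = (I * L⁻¹) * L := by rw [mul_assoc, inv_mul_cancel₀ hL0, mul_one]
    _ = L := by rw [h3, one_mul]

/-- **The class lemma**: if `A 𝔵² = A' 𝔷²` with `A = d` or `dN`, `A' = d'` or `d'N`, `d, d'`
products of inert primes, then `𝔵` and `𝔷` are in the same class. -/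
theorem exists_eq_span_mul (Q : ImQuad N K) (h2 : N % 4 = 2) (hN : Squarefree N) {d d' : ℕ}
    {A A' : ℕ} (hA : A = d ∨ A = d * N) (hA' : A' = d' ∨ A' = d' * N)
    (hsA : Squarefree (d * N)) (hsA' : Squarefree (d' * N))
    (hd : ∀ q : ℕ, q.Prime → q ∣ d → ¬ IsSquare (-(N : ZMod q)))
    (hd' : ∀ q : ℕ, q.Prime → q ∣ d' → ¬ IsSquare (-(N : ZMod q)))
    {I J : FractionalIdeal (𝓞 K)⁰ K} (hI : I ≠ 0) (hJ : J ≠ 0)
    (h : spanSingleton (𝓞 K)⁰ (A : K) * (I * I) = spanSingleton (𝓞 K)⁰ (A' : K) * (J * J)) :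
    ∃ t : K, t ≠ 0 ∧ I = spanSingleton (𝓞 K)⁰ t * J := by
  have hN0 : N ≠ 0 := hN.ne_zero
  have hsd : Squarefree d := hsA.of_mul_left
  have hsd' : Squarefree d' := hsA'.of_mul_left
  have hsqA : Squarefree A := by rcases hA with rfl | rfl <;> assumption
  have hsqA' : Squarefree A' := by rcases hA' with rfl | rfl <;> assumption
  have hcop : Nat.Coprime d N := Nat.coprime_of_squarefree_mul hsA
  have hcop' : Nat.Coprime d' N := Nat.coprime_of_squarefree_mul hsA'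
  have hspan : ∀ B : ℕ, ((Ideal.span {(B : 𝓞 K)} : Ideal (𝓞 K)) : FractionalIdeal (𝓞 K)⁰ K) =
      spanSingleton (𝓞 K)⁰ (B : K) := by
    intro B
    rw [coeIdeal_span_singleton, map_natCast]
  have hspan0 : ∀ B : ℕ, B ≠ 0 → spanSingleton (𝓞 K)⁰ (B : K) ≠ 0 := by
    intro B hB
    rw [Ne, spanSingleton_eq_zero_iff]
    exact Nat.cast_ne_zero.mpr hB
  have hII : I * I ≠ 0 := mul_ne_zero hI hI
  have hJJ : J * J ≠ 0 := mul_ne_zero hJ hJ
  -- the primes of `d` and `d'` agree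
  have hkey : ∀ q : ℕ, q.Prime → ¬ IsSquare (-(N : ZMod q)) → (q ∣ A ↔ q ∣ A') := by
    classical
    intro q hq hns
    have h1 := congrArg (count K (Q.inertPlace h2 hN hq hns)) h
    rw [count_mul K _ (hspan0 A hsqA.ne_zero) hII, count_mul K _ (hspan0 A' hsqA'.ne_zero) hJJ,
      count_mul K _ hI hI, count_mul K _ hJ hJ, ← hspan, ← hspan,
      Q.count_natCast h2 hN hq hns hsqA, Q.count_natCast h2 hN hq hns hsqA'] at h1
    split_ifs at h1 with h3 h4 h4
    · exact ⟨fun _ => h4, fun _ => h3⟩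
    · omega
    · omega
    · exact ⟨fun h => absurd h h3, fun h => absurd h h4⟩
  have hqN : ∀ q : ℕ, q.Prime → ¬ IsSquare (-(N : ZMod q)) → ¬ q ∣ N := by
    intro q hq hns hqN
    apply hns
    rw [(ZMod.natCast_eq_zero_iff N q).mpr hqN, neg_zero]
    exact ⟨0, by rw [mul_zero]⟩
  have hdvd : ∀ q : ℕ, q.Prime → (q ∣ d ↔ q ∣ d') := by
    intro q hq
    constructor
    · intro hqd
      have hns := hd q hq hqd
      have h3 : q ∣ A := by
        rcases hA with rfl | rfl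
        · exact hqd
        · exact hqd.mul_right _
      have h4 := (hkey q hq hns).mp h3
      rcases hA' with rfl | rfl
      · exact h4
      · exact (hq.dvd_mul.mp h4).resolve_right (hqN q hq hns)
    · intro hqd
      have hns := hd' q hq hqd
      have h3 : q ∣ A' := by
        rcases hA' with rfl | rfl
        · exact hqd
        · exact hqd.mul_right _
      have h4 := (hkey q hq hns).mpr h3
      rcases hA with rfl | rfl
      · exact h4
      · exact (hq.dvd_mul.mp h4).resolve_right (hqN q hq hns)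
  have hdd : d = d' := (Nat.Squarefree.ext_iff hsd hsd').mpr hdvd
  subst hdd
  have hs0 : Q.s ≠ 0 := by
    intro h0
    have h1 := Q.sq
    rw [h0, mul_zero, eq_comm, neg_eq_zero, Nat.cast_eq_zero] at h1
    exact hN0 h1
  have hNs : spanSingleton (𝓞 K)⁰ (N : K) = spanSingleton (𝓞 K)⁰ (Q.s * Q.s) := by
    rw [Q.sq, ← neg_one_mul, ← spanSingleton_mul_spanSingleton]
    have h1 : spanSingleton (𝓞 K)⁰ (-1 : K) = 1 := by
      rw [← map_one (algebraMap (𝓞 K) K), ← map_neg, ← coeIdeal_span_singleton,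
        Ideal.span_singleton_eq_top.mpr isUnit_one.neg, coeIdeal_top]
    rw [h1, one_mul]
  have hd0 : d ≠ 0 := hsd.ne_zero
  have hdc : ∀ {X Y : FractionalIdeal (𝓞 K)⁰ K},
      spanSingleton (𝓞 K)⁰ (d : K) * X = spanSingleton (𝓞 K)⁰ (d : K) * Y → X = Y :=
    fun h => mul_left_cancel₀ (hspan0 d hd0) h
  have hone : spanSingleton (𝓞 K)⁰ ((1 : K) * 1) = 1 := by rw [mul_one, spanSingleton_one]
  rcases hA with rfl | rfl <;> rcases hA' with rfl | rfl
  · refine ⟨1, one_ne_zero, eq_span_mul_of_sq hJ one_ne_zero ?_⟩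
    rw [hone, one_mul]
    exact hdc h
  · refine ⟨Q.s, hs0, eq_span_mul_of_sq hJ hs0 ?_⟩
    rw [Nat.cast_mul, ← spanSingleton_mul_spanSingleton, mul_assoc, hNs] at h
    exact hdc h
  · refine ⟨Q.s⁻¹, inv_ne_zero hs0, eq_span_mul_of_sq hJ (inv_ne_zero hs0) ?_⟩
    rw [Nat.cast_mul, ← spanSingleton_mul_spanSingleton, mul_assoc, hNs] at h
    rw [← hdc h, ← mul_assoc, spanSingleton_mul_spanSingleton, ← mul_inv,
      inv_mul_cancel₀ (mul_ne_zero hs0 hs0), spanSingleton_one, one_mul]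
  · refine ⟨1, one_ne_zero, eq_span_mul_of_sq hJ one_ne_zero ?_⟩
    rw [hone, one_mul]
    refine mul_left_cancel₀ (hspan0 (d * N) (mul_ne_zero hd0 hN0)) h

end ImQuad

end Fermat.Agent.P2.Quat
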