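/-
P2, block 3: conjugation, reduced trace and norm.
-/
import Fermat.Agent.P2.Quat.Lat

set_option autoImplicit false

namespace Fermat.Agent.P2.Quat.NL

variable {D : Type} [DivisionRing D] [Algebra ℚ D] (A : QAlg D)

/-- conjugation as an additive homomorphism -/
def conjHom : D →+ D := AddMonoidHom.mk' A.conj A.conj_add

theorem conjHom_apply (x : D) : NL.conjHom A x = A.conj x := rfl

theorem conj_sub (x y : D) : A.conj (x - y) = A.conj x - A.conj y := map_sub (conjHom A) x y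

theorem conj_nsmul (n : ℕ) (x : D) : A.conj (n • x) = n • A.conj x := map_nsmul (conjHom A) n x

theorem conj_zsmul (n : ℤ) (x : D) : A.conj (n • x) = n • A.conj x := map_zsmul (conjHom A) n x

theorem conj_smul (r : ℚ) (x : D) : A.conj (r • x) = r • A.conj x :=
  map_rat_smul (conjHom A) r x

theorem conj_ne_zero {x : D} (hx : x ≠ 0) : A.conj x ≠ 0 := by
  intro h
  apply hx
  rw [← A.conj_conj x, h, A.conj_zero]

theorem conj_comm (x : D) : A.conj x * x = x * A.conj x := by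
  rw [A.conj_mul_self, A.mul_conj]

theorem nrd_eq_of_mul_conj {x : D} {r : ℚ} (h : x * A.conj x = algebraMap ℚ D r) : A.nrd x = r :=
  algebraMap_inj (D := D) (by rw [← A.mul_conj, h])

theorem trd_eq_of_add_conj {x : D} {r : ℚ} (h : x + A.conj x = algebraMap ℚ D r) : A.trd x = r :=
  algebraMap_inj (D := D) (by rw [← A.add_conj, h])

theorem nrd_smul (r : ℚ) (x : D) : A.nrd (r • x) = r ^ 2 * A.nrd x := by
  rw [Algebra.smul_def, A.nrd_mul, A.nrd_algebraMap]

theorem nrd_nsmul (n : ℕ) (x : D) : A.nrd (n • x) = (n : ℚ) ^ 2 * A.nrd x := by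
  rw [nsmul_eq_mul, A.nrd_mul, A.nrd_natCast]

theorem nrd_zsmul (n : ℤ) (x : D) : A.nrd (n • x) = (n : ℚ) ^ 2 * A.nrd x := by
  have := NL.nrd_smul A (n : ℚ) x
  rwa [Int.cast_smul_eq_zsmul] at this

theorem nrd_nonneg (x : D) : 0 ≤ A.nrd x := by
  by_cases hx : x = 0
  · rw [hx, A.nrd_zero]
  · exact (A.nrd_pos x hx).le

theorem trd_neg (x : D) : A.trd (-x) = -A.trd x := by
  refine NL.trd_eq_of_add_conj A ?_
  rw [A.conj_neg, map_neg, ← A.add_conj]
  abel

theorem trd_sub (x y : D) : A.trd (x - y) = A.trd x - A.trd y := by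
  rw [sub_eq_add_neg, A.trd_add, NL.trd_neg A, sub_eq_add_neg]

theorem trd_smul (r : ℚ) (x : D) : A.trd (r • x) = r * A.trd x := by
  refine NL.trd_eq_of_add_conj A ?_
  rw [NL.conj_smul A, Algebra.smul_def, Algebra.smul_def, ← mul_add, A.add_conj, map_mul]

theorem trd_nsmul (n : ℕ) (x : D) : A.trd (n • x) = n * A.trd x := by
  have := NL.trd_smul A (n : ℚ) x
  rwa [Nat.cast_smul_eq_nsmul] at this

theorem trd_zsmul (n : ℤ) (x : D) : A.trd (n • x) = n * A.trd x := by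
  have := NL.trd_smul A (n : ℚ) x
  rwa [Int.cast_smul_eq_zsmul] at this

theorem trd_algebraMap (r : ℚ) : A.trd (algebraMap ℚ D r) = 2 * r := by
  refine NL.trd_eq_of_add_conj A ?_
  rw [A.conj_algebraMap, two_mul, map_add]

theorem trd_zero : A.trd 0 = 0 := by
  have := NL.trd_algebraMap A 0
  rwa [map_zero, mul_zero] at this

theorem trd_conj (x : D) : A.trd (A.conj x) = A.trd x := by
  refine NL.trd_eq_of_add_conj A ?_
  rw [A.conj_conj, add_comm, A.add_conj]

theorem conj_inv (x : D) : A.conj x⁻¹ = (A.conj x)⁻¹ := by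
  by_cases hx : x = 0
  · rw [hx, inv_zero, A.conj_zero, inv_zero]
  · refine eq_inv_of_mul_eq_one_left ?_
    rw [← A.conj_mul, mul_inv_cancel₀ hx, A.conj_one]

theorem conj_eq_smul_inv (x : D) : A.conj x = algebraMap ℚ D (A.nrd x) * x⁻¹ := by
  by_cases hx : x = 0
  · rw [hx, A.conj_zero, inv_zero, mul_zero]
  · rw [← A.conj_mul_self, mul_assoc, mul_inv_cancel₀ hx, mul_one]

theorem nrd_inv_mul_mul {x : D} (hx : x ≠ 0) (u : D) : A.nrd (x⁻¹ * u * x) = A.nrd u := by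
  rw [A.nrd_mul, A.nrd_mul, A.nrd_inv]
  field_simp [A.nrd_ne_zero hx]

theorem conj_inv_mul_mul {x : D} (hx : x ≠ 0) (u : D) :
    A.conj (x⁻¹ * u * x) = x⁻¹ * A.conj u * x := by
  have hn : algebraMap ℚ D (A.nrd x) ≠ 0 := by
    rw [Ne, map_eq_zero]; exact A.nrd_ne_zero hx
  rw [A.conj_mul, A.conj_mul, NL.conj_inv A, NL.conj_eq_smul_inv A x, mul_inv_rev, inv_inv]
  calc algebraMap ℚ D (A.nrd x) * x⁻¹ * (A.conj u * (x * (algebraMap ℚ D (A.nrd x))⁻¹)) =
      algebraMap ℚ D (A.nrd x) * (x⁻¹ * A.conj u * x) * (algebraMap ℚ D (A.nrd x))⁻¹ := by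
        simp only [mul_assoc]
    _ = (x⁻¹ * A.conj u * x) * algebraMap ℚ D (A.nrd x) * (algebraMap ℚ D (A.nrd x))⁻¹ := by
        rw [Algebra.commutes]
    _ = x⁻¹ * A.conj u * x := mul_inv_cancel_right₀ hn _

theorem trd_inv_mul_mul {x : D} (hx : x ≠ 0) (u : D) : A.trd (x⁻¹ * u * x) = A.trd u := by
  refine NL.trd_eq_of_add_conj A ?_
  rw [NL.conj_inv_mul_mul A hx, ← add_mul, ← mul_add, A.add_conj, ← Algebra.commutes, mul_assoc,
    inv_mul_cancel₀ hx, mul_one]

theorem trd_mul_comm (x y : D) : A.trd (x * y) = A.trd (y * x) := by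
  by_cases hx : x = 0
  · rw [hx, zero_mul, mul_zero]
  · rw [← NL.trd_inv_mul_mul A hx (x * y), ← mul_assoc, inv_mul_cancel₀ hx, one_mul]

/-- polarization -/
theorem nrd_add (x y : D) : A.nrd (x + y) = A.nrd x + A.nrd y + A.trd (x * A.conj y) := by
  refine NL.nrd_eq_of_mul_conj A ?_
  rw [map_add, map_add, ← A.mul_conj, ← A.mul_conj, ← A.add_conj, A.conj_mul, A.conj_conj,
    A.conj_add]
  noncomm_ring

theorem nrd_sub (x y : D) : A.nrd (x - y) = A.nrd x + A.nrd y - A.trd (x * A.conj y) := by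
  rw [sub_eq_add_neg, NL.nrd_add A, A.nrd_neg, A.conj_neg, mul_neg, NL.trd_neg A, ← sub_eq_add_neg]

theorem parallelogram (x y : D) :
    A.nrd (x + y) + A.nrd (x - y) = 2 * A.nrd x + 2 * A.nrd y := by
  rw [NL.nrd_add A, NL.nrd_sub A]; ring

theorem nrd_add_le (x y : D) : A.nrd (x + y) ≤ 2 * A.nrd x + 2 * A.nrd y := by
  have h1 := NL.parallelogram A x y
  have h2 := NL.nrd_nonneg A (x - y)
  linarith

theorem nrd_sub_rat (x : D) (r : ℚ) :
    A.nrd (x - algebraMap ℚ D r) = A.nrd x - r * A.trd x + r ^ 2 := by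
  rw [NL.nrd_sub A, A.nrd_algebraMap, A.conj_algebraMap, ← Algebra.commutes, ← Algebra.smul_def, NL.trd_smul A]
  ring

/-- definiteness of `t² - trd t + nrd` -/
theorem trd_sq_lt {x : D} (h : ∀ r : ℚ, x ≠ algebraMap ℚ D r) : A.trd x ^ 2 < 4 * A.nrd x := by
  have h1 := A.nrd_pos (x - algebraMap ℚ D (A.trd x / 2)) (sub_ne_zero.mpr (h _))
  rw [NL.nrd_sub_rat A] at h1
  nlinarith

theorem trd_sq_le (x : D) : A.trd x ^ 2 ≤ 4 * A.nrd x := by
  have h1 := NL.nrd_nonneg A (x - algebraMap ℚ D (A.trd x / 2))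
  rw [NL.nrd_sub_rat A] at h1
  nlinarith

end Fermat.Agent.P2.Quat.NL
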