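/-
P2, block 3: units of the left orders, elements inducing the Atkin-Lehner operators.
-/
import Fermat.Agent.P2.Quat.IsLat
import Fermat.Agent.P2.Quat.Nrd

set_option autoImplicit false

open scoped Pointwise

namespace Fermat.Agent.P2.Quat

/-- a rational number which is integral locally everywhere is an integer -/
theorem rat_int {r : ℚ} (h : ∀ p : ℕ, p.Prime → ∃ n : ℕ, n.Coprime p ∧ ∃ k : ℤ, n * r = k) :
    ∃ k : ℤ, r = k := by
  have h1 : Submodule.span ℤ {r} ≤ Submodule.span ℤ {(1 : ℚ)} := by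
    refine le_of_forall_LLE fun p hp => ?_
    obtain ⟨n, hn, k, hk⟩ := h p hp
    refine ⟨n, hn, fun x hx => ?_⟩
    obtain ⟨a, rfl⟩ := Submodule.mem_span_singleton.mp hx
    refine Submodule.mem_span_singleton.mpr ⟨a * k, ?_⟩
    rw [zsmul_eq_mul, nsmul_eq_mul, zsmul_eq_mul, mul_one]
    push_cast
    rw [← hk]; ring
  obtain ⟨k, hk⟩ := Submodule.mem_span_singleton.mp (h1 (Submodule.mem_span_singleton_self r))
  refine ⟨k, ?_⟩
  rw [← hk, zsmul_eq_mul, mul_one]

/-- roots of `X² - tX + 1` modulo a prime `q ≡ 1 mod 12`, `t = 0, ±1` -/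
theorem exists_two_roots {q : ℕ} (hq : q.Prime) (h12 : q % 12 = 1) {t : ℤ}
    (ht : t = -1 ∨ t = 0 ∨ t = 1) : ∃ a b : ℤ, ¬ (q : ℤ) ∣ a - b ∧
      (q : ℤ) ∣ 1 - a * t + a ^ 2 ∧ (q : ℤ) ∣ 1 - b * t + b ^ 2 := by
  have hfact : Fact q.Prime := ⟨hq⟩
  -- reduction to `ZMod q`
  suffices h : ∃ a b : ZMod q, a ≠ b ∧ 1 - a * (t : ZMod q) + a ^ 2 = 0 ∧
      1 - b * (t : ZMod q) + b ^ 2 = 0 by
    obtain ⟨a, b, hab, ha, hb⟩ := h
    obtain ⟨a, rfl⟩ := ZMod.intCast_surjective a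
    obtain ⟨b, rfl⟩ := ZMod.intCast_surjective b
    refine ⟨a, b, ?_, ?_, ?_⟩
    · rw [← ZMod.intCast_zmod_eq_zero_iff_dvd, Int.cast_sub, sub_eq_zero]
      exact hab
    · rw [← ZMod.intCast_zmod_eq_zero_iff_dvd]
      push_cast
      exact ha
    · rw [← ZMod.intCast_zmod_eq_zero_iff_dvd]
      push_cast
      exact hb
  have hq2 : q ≠ 2 := by rintro rfl; omega
  have h2 : (2 : ZMod q) ≠ 0 := by
    intro h
    have h1 : ((2 : ℕ) : ZMod q) = 0 := by exact_mod_cast h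
    rw [ZMod.natCast_eq_zero_iff] at h1
    exact hq2 ((Nat.prime_dvd_prime_iff_eq hq Nat.prime_two).mp h1)
  obtain ⟨ω, hω1, hω⟩ : ∃ ω : ZMod q, ω ≠ 1 ∧ ω ^ 2 + ω + 1 = 0 := by
    have hcard : 3 ∣ Fintype.card (ZMod q)ˣ := by
      rw [ZMod.card_units q]
      omega
    obtain ⟨u, hu⟩ := exists_prime_orderOf_dvd_card 3 hcard
    have hu1 : (u : ZMod q) ≠ 1 := by
      intro h
      rw [Units.val_eq_one] at h
      rw [h, orderOf_one] at hu
      omega
    have hu3 : (u : ZMod q) ^ 3 = 1 := by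
      rw [← Units.val_pow_eq_pow_val, ← hu, pow_orderOf_eq_one, Units.val_one]
    refine ⟨u, hu1, ?_⟩
    have h3 : ((u : ZMod q) - 1) * ((u : ZMod q) ^ 2 + u + 1) = 0 := by
      linear_combination hu3
    exact (mul_eq_zero.mp h3).resolve_left (sub_ne_zero.mpr hu1)
  have hω0 : ω ≠ 0 := by
    rintro rfl
    norm_num at hω
  have hωω : ω ≠ ω ^ 2 := by
    intro h
    apply hω1
    have : ω * (ω - 1) = 0 := by linear_combination -h
    exact sub_eq_zero.mp ((mul_eq_zero.mp this).resolve_left hω0)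
  have hω3 : ω ^ 3 = 1 := by linear_combination (ω - 1) * hω
  rcases ht with rfl | rfl | rfl
  · refine ⟨ω, ω ^ 2, hωω, ?_, ?_⟩
    · push_cast; linear_combination hω
    · push_cast; linear_combination hω + ω * hω3
  · obtain ⟨a, ha⟩ := (ZMod.exists_sq_eq_neg_one_iff (p := q)).mpr (by omega)
    have ha0 : a ≠ 0 := by
      rintro rfl
      rw [mul_zero] at ha
      exact one_ne_zero (neg_eq_zero.mp ha)
    refine ⟨a, -a, ?_, ?_, ?_⟩
    · intro h
      have : 2 * a = 0 := by linear_combination h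
      exact (mul_ne_zero h2 ha0) this
    · push_cast; linear_combination -ha
    · push_cast; linear_combination -ha
  · refine ⟨-ω, -ω ^ 2, fun h => hωω (by linear_combination -h), ?_, ?_⟩
    · push_cast; linear_combination hω
    · push_cast; linear_combination hω + ω * hω3

namespace QOrder

variable {D : Type} [DivisionRing D] [Algebra ℚ D] {S : QOrder D} {I : Submodule ℤ D}

/-- elements of the left order are locally conjugate into the order -/
theorem IsLat.exists_local (hI : S.IsLat I) {u : D} (hu : u • I ≤ I) {p : ℕ} (hp : p.Prime) :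
    ∃ x : D, x ≠ 0 ∧ ∃ n : ℕ, n.Coprime p ∧ n • (x⁻¹ * u * x) ∈ S.O := by
  obtain ⟨x, hx, h⟩ := hI p hp
  obtain ⟨n, hn, h1, h2⟩ := h.exists_common
  refine ⟨x, hx, n * n, Nat.Coprime.mul_left hn hn, ?_⟩
  have h3 : n • x ∈ I := h2 x (mem_smul.mpr ⟨1, S.one_mem_OO, mul_one x⟩)
  have h4 : u * (n • x) ∈ I := hu (mem_smul.mpr ⟨_, h3, rfl⟩)
  have h5 := h1 _ h4
  rw [mem_smul_iff hx] at h5
  have e : x⁻¹ * (n • (u * (n • x))) = (n * n) • (x⁻¹ * u * x) := by
    rw [mul_smul_comm, mul_smul_comm, mul_smul_comm, smul_smul, mul_assoc]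
  rw [e] at h5
  exact h5

theorem IsLat.trd_int (hI : S.IsLat I) {u : D} (hu : u • I ≤ I) : ∃ t : ℤ, S.trd u = t := by
  refine rat_int fun p hp => ?_
  obtain ⟨x, hx, n, hn, h⟩ := hI.exists_local hu hp
  obtain ⟨k, hk⟩ := S.trd_int _ h
  refine ⟨n, hn, k, ?_⟩
  rw [← hk, NL.trd_nsmul, NL.trd_inv_mul_mul _ hx]

theorem IsLat.nrd_int (hI : S.IsLat I) {u : D} (hu : u • I ≤ I) : ∃ t : ℤ, S.nrd u = t := by
  refine rat_int fun p hp => ?_
  obtain ⟨x, hx, n, hn, h⟩ := hI.exists_local hu hp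
  obtain ⟨k, hk⟩ := S.nrd_int _ h
  refine ⟨n ^ 2, Nat.Coprime.pow_left 2 hn, k, ?_⟩
  rw [← hk, NL.nrd_nsmul, NL.nrd_inv_mul_mul _ hx]
  push_cast
  rfl

/-- The algebra is a division algebra at the ramified primes: the characteristic polynomial of an
integral element has no two distinct roots modulo `q`. -/
theorem IsLat.not_two_roots (hI : S.IsLat I) {q : ℕ} (hq : q.Prime) (hram : S.ram q) {u : D}
    (hu : u • I ≤ I) {t n : ℤ} (ht : S.trd u = t) (hn : S.nrd u = n) {a b : ℤ}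
    (hab : ¬ (q : ℤ) ∣ a - b) (ha : (q : ℤ) ∣ n - a * t + a ^ 2)
    (hb : (q : ℤ) ∣ n - b * t + b ^ 2) : False := by
  obtain ⟨x, hx, m, hm, h⟩ := hI.exists_local hu hq
  have hqM := S.ram_dvd q hq hram
  have key : ∀ a : ℤ, (q : ℤ) ∣ n - a * t + a ^ 2 →
      m • (x⁻¹ * u * x) - ((m * a : ℤ) : D) ∈ S.P q := by
    intro a ha
    refine S.ram_P q hq hram _ (S.O.sub_mem h ?_) ?_
    · exact S.O.intCast_mem _
    · obtain ⟨k, hk⟩ := ha
      refine ⟨m ^ 2 * k, ?_⟩
      have e : m • (x⁻¹ * u * x) - ((m * a : ℤ) : D) =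
          m • (x⁻¹ * u * x - algebraMap ℚ D a) := by
        rw [smul_sub, nsmul_eq_mul m (algebraMap ℚ D a), map_intCast]
        push_cast
        rfl
      rw [e, NL.nrd_nsmul, NL.nrd_sub_rat, NL.nrd_inv_mul_mul _ hx, NL.trd_inv_mul_mul _ hx, ht,
        hn]
      have hk' : ((n : ℚ) - a * t + a ^ 2) = q * k := by exact_mod_cast hk
      rw [hk']
      push_cast
      ring
  have h1 := (S.P q).sub_mem (key a ha) (key b hb)
  set c : ℤ := m * (b - a) with hc
  have h2 : (c : D) ∈ S.P q := by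
    have e : (c : D) = (m • (x⁻¹ * u * x) - ((m * a : ℤ) : D)) -
        (m • (x⁻¹ * u * x) - ((m * b : ℤ) : D)) := by
      rw [hc]
      push_cast
      rw [mul_sub]
      abel
    rw [e]
    exact h1
  have h3 : (c : D) * c ∈ (q : D) • Subalgebra.toSubmodule S.O := by
    rw [← S.P_sq q hqM]
    exact Submodule.mul_mem_mul h2 h2
  obtain ⟨y, hy, hy'⟩ := mem_smul.mp h3
  obtain ⟨k, hk⟩ := S.nrd_int y hy
  have h4 := congrArg S.nrd hy'
  rw [S.nrd_mul, S.nrd_natCast, S.nrd_mul, S.nrd_intCast, hk] at h4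
  have h5 : (q : ℤ) ^ 2 * k = c ^ 2 * c ^ 2 := by exact_mod_cast h4
  have hqZ : Prime (q : ℤ) := Nat.prime_iff_prime_int.mp hq
  have h6 : (q : ℤ) ∣ c := by
    have h7 : (q : ℤ) ∣ c ^ 2 * c ^ 2 := by
      rw [← h5, pow_two, mul_assoc]
      exact dvd_mul_right _ _
    rcases hqZ.dvd_or_dvd h7 with h8 | h8 <;> exact hqZ.dvd_of_dvd_pow h8
  rcases hqZ.dvd_or_dvd h6 with h7 | h7
  · have h8 : q ∣ m := by exact_mod_cast h7
    exact hq.one_lt.ne' (Nat.Coprime.eq_one_of_dvd hm.symm h8)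
  · apply hab
    rw [← neg_sub, dvd_neg]
    exact h7

omit [Algebra ℚ D] in
/-- the inverse of a unit of the left order -/
theorem inv_smul_eq {u : D} (hu0 : u ≠ 0) (hu : u • I = I) : u⁻¹ • I = I := by
  conv_lhs => rw [← hu]
  exact inv_smul_smul' hu0

theorem IsLat.ne_bot (hI : S.IsLat I) : I ≠ ⊥ := by
  rintro rfl
  obtain ⟨x, hx, hx0⟩ := hI.exists_ne_zero
  exact hx0 ((Submodule.mem_bot ℤ).mp hx)

theorem ne_zero_of_isLat_smul {u : D} (hu : S.IsLat (u • I)) : u ≠ 0 := by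
  rintro rfl
  obtain ⟨x, hx, hx0⟩ := hu.exists_ne_zero
  obtain ⟨y, -, hy⟩ := mem_smul.mp hx
  rw [zero_mul] at hy
  exact hx0 hy.symm

/-- units of left orders have norm one -/
theorem IsLat.nrd_eq_one (hI : S.IsLat I) {u : D} (hu : u • I = I) : S.nrd u = 1 := by
  have hu0 : u ≠ 0 := ne_zero_of_isLat_smul (S := S) (I := I) (by rw [hu]; exact hI)
  obtain ⟨a, ha⟩ := hI.nrd_int hu.le
  obtain ⟨b, hb⟩ := hI.nrd_int (inv_smul_eq hu0 hu).le
  rw [S.nrd_inv, ha] at hb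
  have hpos := S.nrd_pos u hu0
  rw [ha] at hpos
  have ha0 : 0 < a := by exact_mod_cast hpos
  have h1 : (a : ℚ) * b = 1 := by
    rw [← hb, mul_inv_cancel₀ hpos.ne']
  have h2 : a * b = 1 := by exact_mod_cast h1
  have h3 : a = 1 := by
    rcases Int.eq_one_or_neg_one_of_mul_eq_one h2 with h | h
    · exact h
    · omega
  rw [ha, h3, Int.cast_one]

/-- **The units of the left orders are `±1`** as soon as the algebra is ramified at a prime
`q ≡ 1 mod 12`. -/
theorem IsLat.unit_eq (hI : S.IsLat I) {q : ℕ} (hq : q.Prime) (hram : S.ram q)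
    (h12 : q % 12 = 1) {u : D} (hu : u • I = I) : u = 1 ∨ u = -1 := by
  have hn := hI.nrd_eq_one hu
  by_cases hr : ∃ r : ℚ, u = algebraMap ℚ D r
  · obtain ⟨r, rfl⟩ := hr
    rw [S.nrd_algebraMap] at hn
    have h0 : (r - 1) * (r + 1) = 0 := by linear_combination hn
    rcases mul_eq_zero.mp h0 with h | h
    · left; rw [sub_eq_zero.mp h, map_one]
    · right; rw [eq_neg_of_add_eq_zero_left h, map_neg, map_one]
  · exfalso
    push Not at hr
    have hlt := NL.trd_sq_lt S.toQAlg hr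
    obtain ⟨t, ht⟩ := hI.trd_int hu.le
    rw [hn, ht] at hlt
    have hlt' : t ^ 2 < 4 := by
      have : ((t ^ 2 : ℤ) : ℚ) < ((4 : ℤ) : ℚ) := by push_cast; linarith
      exact_mod_cast this
    have ht3 : t = -1 ∨ t = 0 ∨ t = 1 := by
      have h1 : -2 < t := by nlinarith
      have h2 : t < 2 := by nlinarith
      omega
    obtain ⟨a, b, hab, ha, hb⟩ := exists_two_roots hq h12 ht3
    exact hI.not_two_roots hq hram hu.le ht (n := 1) (by rw [hn, Int.cast_one]) hab ha hb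

/-- `d I = d' I` implies `d' = ± d`. -/
theorem IsLat.eq_or_eq_neg_of_smul_eq (hI : S.IsLat I) {q : ℕ} (hq : q.Prime) (hram : S.ram q)
    (h12 : q % 12 = 1) {d d' : D} (hd : d ≠ 0) (h : d • I = d' • I) : d' = d ∨ d' = -d := by
  have h1 : (d⁻¹ * d') • I = I := by
    rw [← smul_smul, ← h, inv_smul_smul' hd]
  rcases hI.unit_eq hq hram h12 h1 with h2 | h2
  · left
    rw [← mul_one d, ← h2, mul_inv_cancel_left₀ hd]
  · right
    rw [← mul_inv_cancel_left₀ hd d', h2, mul_neg, mul_one]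

/-- **Fixed points of the Atkin–Lehner operators**: `d I = I P_m`, `m ≠ 1`, implies
`d² = -m`. -/
theorem IsLat.mul_self_eq_neg (hI : S.IsLat I) {q : ℕ} (hq : q.Prime) (hram : S.ram q)
    (h12 : q % 12 = 1) {m : ℕ} (hm : m ∣ S.M) (hm1 : m ≠ 1) {d : D} (hd : d • I = I * S.P m) :
    d * d = -(m : D) := by
  have hm0 : m ≠ 0 := ne_zero_of_dvd_ne_zero S.M_ne_zero hm
  have hmD := natCast_ne_zero' (D := D) hm0
  have hd0 : d ≠ 0 := ne_zero_of_isLat_smul (S := S) (I := I) (by rw [hd]; exact hI.mul_P hm)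
  have h1 : (m : D) • I = (d * d) • I := by
    rw [← hI.mul_P_mul_P hm, ← hd, smul_mul_assoc', ← hd, smul_smul]
  rcases hI.eq_or_eq_neg_of_smul_eq hq hram h12 hmD h1 with h2 | h2
  · exfalso
    have hpos := S.nrd_pos d hd0
    have h3 := S.mul_self d
    rw [h2] at h3
    have h4 : S.nrd d = m := by
      have h5 := congrArg S.nrd h2
      rw [S.nrd_mul, S.nrd_natCast, ← pow_two] at h5
      exact (pow_left_inj₀ hpos.le (Nat.cast_nonneg m) two_ne_zero).mp h5
    have h6 : algebraMap ℚ D (S.trd d) * d = algebraMap ℚ D (2 * m) := by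
      rw [h4] at h3
      have h7 : algebraMap ℚ D (2 * (m : ℚ)) = (m : D) + algebraMap ℚ D (m : ℚ) := by
        rw [two_mul, map_add, map_natCast]
      rw [h7]
      conv_rhs => rw [h3]
      abel
    have ht : S.trd d ≠ 0 := by
      intro ht
      rw [ht, map_zero, zero_mul] at h6
      have h7 := (map_eq_zero (algebraMap ℚ D)).mp h6.symm
      have : (m : ℚ) ≠ 0 := Nat.cast_ne_zero.mpr hm0
      exact (mul_ne_zero two_ne_zero this) h7
    have h8 : d = algebraMap ℚ D ((S.trd d)⁻¹ * (2 * m)) := by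
      rw [map_mul, ← h6, ← mul_assoc, ← map_mul, inv_mul_cancel₀ ht, map_one, one_mul]
    rw [h8, S.nrd_algebraMap] at h4
    have h9 : IsSquare ((m : ℕ) : ℚ) := ⟨_, by rw [← h4, pow_two]⟩
    rw [Rat.isSquare_natCast_iff] at h9
    obtain ⟨k, hk⟩ := h9
    have h10 := (S.M_sqf.squarefree_of_dvd hm) k ⟨1, by rw [mul_one]; exact hk⟩
    rw [Nat.isUnit_iff] at h10
    rw [h10] at hk
    exact hm1 hk
  · exact h2

end QOrder

end Fermat.Agent.P2.Quat
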