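/-
P2, block 3: the Atkin-Lehner group acts almost freely on the classes `[𝔞 O]`.
-/
import Fermat.Agent.P2.Quat.EmbI
import Fermat.Agent.P2.Quat.Inert
import Fermat.Agent.P2.Quat.Unit
import Fermat.Agent.P2.Quat.Hecke

set_option autoImplicit false

open scoped Pointwise nonZeroDivisors NumberField
open FractionalIdeal

namespace Fermat.Agent.P2.Quat

namespace EmbSep

open EmbI

section comm

variable {D : Type} [DivisionRing D] [Algebra ℚ D] {S : QOrder D}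

/-- the Atkin-Lehner ideals commute -/
theorem P_comm {m m' : ℕ} (hm : m ∣ S.M) (hm' : m' ∣ S.M) :
    S.P m * S.P m' = S.P m' * S.P m := by
  obtain ⟨a, ha⟩ := Nat.gcd_dvd_left m m'
  obtain ⟨b, hb⟩ := Nat.gcd_dvd_right m m'
  set g := m.gcd m' with hg
  have hm0 : m ≠ 0 := ne_zero_of_dvd_ne_zero S.M_ne_zero hm
  have hg0 : g ≠ 0 := fun h => hm0 (by rw [ha, h, zero_mul])
  have hgm : g ∣ S.M := (Dvd.intro _ ha.symm).trans hm
  have hga : (g * a) ∣ S.M := ha ▸ hm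
  have hgb : (g * b) ∣ S.M := hb ▸ hm'
  have c1 : g.Coprime a := Nat.coprime_of_squarefree_mul (S.M_sqf.squarefree_of_dvd hga)
  have c2 : g.Coprime b := Nat.coprime_of_squarefree_mul (S.M_sqf.squarefree_of_dvd hgb)
  have c3 : a.Coprime b := by
    have h1 : g = g * a.gcd b := by
      conv_lhs => rw [hg]
      conv_lhs => rw [ha, hb]
      exact Nat.gcd_mul_left _ _ _
    have h2 : g * 1 = g * a.gcd b := by rwa [mul_one]
    exact (Nat.eq_of_mul_eq_mul_left (Nat.pos_of_ne_zero hg0) h2).symm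
  have hab : a * b ∣ S.M := Nat.Coprime.mul_dvd_of_dvd_of_dvd c3
    (dvd_of_mul_left_dvd hga) (dvd_of_mul_left_dvd hgb)
  have key : ∀ x y : ℕ, g * x ∣ S.M → g * y ∣ S.M → g.Coprime x → g.Coprime y →
      S.P (g * x) * S.P (g * y) = (g : D) • (S.P x * S.P y) := by
    intro x y hx hy cx cy
    rw [mul_comm g x, ← S.P_mul x g (by rwa [mul_comm]) cx.symm, ← S.P_mul g y hy cy]
    have e1 : S.P x * Subalgebra.toSubmodule S.O = S.P x := S.P_O x (dvd_of_mul_left_dvd hx)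
    calc S.P x * S.P g * (S.P g * S.P y) = S.P x * (S.P g * S.P g) * S.P y := by
          simp only [mul_assoc]
      _ = _ := by rw [S.P_sq g hgm, mul_natCast_smul, e1, smul_mul_assoc']
  rw [ha, hb, key a b hga hgb c1 c2, key b a hgb hga c2 c1, S.P_mul a b hab c3,
    S.P_mul b a (by rwa [mul_comm]) c3.symm, mul_comm a b]

end comm

variable {D : Type} [DivisionRing D] [Algebra ℚ D] {S : QOrder D} {N : ℕ} (T : S.Root N)
  {K : Type} [Field K] [NumberField K] (Q : ImQuad N K)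

/-- the levels `d`, `d N` with `d` a product of inert primes -/
def Adm (S : QOrder D) (N m : ℕ) : Prop :=
  ∃ d : ℕ, d * N ∣ S.M ∧ (∀ q : ℕ, q.Prime → q ∣ d → ¬ IsSquare (-(N : ZMod q))) ∧
    (m = d ∨ m = d * N)

theorem Adm.dvd {m : ℕ} (h : Adm S N m) : m ∣ S.M := by
  obtain ⟨d, h1, -, rfl | rfl⟩ := h
  · exact dvd_of_mul_right_dvd h1
  · exact h1

variable {I J : FractionalIdeal (𝓞 K)⁰ K} {m m' : ℕ}

theorem smul_natCast_OO (h2 : N % 4 = 2) (n : ℕ) :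
    (n : D) • S.OO = idlO T Q (spanSingleton (𝓞 K)⁰ (n : K)) := by
  rw [idlO_span T Q h2, map_natCast]

/-- if `𝔏 P_m = P_m'` then `m 𝔏² = m'` -/
theorem sq_of_mul_P (h2 : N % 4 = 2) (hm : m ∣ S.M) (hm' : m' ∣ S.M) {L : FractionalIdeal (𝓞 K)⁰ K}
    (hL : L ≠ 0) (h : idl T Q L * S.P m = S.P m') :
    spanSingleton (𝓞 K)⁰ (m : K) * (L * L) = spanSingleton (𝓞 K)⁰ (m' : K) := by
  have hm0 : (m : K) ≠ 0 := Nat.cast_ne_zero.mpr (ne_zero_of_dvd_ne_zero S.M_ne_zero hm)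
  have hm0' : (m' : K) ≠ 0 := Nat.cast_ne_zero.mpr (ne_zero_of_dvd_ne_zero S.M_ne_zero hm')
  have e1 : S.P m' * S.P m' = idl T Q (L * L) * (S.P m * S.P m) := by
    calc S.P m' * S.P m' = (idl T Q L * S.P m) * S.P m' := by rw [h]
      _ = idl T Q L * (S.P m' * S.P m) := by rw [mul_assoc, P_comm hm hm']
      _ = idl T Q L * ((idl T Q L * S.P m) * S.P m) := by rw [h]
      _ = _ := by rw [idl_mul]; simp only [mul_assoc]
  rw [S.P_sq m hm, S.P_sq m' hm', mul_natCast_smul] at e1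
  change (m' : D) • S.OO = (m : D) • idlO T Q (L * L) at e1
  rw [smul_natCast_OO T Q h2, ← map_natCast (EmbD.ι T Q) m, ← idlO_span_mul,
    idlO_inj T Q h2] at e1
  · exact e1.symm
  · rwa [Ne, spanSingleton_eq_zero_iff]
  · refine mul_ne_zero ?_ (mul_ne_zero hL hL)
    rwa [Ne, spanSingleton_eq_zero_iff]

theorem idl_one_mul_P (h2 : N % 4 = 2) (hm : m ∣ S.M) : idl T Q 1 * S.P m = S.P m := by
  have e : S.OO * S.P m = S.P m := S.O_P m hm
  conv_lhs => rw [← e, ← mul_assoc]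
  change idlO T Q 1 * S.P m = _
  rw [idlO_one T Q h2, e]

theorem conjF_one : conjF Q (1 : FractionalIdeal (𝓞 K)⁰ K) = 1 := by
  rw [← FractionalIdeal.spanSingleton_one, conjF_spanSingleton, map_one]

/-- the class is determined by `𝔏 P_m = 𝔏' P_m'` -/
theorem exists_eq_span (h2 : N % 4 = 2) (hm : Adm S N m) (hm' : Adm S N m')
    (hI : I ≠ 0) (hJ : J ≠ 0) (h : idl T Q I * S.P m = idl T Q J * S.P m') :
    ∃ t : K, t ≠ 0 ∧ I = spanSingleton (𝓞 K)⁰ t * J := by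
  have hN : Squarefree N := S.M_sqf.squarefree_of_dvd T.dvd
  have e0 : idl T Q 1 * S.P m' = S.P m' := idl_one_mul_P T Q h2 hm'.dvd
  have e1 : idl T Q (J⁻¹ * I) * S.P m = S.P m' := by
    rw [idl_mul, mul_assoc, h, ← mul_assoc, ← idl_mul, inv_mul_cancel₀ hJ, e0]
  have hJI : J⁻¹ * I ≠ 0 := mul_ne_zero (inv_ne_zero hJ) hI
  have e2 := sq_of_mul_P T Q h2 hm.dvd hm'.dvd hJI e1
  have e3 : spanSingleton (𝓞 K)⁰ (m : K) * (I * I) =
      spanSingleton (𝓞 K)⁰ (m' : K) * (J * J) := by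
    rw [← e2]
    calc spanSingleton (𝓞 K)⁰ (m : K) * (I * I)
        = spanSingleton (𝓞 K)⁰ (m : K) * (I * I) * ((J * J⁻¹) * (J * J⁻¹)) := by
          rw [mul_inv_cancel₀ hJ, one_mul, mul_one]
      _ = _ := by ring
  obtain ⟨d, hd1, hd2, hd3⟩ := hm
  obtain ⟨d', hd1', hd2', hd3'⟩ := hm'
  exact ImQuad.exists_eq_span_mul Q h2 hN hd3 hd3' (S.M_sqf.squarefree_of_dvd hd1)
    (S.M_sqf.squarefree_of_dvd hd1') hd2 hd2' hI hJ e3

theorem mk_eq_of_span {I J : (FractionalIdeal (𝓞 K)⁰ K)ˣ}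
    (h : ∃ t : K, t ≠ 0 ∧ (I : FractionalIdeal (𝓞 K)⁰ K) = spanSingleton (𝓞 K)⁰ t * J) :
    ClassGroup.mk K I = ClassGroup.mk K J :=
  ((mk_eq_mk_iff J I).mpr h).symm

/-- `𝔅 O = δ P_m` with `δ` anticommuting with `√-N`. -/
def Anti (B : (FractionalIdeal (𝓞 K)⁰ K)ˣ) : Prop :=
  ∃ m : ℕ, Adm S N m ∧ ∃ δ : D, δ ≠ 0 ∧ δ * T.i = -(T.i * δ) ∧
    idlO T Q (B : FractionalIdeal (𝓞 K)⁰ K) = δ • S.P m

variable {T Q} in
theorem Anti.mk_eq (h2 : N % 4 = 2) {B B' : (FractionalIdeal (𝓞 K)⁰ K)ˣ} (h : Anti T Q B)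
    (h' : Anti T Q B') : ClassGroup.mk K B = ClassGroup.mk K B' := by
  obtain ⟨m, hm, δ, hδ, ha, hB⟩ := h
  obtain ⟨m', hm', δ', hδ', ha', hB'⟩ := h'
  -- `δ' = ι κ δ`
  have hinv : T.i * δ⁻¹ = -(δ⁻¹ * T.i) := by
    have h1 : δ⁻¹ * (δ * T.i) * δ⁻¹ = δ⁻¹ * (-(T.i * δ)) * δ⁻¹ := by rw [ha]
    rw [inv_mul_cancel_left₀ hδ, mul_neg, neg_mul, ← mul_assoc, mul_inv_cancel_right₀ hδ] at h1
    exact h1
  obtain ⟨κ, hκ⟩ := EmbD.exists_ι_of_commute T Q (y := δ' * δ⁻¹) (by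
    rw [mul_assoc, ← neg_eq_iff_eq_neg.mpr hinv, mul_neg, ← mul_assoc, ha', neg_mul, neg_neg,
      mul_assoc])
  have hκ0 : κ ≠ 0 := by
    rintro rfl
    rw [map_zero] at hκ
    exact mul_ne_zero hδ' (inv_ne_zero hδ) hκ.symm
  have hδ'' : δ' = EmbD.ι T Q κ * δ := by rw [hκ, inv_mul_cancel_right₀ hδ]
  have hm0 : (m : D) ≠ 0 := natCast_ne_zero' (ne_zero_of_dvd_ne_zero S.M_ne_zero hm.dvd)
  have hm0' : (m' : D) ≠ 0 := natCast_ne_zero' (ne_zero_of_dvd_ne_zero S.M_ne_zero hm'.dvd)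
  have hmK : (m : K) ≠ 0 := Nat.cast_ne_zero.mpr (ne_zero_of_dvd_ne_zero S.M_ne_zero hm.dvd)
  have hmK' : (m' : K) ≠ 0 := Nat.cast_ne_zero.mpr (ne_zero_of_dvd_ne_zero S.M_ne_zero hm'.dvd)
  -- `𝔅 P_m = m δ O`
  have key : ∀ {B : FractionalIdeal (𝓞 K)⁰ K} {m : ℕ} {δ : D}, m ∣ S.M →
      idlO T Q B = δ • S.P m → idl T Q B * S.P m = (m : D) • (δ • S.OO) := by
    intro B m δ hm h
    have e : S.OO * S.P m = S.P m := S.O_P m hm
    have e' : S.P m * S.P m = (m : D) • S.OO := S.P_sq m hm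
    rw [natCast_smul_comm, ← e', ← smul_mul_assoc', ← h, idlO, mul_assoc, e]
  have k1 := key hm.dvd hB
  have k2 := key hm'.dvd hB'
  rw [hδ'', ← smul_smul] at k2
  have k3 : idl T Q (spanSingleton (𝓞 K)⁰ (m' : K)⁻¹ * B') * S.P m' =
      idl T Q (spanSingleton (𝓞 K)⁰ (κ * (m : K)⁻¹) * B) * S.P m := by
    rw [idl_span_mul, idl_span_mul, smul_mul_assoc', smul_mul_assoc', k1, k2, map_inv₀,
      map_natCast, inv_smul_smul' hm0', map_mul, map_inv₀, map_natCast, ← smul_smul,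
      inv_smul_smul' hm0]
  have hs : ∀ x : K, x ≠ 0 → spanSingleton (𝓞 K)⁰ x ≠ 0 := fun x hx => by
    rwa [Ne, spanSingleton_eq_zero_iff]
  obtain ⟨t, ht, h⟩ := exists_eq_span T Q h2 hm' hm
    (mul_ne_zero (hs _ (inv_ne_zero hmK')) B'.ne_zero)
    (mul_ne_zero (hs _ (mul_ne_zero hκ0 (inv_ne_zero hmK))) B.ne_zero) k3
  symm
  refine mk_eq_of_span ⟨m' * t * (κ * (m : K)⁻¹), mul_ne_zero (mul_ne_zero hmK' ht)
    (mul_ne_zero hκ0 (inv_ne_zero hmK)), ?_⟩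
  calc (B' : FractionalIdeal (𝓞 K)⁰ K)
      = spanSingleton (𝓞 K)⁰ (m' : K) * (spanSingleton (𝓞 K)⁰ (m' : K)⁻¹ * B') := by
        rw [← mul_assoc, spanSingleton_mul_spanSingleton, mul_inv_cancel₀ hmK', spanSingleton_one,
          one_mul]
    _ = _ := by
        rw [h, ← mul_assoc, ← mul_assoc, spanSingleton_mul_spanSingleton,
          spanSingleton_mul_spanSingleton]

open Classical in
/-- the class of `δ O` -/
noncomputable def c0 : ClassGroup (𝓞 K) :=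
  if h : ∃ B, Anti T Q B then ClassGroup.mk K h.choose else 1

theorem mk_eq_c0 (h2 : N % 4 = 2) {B : (FractionalIdeal (𝓞 K)⁰ K)ˣ} (h : Anti T Q B) :
    ClassGroup.mk K B = c0 T Q := by
  have h' : ∃ B, Anti T Q B := ⟨B, h⟩
  rw [c0, dif_pos h']
  exact h.mk_eq h2 h'.choose_spec

/-- **Separation.** -/
theorem sep (h2 : N % 4 = 2) {q : ℕ} (hq : q.Prime) (hram : S.ram q) (h12 : q % 12 = 1)
    (hm : Adm S N m) (c c' : ClassGroup (𝓞 K))
    (h : S.w m hm.dvd (e T Q h2 c') = e T Q h2 c) : c = c' ∨ c * c' = c0 T Q := by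
  obtain ⟨I, rfl⟩ := exists_mk c
  obtain ⟨I', rfl⟩ := exists_mk c'
  rw [e_mk, e_mk, QOrder.w_cls, QOrder.cls_eq_iff] at h
  obtain ⟨δ, hδ, h⟩ := h
  set A := idlO T Q (I' : FractionalIdeal (𝓞 K)⁰ K) * S.P m with hA
  have hAL : S.IsLat A := (isLat_idlO T Q h2 I'.ne_zero).mul_P hm.dvd
  have hi0 := EmbD.i_ne_zero T Q.pos
  have e1 : T.i • A = A * S.P N := by
    rw [hA, mul_assoc, ← P_comm T.dvd hm.dvd, ← mul_assoc, idlO_mul_P, smul_mul_assoc']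
  have e2 : (T.i * δ) • A = (δ * T.i) • A := by
    rw [← smul_smul, ← smul_smul, ← h, e1, ← smul_mul_assoc', ← h, idlO_mul_P]
  rcases hAL.eq_or_eq_neg_of_smul_eq hq hram h12 (mul_ne_zero hi0 hδ) e2 with h3 | h3
  · -- the commuting case
    left
    obtain ⟨x, rfl⟩ := EmbD.exists_ι_of_commute T Q h3
    have hx : x ≠ 0 := by
      rintro rfl
      exact hδ (map_zero _)
    rw [hA, ← smul_mul_assoc', ← idlO_span_mul] at h
    have hadm1 : Adm S N 1 := ⟨1, by rw [one_mul]; exact T.dvd, fun q hq hq1 =>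
      absurd (Nat.dvd_one.mp hq1) hq.ne_one, Or.inl rfl⟩
    have e : S.OO * S.P m = S.P m := S.O_P m hm.dvd
    have h4 : idl T Q (I : FractionalIdeal (𝓞 K)⁰ K) * S.P 1 =
        idl T Q (spanSingleton (𝓞 K)⁰ x * (I' : FractionalIdeal (𝓞 K)⁰ K)) * S.P m := by
      rw [S.P_one]
      change idlO T Q (I : FractionalIdeal (𝓞 K)⁰ K) = _
      rw [h, idlO, mul_assoc, e]
    obtain ⟨t, ht, h5⟩ := exists_eq_span T Q h2 hadm1 hm I.ne_zero (mul_ne_zero (by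
      rwa [Ne, spanSingleton_eq_zero_iff]) I'.ne_zero) h4
    refine mk_eq_of_span ⟨t * x, mul_ne_zero ht hx, ?_⟩
    rw [h5, ← mul_assoc, spanSingleton_mul_spanSingleton]
  · -- the anticommuting case
    right
    have e : S.OO * S.P m = S.P m := S.O_P m hm.dvd
    have h4 : idlO T Q (I : FractionalIdeal (𝓞 K)⁰ K) =
        idl T Q (conjF Q (I' : FractionalIdeal (𝓞 K)⁰ K)) * (δ • S.P m) := by
      rw [← smul_idl_mul_of_anti T Q h3, h, hA, idlO, mul_assoc, e]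
    have h5 : idlO T Q (((conjU Q I')⁻¹ * I : (FractionalIdeal (𝓞 K)⁰ K)ˣ) :
        FractionalIdeal (𝓞 K)⁰ K) = δ • S.P m := by
      have e3 := smul_idl_mul_of_anti T Q h3 1 (S.P m)
      rw [idl_one_mul_P T Q h2 hm.dvd, conjF_one] at e3
      rw [Units.val_mul, ← idl_mul_idlO, h4, ← mul_assoc, ← idl_mul, ← coe_conjU, Units.inv_mul,
        ← e3]
    have h6 : Anti T Q ((conjU Q I')⁻¹ * I) := ⟨m, hm, δ, hδ, h3, h5⟩
    rw [← mk_eq_c0 T Q h2 h6, map_mul, map_inv, mk_conjU, inv_inv, mul_comm]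

end EmbSep

end Fermat.Agent.P2.Quat
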