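/-
P2, block 3: more facts on definite quaternion algebras `QAlg` (after `Lat.lean`), and the
centraliser of `√-q ∈ D`.
-/
import Fermat.Agent.P2.Quat.Lat

set_option autoImplicit false

open scoped Pointwise

namespace Fermat.Agent.P2.Quat

namespace QAlg

variable {D : Type} [DivisionRing D] [Algebra ℚ D] (A : QAlg D)

local notation "c" => algebraMap ℚ D

theorem c_inj {a b : ℚ} : c a = c b ↔ a = b := (algebraMap ℚ D).injective.eq_iff

theorem c_comm (a : ℚ) (x : D) : c a * x = x * c a := Algebra.commutes a x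

theorem conj_sub (x y : D) : A.conj (x - y) = A.conj x - A.conj y := by
  rw [sub_eq_add_neg, A.conj_add, conj_neg, sub_eq_add_neg]

theorem conj_eq_zero {x : D} : A.conj x = 0 ↔ x = 0 := by
  refine ⟨fun h => ?_, fun h => by rw [h, A.conj_zero]⟩
  rw [← A.conj_conj x, h, A.conj_zero]

theorem conj_c_mul (a : ℚ) (x : D) : A.conj (c a * x) = c a * A.conj x := by
  rw [A.conj_mul, A.conj_algebraMap, c_comm]

theorem trd_zero : A.trd 0 = 0 := by
  have h := A.trd_add 0 0
  rw [add_zero] at h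
  exact left_eq_add.mp h

theorem trd_c_mul (a : ℚ) (x : D) : A.trd (c a * x) = a * A.trd x := by
  apply (algebraMap ℚ D).injective
  rw [map_mul, ← A.add_conj, ← A.add_conj, A.conj_c_mul, mul_add]

theorem trd_neg (x : D) : A.trd (-x) = -A.trd x := by
  have h := A.trd_c_mul (-1) x
  rwa [map_neg, map_one, neg_one_mul, neg_one_mul] at h

theorem trd_sub (x y : D) : A.trd (x - y) = A.trd x - A.trd y := by
  rw [sub_eq_add_neg, A.trd_add, A.trd_neg, sub_eq_add_neg]

theorem trd_c (a : ℚ) : A.trd (c a) = 2 * a := by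
  apply (algebraMap ℚ D).injective
  rw [← A.add_conj, A.conj_algebraMap, map_mul, map_ofNat, two_mul]

theorem trd_conj (x : D) : A.trd (A.conj x) = A.trd x := by
  apply (algebraMap ℚ D).injective
  rw [← A.add_conj, ← A.add_conj, A.conj_conj, add_comm]

theorem nrd_nonneg (x : D) : 0 ≤ A.nrd x := by
  rcases eq_or_ne x 0 with rfl | h
  · rw [A.nrd_zero]
  · exact (A.nrd_pos x h).le

theorem nrd_c_mul (a : ℚ) (x : D) : A.nrd (c a * x) = a ^ 2 * A.nrd x := by
  rw [A.nrd_mul, A.nrd_algebraMap]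

theorem nrd_pow (x : D) (n : ℕ) : A.nrd (x ^ n) = A.nrd x ^ n := by
  induction n with
  | zero => rw [pow_zero, pow_zero, A.nrd_one]
  | succ n ih => rw [pow_succ, pow_succ, A.nrd_mul, ih]

theorem trd_mul_comm (x y : D) : A.trd (x * y) = A.trd (y * x) := by
  have h1 : A.trd (x * y) = A.trd (A.conj y * A.conj x) := by
    rw [← A.conj_mul, A.trd_conj]
  have h2 : A.conj y * A.conj x =
      c (A.trd y) * c (A.trd x) - c (A.trd y) * x - c (A.trd x) * y + y * x := by
    rw [A.conj_eq, A.conj_eq, sub_mul, mul_sub, mul_sub, c_comm (A.trd x) y]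
    abel
  have h3 : A.trd (c (A.trd y) * c (A.trd x)) = 2 * (A.trd y * A.trd x) := by
    rw [← map_mul, A.trd_c]
  rw [h1, h2, A.trd_add, A.trd_sub, A.trd_sub, h3, A.trd_c_mul, A.trd_c_mul]
  ring

theorem trd_conj_inner (d x : D) (hd : d ≠ 0) : A.trd (d * x * d⁻¹) = A.trd x := by
  rw [A.trd_mul_comm, ← mul_assoc, inv_mul_cancel₀ hd, one_mul]

theorem nrd_conj_inner (d x : D) (hd : d ≠ 0) : A.nrd (d * x * d⁻¹) = A.nrd x := by
  have h : A.nrd d ≠ 0 := fun h => hd (A.nrd_eq_zero.mp h)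
  rw [A.nrd_mul, A.nrd_mul, A.nrd_inv]
  field_simp

/-- An element with `x² = -q`, `q > 0`, is purely imaginary. -/
theorem trd_eq_zero_of_sq {x : D} {q : ℚ} (hq : 0 < q) (h : x * x = -c q) : A.trd x = 0 := by
  by_contra h0
  have h1 := A.mul_self x
  rw [h] at h1
  have h2 : x = c ((A.nrd x - q) / A.trd x) := by
    have h3 : c (A.trd x) * x = c (A.nrd x - q) := by
      rw [map_sub]
      rw [eq_sub_iff_add_eq] at h1
      rw [← h1]; abel
    have h4 : x = c (A.trd x)⁻¹ * (c (A.trd x) * x) := by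
      rw [← mul_assoc, ← map_mul, inv_mul_cancel₀ h0, map_one, one_mul]
    rw [h3, ← map_mul] at h4
    rw [div_eq_inv_mul]
    exact h4
  rw [h2, ← map_mul, ← map_neg, c_inj] at h
  nlinarith [mul_self_nonneg ((A.nrd x - q) / A.trd x)]

theorem nrd_eq_of_sq {x : D} {q : ℚ} (hq : 0 < q) (h : x * x = -c q) : A.nrd x = q := by
  have h1 := A.mul_self x
  rw [h, A.trd_eq_zero_of_sq hq h, map_zero, zero_mul, zero_sub, neg_inj, c_inj] at h1
  exact h1.symm

theorem conj_eq_neg_of_sq {x : D} {q : ℚ} (hq : 0 < q) (h : x * x = -c q) : A.conj x = -x := by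
  rw [A.conj_eq, A.trd_eq_zero_of_sq hq h, map_zero, zero_sub]

/-- The centraliser of `x = √-q` is `ℚ + ℚ x`. -/
theorem mem_of_commute (A : QAlg D) {x : D} {q : ℚ} (hq : 0 < q) (h : x * x = -c q) {y : D}
    (hy : y * x = x * y) : ∃ a b : ℚ, y = c a + c b * x := by
  have hx0 : x ≠ 0 := by
    rintro rfl
    rw [mul_zero, eq_comm, neg_eq_zero, map_eq_zero] at h
    exact hq.ne' h
  have tx := A.trd_eq_zero_of_sq hq h
  refine ⟨A.trd y / 2, -A.trd (y * x) / (2 * q), ?_⟩
  set a := A.trd y / 2 with ha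
  set b := -A.trd (y * x) / (2 * q) with hb
  set z := y - (c a + c b * x) with hz
  have tz : A.trd z = 0 := by
    rw [hz, A.trd_sub, A.trd_add, A.trd_c, A.trd_c_mul, tx, ha]; ring
  have tzx : A.trd (z * x) = 0 := by
    have e : z * x = y * x - (c a * x + c b * (x * x)) := by
      rw [hz, sub_mul, add_mul, mul_assoc]
    rw [e, h, ← map_neg, A.trd_sub, A.trd_add, A.trd_c_mul, A.trd_c_mul, A.trd_c, tx, hb]
    field_simp
    ring
  have e1 : A.conj z = -z := by rw [A.conj_eq, tz, map_zero, zero_sub]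
  have e2 : A.conj x = -x := A.conj_eq_neg_of_sq hq h
  have e3 : z * x + x * z = 0 := by
    have e4 := A.add_conj (z * x)
    rw [tzx, map_zero, A.conj_mul, e1, e2, neg_mul_neg] at e4
    exact e4
  have e5 : z * x = x * z := by
    rw [hz, sub_mul, mul_sub, hy, add_mul, mul_add, c_comm a, ← mul_assoc x, ← c_comm b x]
  rw [e5, ← two_mul, mul_eq_zero] at e3
  have h2 : (2 : D) ≠ 0 := by
    have := (map_ne_zero (algebraMap ℚ D)).mpr (two_ne_zero : (2 : ℚ) ≠ 0)
    rwa [map_ofNat] at this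
  have e6 : z = 0 := by
    rcases e3 with e3 | e3
    · exact absurd e3 h2
    · exact (mul_eq_zero.mp e3).resolve_left hx0
  exact sub_eq_zero.mp e6

end QAlg

end Fermat.Agent.P2.Quat
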