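/-
P2, block 3: the involution `τ J = d⁻¹ J P_m` on the `l`-neighbours of a lattice `I` with
`d I = I P_m`, and its fixed points.
-/
import Fermat.Agent.P2.Quat.IsLat
import Fermat.Agent.P2.Quat.Alg

set_option autoImplicit false

open scoped Pointwise

namespace Fermat.Agent.P2.Quat

namespace QOrder

variable {D : Type} [DivisionRing D] [Algebra ℚ D] {S : QOrder D} {I J : Submodule ℤ D} {m l : ℕ}
  {d : D}

/-- `τ J = d⁻¹ J P_m`. -/
def tau (S : QOrder D) (d : D) (m : ℕ) (J : Submodule ℤ D) : Submodule ℤ D := d⁻¹ • (J * S.P m)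

theorem isLat_tau (hm : m ∣ S.M) (hd : d ≠ 0) (hJ : S.IsLat J) : S.IsLat (S.tau d m J) :=
  (hJ.mul_P hm).smul (inv_ne_zero hd)

theorem tau_le (hd : d ≠ 0) (hI : d • I = I * S.P m) (h : J ≤ I) :
    S.tau d m J ≤ I := by
  rw [tau, ← smul_le_smul_iff hd, smul_inv_smul' hd, hI]
  exact mul_le_mul_left h (S.P m)

theorem idx_mul_P_mul_P (hm : m ∣ S.M) (hI : S.IsLat I) (hJ : S.IsLat J) (h : J ≤ I) :
    idx (J * S.P m) (I * S.P m) = idx J I := by
  have h1 : idx (J * S.P m) (I * S.P m) * idx (I * S.P m) I = idx (J * S.P m) I :=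
    idx_mul (mul_le_mul_left h (S.P m)) (hI.mul_P_le hm)
  have h2 : idx (J * S.P m) J * idx J I = idx (J * S.P m) I :=
    idx_mul (hJ.mul_P_le hm) h
  rw [hI.idx_mul_P hm] at h1
  rw [hJ.idx_mul_P hm] at h2
  have h3 : 0 < m ^ 2 := pow_pos (Nat.pos_of_ne_zero (ne_zero_of_dvd_ne_zero S.M_ne_zero hm)) 2
  refine Nat.eq_of_mul_eq_mul_right h3 ?_
  rw [h1, ← h2, mul_comm]

theorem tau_mem_Nb (hm : m ∣ S.M) (hd : d ≠ 0) (hI : S.IsLat I) (hdI : d • I = I * S.P m)
    (h : J ∈ S.Nb l I) : S.tau d m J ∈ S.Nb l I := by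
  obtain ⟨h1, h2, h3⟩ := h
  refine ⟨isLat_tau hm hd h1, tau_le hd hdI h2, ?_⟩
  rw [tau, ← idx_smul hd, smul_inv_smul' hd, hdI, idx_mul_P_mul_P hm hI h1 h2, h3]

omit [Algebra ℚ D] in
theorem neg_smul_lat (I : Submodule ℤ D) : (-1 : D) • I = I := by
  refine le_antisymm ?_ ?_
  · intro x hx
    obtain ⟨y, hy, rfl⟩ := mem_smul.mp hx
    rw [neg_one_mul]
    exact I.neg_mem hy
  · intro x hx
    exact mem_smul.mpr ⟨-x, I.neg_mem hx, by rw [neg_one_mul, neg_neg]⟩

theorem tau_tau (hm : m ∣ S.M) (hdd : d * d = -(m : D)) (hJ : S.IsLat J) :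
    S.tau d m (S.tau d m J) = J := by
  have hm0 : (m : D) ≠ 0 := natCast_ne_zero' (ne_zero_of_dvd_ne_zero S.M_ne_zero hm)
  have hd : d ≠ 0 := by
    rintro rfl
    rw [mul_zero, eq_comm, neg_eq_zero] at hdd
    exact hm0 hdd
  rw [tau, tau, smul_mul_assoc', hJ.mul_P_mul_P hm, smul_smul, smul_smul, ← mul_inv_rev, hdd,
    inv_neg, neg_mul, inv_mul_cancel₀ hm0, neg_smul_lat]

theorem tau_eq_iff (hd : d ≠ 0) : S.tau d m J = J ↔ d • J = J * S.P m := by
  rw [tau]
  constructor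
  · intro h
    conv_lhs => rw [← h, smul_inv_smul' hd]
  · intro h
    rw [← h, inv_smul_smul' hd]

omit [Algebra ℚ D] in
/-- If `y I ≤ I`, `y J ≤ J`, `y² = -m` and `y` acts as a scalar on `I / J`, then `-m` is
a square modulo `l`. -/
theorem dvd_of_scalar {y : D} {c : ℤ} (hyy : y * y = -(m : D)) (hl : l.Prime)
    (hyJ : y • J ≤ J) (hJI : idx J I = l ^ 2) (hc : ∀ x ∈ I, (y - c) * x ∈ J) :
    (l : ℤ) ∣ m + c ^ 2 := by
  by_contra hnd
  have h1 : ∀ x ∈ I, ((m : ℤ) + c ^ 2) • x ∈ J := by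
    intro x hx
    have h2 : (y + c) * ((y - c) * x) ∈ J := by
      rw [add_mul]
      refine J.add_mem (hyJ (mem_smul.mpr ⟨_, hc x hx, rfl⟩)) ?_
      rw [← zsmul_eq_mul]
      exact J.smul_mem _ (hc x hx)
    have h3 : ((m : ℤ) + c ^ 2) • x = -((y + c) * ((y - c) * x)) := by
      have h4 : (y + c) * (y - c) = -(m : D) - (c : D) * c := by
        rw [add_mul, mul_sub, mul_sub, hyy, (Int.cast_commute c y).eq]
        abel
      rw [← mul_assoc, h4, zsmul_eq_mul, ← neg_mul]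
      congr 1
      push_cast
      rw [sq]
      abel
    rw [h3]
    exact J.neg_mem h2
  have h5 : I ≤ J := by
    intro x hx
    have h6 : (l ^ 2) • x ∈ J := by
      rw [← hJI]
      exact idx_smul_mem hx
    have hcop : IsCoprime ((m : ℤ) + c ^ 2) ((l ^ 2 : ℕ) : ℤ) := by
      rw [Nat.cast_pow]
      refine IsCoprime.pow_right ?_
      have := (Nat.prime_iff_prime_int.mp hl).coprime_iff_not_dvd.mpr hnd
      exact this.symm
    obtain ⟨u, v, huv⟩ := hcop
    have e : x = u • (((m : ℤ) + c ^ 2) • x) + v • ((l ^ 2) • x) := by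
      rw [← natCast_zsmul, smul_smul, smul_smul, ← add_smul, huv, one_smul]
    rw [e]
    exact J.add_mem (J.smul_mem _ (h1 x hx)) (J.smul_mem _ h6)
  rw [idx_eq_one.mpr h5] at hJI
  have := hl.one_lt
  nlinarith

omit [Algebra ℚ D] in
theorem isSquare_of_scalar {y : D} {c : ℤ} (hyy : y * y = -(m : D)) (hl : l.Prime)
    (hyJ : y • J ≤ J) (hJI : idx J I = l ^ 2) (hc : ∀ x ∈ I, (y - c) * x ∈ J) :
    IsSquare (-(m : ZMod l)) := by
  have h := dvd_of_scalar hyy hl hyJ hJI hc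
  refine ⟨(c : ZMod l), ?_⟩
  have h1 := (ZMod.intCast_zmod_eq_zero_iff_dvd _ l).mpr h
  push_cast at h1
  rw [← sq, neg_eq_iff_add_eq_zero]
  exact h1

/-- Left multiplication by `d` preserves `I` when `d I = I P_m`. -/
theorem smul_le_of_eq (hm : m ∣ S.M) (hI : S.IsLat I) (hdI : d • I = I * S.P m) : d • I ≤ I := by
  rw [hdI]; exact hI.mul_P_le hm

end QOrder

/-- Parity of the cardinality of a type with a fixed point free involution. -/
theorem even_card_of_invol {α : Type*} (τ : α → α) (h : ∀ a, τ (τ a) = a) (h' : ∀ a, τ a ≠ a) :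
    Even (Nat.card α) := by
  classical
  rcases finite_or_infinite α with hf | hf
  · have := Fintype.ofFinite α
    have h1 : ∑ _a : α, (1 : ZMod 2) = 0 :=
      Finset.sum_involution (fun a _ => τ a) (fun _ _ => by decide) (fun a _ _ => h' a)
        (fun _ _ => Finset.mem_univ _) (fun a _ => h a)
    rw [Finset.sum_const, nsmul_one, Finset.card_univ] at h1
    rw [Nat.card_eq_fintype_card]
    exact (ZMod.natCast_eq_zero_iff_even).mp h1
  · rw [Nat.card_eq_zero_of_infinite]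
    exact ⟨0, rfl⟩

/-- Sums in characteristic `2` over a type with an involution reduce to the fixed points. -/
theorem sum_invol {α : Type*} [Fintype α] (τ : α → α) (h : ∀ a, τ (τ a) = a) {f : α → ZMod 2}
    (hf : ∀ a, f (τ a) = f a) [DecidablePred fun a => τ a = a] :
    ∑ a, f a = ∑ a with τ a = a, f a := by
  classical
  rw [← Finset.sum_filter_add_sum_filter_not Finset.univ (fun a => τ a = a) f, add_eq_left]
  refine Finset.sum_involution (fun a _ => τ a) (fun a _ => ?_) (fun a ha _ => ?_)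
    (fun a ha => ?_) (fun a _ => h a)
  · rw [hf]; exact CharTwo.add_self_eq_zero _
  · exact (Finset.mem_filter.mp ha).2
  · rw [Finset.mem_filter] at ha ⊢
    refine ⟨Finset.mem_univ _, fun h2 => ha.2 ?_⟩
    rw [h a] at h2
    exact h2.symm

end Fermat.Agent.P2.Quat
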