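/-
P2, block 3: (T) the action of `T_l` on the `w_N`-fixed points `e c = [𝔠 O]`, modulo 2.
-/
import Fermat.Agent.P2.Quat.Tau
import Fermat.Agent.P2.Quat.Hecke
import Fermat.Agent.P2.Quat.EmbI
import Fermat.Agent.P2.Quat.Inert

set_option autoImplicit false

open scoped Pointwise nonZeroDivisors NumberField
open FractionalIdeal

namespace Fermat.Agent.P2.Quat

namespace EmbI

variable {D : Type} [DivisionRing D] [Algebra ℚ D] {S : QOrder D} {N : ℕ} (T : S.Root N)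
  {K : Type} [Field K] [NumberField K] (Q : ImQuad N K)

/-- `ι` on the ring of integers -/
noncomputable def ιO : 𝓞 K →+* D := (EmbD.ι T Q).comp (algebraMap (𝓞 K) K)

theorem ιO_apply (x : 𝓞 K) : ιO T Q x = EmbD.ι T Q (algebraMap (𝓞 K) K x) := rfl

theorem ιO_sO : ιO T Q Q.sO = T.i := EmbD.ι_s T Q

/-- the ideal of `x ∈ 𝓞 K` with `x I ⊆ J` -/
def colon {I : Submodule ℤ D} (J : Submodule ℤ D) (hI : ∀ y : 𝓞 K, ιO T Q y • I ≤ I) :
    Ideal (𝓞 K) where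
  carrier := {x | ιO T Q x • I ≤ J}
  add_mem' := by
    intro a b ha hb x hx
    obtain ⟨y, hy, rfl⟩ := mem_smul.mp hx
    rw [map_add, add_mul]
    exact J.add_mem (ha (mem_smul.mpr ⟨y, hy, rfl⟩)) (hb (mem_smul.mpr ⟨y, hy, rfl⟩))
  zero_mem' := by
    intro x hx
    obtain ⟨y, hy, rfl⟩ := mem_smul.mp hx
    rw [map_zero, zero_mul]
    exact J.zero_mem
  smul_mem' := by
    intro a b hb x hx
    obtain ⟨y, hy, rfl⟩ := mem_smul.mp hx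
    rw [smul_eq_mul, mul_comm, map_mul, mul_assoc]
    exact hb (mem_smul.mpr ⟨_, hI a (mem_smul.mpr ⟨y, hy, rfl⟩), rfl⟩)

theorem mem_colon {I J : Submodule ℤ D} {hI : ∀ y : 𝓞 K, ιO T Q y • I ≤ I} {x : 𝓞 K} :
    x ∈ colon T Q J hI ↔ ιO T Q x • I ≤ J := Iff.rfl

theorem smul_idlO_le (I : FractionalIdeal (𝓞 K)⁰ K) (y : 𝓞 K) :
    ιO T Q y • idlO T Q I ≤ idlO T Q I := by
  rw [ιO_apply, ← idlO_span_mul]
  refine idlO_mono T Q ?_
  calc spanSingleton (𝓞 K)⁰ (algebraMap (𝓞 K) K y) * I ≤ 1 * I := by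
        refine mul_le_mul_left ?_ I
        rw [← coeIdeal_span_singleton]
        exact coeIdeal_le_one
    _ = I := one_mul I

theorem natCast_smul_idlO (n : ℕ) (I : FractionalIdeal (𝓞 K)⁰ K) :
    (n : D) • idlO T Q I = idlO T Q (((Ideal.span {(n : 𝓞 K)} : Ideal (𝓞 K)) :
      FractionalIdeal (𝓞 K)⁰ K) * I) := by
  rw [coeIdeal_span_singleton, idlO_span_mul, map_natCast, map_natCast]

omit [NumberField K] in
theorem le_of_mul_le {A B I : FractionalIdeal (𝓞 K)⁰ K} [NumberField K] (hI : I ≠ 0)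
    (h : A * I ≤ B * I) : A ≤ B := by
  have h1 := mul_le_mul_left h I⁻¹
  rwa [mul_assoc, mul_assoc, mul_inv_cancel₀ hI, mul_one, mul_one] at h1

include Q in
theorem absNorm_span_natCast (l : ℕ) : Ideal.absNorm (Ideal.span {(l : 𝓞 K)}) = l ^ 2 := by
  rw [Ideal.absNorm_span_singleton, ← map_natCast (algebraMap ℤ (𝓞 K)) l,
    Algebra.norm_algebraMap, Int.natAbs_pow, Int.natAbs_natCast]
  congr 1
  rw [NumberField.RingOfIntegers.rank, Q.finrank]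

/-- an ideal of prime norm gives a neighbour -/
theorem idlO_mem_Nb (h2 : N % 4 = 2) {l : ℕ} (hl : l.Prime) (hlM : ¬ l ∣ S.M) {𝔭 : Ideal (𝓞 K)}
    (h𝔭 : Ideal.absNorm 𝔭 = l) {I : FractionalIdeal (𝓞 K)⁰ K} (hI : I ≠ 0) :
    idlO T Q ((𝔭 : FractionalIdeal (𝓞 K)⁰ K) * I) ∈ S.Nb l (idlO T Q I) := by
  have hp0 : 𝔭 ≠ ⊥ := by
    rintro rfl
    rw [Ideal.absNorm_bot] at h𝔭
    exact hl.ne_zero h𝔭.symm
  have hpF : (𝔭 : FractionalIdeal (𝓞 K)⁰ K) ≠ 0 := coeIdeal_ne_zero.mpr hp0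
  have hspan : Ideal.span {(l : 𝓞 K)} ≤ 𝔭 := by
    rw [Ideal.span_singleton_le_iff_mem, ← h𝔭]
    exact Ideal.absNorm_mem 𝔭
  have hlF : ((Ideal.span {(l : 𝓞 K)} : Ideal (𝓞 K)) : FractionalIdeal (𝓞 K)⁰ K) ≠ 0 := by
    rw [coeIdeal_ne_zero, Ne, Ideal.span_singleton_eq_bot]
    exact Nat.cast_ne_zero.mpr hl.ne_zero
  refine (isLat_idlO T Q h2 hI).mem_Nb_of_between hl hlM ?_ ?_ ?_ ?_ ?_
  · rw [natCast_smul_idlO]
    refine idlO_mono T Q (mul_le_mul_left ?_ I)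
    exact coeIdeal_le_coeIdeal' (𝓞 K)⁰ le_rfl |>.mpr hspan
  · refine idlO_mono T Q ?_
    calc (𝔭 : FractionalIdeal (𝓞 K)⁰ K) * I ≤ 1 * I := mul_le_mul_left coeIdeal_le_one I
      _ = I := one_mul I
  · intro x hx y
    exact (isLat_idlO T Q h2 (mul_ne_zero hpF hI)).mul_mem hx y.2
  · rw [natCast_smul_idlO, idlO_le_iff T Q h2 (mul_ne_zero hlF hI)]
    intro h
    have h1 := (coeIdeal_le_coeIdeal K).mp (le_of_mul_le hI h)
    have h3 : Ideal.absNorm (Ideal.span {(l : 𝓞 K)}) = l := by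
      rw [← le_antisymm h1 hspan]; exact h𝔭
    rw [absNorm_span_natCast Q] at h3
    have := hl.one_lt
    nlinarith
  · rw [idlO_le_iff T Q h2 (mul_ne_zero hpF hI)]
    intro h
    have h0 : 1 * I ≤ (𝔭 : FractionalIdeal (𝓞 K)⁰ K) * I := by rwa [one_mul]
    have h1 := le_of_mul_le hI h0
    rw [← coeIdeal_top, coeIdeal_le_coeIdeal K, top_le_iff] at h1
    rw [h1, Ideal.absNorm_top] at h𝔭
    exact hl.one_lt.ne h𝔭

/-- a proper ideal containing `l` and such that every element is congruent to an integer has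
norm `l` -/
theorem absNorm_eq {l : ℕ} (hl : l.Prime) {𝔭 : Ideal (𝓞 K)} (h1 : 𝔭 ≠ ⊤) (h2 : (l : 𝓞 K) ∈ 𝔭)
    (h3 : ∀ x : 𝓞 K, ∃ t : ℤ, x - t ∈ 𝔭) : Ideal.absNorm 𝔭 = l := by
  let φ : ℤ →+* 𝓞 K ⧸ 𝔭 := Int.castRingHom _
  have hφ : Function.Surjective φ := by
    intro y
    obtain ⟨x, rfl⟩ := Ideal.Quotient.mk_surjective y
    obtain ⟨t, ht⟩ := h3 x
    refine ⟨t, ?_⟩
    rw [eq_comm, ← sub_eq_zero]
    have : φ t = Ideal.Quotient.mk 𝔭 t := by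
      rw [eq_intCast, map_intCast]
    rw [this, ← map_sub]
    exact Ideal.Quotient.eq_zero_iff_mem.mpr ht
  have hker : RingHom.ker φ = Ideal.span {(l : ℤ)} := by
    have hmax : (Ideal.span {(l : ℤ)}).IsMaximal :=
      PrincipalIdealRing.isMaximal_of_irreducible (Nat.prime_iff_prime_int.mp hl).irreducible
    refine (hmax.eq_of_le ?_ ?_).symm
    · have : Nontrivial (𝓞 K ⧸ 𝔭) := Ideal.Quotient.nontrivial_iff.mpr h1
      exact RingHom.ker_ne_top φ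
    · rw [Ideal.span_singleton_le_iff_mem, RingHom.mem_ker, eq_intCast, Int.cast_natCast,
        ← map_natCast (Ideal.Quotient.mk 𝔭)]
      exact Ideal.Quotient.eq_zero_iff_mem.mpr h2
  have e1 := (RingHom.quotientKerEquivOfSurjective hφ).toEquiv
  rw [hker] at e1
  rw [Ideal.absNorm_apply, Submodule.cardQuot_apply, ← Nat.card_congr e1,
    Nat.card_congr (Int.quotientSpanNatEquivZMod l).toEquiv, Nat.card_zmod]

/-- a neighbour of `I O` stable under `i` comes from an ideal of norm `l` -/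
theorem exists_of_stable (h2 : N % 4 = 2) {l : ℕ} (hl : l.Prime) (hlM : ¬ l ∣ S.M)
    {I : FractionalIdeal (𝓞 K)⁰ K} (hI : I ≠ 0) {J : Submodule ℤ D}
    (hJ : J ∈ S.Nb l (idlO T Q I)) (hiJ : T.i • J ≤ J) :
    ∃ 𝔭 : Ideal (𝓞 K), Ideal.absNorm 𝔭 = l ∧
      J = idlO T Q ((𝔭 : FractionalIdeal (𝓞 K)⁰ K) * I) := by
  have hIL := isLat_idlO T Q h2 hI
  have hst := smul_idlO_le T Q I
  obtain ⟨c, hc⟩ := hIL.exists_scalar hl hlM (y := T.i)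
    (by rw [← ιO_sO T Q]; exact hst _) hJ hiJ
  set 𝔭 := colon T Q J hst with h𝔭
  have hlmem : (l : 𝓞 K) ∈ 𝔭 := by
    rw [h𝔭, mem_colon, map_natCast]
    exact hIL.smul_le_of_mem_Nb hl.ne_zero hJ
  have hsmem : Q.sO - c ∈ 𝔭 := by
    rw [h𝔭, mem_colon, map_sub, ιO_sO, map_intCast]
    intro x hx
    obtain ⟨y, hy, rfl⟩ := mem_smul.mp hx
    rw [sub_mul]
    exact hc y hy
  have hne : 𝔭 ≠ ⊤ := by
    intro h
    have h3 : (1 : 𝓞 K) ∈ 𝔭 := by rw [h]; trivial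
    rw [h𝔭, mem_colon, map_one, one_smul] at h3
    have h4 := idx_eq_one.mpr h3
    rw [hJ.2.2] at h4
    have := hl.one_lt
    nlinarith
  have hnorm : Ideal.absNorm 𝔭 = l := by
    refine absNorm_eq hl hne hlmem fun x => ?_
    have hN : Squarefree N := S.M_sqf.squarefree_of_dvd T.dvd
    obtain ⟨a, b, rfl⟩ := Q.exists_int' h2 hN x
    refine ⟨a + b * c, ?_⟩
    have : (a : 𝓞 K) + b * Q.sO - ((a + b * c : ℤ) : 𝓞 K) = b * (Q.sO - c) := by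
      push_cast; ring
    rw [this]
    exact 𝔭.mul_mem_left _ hsmem
  refine ⟨𝔭, hnorm, (QOrder.Nb_eq_of_le hl.ne_zero (idlO_mem_Nb T Q h2 hl hlM hnorm hI) hJ
    ?_).symm⟩
  rw [← idl_mul_idlO, Submodule.mul_le]
  rintro _ ⟨x, hx, rfl⟩ y hy
  rw [mem_coeIdeal] at hx
  obtain ⟨x, hx, rfl⟩ := hx
  exact hx (mem_smul.mpr ⟨y, hy, rfl⟩)

theorem idlO_stable (I : FractionalIdeal (𝓞 K)⁰ K) :
    S.tau T.i N (idlO T Q I) = idlO T Q I := by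
  rw [QOrder.tau_eq_iff (EmbD.i_ne_zero T Q.pos), idlO_mul_P]

/-- The fixed neighbours of `I O` are indexed by the ideals of norm `l`. -/
noncomputable def fixEquiv (h2 : N % 4 = 2) {l : ℕ} (hl : l.Prime) (hlM : ¬ l ∣ S.M)
    {I : FractionalIdeal (𝓞 K)⁰ K} (hI : I ≠ 0) :
    {𝔭 : (Ideal (𝓞 K))⁰ // Ideal.absNorm (𝔭 : Ideal (𝓞 K)) = l} ≃
      {J : S.Nb l (idlO T Q I) // S.tau T.i N J.1 = J.1} :=
  Equiv.ofBijective (fun 𝔭 => ⟨⟨idlO T Q (((𝔭 : (Ideal (𝓞 K))⁰) : Ideal (𝓞 K)) * I),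
    idlO_mem_Nb T Q h2 hl hlM 𝔭.2 hI⟩, idlO_stable T Q _⟩) ⟨by
      intro 𝔭 𝔮 h
      have h1 : idlO T Q ((((𝔭 : (Ideal (𝓞 K))⁰) : Ideal (𝓞 K)) : FractionalIdeal (𝓞 K)⁰ K) * I) =
          idlO T Q ((((𝔮 : (Ideal (𝓞 K))⁰) : Ideal (𝓞 K)) : FractionalIdeal (𝓞 K)⁰ K) * I) :=
        congrArg (fun z => z.1.1) h
      have hp : ∀ 𝔭 : (Ideal (𝓞 K))⁰, ((𝔭 : Ideal (𝓞 K)) : FractionalIdeal (𝓞 K)⁰ K) ≠ 0 :=
        fun 𝔭 => coeIdeal_ne_zero.mpr (nonZeroDivisors.ne_zero 𝔭.2)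
      rw [idlO_inj T Q h2 (mul_ne_zero (hp _) hI) (mul_ne_zero (hp _) hI)] at h1
      have h3 := mul_right_cancel₀ hI h1
      exact Subtype.ext (Subtype.ext ((coeIdeal_inj (K := K)).mp h3)), by
      rintro ⟨⟨J, hJ⟩, hfix⟩
      have h3 : T.i • J ≤ J := by
        rw [(QOrder.tau_eq_iff (EmbD.i_ne_zero T Q.pos)).mp hfix]
        exact hJ.1.mul_P_le T.dvd
      obtain ⟨𝔭, h𝔭, rfl⟩ := exists_of_stable T Q h2 hl hlM hI hJ h3
      refine ⟨⟨⟨𝔭, mem_nonZeroDivisors_iff_ne_zero.mpr ?_⟩, h𝔭⟩, rfl⟩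
      rintro rfl
      rw [Submodule.zero_eq_bot, Ideal.absNorm_bot] at h𝔭
      exact hl.ne_zero h𝔭.symm⟩

/-- **(T)**: `T_l` on the points `e c`, modulo `2`. -/
theorem sum_B_e [Fintype S.X] (h2 : N % 4 = 2) {l : ℕ} (hl : l.Prime) (hlM : ¬ l ∣ S.M)
    (c : ClassGroup (𝓞 K)) (g : S.X → ZMod 2) (hg : ∀ x, g (S.w N T.dvd x) = g x) :
    ∑ y, (S.B l (e T Q h2 c) y : ZMod 2) * g y =
      ∑ᶠ 𝔭 : {𝔭 : (Ideal (𝓞 K))⁰ // Ideal.absNorm (𝔭 : Ideal (𝓞 K)) = l},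
        g (e T Q h2 (ClassGroup.mk0 (𝔭 : (Ideal (𝓞 K))⁰) * c)) := by
  classical
  obtain ⟨I, rfl⟩ := exists_mk c
  have hI : (I : FractionalIdeal (𝓞 K)⁰ K) ≠ 0 := I.ne_zero
  set L := idlO T Q (I : FractionalIdeal (𝓞 K)⁰ K) with hL
  have hLat : S.IsLat L := isLat_idlO T Q h2 hI
  have hfin : Finite (S.Nb l L) := (hLat.finite_Nb hl.ne_zero).to_subtype
  have := Fintype.ofFinite (S.Nb l L)
  have hi0 := EmbD.i_ne_zero T Q.pos
  have hiL : T.i • L = L * S.P N := (idlO_mul_P T Q _).symm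
  rw [e_mk, QOrder.sum_B hLat hl.ne_zero g]
  let τ : S.Nb l L → S.Nb l L := fun J =>
    ⟨S.tau T.i N J.1, QOrder.tau_mem_Nb T.dvd hi0 hLat hiL J.2⟩
  have hτ : ∀ J, τ (τ J) = J := fun J => Subtype.ext (QOrder.tau_tau T.dvd T.sq J.2.1)
  have hgτ : ∀ J : S.Nb l L, g (S.cls (τ J).1 (τ J).2.1) = g (S.cls J.1 J.2.1) := by
    intro J
    rw [← hg (S.cls J.1 J.2.1), QOrder.w_cls]
    congr 1
    exact QOrder.cls_smul (J.2.1.mul_P T.dvd) (inv_ne_zero hi0)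
  rw [sum_invol τ hτ (f := fun J => g (S.cls J.1 J.2.1)) hgτ]
  have e1 : ∑ J : S.Nb l L with τ J = J, g (S.cls J.1 J.2.1) =
      ∑ᶠ J : {J : S.Nb l L // S.tau T.i N J.1 = J.1}, g (S.cls J.1.1 J.1.2.1) := by
    rw [finsum_eq_sum_of_fintype, Finset.sum_subtype (p := fun J : S.Nb l L =>
      S.tau T.i N J.1 = J.1)]
    intro J
    rw [Finset.mem_filter]
    exact ⟨fun h => congrArg Subtype.val h.2, fun h => ⟨Finset.mem_univ _, Subtype.ext h⟩⟩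
  rw [e1]
  refine (finsum_eq_of_bijective (fixEquiv T Q h2 hl hlM hI) (Equiv.bijective _) fun 𝔭 => ?_).symm
  congr 1
  have h3 : ClassGroup.mk0 (𝔭 : (Ideal (𝓞 K))⁰) * ClassGroup.mk K I =
      ClassGroup.mk K (FractionalIdeal.mk0 K (𝔭 : (Ideal (𝓞 K))⁰) * I) := by
    rw [map_mul, ClassGroup.mk_mk0]
  rw [h3, e_mk]
  rfl

end EmbI

end Fermat.Agent.P2.Quat
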