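/-
P2, block 3: the choice of the auxiliary prime `r` of the quaternion algebra
`(-N, -rQ)` by Dirichlet's theorem and quadratic reciprocity.
-/
import Mathlib

namespace Fermat.Agent.P2.Quat.Choice

open NumberTheorySymbols

theorem jac_prod_right (a : ℤ) (s : Finset ℕ) (h : ∀ p ∈ s, p ≠ 0) :
    jacobiSym a (∏ p ∈ s, p) = ∏ p ∈ s, jacobiSym a p := by
  classical
  induction s using Finset.induction_on with
  | empty => simp
  | insert x s hx ih =>
    rw [Finset.prod_insert hx, Finset.prod_insert hx,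
      jacobiSym.mul_right' a (h x (Finset.mem_insert_self _ _))
        (Finset.prod_ne_zero_iff.2 fun p hp => h p (Finset.mem_insert_of_mem hp)),
      ih fun p hp => h p (Finset.mem_insert_of_mem hp)]

/-- A natural number prime to the odd prime `p` with prescribed Legendre symbol. -/
theorem exists_sym {p : ℕ} (hp : p.Prime) (hp2 : p ≠ 2) {s : ℤ} (hs : s = 1 ∨ s = -1) :
    ∃ x : ℕ, x.Coprime p ∧ jacobiSym x p = s := by
  have : Fact p.Prime := ⟨hp⟩
  rcases hs with rfl | rfl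
  · exact ⟨1, Nat.coprime_one_left p, by simp⟩
  · obtain ⟨a, ha⟩ := FiniteField.exists_nonsquare (F := ZMod p) (by rwa [ZMod.ringChar_zmod_n])
    refine ⟨a.val, ?_, ?_⟩
    · rw [Nat.coprime_comm, hp.coprime_iff_not_dvd]
      intro hd
      apply ha
      have : (a.val : ZMod p) = 0 := (ZMod.natCast_eq_zero_iff _ _).2 hd
      rw [ZMod.natCast_zmod_val] at this
      rw [this]; exact IsSquare.zero
    · rw [ZMod.nonsquare_iff_jacobiSym_eq_neg_one]
      simpa using ha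

/-- Quadratic reciprocity in the form used below. -/
theorem recip {n b : ℕ} (hn : Odd n) (hb : b % 8 = 3) :
    jacobiSym (-(2 * n : ℕ) : ℤ) b = jacobiSym (-(b : ℤ)) n := by
  have hb4 : b % 4 = 3 := by omega
  have hbo : Odd b := Nat.odd_iff.2 (by omega)
  have h1 : (-((2 * n : ℕ) : ℤ)) = (-2) * (n : ℤ) := by push_cast; ring
  rw [h1, jacobiSym.mul_left, jacobiSym.at_neg_two hbo, ZMod.χ₈'_nat_eq_if_mod_eight,
    jacobiSym.neg _ hn]
  have hn2 : n % 2 = 1 := Nat.odd_iff.1 hn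
  rw [← jacobiSym.quadratic_reciprocity_if hn2 (by omega : b % 2 = 1)]
  rcases (by omega : n % 4 = 1 ∨ n % 4 = 3) with h | h
  · rw [ZMod.χ₄_nat_one_mod_four h]
    simp [h, hb, show b % 2 ≠ 0 by omega]
  · rw [ZMod.χ₄_nat_three_mod_four h]
    simp [h, hb4, hb, show b % 2 ≠ 0 by omega]

theorem exists_choice (S Q S0 : Finset ℕ) (hS : ∀ p ∈ S, p.Prime) (h2 : 2 ∈ S)
    (hQ : ∀ q ∈ Q, q.Prime) (hQS : Disjoint Q S) (hS0 : S0 ⊆ S.erase 2)
    (hpar : Odd (S.card + Q.card + S0.card))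
    (hinert : ∀ q ∈ Q, jacobiSym (-((∏ p ∈ S, p : ℕ) : ℤ)) q = -1) (B : ℕ) :
    ∃ r : ℕ, r.Prime ∧ B < r ∧ r ∉ S ∧ r ∉ Q ∧ (r * ∏ q ∈ Q, q) % 8 = 3 ∧
      (∀ p ∈ S.erase 2 \ S0, jacobiSym (-((r * ∏ q ∈ Q, q : ℕ) : ℤ)) p = -1) ∧
      (∀ p ∈ S0, jacobiSym (-((r * ∏ q ∈ Q, q : ℕ) : ℤ)) p = 1) ∧
      ∃ c : ℤ, Even c ∧ (r : ℤ) ∣ c ^ 2 + (∏ p ∈ S, p : ℕ) := by
  classical
  set Qp : ℕ := ∏ q ∈ Q, q with hQp
  set N' : ℕ := ∏ p ∈ S.erase 2, p with hN'
  have hN : (∏ p ∈ S, p) = 2 * N' := (Finset.mul_prod_erase S (fun p => p) h2).symm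
  have hQ2 : ∀ q ∈ Q, q ≠ 2 := fun q hq h => Finset.disjoint_left.1 hQS hq (h ▸ h2)
  have hQodd : Odd Qp := by
    rw [hQp]
    apply Finset.prod_induction (fun q => q) Odd (fun a b ha hb => ha.mul hb) odd_one
    exact fun q hq => (hQ q hq).odd_of_ne_two (hQ2 q hq)
  have hN'odd : Odd N' := by
    rw [hN']
    apply Finset.prod_induction (fun q => q) Odd (fun a b ha hb => ha.mul hb) odd_one
    intro q hq
    exact (hS q (Finset.mem_of_mem_erase hq)).odd_of_ne_two (Finset.ne_of_mem_erase hq)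
  -- the local sign wanted at `p`
  let sg : ℕ → ℤ := fun p => if p ∈ S0 then 1 else -1
  have hsg : ∀ p, sg p = 1 ∨ sg p = -1 := fun p => by
    by_cases h : p ∈ S0 <;> simp [sg, h]
  have hcopQ : ∀ p ∈ S, p.Coprime Qp := by
    intro p hp
    rw [hQp]
    apply Nat.Coprime.prod_right
    intro q hq
    rw [Nat.coprime_primes (hS p hp) (hQ q hq)]
    rintro rfl
    exact Finset.disjoint_left.1 hQS hq hp
  -- residue classes
  have hx : ∀ p : ℕ, ∃ x : ℕ, p ∈ S.erase 2 → x.Coprime p ∧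
      jacobiSym x p = sg p * jacobiSym (-(Qp : ℤ)) p := by
    intro p
    by_cases hp : p ∈ S.erase 2
    · have hpp := hS p (Finset.mem_of_mem_erase hp)
      have hs : sg p * jacobiSym (-(Qp : ℤ)) p = 1 ∨ sg p * jacobiSym (-(Qp : ℤ)) p = -1 := by
        have h1 : jacobiSym (-(Qp : ℤ)) p = 1 ∨ jacobiSym (-(Qp : ℤ)) p = -1 := by
          apply jacobiSym.eq_one_or_neg_one
          have := hcopQ p (Finset.mem_of_mem_erase hp)
          rw [Int.neg_gcd, Int.gcd_natCast_natCast]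
          exact this.symm
        rcases hsg p with h | h <;> rcases h1 with h' | h' <;> simp [h, h']
      obtain ⟨x, hx1, hx2⟩ := exists_sym hpp (Finset.ne_of_mem_erase hp) hs
      exact ⟨x, fun _ => ⟨hx1, hx2⟩⟩
    · exact ⟨0, fun h => absurd h hp⟩
  choose x hx using hx
  -- moduli
  let m : ℕ → ℕ := fun p => if p = 2 then 8 else p
  -- the class mod 8
  obtain ⟨y8, hy8⟩ : ∃ y : ℕ, (y * Qp) % 8 = 3 := by
    have : Qp % 8 = 1 ∨ Qp % 8 = 3 ∨ Qp % 8 = 5 ∨ Qp % 8 = 7 := by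
      have := Nat.odd_iff.1 hQodd; omega
    rcases this with h | h | h | h
    · exact ⟨3, by rw [Nat.mul_mod, h]⟩
    · exact ⟨1, by rw [Nat.mul_mod, h]⟩
    · exact ⟨7, by rw [Nat.mul_mod, h]⟩
    · exact ⟨5, by rw [Nat.mul_mod, h]⟩
  let a : ℕ → ℕ := fun p => if p = 2 then y8 else x p
  have hm0 : ∀ p ∈ S, m p ≠ 0 := by
    intro p hp
    by_cases h : p = 2
    · simp [m, h]
    · simp [m, h, (hS p hp).ne_zero]
  have hpw : Set.Pairwise (S : Set ℕ) (Function.onFun Nat.Coprime m) := by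
    intro p hp q hq hpq
    have hpp := hS p hp
    have hqq := hS q hq
    have hc := (Nat.coprime_primes hpp hqq).2 hpq
    simp only [Function.onFun, m]
    by_cases h : p = 2
    · subst h
      rw [if_pos rfl, if_neg (Ne.symm hpq)]
      exact Nat.Coprime.pow_left 3 hc
    · rw [if_neg h]
      by_cases h' : q = 2
      · subst h'
        rw [if_pos rfl]
        exact Nat.Coprime.pow_right 3 hc
      · rw [if_neg h']; exact hc
  obtain ⟨k, hk⟩ := Nat.chineseRemainderOfFinset a m S hm0 hpw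
  have hkc : k.Coprime (∏ p ∈ S, m p) := by
    apply Nat.Coprime.prod_right
    intro p hp
    have h1 : k ≡ a p [MOD m p] := hk p hp
    rw [Nat.Coprime, Nat.ModEq.gcd_eq h1]
    by_cases h : p = 2
    · subst h
      simp only [a, m, if_true]
      have : y8 % 2 = 1 := by
        by_contra hcon
        have h0 : y8 % 2 = 0 := by omega
        have : (y8 * Qp) % 2 = 0 := by rw [Nat.mul_mod, h0]; simp
        omega
      change Nat.Coprime y8 (2 ^ 3)
      exact Nat.Coprime.pow_right 3 (Nat.coprime_two_right.2 (Nat.odd_iff.2 this))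
    · simp only [a, m, if_neg h]
      exact (hx p (Finset.mem_erase.2 ⟨h, hp⟩)).1
  have hM0 : (∏ p ∈ S, m p) ≠ 0 := Finset.prod_ne_zero_iff.2 hm0
  obtain ⟨r, hrB, hr, hrk⟩ := Nat.forall_exists_prime_gt_and_modEq
    (B + (∏ p ∈ S, p) + Qp) hM0 hkc
  have hrmod : ∀ p ∈ S, r ≡ a p [MOD m p] := fun p hp =>
    (hrk.of_dvd (Finset.dvd_prod_of_mem m hp)).trans (hk p hp)
  have hrS : r ∉ S := by
    intro h
    have h1 := Nat.le_of_dvd (Finset.prod_pos fun p hp => (hS p hp).pos) (Finset.dvd_prod_of_mem (fun p => p) h)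
    omega
  have hrQ : r ∉ Q := by
    intro h
    have h1 : r ≤ Qp := Nat.le_of_dvd (Finset.prod_pos fun p hp => (hQ p hp).pos)
      (Finset.dvd_prod_of_mem (fun p => p) h)
    omega
  have hb8 : (r * Qp) % 8 = 3 := by
    have h1 : r ≡ y8 [MOD 8] := by simpa [a, m] using hrmod 2 h2
    rw [← hy8]
    exact (h1.mul_right Qp)
  have hsym : ∀ p ∈ S.erase 2, jacobiSym (-((r * Qp : ℕ) : ℤ)) p = sg p := by
    intro p hp
    have hp2 := Finset.ne_of_mem_erase hp
    have hpS := Finset.mem_of_mem_erase hp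
    have h1 : r ≡ x p [MOD p] := by simpa [a, m, hp2] using hrmod p hpS
    have h2 : jacobiSym (r : ℤ) p = jacobiSym (x p : ℤ) p := by
      apply jacobiSym.mod_left'
      have : r % p = x p % p := h1
      exact_mod_cast this
    have h3 : (-((r * Qp : ℕ) : ℤ)) = (r : ℤ) * (-(Qp : ℤ)) := by push_cast; ring
    rw [h3, jacobiSym.mul_left, h2, (hx p hp).2, mul_assoc]
    have hsq : jacobiSym (-(Qp : ℤ)) p * jacobiSym (-(Qp : ℤ)) p = 1 := by
      rw [← sq]
      apply jacobiSym.sq_one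
      rw [Int.neg_gcd, Int.gcd_natCast_natCast]
      exact (hcopQ p hpS).symm
    rw [hsq, mul_one]
  -- the reciprocity computation
  have hS0card : (S.erase 2).card = S.card - 1 := Finset.card_erase_of_mem h2
  have hcardpos : 0 < S.card := Finset.card_pos.2 ⟨2, h2⟩
  have hJ1 : jacobiSym (-((2 * N' : ℕ) : ℤ)) (r * Qp) = (-1) ^ (S.card - 1 - S0.card) := by
    rw [recip hN'odd hb8, hN', jac_prod_right _ _ (fun p hp => (hS p (Finset.mem_of_mem_erase hp)).ne_zero),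
      Finset.prod_congr rfl hsym, ← Finset.prod_sdiff hS0]
    have e1 : ∏ p ∈ S.erase 2 \ S0, sg p = (-1) ^ (S.card - 1 - S0.card) := by
      rw [Finset.prod_congr rfl (g := fun _ => (-1 : ℤ)), Finset.prod_const,
        Finset.card_sdiff_of_subset hS0, hS0card]
      intro p hp
      simp [sg, (Finset.mem_sdiff.1 hp).2]
    have e2 : ∏ p ∈ S0, sg p = 1 := Finset.prod_eq_one fun p hp => by simp [sg, hp]
    rw [e1, e2, mul_one]
  have hJ2 : jacobiSym (-((2 * N' : ℕ) : ℤ)) Qp = (-1) ^ Q.card := by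
    rw [hQp, jac_prod_right _ _ (fun q hq => (hQ q hq).ne_zero), ← hN,
      Finset.prod_congr rfl hinert, Finset.prod_const]
  have hQp0 : Qp ≠ 0 := hQodd.pos.ne'
  have hJ3 : jacobiSym (-((2 * N' : ℕ) : ℤ)) r = 1 := by
    have h1 := jacobiSym.mul_right' (-((2 * N' : ℕ) : ℤ)) hr.ne_zero hQp0
    rw [hJ1, hJ2] at h1
    have hle : S0.card ≤ S.card - 1 := hS0card ▸ Finset.card_le_card hS0
    have hpar' : Even (S.card - 1 - S0.card + Q.card) := by
      rw [Nat.odd_iff] at hpar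
      rw [Nat.even_iff]; omega
    have h2 : (-1 : ℤ) ^ Q.card * (-1) ^ Q.card = 1 := by
      rw [← pow_add]; exact Even.neg_one_pow ⟨_, rfl⟩
    calc jacobiSym (-((2 * N' : ℕ) : ℤ)) r
        = jacobiSym (-((2 * N' : ℕ) : ℤ)) r * ((-1) ^ Q.card * (-1) ^ Q.card) := by
          rw [h2, mul_one]
      _ = (-1 : ℤ) ^ (S.card - 1 - S0.card) * (-1) ^ Q.card := by rw [← mul_assoc, ← h1]
      _ = 1 := by rw [← pow_add]; exact hpar'.neg_one_pow
  have : Fact r.Prime := ⟨hr⟩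
  have hr2 : r ≠ 2 := fun h => hrS (h ▸ h2)
  obtain ⟨z, hz⟩ := ZMod.isSquare_of_jacobiSym_eq_one hJ3
  have hz' : (r : ℤ) ∣ (z.val : ℤ) ^ 2 + (2 * N' : ℕ) := by
    rw [← ZMod.intCast_zmod_eq_zero_iff_dvd]
    push_cast
    rw [ZMod.natCast_zmod_val, sq, ← hz]
    push_cast
    ring
  refine ⟨r, hr, by omega, hrS, hrQ, hb8, ?_, ?_, ?_⟩
  · intro p hp
    rw [hsym p (Finset.mem_sdiff.1 hp).1]
    simp [sg, (Finset.mem_sdiff.1 hp).2]
  · intro p hp
    rw [hsym p (hS0 hp)]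
    simp [sg, hp]
  · rw [hN]
    rcases Int.even_or_odd (z.val : ℤ) with he | ho
    · exact ⟨z.val, he, hz'⟩
    · refine ⟨z.val + r, ho.add_odd ?_, ?_⟩
      · exact_mod_cast hr.odd_of_ne_two hr2
      · have : ((z.val : ℤ) + r) ^ 2 + (2 * N' : ℕ)
            = ((z.val : ℤ) ^ 2 + (2 * N' : ℕ)) + r * (2 * z.val + r) := by ring
        rw [this]
        exact dvd_add hz' (dvd_mul_right _ _)

end Fermat.Agent.P2.Quat.Choice
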