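import Fermat.Agent.P2.Quat.Defs

/-!
# P2, block 3 (A): parameters of the explicit quaternion order

`D = ℍ[ℚ, -N, 0, -Qp]`, `i² = -N`, `j² = -Qp`, the order has `ℤ`-basis
`1, ω = (1+j)/2, i, g = (p i + 2c j + ij)/(2p)`.
-/

namespace Fermat.Agent.P2.Quat

/-- Parameters of the order. `ex` is the exceptional prime (`0` or `1` if there is none). -/
structure Par where
  N : ℕ
  Q : ℕ
  p : ℕ
  c : ℤ
  t : ℤ
  β : ℤ
  γ : ℤ
  δ : ℤ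
  n : ℤ
  ex : ℕ
  hn : (N : ℤ) = 2 * n
  n_odd : Odd n
  hb : (Q : ℤ) * p = 4 * β - 1
  β_odd : Odd β
  ht : 2 * (p : ℤ) * t = 4 * c ^ 2 + N
  hγ : (p : ℤ) + Q = 4 * γ
  hδ : (N : ℤ) + 2 * Q * t = 4 * δ
  N_sqf : Squarefree N
  Q_sqf : Squarefree Q
  cop : Nat.Coprime N Q
  p_prime : p.Prime
  p_N : ¬ p ∣ N
  p_Q : ¬ p ∣ Q
  hQ : ∀ q : ℕ, q.Prime → q ∣ Q → ¬ IsSquare (-(N : ZMod q))
  hN : ∀ q : ℕ, q.Prime → q ≠ 2 → q ≠ ex → q ∣ N → ¬ IsSquare (-((Q * p : ℕ) : ZMod q))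

namespace Par

variable (P : Par)

theorem N_pos : 0 < P.N := Nat.pos_of_ne_zero P.N_sqf.ne_zero

theorem Q_pos : 0 < P.Q := Nat.pos_of_ne_zero P.Q_sqf.ne_zero

theorem p_pos : 0 < P.p := P.p_prime.pos

theorem Qp_odd : Odd ((P.Q : ℤ) * P.p) := by
  rw [P.hb]; exact ⟨2 * P.β - 1, by ring⟩

theorem Q_odd : Odd (P.Q : ℤ) := (Int.odd_mul.mp P.Qp_odd).1

theorem p_odd : Odd (P.p : ℤ) := (Int.odd_mul.mp P.Qp_odd).2

/-- `(1+p)/2` -/
def p1 : ℤ := (1 + P.p) / 2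

/-- `(1+Q)/2` -/
def Q1 : ℤ := (1 + P.Q) / 2

theorem hp1 : 2 * P.p1 = 1 + P.p := by
  obtain ⟨k, hk⟩ := P.p_odd
  rw [p1, hk]; omega

theorem hQ1 : 2 * P.Q1 = 1 + P.Q := by
  obtain ⟨k, hk⟩ := P.Q_odd
  rw [Q1, hk]; omega

/-- the level -/
def M : ℕ := P.N * P.Q

theorem M_pos : 0 < P.M := Nat.mul_pos P.N_pos P.Q_pos

theorem M_sqf : Squarefree P.M := (Nat.squarefree_mul P.cop).mpr ⟨P.N_sqf, P.Q_sqf⟩

theorem two_dvd_N : 2 ∣ P.N := by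
  have h := P.hn
  omega

theorem t_odd : Odd P.t := by
  have h1 := P.ht
  have h2 : (P.p : ℤ) * P.t = 2 * P.c ^ 2 + P.n := by
    have h3 := P.hn; linarith
  have h4 : Odd ((P.p : ℤ) * P.t) := by
    rw [h2]
    exact (even_two_mul _).add_odd P.n_odd
  exact (Int.odd_mul.mp h4).2

/-- the quaternion algebra -/
abbrev D (P : Par) : Type := QuaternionAlgebra ℚ (-(P.N : ℚ)) 0 (-((P.Q : ℚ) * P.p))

/-- reduced norm -/
def nr (x : P.D) : ℚ :=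
  x.re ^ 2 + P.N * x.imI ^ 2 + P.Q * P.p * x.imJ ^ 2 + P.N * (P.Q * P.p) * x.imK ^ 2

theorem nr_nonneg (x : P.D) : 0 ≤ P.nr x := by
  unfold nr; positivity

theorem nr_eq_zero {x : P.D} (h : P.nr x = 0) : x = 0 := by
  have hN : (0 : ℚ) < P.N := by exact_mod_cast P.N_pos
  have hQ : (0 : ℚ) < P.Q := by exact_mod_cast P.Q_pos
  have hp : (0 : ℚ) < P.p := by exact_mod_cast P.p_pos
  unfold nr at h
  have h1 : 0 ≤ x.re ^ 2 := sq_nonneg _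
  have h2 : 0 ≤ (P.N : ℚ) * x.imI ^ 2 := by positivity
  have h3 : 0 ≤ (P.Q : ℚ) * P.p * x.imJ ^ 2 := by positivity
  have h4 : 0 ≤ (P.N : ℚ) * (P.Q * P.p) * x.imK ^ 2 := by positivity
  have e1 : x.re ^ 2 = 0 := by linarith
  have e2 : (P.N : ℚ) * x.imI ^ 2 = 0 := by linarith
  have e3 : (P.Q : ℚ) * P.p * x.imJ ^ 2 = 0 := by linarith
  have e4 : (P.N : ℚ) * (P.Q * P.p) * x.imK ^ 2 = 0 := by linarith
  have f1 : x.re = 0 := by simpa using e1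
  have f2 : x.imI = 0 := by
    rcases mul_eq_zero.mp e2 with h | h
    · exact absurd h hN.ne'
    · simpa using h
  have f3 : x.imJ = 0 := by
    rcases mul_eq_zero.mp e3 with h | h
    · exact absurd h (mul_pos hQ hp).ne'
    · simpa using h
  have f4 : x.imK = 0 := by
    rcases mul_eq_zero.mp e4 with h | h
    · exact absurd h (mul_pos hN (mul_pos hQ hp)).ne'
    · simpa using h
  ext
  · exact f1
  · exact f2
  · exact f3
  · exact f4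

theorem mul_star_self (x : P.D) : x * star x = algebraMap ℚ P.D (P.nr x) := by
  rw [QuaternionAlgebra.algebraMap_eq]
  ext <;> simp [nr] <;> ring

theorem star_mul_self' (x : P.D) : star x * x = algebraMap ℚ P.D (P.nr x) := by
  rw [QuaternionAlgebra.algebraMap_eq]
  ext <;> simp [nr] <;> ring

theorem nr_ne_zero {x : P.D} (h : x ≠ 0) : P.nr x ≠ 0 := fun h1 => h (P.nr_eq_zero h1)

instance instDivisionRing : DivisionRing P.D :=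
  { (inferInstance : Ring P.D) with
    inv := fun x => (P.nr x)⁻¹ • star x
    exists_pair_ne := ⟨0, 1, fun h => by
      have := congrArg QuaternionAlgebra.re h
      simp at this⟩
    mul_inv_cancel := fun x hx => by
      show x * ((P.nr x)⁻¹ • star x) = 1
      rw [mul_smul_comm, mul_star_self, Algebra.algebraMap_eq_smul_one, smul_smul,
        inv_mul_cancel₀ (P.nr_ne_zero hx), one_smul]
    inv_zero := by
      show (P.nr 0)⁻¹ • star (0 : P.D) = 0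
      rw [star_zero, smul_zero]
    nnqsmul := _
    nnqsmul_def := fun _ _ => rfl
    qsmul := _
    qsmul_def := fun _ _ => rfl }

/-- the quaternion algebra structure -/
def qalg : QAlg P.D where
  conj := star
  trd x := 2 * x.re
  nrd := P.nr
  conj_add := star_add
  conj_mul := star_mul
  conj_conj := star_star
  add_conj x := by
    rw [QuaternionAlgebra.algebraMap_eq]
    ext <;> simp
    ring
  mul_conj := P.mul_star_self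
  nrd_pos x hx := lt_of_le_of_ne (P.nr_nonneg x) (Ne.symm (P.nr_ne_zero hx))

/-! ### The order -/

/-- the element with coordinates `x0, x1, x2, x3` in the basis `1, ω, i, g`. -/
def el (x0 x1 x2 x3 : ℤ) : P.D :=
  ⟨x0 + x1 / 2, x2 + x3 / 2, x1 / 2 + P.c * x3 / P.p, x3 / (2 * P.p)⟩

theorem el_inj {x0 x1 x2 x3 y0 y1 y2 y3 : ℤ} (h : P.el x0 x1 x2 x3 = P.el y0 y1 y2 y3) :
    x0 = y0 ∧ x1 = y1 ∧ x2 = y2 ∧ x3 = y3 := by
  have hp : (P.p : ℚ) ≠ 0 := by exact_mod_cast P.p_pos.ne'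
  have e0 := congrArg QuaternionAlgebra.re h
  have e1 := congrArg QuaternionAlgebra.imI h
  have e2 := congrArg QuaternionAlgebra.imJ h
  have e3 := congrArg QuaternionAlgebra.imK h
  simp only [el] at e0 e1 e2 e3
  have f3 : (x3 : ℚ) = y3 := by
    field_simp at e3
    exact e3
  have f2 : (x2 : ℚ) = y2 := by rw [f3] at e1; linarith
  have f1 : (x1 : ℚ) = y1 := by rw [f3] at e2; linarith
  have f0 : (x0 : ℚ) = y0 := by rw [f1] at e0; linarith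
  exact ⟨by exact_mod_cast f0, by exact_mod_cast f1, by exact_mod_cast f2, by exact_mod_cast f3⟩

theorem el_add (x0 x1 x2 x3 y0 y1 y2 y3 : ℤ) :
    P.el x0 x1 x2 x3 + P.el y0 y1 y2 y3 = P.el (x0 + y0) (x1 + y1) (x2 + y2) (x3 + y3) := by
  ext <;> simp [el] <;> ring

theorem el_neg (x0 x1 x2 x3 : ℤ) : -P.el x0 x1 x2 x3 = P.el (-x0) (-x1) (-x2) (-x3) := by
  ext <;> simp [el] <;> ring

theorem el_smul (k x0 x1 x2 x3 : ℤ) :
    (k : P.D) * P.el x0 x1 x2 x3 = P.el (k * x0) (k * x1) (k * x2) (k * x3) := by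
  ext <;> simp [el] <;> ring

theorem el_int (k : ℤ) : (k : P.D) = P.el k 0 0 0 := by
  ext <;> simp [el]

theorem el_one : (1 : P.D) = P.el 1 0 0 0 := by
  ext <;> simp [el]

theorem el_zero : (0 : P.D) = P.el 0 0 0 0 := by
  ext <;> simp [el]

theorem el_star (x0 x1 x2 x3 : ℤ) :
    star (P.el x0 x1 x2 x3) = P.el (x0 + x1) (-x1) (-x2) (-x3) := by
  ext <;> simp [el] <;> ring

/-! the coordinates of a product -/

def m0 (x0 x1 x2 x3 y0 y1 y2 y3 : ℤ) : ℤ :=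
  x0 * y0 - P.β * x1 * y1 - P.N * x2 * y2 - P.δ * x3 * y3 - P.c * x1 * y2 + P.c * x2 * y1
    - P.c * P.Q1 * x1 * y3 + P.c * (1 - P.Q1) * x3 * y1 + (P.t - P.n) * x2 * y3
    - (P.t + P.n) * x3 * y2

def m1 (x0 x1 x2 x3 y0 y1 y2 y3 : ℤ) : ℤ :=
  x0 * y1 + x1 * y0 + x1 * y1 + 2 * P.c * x1 * y2 - 2 * P.c * x2 * y1 + P.c * x1 * y3
    - P.c * x3 * y1 - 2 * P.t * x2 * y3 + 2 * P.t * x3 * y2

def m2 (x0 x1 x2 x3 y0 y1 y2 y3 : ℤ) : ℤ :=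
  x0 * y2 + x2 * y0 + P.p1 * x1 * y2 + (1 - P.p1) * x2 * y1 + P.γ * x1 * y3 - P.γ * x3 * y1
    - P.c * x2 * y3 + P.c * x3 * y2

def m3 (x0 x1 x2 x3 y0 y1 y2 y3 : ℤ) : ℤ :=
  x0 * y3 + x3 * y0 - P.p * x1 * y2 + P.p * x2 * y1 + (1 - P.p1) * x1 * y3 + P.p1 * x3 * y1
    + 2 * P.c * x2 * y3 - 2 * P.c * x3 * y2

/-- the parameters as rational functions of `p, Q, t, c`. -/
theorem rats : (P.N : ℚ) = 2 * P.p * P.t - 4 * P.c ^ 2 ∧ (P.n : ℚ) = P.p * P.t - 2 * P.c ^ 2 ∧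
    (P.β : ℚ) = (1 + P.Q * P.p) / 4 ∧ (P.γ : ℚ) = (P.p + P.Q) / 4 ∧
    (P.δ : ℚ) = (2 * P.p * P.t - 4 * P.c ^ 2 + 2 * P.Q * P.t) / 4 ∧
    (P.p1 : ℚ) = (1 + P.p) / 2 ∧ (P.Q1 : ℚ) = (1 + P.Q) / 2 := by
  have h1 : (2 : ℚ) * P.p * P.t = 4 * P.c ^ 2 + P.N := by exact_mod_cast P.ht
  have h2 : (P.N : ℚ) = 2 * P.n := by exact_mod_cast P.hn
  have h3 : (P.Q : ℚ) * P.p = 4 * P.β - 1 := by exact_mod_cast P.hb
  have h4 : (P.p : ℚ) + P.Q = 4 * P.γ := by exact_mod_cast P.hγ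
  have h5 : (P.N : ℚ) + 2 * P.Q * P.t = 4 * P.δ := by exact_mod_cast P.hδ
  have h6 : 2 * (P.p1 : ℚ) = 1 + P.p := by exact_mod_cast P.hp1
  have h7 : 2 * (P.Q1 : ℚ) = 1 + P.Q := by exact_mod_cast P.hQ1
  refine ⟨by linarith, by linarith, by linarith, by linarith, by linarith, by linarith,
    by linarith⟩

theorem el_mul (x0 x1 x2 x3 y0 y1 y2 y3 : ℤ) :
    P.el x0 x1 x2 x3 * P.el y0 y1 y2 y3 =
      P.el (P.m0 x0 x1 x2 x3 y0 y1 y2 y3) (P.m1 x0 x1 x2 x3 y0 y1 y2 y3)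
        (P.m2 x0 x1 x2 x3 y0 y1 y2 y3) (P.m3 x0 x1 x2 x3 y0 y1 y2 y3) := by
  obtain ⟨r1, r2, r3, r4, r5, r6, r7⟩ := P.rats
  have hp : (P.p : ℚ) ≠ 0 := by exact_mod_cast P.p_pos.ne'
  ext
  · simp [el, m0, m1, m2, m3]
    rw [r2, r3, r5, r7, r1]
    field_simp
    ring
  · simp [el, m0, m1, m2, m3]
    rw [r4, r6]
    field_simp
    ring
  · simp [el, m0, m1, m2, m3]
    rw [r6, r1]
    field_simp
    ring
  · simp [el, m0, m1, m2, m3]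
    rw [r6]
    field_simp
    ring

/-- the order -/
def O : Subalgebra ℤ P.D where
  carrier := {x | ∃ x0 x1 x2 x3 : ℤ, x = P.el x0 x1 x2 x3}
  mul_mem' := by
    rintro _ _ ⟨x0, x1, x2, x3, rfl⟩ ⟨y0, y1, y2, y3, rfl⟩
    exact ⟨_, _, _, _, P.el_mul x0 x1 x2 x3 y0 y1 y2 y3⟩
  add_mem' := by
    rintro _ _ ⟨x0, x1, x2, x3, rfl⟩ ⟨y0, y1, y2, y3, rfl⟩
    exact ⟨_, _, _, _, P.el_add x0 x1 x2 x3 y0 y1 y2 y3⟩
  algebraMap_mem' := fun k => ⟨k, 0, 0, 0, by rw [← P.el_int]; simp⟩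

theorem mem_O {x : P.D} : x ∈ P.O ↔ ∃ x0 x1 x2 x3 : ℤ, x = P.el x0 x1 x2 x3 := Iff.rfl

theorem el_mem (x0 x1 x2 x3 : ℤ) : P.el x0 x1 x2 x3 ∈ P.O := ⟨x0, x1, x2, x3, rfl⟩

theorem star_mem {x : P.D} (hx : x ∈ P.O) : star x ∈ P.O := by
  obtain ⟨x0, x1, x2, x3, rfl⟩ := hx
  rw [el_star]; exact P.el_mem _ _ _ _

/-- the integral norm form -/
def nf (x0 x1 x2 x3 : ℤ) : ℤ :=
  x0 ^ 2 + x0 * x1 + P.β * x1 ^ 2 + P.N * x2 ^ 2 + P.δ * x3 ^ 2 + P.c * P.Q * x1 * x3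
    + P.N * x2 * x3

theorem nr_el (x0 x1 x2 x3 : ℤ) : P.nr (P.el x0 x1 x2 x3) = P.nf x0 x1 x2 x3 := by
  obtain ⟨r1, r2, r3, r4, r5, r6, r7⟩ := P.rats
  have hp : (P.p : ℚ) ≠ 0 := by exact_mod_cast P.p_pos.ne'
  simp only [nr, el, nf]
  push_cast
  rw [r3, r5, r1]
  field_simp
  ring

theorem re_el (x0 x1 x2 x3 : ℤ) : 2 * (P.el x0 x1 x2 x3).re = ((2 * x0 + x1 : ℤ) : ℚ) := by
  simp only [el]; push_cast; ring

end Par

end Fermat.Agent.P2.Quat
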