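/-
P2, block 3: existence of the parameters `Par` of the explicit quaternion order.
-/
import Fermat.Agent.P2.Quat.Par
import Fermat.Agent.P2.Quat.Choice

namespace Fermat.Agent.P2.Quat

namespace Par

/-- From the auxiliary prime to the parameters. -/
theorem exists_of_choice {N Q p ex : ℕ} {c0 : ℤ} (hN2 : N % 4 = 2) (hNs : Squarefree N)
    (hQs : Squarefree Q) (hcop : N.Coprime Q) (hp : p.Prime) (hpN : ¬ p ∣ N) (hpQ : ¬ p ∣ Q)
    (hb : (p * Q) % 8 = 3) (hc0 : Even c0) (hdvd : (p : ℤ) ∣ c0 ^ 2 + N)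
    (hQ : ∀ q : ℕ, q.Prime → q ∣ Q → ¬ IsSquare (-(N : ZMod q)))
    (hN : ∀ q : ℕ, q.Prime → q ≠ 2 → q ≠ ex → q ∣ N → ¬ IsSquare (-((Q * p : ℕ) : ZMod q))) :
    ∃ P : Par, P.N = N ∧ P.Q = Q ∧ P.p = p ∧ P.ex = ex := by
  obtain ⟨c, hc⟩ := hc0
  obtain ⟨n, hn, hno⟩ : ∃ n : ℤ, (N : ℤ) = 2 * n ∧ Odd n :=
    ⟨N / 2, by omega, by rw [Int.odd_iff]; omega⟩
  have hpodd : Odd (p : ℤ) := by
    rw [Int.odd_coe_nat, Nat.odd_iff]
    by_contra h
    have h0 : p % 2 = 0 := by omega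
    have : (p * Q) % 2 = 0 := by rw [Nat.mul_mod, h0]; simp
    omega
  have hQodd : Odd (Q : ℤ) := by
    rw [Int.odd_coe_nat, Nat.odd_iff]
    by_contra h
    have h0 : Q % 2 = 0 := by omega
    have : (p * Q) % 2 = 0 := by rw [Nat.mul_mod, h0]; simp
    omega
  have hp2 : IsCoprime (p : ℤ) 2 := by
    rw [Int.isCoprime_iff_gcd_eq_one]
    exact Int.gcd_comm _ _ ▸ (by
      have := Int.isCoprime_iff_gcd_eq_one.1 (Int.isCoprime_two_left.2 hpodd)
      exact this)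
  have hdvd2 : (p : ℤ) ∣ 2 * c ^ 2 + n := by
    have h1 : (p : ℤ) ∣ 2 * (2 * c ^ 2 + n) := by
      have : c0 ^ 2 + (N : ℤ) = 2 * (2 * c ^ 2 + n) := by rw [hc, hn]; ring
      rwa [← this]
    exact hp2.dvd_of_dvd_mul_left h1
  obtain ⟨t, ht⟩ := hdvd2
  have hb' : ((p : ℤ) * Q) % 8 = 3 := by exact_mod_cast hb
  have hto : Odd t := by
    have : Odd ((p : ℤ) * t) := by
      rw [← ht]; exact (even_two_mul _).add_odd hno
    exact (Int.odd_mul.1 this).2
  have hγ : (4 : ℤ) ∣ p + Q := by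
    obtain ⟨a, ha⟩ := hpodd
    obtain ⟨b, hb⟩ := hQodd
    rw [ha, hb] at hb' ⊢
    have h1 : (2 * a + 1) * (2 * b + 1) = 4 * (a * b) + 2 * (a + b) + 1 := by ring
    rw [h1] at hb'
    generalize a * b = ab at hb'
    omega
  have hδ : (4 : ℤ) ∣ N + 2 * Q * t := by
    have h1 : Even (n + Q * t) := hno.add_odd (hQodd.mul hto)
    obtain ⟨k, hk⟩ := h1
    exact ⟨k, by rw [hn]; linear_combination 2 * hk⟩
  obtain ⟨γ, hγ⟩ := hγ
  obtain ⟨δ, hδ⟩ := hδ
  refine ⟨{ N := N, Q := Q, p := p, c := c, t := t, β := ((Q : ℤ) * p + 1) / 4, γ := γ, δ := δ,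
            n := n, ex := ex, hn := hn, n_odd := hno, hb := ?_, β_odd := ?_, ht := ?_, hγ := hγ,
            hδ := hδ, N_sqf := hNs, Q_sqf := hQs, cop := hcop, p_prime := hp, p_N := hpN,
            p_Q := hpQ, hQ := hQ, hN := hN }, rfl, rfl, rfl, rfl⟩
  · rw [mul_comm (Q : ℤ)]; omega
  · rw [mul_comm (Q : ℤ), Int.odd_iff]; omega
  · rw [hn]; linear_combination -2 * ht

/-- **Existence of the parameters.** `N ≡ 2 mod 4` and `Q` are squarefree and coprime, `Q` is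
odd and its primes are inert in `ℚ(√-N)`; `ex` is an odd prime factor of `N` if the number of
primes of `NQ` is even, and `ex = 0` otherwise. -/
theorem exists_par {N Q ex : ℕ} (hN2 : N % 4 = 2) (hNs : Squarefree N) (hQs : Squarefree Q)
    (hcop : N.Coprime Q) (hQ : ∀ q : ℕ, q.Prime → q ∣ Q → ¬ IsSquare (-(N : ZMod q)))
    (hex : (Odd (N * Q).primeFactors.card ∧ ex = 0) ∨
      (Even (N * Q).primeFactors.card ∧ ex.Prime ∧ ex ≠ 2 ∧ ex ∣ N)) (B : ℕ) :
    ∃ P : Par, P.N = N ∧ P.Q = Q ∧ P.ex = ex ∧ B < P.p ∧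
      (ex ≠ 0 → IsSquare (-((Q * P.p : ℕ) : ZMod ex))) := by
  classical
  have hN0 : N ≠ 0 := hNs.ne_zero
  have hQ0 : Q ≠ 0 := hQs.ne_zero
  have h2N : 2 ∣ N := by omega
  have h2mem : 2 ∈ N.primeFactors := Nat.mem_primeFactors.2 ⟨Nat.prime_two, h2N, hN0⟩
  have hcard : (N * Q).primeFactors.card = N.primeFactors.card + Q.primeFactors.card := by
    rw [hcop.primeFactors_mul, Finset.card_union_of_disjoint hcop.disjoint_primeFactors]
  let S0 : Finset ℕ := if ex = 0 then ∅ else {ex}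
  have hS0 : S0 ⊆ N.primeFactors.erase 2 := by
    by_cases h : ex = 0
    · simp [S0, h]
    · rcases hex with ⟨-, h'⟩ | ⟨-, hexp, hex2, hexN⟩
      · exact absurd h' h
      · simp only [S0, if_neg h, Finset.singleton_subset_iff]
        exact Finset.mem_erase.2 ⟨hex2, Nat.mem_primeFactors.2 ⟨hexp, hexN, hN0⟩⟩
  have hpar : Odd (N.primeFactors.card + Q.primeFactors.card + S0.card) := by
    rw [← hcard]
    rcases hex with ⟨ho, h'⟩ | ⟨he, hexp, -, -⟩
    · simpa [S0, h'] using ho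
    · have : S0.card = 1 := by simp [S0, hexp.ne_zero]
      rw [this]; exact he.add_odd odd_one
  have hNprod : (∏ p ∈ N.primeFactors, p) = N := Nat.prod_primeFactors_of_squarefree hNs
  have hQprod : (∏ p ∈ Q.primeFactors, p) = Q := Nat.prod_primeFactors_of_squarefree hQs
  have hinert : ∀ q ∈ Q.primeFactors,
      jacobiSym (-((∏ p ∈ N.primeFactors, p : ℕ) : ℤ)) q = -1 := by
    intro q hq
    have hqp := Nat.prime_of_mem_primeFactors hq
    have : Fact q.Prime := ⟨hqp⟩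
    rw [hNprod, ZMod.nonsquare_iff_jacobiSym_eq_neg_one]
    push_cast
    exact hQ q hqp (Nat.dvd_of_mem_primeFactors hq)
  obtain ⟨r, hr, hrB, hrS, hrQ, hb, h1, h2, c, hce, hcd⟩ := Choice.exists_choice
    N.primeFactors Q.primeFactors S0 (fun p hp => Nat.prime_of_mem_primeFactors hp) h2mem
    (fun p hp => Nat.prime_of_mem_primeFactors hp) hcop.symm.disjoint_primeFactors hS0 hpar
    hinert B
  rw [hQprod] at hb h1 h2
  rw [hNprod] at hcd
  obtain ⟨P, hP1, hP2, hP3, hP4⟩ := exists_of_choice (ex := ex) hN2 hNs hQs hcop hr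
    (fun h => hrS (Nat.mem_primeFactors.2 ⟨hr, h, hN0⟩))
    (fun h => hrQ (Nat.mem_primeFactors.2 ⟨hr, h, hQ0⟩)) hb hce hcd hQ
    (by
      intro q hq hq2 hqex hqN
      have : Fact q.Prime := ⟨hq⟩
      have hmem : q ∈ N.primeFactors.erase 2 \ S0 := by
        rw [Finset.mem_sdiff, Finset.mem_erase]
        refine ⟨⟨hq2, Nat.mem_primeFactors.2 ⟨hq, hqN, hN0⟩⟩, ?_⟩
        by_cases h : ex = 0
        · simp [S0, h]
        · simpa [S0, h] using hqex
      have := h1 q hmem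
      rw [ZMod.nonsquare_iff_jacobiSym_eq_neg_one] at this
      push_cast at this ⊢
      rwa [mul_comm (Q : ZMod q)])
  refine ⟨P, hP1, hP2, hP4, by rw [hP3]; exact hrB, ?_⟩
  intro hex0
  have hexp : ex.Prime := by
    rcases hex with ⟨-, h'⟩ | ⟨-, h', -, -⟩
    · exact absurd h' hex0
    · exact h'
  have : Fact ex.Prime := ⟨hexp⟩
  have h3 := ZMod.isSquare_of_jacobiSym_eq_one (h2 ex (by simp [S0, hex0]))
  rw [hP3]
  push_cast at h3 ⊢
  rwa [mul_comm (Q : ZMod ex)]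

end Par

end Fermat.Agent.P2.Quat
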