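/-
P2, block 3: matrices over `𝔽_l` satisfying the multiplication table of the explicit
quaternion order `ℤ⟨1, ω, i, g⟩` (`l ∤ 2NQp` and `l = p`).
-/
import Mathlib

namespace Fermat.Agent.P2.Quat.Split

open Matrix

variable {F : Type*} [Field F]

/-- The relations between the parameters. -/
structure Rel (N Q p c t β γ δ n p1 Q1 : F) : Prop where
  hN : N = 2 * n
  hβ : Q * p = 4 * β - 1
  ht : 2 * p * t = 4 * c ^ 2 + N
  hγ : p + Q = 4 * γ
  hδ : N + 2 * Q * t = 4 * δ
  hp1 : 2 * p1 = 1 + p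
  hQ1 : 2 * Q1 = 1 + Q

/-- The multiplication table of `ω, i, g`. -/
structure Tab (N Q p c t β γ δ n p1 Q1 : F) (W I G : Matrix (Fin 2) (Fin 2) F) : Prop where
  WW : W * W = (-β) • 1 + W
  WI : W * I = (-c) • 1 + (2 * c) • W + p1 • I - p • G
  WG : W * G = (-(c * Q1)) • 1 + c • W + γ • I + (1 - p1) • G
  IW : I * W = c • 1 - (2 * c) • W + (1 - p1) • I + p • G
  II : I * I = (-N) • 1
  IG : I * G = (t - n) • 1 - (2 * t) • W - c • I + (2 * c) • G
  GW : G * W = (c * (1 - Q1)) • 1 - c • W - γ • I + p1 • G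
  GI : G * I = (-(t + n)) • 1 + (2 * t) • W + c • I - (2 * c) • G
  GG : G * G = (-δ) • 1
  indep : ∀ x0 x1 x2 x3 : F, x0 • (1 : Matrix (Fin 2) (Fin 2) F) + x1 • W + x2 • I + x3 • G = 0 →
    x0 = 0 ∧ x1 = 0 ∧ x2 = 0 ∧ x3 = 0

theorem exists_tab_generic {N Q p c t β γ δ n p1 Q1 : F} (R : Rel N Q p c t β γ δ n p1 Q1)
    (h2 : (2 : F) ≠ 0) (hN : N ≠ 0) (hQ : Q ≠ 0) (hp : p ≠ 0) {x y : F}
    (hxy : x ^ 2 + N * y ^ 2 = -(Q * p)) :
    ∃ W I G : Matrix (Fin 2) (Fin 2) F, Tab N Q p c t β γ δ n p1 Q1 W I G := by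
  obtain ⟨r1, r2, r3, r4, r5, r6, r7⟩ := R
  have h4 : (4 : F) ≠ 0 := by
    have : (4 : F) = 2 * 2 := by norm_num
    rw [this]; exact mul_ne_zero h2 h2
  have ht : t = (4 * c ^ 2 + N) / (2 * p) := by
    rw [← r3]; field_simp
  have hn : n = N / 2 := by rw [r1]; field_simp
  have hβ : β = (Q * p + 1) / 4 := by rw [r2]; field_simp; ring
  have hγ : γ = (p + Q) / 4 := by rw [r4]; field_simp
  have hδ : δ = (N + 2 * Q * t) / 4 := by rw [r5]; field_simp
  have hQe : Q = -(x ^ 2 + N * y ^ 2) / p := by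
    rw [eq_div_iff hp]; linear_combination hxy
  have hb : x ^ 2 + N * y ^ 2 ≠ 0 := by
    rw [hxy]; exact neg_ne_zero.2 (mul_ne_zero hQ hp)
  have hp1 : p1 = (1 + p) / 2 := by rw [← r6]; field_simp
  have hQ1 : Q1 = (1 + Q) / 2 := by rw [← r7]; field_simp
  rw [ht] at hδ
  clear r1 r2 r3 r4 r5 r6 r7 hQ hxy
  subst ht hn hβ hγ hδ hp1 hQ1 hQe
  refine ⟨!![(1 + x) / 2, N * y / 2; y / 2, (1 - x) / 2], !![0, -N; 1, 0],
    !![(2 * c * x - N * y) / (2 * p), (-(p * N) + 2 * c * N * y + N * x) / (2 * p);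
      (p + 2 * c * y + x) / (2 * p), (-(2 * c * x) + N * y) / (2 * p)], ?_⟩
  constructor
  case indep =>
    intro x0 x1 x2 x3 h
    have h00 := congrFun (congrFun h 0) 0
    have h01 := congrFun (congrFun h 0) 1
    have h10 := congrFun (congrFun h 1) 0
    have h11 := congrFun (congrFun h 1) 1
    simp [Matrix.add_apply] at h00 h01 h10 h11
    field_simp at h00 h01 h10 h11
    have e0 : 2 * x0 + x1 = 0 := by
      have : (2 * p) * (2 * x0 + x1) = 0 := by linear_combination h00 + h11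
      exact (mul_eq_zero.1 this).resolve_left (mul_ne_zero h2 hp)
    have e1 : (p * x1 + 2 * c * x3) * x - x3 * N * y = 0 := by
      have : 2 * ((p * x1 + 2 * c * x3) * x - x3 * N * y) = 0 := by linear_combination h00 - h11
      exact (mul_eq_zero.1 this).resolve_left h2
    have h01' : p * (x1 * y + -(2 * x2)) + x3 * (-p + 2 * c * y + x) = 0 := by
      rw [mul_zero] at h01
      exact (mul_eq_zero.1 h01).resolve_left hN
    have e2 : (p * x1 + 2 * c * x3) * y + x3 * x = 0 := by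
      have : 2 * ((p * x1 + 2 * c * x3) * y + x3 * x) = 0 := by linear_combination h01' + h10
      exact (mul_eq_zero.1 this).resolve_left h2
    have e3 : 2 * x2 + x3 = 0 := by
      have : (2 * p) * (2 * x2 + x3) = 0 := by linear_combination h10 - h01'
      exact (mul_eq_zero.1 this).resolve_left (mul_ne_zero h2 hp)
    have e4 : p * x1 + 2 * c * x3 = 0 := by
      have : (x ^ 2 + N * y ^ 2) * (p * x1 + 2 * c * x3) = 0 := by
        linear_combination x * e1 + N * y * e2
      exact (mul_eq_zero.1 this).resolve_left hb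
    have e5 : x3 = 0 := by
      have : (x ^ 2 + N * y ^ 2) * x3 = 0 := by
        linear_combination x * e2 - y * e1
      exact (mul_eq_zero.1 this).resolve_left hb
    have e6 : x1 = 0 := by
      have : p * x1 = 0 := by rw [e5] at e4; linear_combination e4
      exact (mul_eq_zero.1 this).resolve_left hp
    have e7 : x0 = 0 := by
      have : 2 * x0 = 0 := by rw [e6] at e0; linear_combination e0
      exact (mul_eq_zero.1 this).resolve_left h2
    have e8 : x2 = 0 := by
      have : 2 * x2 = 0 := by rw [e5] at e3; linear_combination e3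
      exact (mul_eq_zero.1 this).resolve_left h2
    exact ⟨e7, e6, e8, e5⟩
  all_goals
    ext i j
    fin_cases i <;> fin_cases j <;> simp [Matrix.mul_apply, Fin.sum_univ_two] <;>
      field_simp <;> ring

theorem exists_tab_special {N Q c t β γ δ n p1 Q1 : F} (R : Rel N Q 0 c t β γ δ n p1 Q1)
    (h2 : (2 : F) ≠ 0) (hN : N ≠ 0) (hQ : Q ≠ 0) :
    ∃ W I G : Matrix (Fin 2) (Fin 2) F, Tab N Q 0 c t β γ δ n p1 Q1 W I G := by
  obtain ⟨r1, r2, r3, r4, r5, r6, r7⟩ := R
  have h4 : (4 : F) ≠ 0 := by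
    have : (4 : F) = 2 * 2 := by norm_num
    rw [this]; exact mul_ne_zero h2 h2
  have h8 : (8 : F) ≠ 0 := by
    have : (8 : F) = 2 * 2 * 2 := by norm_num
    rw [this]; exact mul_ne_zero (mul_ne_zero h2 h2) h2
  have hNc : N = -(4 * c ^ 2) := by linear_combination -r3
  have hc : c ≠ 0 := by
    rintro rfl; apply hN; rw [hNc]; ring
  have hn : n = N / 2 := by rw [r1]; field_simp
  have hβ : β = 1 / 4 := by
    rw [eq_div_iff h4]; linear_combination -r2
  have hγ : γ = Q / 4 := by rw [eq_div_iff h4]; linear_combination -r4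
  have hδ : δ = (N + 2 * Q * t) / 4 := by rw [r5]; field_simp
  have hp1 : p1 = 1 / 2 := by rw [eq_div_iff h2]; linear_combination r6
  have hQ1 : Q1 = (1 + Q) / 2 := by rw [← r7]; field_simp
  clear r1 r2 r3 r4 r5 r6 r7 hN
  subst hn hβ hγ hδ hp1 hQ1 hNc
  refine ⟨!![1 / 2, 1 / 2; 0, 1 / 2], !![-(2 * c), 0; 0, 2 * c],
    !![-c, t / (4 * c); -(2 * c * Q), c], ?_⟩
  constructor
  case indep =>
    intro x0 x1 x2 x3 h
    have h00 := congrFun (congrFun h 0) 0
    have h01 := congrFun (congrFun h 0) 1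
    have h10 := congrFun (congrFun h 1) 0
    have h11 := congrFun (congrFun h 1) 1
    simp [Matrix.add_apply, h2, hc, hQ] at h00 h01 h10 h11
    subst h10
    simp [h2] at h00 h01 h11
    subst h01
    simp at h00 h11
    have e1 : x0 = 0 := by
      have : 2 * x0 = 0 := by linear_combination h00 + h11
      exact (mul_eq_zero.1 this).resolve_left h2
    subst e1
    simp [h2, hc] at h11
    exact ⟨rfl, rfl, h11, rfl⟩
  all_goals
    ext i j
    fin_cases i <;> fin_cases j <;> simp [Matrix.mul_apply, Fin.sum_univ_two] <;>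
      field_simp <;> first | ring1 | (ring_nf; simp)

end Fermat.Agent.P2.Quat.Split
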