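/-
P2, block 3: `O / lO ≅ M₂(𝔽_l)` for the explicit order, `l ∤ M` (including `l = p`).
-/
import Fermat.Agent.P2.Quat.Par
import Fermat.Agent.P2.Quat.SplitMat

namespace Fermat.Agent.P2.Quat

open Matrix Split

namespace Par

variable (P : Par) {F : Type*} [Field F]

/-- The matrix attached to coordinates. -/
def mat (W I G : Matrix (Fin 2) (Fin 2) F) (x0 x1 x2 x3 : ℤ) : Matrix (Fin 2) (Fin 2) F :=
  (x0 : F) • 1 + (x1 : F) • W + (x2 : F) • I + (x3 : F) • G

variable {P}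
variable {W I G : Matrix (Fin 2) (Fin 2) F}

theorem mat_mul (h : Tab (P.N : F) P.Q P.p P.c P.t P.β P.γ P.δ P.n P.p1 P.Q1 W I G)
    (x0 x1 x2 x3 y0 y1 y2 y3 : ℤ) :
    mat W I G (P.m0 x0 x1 x2 x3 y0 y1 y2 y3) (P.m1 x0 x1 x2 x3 y0 y1 y2 y3)
        (P.m2 x0 x1 x2 x3 y0 y1 y2 y3) (P.m3 x0 x1 x2 x3 y0 y1 y2 y3)
      = mat W I G x0 x1 x2 x3 * mat W I G y0 y1 y2 y3 := by
  simp only [mat, add_mul, mul_add, smul_mul_assoc, mul_smul_comm, one_mul, mul_one,
    h.WW, h.WI, h.WG, h.IW, h.II, h.IG, h.GW, h.GI, h.GG, m0, m1, m2, m3]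
  push_cast
  module

theorem mat_add (x0 x1 x2 x3 y0 y1 y2 y3 : ℤ) :
    mat W I G (x0 + y0) (x1 + y1) (x2 + y2) (x3 + y3)
      = mat W I G x0 x1 x2 x3 + mat W I G y0 y1 y2 y3 := by
  simp only [mat]
  push_cast
  module

variable (P)

/-- The coordinates of an element of the order. -/
noncomputable def co (x : P.O) : Fin 4 → ℤ :=
  ![x.2.choose, x.2.choose_spec.choose, x.2.choose_spec.choose_spec.choose,
    x.2.choose_spec.choose_spec.choose_spec.choose]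

theorem el_co (x : P.O) : (x : P.D) = P.el (P.co x 0) (P.co x 1) (P.co x 2) (P.co x 3) :=
  x.2.choose_spec.choose_spec.choose_spec.choose_spec

theorem co_eq {x : P.O} {x0 x1 x2 x3 : ℤ} (h : (x : P.D) = P.el x0 x1 x2 x3) :
    P.co x 0 = x0 ∧ P.co x 1 = x1 ∧ P.co x 2 = x2 ∧ P.co x 3 = x3 :=
  P.el_inj ((P.el_co x).symm.trans h)

variable {P}

/-- The ring homomorphism attached to a solution of the multiplication table. -/
noncomputable def matHom (h : Tab (P.N : F) P.Q P.p P.c P.t P.β P.γ P.δ P.n P.p1 P.Q1 W I G) :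
    P.O →+* Matrix (Fin 2) (Fin 2) F where
  toFun x := mat W I G (P.co x 0) (P.co x 1) (P.co x 2) (P.co x 3)
  map_one' := by
    obtain ⟨h0, h1, h2, h3⟩ := P.co_eq (x := 1) P.el_one
    rw [h0, h1, h2, h3]; simp [mat]
  map_zero' := by
    obtain ⟨h0, h1, h2, h3⟩ := P.co_eq (x := 0) P.el_zero
    rw [h0, h1, h2, h3]; simp [mat]
  map_mul' x y := by
    obtain ⟨h0, h1, h2, h3⟩ := P.co_eq (x := x * y)
      (by rw [MulMemClass.coe_mul, P.el_co x, P.el_co y, P.el_mul])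
    rw [h0, h1, h2, h3, mat_mul h]
  map_add' x y := by
    obtain ⟨h0, h1, h2, h3⟩ := P.co_eq (x := x + y)
      (by rw [AddMemClass.coe_add, P.el_co x, P.el_co y, P.el_add])
    rw [h0, h1, h2, h3, mat_add]

variable (P)

theorem exists_tab (l : ℕ) [Fact l.Prime] (hl : ¬ l ∣ P.M) :
    ∃ W I G : Matrix (Fin 2) (Fin 2) (ZMod l),
      Tab (P.N : ZMod l) P.Q P.p P.c P.t P.β P.γ P.δ P.n P.p1 P.Q1 W I G := by
  have hlp : l.Prime := Fact.out
  have hl2 : l ≠ 2 := by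
    rintro rfl
    exact hl (dvd_mul_of_dvd_left P.two_dvd_N _)
  have h2 : (2 : ZMod l) ≠ 0 := by
    intro h
    have : (l : ℕ) ∣ 2 := (ZMod.natCast_eq_zero_iff 2 l).1 (by exact_mod_cast h)
    exact hl2 ((Nat.prime_dvd_prime_iff_eq hlp Nat.prime_two).1 this)
  have hN : (P.N : ZMod l) ≠ 0 := fun h => hl (dvd_mul_of_dvd_left ((ZMod.natCast_eq_zero_iff _ l).1 h) _)
  have hQ : (P.Q : ZMod l) ≠ 0 := fun h => hl (dvd_mul_of_dvd_right ((ZMod.natCast_eq_zero_iff _ l).1 h) _)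
  have hc : ∀ {a b : ℤ}, a = b → (a : ZMod l) = (b : ZMod l) := fun h => by rw [h]
  have R : Rel (P.N : ZMod l) P.Q P.p P.c P.t P.β P.γ P.δ P.n P.p1 P.Q1 := by
    have e1 := hc P.hn
    have e2 := hc P.hb
    have e3 := hc P.ht
    have e4 := hc P.hγ
    have e5 := hc P.hδ
    have e6 := hc P.hp1
    have e7 := hc P.hQ1
    push_cast at e1 e2 e3 e4 e5 e6 e7
    exact ⟨e1, e2, e3, e4, e5, e6, e7⟩
  by_cases hp : (P.p : ZMod l) = 0
  · rw [hp] at R ⊢
    exact exists_tab_special R h2 hN hQ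
  · -- a solution of `x² + N y² = -Qp`
    have hodd : Fintype.card (ZMod l) % 2 = 1 := by
      rw [ZMod.card]; exact Nat.odd_iff.1 (hlp.odd_of_ne_two hl2)
    obtain ⟨x, y, hxy⟩ := FiniteField.exists_root_sum_quadratic
      (R := ZMod l) (f := Polynomial.X ^ 2) (g := Polynomial.C (P.N : ZMod l) * Polynomial.X ^ 2
        + Polynomial.C ((P.Q : ZMod l) * P.p)) (by simp)
      (by
        rw [Polynomial.degree_add_C]
        · exact Polynomial.degree_C_mul_X_pow 2 hN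
        · rw [Polynomial.degree_C_mul_X_pow 2 hN]; norm_num) hodd
    simp at hxy
    exact exists_tab_generic R h2 hN hQ hp (x := x) (y := y) (by linear_combination hxy)

/-- `O / lO ≅ M₂(𝔽_l)` for `l ∤ M`. -/
theorem exists_split (l : ℕ) (hlp : l.Prime) (hl : ¬ l ∣ P.M) :
    ∃ π : P.O →+* Matrix (Fin 2) (Fin 2) (ZMod l),
      Function.Surjective π ∧ ∀ x, π x = 0 → ∃ y, x = (l : ℤ) • y := by
  have : Fact l.Prime := ⟨hlp⟩
  obtain ⟨W, I, G, h⟩ := P.exists_tab l hl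
  refine ⟨matHom h, ?_, ?_⟩
  · -- surjectivity by dimension count
    let f : (Fin 4 → ZMod l) →ₗ[ZMod l] Matrix (Fin 2) (Fin 2) (ZMod l) :=
      (Fintype.linearCombination (ZMod l) ![(1 : Matrix (Fin 2) (Fin 2) (ZMod l)), W, I, G])
    have hf : ∀ x, f x = x 0 • (1 : Matrix (Fin 2) (Fin 2) (ZMod l)) + x 1 • W + x 2 • I + x 3 • G := by
      intro x
      simp [f, Fintype.linearCombination_apply, Fin.sum_univ_four]
    have hinj : Function.Injective f := by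
      rw [← LinearMap.ker_eq_bot, LinearMap.ker_eq_bot']
      intro x hx
      rw [hf] at hx
      obtain ⟨h0, h1, h2, h3⟩ := h.indep _ _ _ _ hx
      ext i; fin_cases i
      · exact h0
      · exact h1
      · exact h2
      · exact h3
    have hsurj : Function.Surjective f := by
      rw [← LinearMap.injective_iff_surjective_of_finrank_eq_finrank]
      · exact hinj
      · rw [Module.finrank_matrix]; simp
    intro m
    obtain ⟨x, hx⟩ := hsurj m
    choose y hy using fun i => ZMod.intCast_surjective (x i)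
    refine ⟨⟨P.el (y 0) (y 1) (y 2) (y 3), P.el_mem _ _ _ _⟩, ?_⟩
    obtain ⟨h0, h1, h2, h3⟩ := P.co_eq
      (x := ⟨P.el (y 0) (y 1) (y 2) (y 3), P.el_mem _ _ _ _⟩) rfl
    change mat W I G _ _ _ _ = m
    rw [h0, h1, h2, h3, ← hx, hf, mat, hy, hy, hy, hy]
  · intro x hx
    change mat W I G _ _ _ _ = 0 at hx
    obtain ⟨h0, h1, h2, h3⟩ := h.indep _ _ _ _ hx
    rw [ZMod.intCast_zmod_eq_zero_iff_dvd] at h0 h1 h2 h3
    obtain ⟨y0, h0⟩ := h0
    obtain ⟨y1, h1⟩ := h1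
    obtain ⟨y2, h2⟩ := h2
    obtain ⟨y3, h3⟩ := h3
    refine ⟨⟨P.el y0 y1 y2 y3, P.el_mem _ _ _ _⟩, ?_⟩
    apply Subtype.ext
    rw [P.el_co x, h0, h1, h2, h3, ← P.el_smul]
    simp [zsmul_eq_mul]

end Par

end Fermat.Agent.P2.Quat
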