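import Fermat.Agent.P2.Quat.Inst4
import Fermat.Agent.P2.Quat.Split
import Fermat.Agent.P2.Quat.Exists

/-!
# P2, block 3 (A): existence of the quaternion order.
-/

namespace Fermat.Agent.P2.Quat

/-- the order attached to the parameters. -/
noncomputable def Par.S (P : Par) : QOrder P.D := P.qorder P.exists_split

theorem Par.S_M (P : Par) : P.S.M = P.N * P.Q := rfl

theorem Par.S_ram (P : Par) {q : ℕ} : P.S.ram q ↔ q.Prime ∧ q ∣ P.M ∧ q ≠ P.ex := Iff.rfl

/-- the embedding `√-N`. -/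
noncomputable def Par.R (P : Par) : P.S.Root P.N := P.root P.exists_split

/-- Existence of a quaternion order of level `N Q` with `√-N`, ramified at all primes dividing
`N Q` except possibly `ex`. -/
theorem exists_qorder {N Q ex : ℕ} (hN2 : N % 4 = 2) (hNs : Squarefree N) (hQs : Squarefree Q)
    (hcop : N.Coprime Q) (hQ : ∀ q : ℕ, q.Prime → q ∣ Q → ¬ IsSquare (-(N : ZMod q)))
    (hex : (Odd (N * Q).primeFactors.card ∧ ex = 0) ∨
      (Even (N * Q).primeFactors.card ∧ ex.Prime ∧ ex ≠ 2 ∧ ex ∣ N)) :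
    ∃ (D : Type) (_ : DivisionRing D) (_ : Algebra ℚ D) (S : QOrder D), S.M = N * Q ∧
      Nonempty (S.Root N) ∧ ∀ q : ℕ, q.Prime → q ∣ N * Q → q ≠ ex → S.ram q := by
  obtain ⟨P, rfl, rfl, rfl, -, -⟩ := Par.exists_par hN2 hNs hQs hcop hQ hex 0
  exact ⟨P.D, inferInstance, inferInstance, P.S, rfl, ⟨P.R⟩, fun q hq hqM hex =>
    P.S_ram.mpr ⟨hq, hqM, hex⟩⟩

end Fermat.Agent.P2.Quat
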