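/-
P2, block 4: the Hecke relations between Brandt matrices.
-/
import Fermat.Agent.P2.Quat.Hecke

set_option autoImplicit false

open scoped Pointwise

namespace Fermat.Agent.P2.Quat

variable {D : Type} [DivisionRing D] [Algebra ℚ D] {S : QOrder D}
  {I J K : Submodule ℤ D} {l m n : ℕ}

namespace QOrder

/-- number of sublattices of index `n²` in the class `z` -/
noncomputable def BI (S : QOrder D) (n : ℕ) (I : Submodule ℤ D) (z : S.X) : ℕ :=
  Nat.card {J : Submodule ℤ D // ∃ h : J ∈ S.Nb n I, S.cls J h.1 = z}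

theorem BI_eq_B (hI : S.IsLat I) (z : S.X) : S.BI n I z = S.B n (S.cls I hI) z :=
  (B_cls hI n z).symm

theorem Nb_of_Nb {a b : ℕ} (ha : a ≠ 0) (hJ : J ∈ S.Nb a I) (hK : K ∈ S.Nb (a * b) I)
    (h : K ≤ J) : K ∈ S.Nb b J := by
  refine ⟨hK.1, h, ?_⟩
  have h1 := idx_mul h hJ.2.1
  rw [hJ.2.2, hK.2.2] at h1
  have h2 : idx K J * a ^ 2 = b ^ 2 * a ^ 2 := by rw [h1]; ring
  exact Nat.eq_of_mul_eq_mul_right (by positivity) h2

/-- If `J' ≤ I` has index divisible by `l` and `J' ⊄ l I`, then `J' + l I` is a neighbour. -/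
theorem sup_mem_Nb (hI : S.IsLat I) (hl : l.Prime) (hlM : ¬ l ∣ S.M) (hJ : S.IsLat J)
    (hJI : J ≤ I) (hidx : l ∣ idx J I) (h : ¬ J ≤ (l : D) • I) :
    J ⊔ (l : D) • I ∈ S.Nb l I := by
  have h2 : ∀ x ∈ J ⊔ (l : D) • I, ∀ y : S.O, x * y ∈ J ⊔ (l : D) • I := by
    intro x hx y
    obtain ⟨a, ha, b, hb, rfl⟩ := Submodule.mem_sup.mp hx
    rw [add_mul]
    refine Submodule.add_mem_sup (hJ.mul_mem ha y.2) ?_
    obtain ⟨c, hc, rfl⟩ := Quat.mem_smul.mp hb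
    rw [mul_assoc]
    exact Quat.mem_smul.mpr ⟨_, hI.mul_mem hc y.2, rfl⟩
  have h3 : ¬ J ⊔ (l : D) • I ≤ (l : D) • I := fun h2 => h (le_sup_left.trans h2)
  have h4 : ¬ I ≤ J ⊔ (l : D) • I := by
    intro h2
    refine not_dvd_idx_of_add hl (hJ.idx_ne_zero hI) (fun x hx => ?_) hidx
    obtain ⟨a, ha, b, hb, hab⟩ := Submodule.mem_sup.mp (h2 hx)
    obtain ⟨c, hc, hc'⟩ := Quat.mem_smul.mp hb
    exact ⟨a, ha, c, hc, by rw [nsmul_eq_mul, hc', hab]⟩
  exact hI.mem_Nb_of_between hl hlM le_sup_right (sup_le hJI (natCast_smul_le l)) h2 h3 h4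

/-- sublattices of `l I` -/
theorem dvd_of_le (hI : S.IsLat I) (hl : l.Prime) (hK : K ∈ S.Nb (l * n) I)
    (h : K ≤ (l : D) • I) : l ∣ n ∧ (l : D)⁻¹ • K ∈ S.Nb (n / l) I := by
  have hlD := natCast_ne_zero' (D := D) hl.ne_zero
  have h1 := idx_mul h (natCast_smul_le l)
  rw [hI.idx_natCast_smul hl.ne_zero, hK.2.2] at h1
  have h2 : idx K ((l : D) • I) * l ^ 2 = n ^ 2 := by
    have h3 : l ^ 2 * (idx K ((l : D) • I) * l ^ 2) = l ^ 2 * n ^ 2 := by
      rw [← mul_pow l n, ← h1]; ring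
    exact Nat.eq_of_mul_eq_mul_left (by have := hl.pos; positivity) h3
  have h3 : l ∣ n := by
    rw [← Nat.pow_dvd_pow_iff two_ne_zero]
    exact ⟨_, by rw [← h2, mul_comm]⟩
  refine ⟨h3, hK.1.smul (inv_ne_zero hlD), ?_, ?_⟩
  · rw [← inv_smul_smul' (I := I) hlD]
    exact smul_le_smul h
  · obtain ⟨k, rfl⟩ := h3
    rw [Nat.mul_div_cancel_left _ hl.pos]
    have h4 : idx ((l : D)⁻¹ • K) I = idx K ((l : D) • I) := by
      rw [← idx_smul hlD, smul_inv_smul' hlD]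
    rw [h4]
    have h5 : idx K ((l : D) • I) * l ^ 2 = k ^ 2 * l ^ 2 := by rw [h2]; ring
    exact Nat.eq_of_mul_eq_mul_right (by have := hl.pos; positivity) h5

theorem smul_mem_Nb_of_dvd (hI : S.IsLat I) (hl : l.Prime) (h : l ∣ n)
    (hK : K ∈ S.Nb (n / l) I) : (l : D) • K ∈ S.Nb (l * n) I := by
  have hlD := natCast_ne_zero' (D := D) hl.ne_zero
  obtain ⟨k, rfl⟩ := h
  rw [Nat.mul_div_cancel_left _ hl.pos] at hK
  refine ⟨hK.1.smul hlD, (smul_le_smul hK.2.1).trans (natCast_smul_le l), ?_⟩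
  rw [← idx_mul (smul_le_smul (d := (l : D)) hK.2.1) (natCast_smul_le l), idx_smul hlD, hK.2.2,
    hI.idx_natCast_smul hl.ne_zero]
  ring

theorem card_le_smul (hI : S.IsLat I) (hl : l.Prime) (z : S.X) :
    Nat.card {K : {K : Submodule ℤ D // ∃ h : K ∈ S.Nb (l * n) I, S.cls K h.1 = z} //
      K.1 ≤ (l : D) • I} = if l ∣ n then S.BI (n / l) I z else 0 := by
  have hlD := natCast_ne_zero' (D := D) hl.ne_zero
  split_ifs with h
  · refine Nat.card_congr ⟨fun K => ⟨(l : D)⁻¹ • K.1.1, ?_⟩, fun K => ⟨⟨(l : D) • K.1, ?_⟩, ?_⟩,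
      fun K => ?_, fun K => ?_⟩
    · obtain ⟨⟨K, hK, hz⟩, hle⟩ := K
      exact ⟨(dvd_of_le hI hl hK hle).2, (cls_smul hK.1 (inv_ne_zero hlD)).trans hz⟩
    · obtain ⟨K, hK, hz⟩ := K
      exact ⟨smul_mem_Nb_of_dvd hI hl h hK, (cls_smul hK.1 hlD).trans hz⟩
    · exact smul_le_smul K.2.choose.2.1
    · exact Subtype.ext (Subtype.ext (smul_inv_smul' hlD))
    · exact Subtype.ext (inv_smul_smul' hlD)
  · rw [Nat.card_eq_zero]
    left
    constructor
    rintro ⟨⟨K, hK, hz⟩, hle⟩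
    exact h (dvd_of_le hI hl hK hle).1

open Classical in
theorem card_between (hI : S.IsLat I) (hl : l.Prime) (hlM : ¬ l ∣ S.M)
    (hK : K ∈ S.Nb (l * n) I) :
    Nat.card {J : S.Nb l I // K ≤ J.1} = 1 + if K ≤ (l : D) • I then l else 0 := by
  split_ifs with h
  · have h1 : ∀ J : S.Nb l I, K ≤ J.1 := fun J =>
      h.trans (hI.smul_le_of_mem_Nb hl.ne_zero J.2)
    rw [Nat.card_congr (Equiv.subtypeUnivEquiv h1), hI.card_Nb hl hlM, add_comm]
  · rw [add_zero, Nat.card_eq_one_iff_unique]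
    have hidx : l ∣ idx K I := by
      rw [hK.2.2]
      exact (Dvd.intro _ rfl).trans (dvd_pow_self _ two_ne_zero)
    have h1 := sup_mem_Nb hI hl hlM hK.1 hK.2.1 hidx h
    constructor
    · constructor
      have key : ∀ J : {J : S.Nb l I // K ≤ J.1}, J.1.1 = K ⊔ (l : D) • I := by
        rintro ⟨⟨J, hJ⟩, hKJ⟩
        have h2 : K ⊔ (l : D) • I ≤ J :=
          sup_le hKJ (hI.smul_le_of_mem_Nb hl.ne_zero hJ)
        have h3 := idx_mul h2 hJ.2.1
        rw [hJ.2.2, h1.2.2] at h3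
        have h4 : idx (K ⊔ (l : D) • I) J = 1 := by
          have h5 : 0 < l ^ 2 := by have := hl.pos; positivity
          exact Nat.eq_of_mul_eq_mul_right h5 (by rw [h3, one_mul])
        exact le_antisymm (idx_eq_one.mp h4) h2
      intro J J'
      exact Subtype.ext (Subtype.ext ((key J).trans (key J').symm))
    · exact ⟨⟨⟨_, h1⟩, le_sup_left⟩⟩

/-- **Hecke relation**, lattice form. -/
theorem sum_BI_mul [Fintype S.X] (hI : S.IsLat I) (hl : l.Prime) (hlM : ¬ l ∣ S.M) (hn : n ≠ 0)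
    (z : S.X) :
    ∑ y, S.BI l I y * S.B n y z = S.BI (l * n) I z + if l ∣ n then l * S.BI (n / l) I z else 0 := by
  classical
  have hln : l * n ≠ 0 := mul_ne_zero hl.ne_zero hn
  have : Finite (S.Nb l I) := (hI.finite_Nb hl.ne_zero).to_subtype
  have := Fintype.ofFinite (S.Nb l I)
  have : ∀ J : S.Nb l I, Finite {K : Submodule ℤ D // ∃ h : K ∈ S.Nb n J.1, S.cls K h.1 = z} :=
    fun J => J.2.1.finite_sub hn z
  have : Finite {K : Submodule ℤ D // ∃ h : K ∈ S.Nb (l * n) I, S.cls K h.1 = z} :=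
    hI.finite_sub hln z
  have := Fintype.ofFinite {K : Submodule ℤ D // ∃ h : K ∈ S.Nb (l * n) I, S.cls K h.1 = z}
  -- the set of pairs
  have h1 : ∑ y, S.BI l I y * S.B n y z = Nat.card (Σ J : S.Nb l I,
      {K : Submodule ℤ D // ∃ h : K ∈ S.Nb n J.1, S.cls K h.1 = z}) := by
    rw [Nat.card_sigma]
    have h2 : ∀ J : S.Nb l I, Nat.card {K : Submodule ℤ D // ∃ h : K ∈ S.Nb n J.1,
        S.cls K h.1 = z} = S.B n (S.cls J.1 J.2.1) z := fun J => BI_eq_B J.2.1 z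
    rw [Finset.sum_congr rfl fun J _ => h2 J,
      ← Finset.sum_fiberwise Finset.univ (fun J : S.Nb l I => S.cls J.1 J.2.1)]
    refine Finset.sum_congr rfl fun y _ => ?_
    rw [Finset.sum_congr rfl (g := fun _ => S.B n y z) fun J hJ => by
      rw [(Finset.mem_filter.mp hJ).2], Finset.sum_const, smul_eq_mul]
    congr 1
    rw [BI, ← Fintype.card_subtype, ← Nat.card_eq_fintype_card]
    exact Nat.card_congr ⟨fun J => ⟨⟨J.1, J.2.choose⟩, J.2.choose_spec⟩,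
      fun J => ⟨J.1.1, J.1.2, J.2⟩, fun J => rfl, fun J => rfl⟩
  let e : (Σ J : S.Nb l I, {K : Submodule ℤ D // ∃ h : K ∈ S.Nb n J.1, S.cls K h.1 = z}) ≃
      Σ K : {K : Submodule ℤ D // ∃ h : K ∈ S.Nb (l * n) I, S.cls K h.1 = z},
        {J : S.Nb l I // K.1 ≤ J.1} :=
    { toFun := fun x => ⟨⟨x.2.1, mem_Nb_trans x.1.2 x.2.2.choose, x.2.2.choose_spec⟩,
        ⟨x.1, x.2.2.choose.2.1⟩⟩
      invFun := fun x => ⟨x.2.1, ⟨x.1.1, Nb_of_Nb hl.ne_zero x.2.1.2 x.1.2.choose x.2.2,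
        x.1.2.choose_spec⟩⟩
      left_inv := fun x => rfl
      right_inv := fun x => rfl }
  rw [h1, Nat.card_congr e, Nat.card_sigma]
  rw [Finset.sum_congr rfl fun K _ => card_between hI hl hlM K.2.choose, Finset.sum_add_distrib,
    Finset.sum_const, smul_eq_mul, mul_one, Finset.card_univ, ← Nat.card_eq_fintype_card]
  congr 1
  rw [← Finset.sum_filter, Finset.sum_const, smul_eq_mul, ← Fintype.card_subtype,
    ← Nat.card_eq_fintype_card, card_le_smul hI hl z]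
  split_ifs with h
  · rw [mul_comm]
  · rw [zero_mul]

/-- **Hecke relation.** -/
theorem sum_B_mul [Fintype S.X] (hl : l.Prime) (hlM : ¬ l ∣ S.M) (hn : n ≠ 0) (x z : S.X) :
    ∑ y, S.B l x y * S.B n y z = S.B (l * n) x z + if l ∣ n then l * S.B (n / l) x z else 0 :=
  sum_BI_mul (isLat_rep x) hl hlM hn z

/-- **Hecke relation**, the other order. -/
theorem sum_mul_B [Fintype S.X] (hU : S.UnitsTrivial) (hl : l.Prime) (hlM : ¬ l ∣ S.M)
    (hn : n ≠ 0) (x z : S.X) :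
    ∑ y, S.B n x y * S.B l y z = S.B (n * l) x z + if l ∣ n then l * S.B (n / l) x z else 0 := by
  have h1 : ∑ y, S.B n x y * S.B l y z = ∑ y, S.B l z y * S.B n y x := by
    refine Finset.sum_congr rfl fun y _ => ?_
    rw [B_symm hU hn x y, B_symm hU hl.ne_zero y z, mul_comm]
  rw [h1, sum_B_mul hl hlM hn, B_symm hU (mul_ne_zero hl.ne_zero hn), mul_comm l n]
  congr 1
  split_ifs with h
  · rw [B_symm hU (Nat.div_pos (Nat.le_of_dvd (Nat.pos_of_ne_zero hn) h) hl.pos).ne']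
  · rfl

/-- Brandt matrices of good primes commute. -/
theorem sum_B_comm [Fintype S.X] {l l' : ℕ} (hl : l.Prime) (hlM : ¬ l ∣ S.M) (hl' : l'.Prime)
    (hlM' : ¬ l' ∣ S.M) (x z : S.X) :
    ∑ y, S.B l x y * S.B l' y z = ∑ y, S.B l' x y * S.B l y z := by
  by_cases h : l = l'
  · subst h; rfl
  · rw [sum_B_mul hl hlM hl'.ne_zero, sum_B_mul hl' hlM' hl.ne_zero, mul_comm l l',
      if_neg fun h1 => h ((Nat.prime_dvd_prime_iff_eq hl hl').mp h1),
      if_neg fun h1 => h ((Nat.prime_dvd_prime_iff_eq hl' hl).mp h1).symm]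

/-! ### Ramified primes -/

/-- At a ramified prime, a sublattice of index divisible by `q` is contained in `I P_q`. -/
theorem le_mul_P_of_ram (hI : S.IsLat I) {q : ℕ} (hq : q.Prime) (hram : S.ram q)
    (hJ : J ∈ S.Nb (n * q) I) (hn : n ≠ 0) : J ≤ I * S.P q := by
  have hqM := S.ram_dvd q hq hram
  have := Fact.mk hq
  refine le_of_forall_LLE fun p hp => ?_
  by_cases hpq : p = q
  · subst hpq
    obtain ⟨x, hx, h1⟩ := hI p hp
    obtain ⟨y, hy, h2⟩ := hJ.1 p hp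
    have h3 := hI.padicVal_idx hJ.1 hJ.2.1 hp hx hy h1 h2
    obtain ⟨k, hk, hkO⟩ : ∃ k : ℕ, k.Coprime p ∧ k • (x⁻¹ * y) ∈ S.O := by
      obtain ⟨k, hk, h⟩ := h2.2.trans ((LLE.of_le hJ.2.1).trans h1.1)
      refine ⟨k, hk, ?_⟩
      have h4 := h y (Quat.mem_smul.mpr ⟨1, S.one_mem_OO, mul_one y⟩)
      rw [mem_smul_iff hx, mul_smul_comm] at h4
      exact h4
    obtain ⟨t, ht⟩ := S.nrd_int _ hkO
    have hz0 : x⁻¹ * y ≠ 0 := mul_ne_zero (inv_ne_zero hx) hy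
    have hk0 : k ≠ 0 := by
      rintro rfl; rw [Nat.coprime_zero_left] at hk; exact hp.one_lt.ne' hk
    have hpk : ¬ p ∣ k := (Nat.Prime.coprime_iff_not_dvd hp).mp hk.symm
    have h5 : S.nrd (k • (x⁻¹ * y)) = (k : ℚ) ^ 2 * S.nrd (x⁻¹ * y) := by
      rw [nsmul_eq_mul, S.nrd_mul, S.nrd_natCast]
    have h6 : (p : ℤ) ∣ t := by
      have ht0 : t ≠ 0 := by
        rintro rfl
        rw [h5, Int.cast_zero] at ht
        exact mul_ne_zero (pow_ne_zero 2 (Nat.cast_ne_zero.mpr hk0)) (S.nrd_ne_zero hz0) ht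
      have h7 : padicValRat p (t : ℚ) = padicValRat p (S.nrd (x⁻¹ * y)) := by
        rw [← ht, h5, padicValRat.mul (pow_ne_zero 2 (Nat.cast_ne_zero.mpr hk0))
          (S.nrd_ne_zero hz0), padicValRat.pow, padicValRat.of_nat,
          padicValNat.eq_zero_of_not_dvd hpk, Nat.cast_zero, mul_zero, zero_add]
      have h8 : 1 ≤ padicValNat p (n * p) :=
        one_le_padicValNat_of_dvd (mul_ne_zero hn hp.ne_zero) (Dvd.intro_left _ rfl)
      rw [hJ.2.2, padicValNat.pow, Nat.cast_mul, Nat.cast_ofNat, ← h7, padicValRat.of_int] at h3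
      by_contra hnd
      rw [padicValInt.eq_zero_of_not_dvd hnd, Nat.cast_zero, mul_zero] at h3
      omega
    obtain ⟨s, rfl⟩ := h6
    have h7 : k • (x⁻¹ * y) ∈ S.P p := S.ram_P p hp hram _ hkO ⟨s, by rw [ht]; push_cast; rfl⟩
    -- `y O ⊆ x P_p` locally
    have h8 : LLE p (y • S.OO) ((x • S.OO) * S.P p) := by
      refine ⟨k, hk, fun w hw => ?_⟩
      obtain ⟨v, hv, rfl⟩ := Quat.mem_smul.mp hw
      have e1 : S.OO * S.P p = S.P p := S.O_P p hqM
      rw [smul_mul_assoc', e1, mem_smul_iff hx, mul_smul_comm, ← mul_assoc, ← smul_mul_assoc]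
      have e2 : S.P p * S.OO = S.P p := S.P_O p hqM
      rw [← e2]
      exact Submodule.mul_mem_mul h7 hv
    exact h2.1.trans (h8.trans (h1.symm.mul LEq.refl).1)
  · have hc : q.Coprime p := (Nat.coprime_primes hq hp).mpr fun h => hpq h.symm
    exact (LLE.of_le hJ.2.1).trans (hI.mul_P_LEq hqM hc).2

/-- `B(nq) = B(n) w_q` for ramified `q`. -/
theorem B_mul_ram {q : ℕ} (hq : q.Prime) (hram : S.ram q) (hqM : q ∣ S.M) (hn : n ≠ 0)
    (x y : S.X) : S.B (n * q) x y = S.B n x (S.w q hqM y) := by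
  obtain ⟨I, hI, rfl⟩ := exists_cls x
  have h0 := natCast_ne_zero' (D := D) hq.ne_zero
  rw [B_cls, B_cls]
  have key : ∀ J, J ∈ S.Nb (n * q) I → (q : D)⁻¹ • (J * S.P q) ∈ S.Nb n I := by
    intro J hJ
    have h1 := le_mul_P_of_ram hI hq hram hJ hn
    have hL : S.IsLat ((q : D)⁻¹ • (J * S.P q)) := (hJ.1.mul_P hqM).smul (inv_ne_zero h0)
    have h2 : (q : D)⁻¹ • (J * S.P q) ≤ I := by
      rw [← inv_smul_smul' (I := I) h0, ← hI.mul_P_mul_P hqM]
      exact smul_le_smul (Submodule.mul_le.mpr fun a ha b hb => Submodule.mul_mem_mul (h1 ha) hb)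
    refine ⟨hL, h2, ?_⟩
    -- index
    have h3 : ((q : D)⁻¹ • (J * S.P q)) * S.P q = J := by
      rw [smul_mul_assoc', hJ.1.mul_P_mul_P hqM, inv_smul_smul' h0]
    have h4 : J ≤ (q : D)⁻¹ • (J * S.P q) := by
      conv_lhs => rw [← h3]
      exact hL.mul_P_le hqM
    have h5 : idx J ((q : D)⁻¹ • (J * S.P q)) = q ^ 2 := by
      conv_lhs => rw [← h3]
      rw [h3]
      have := hL.idx_mul_P hqM
      rw [h3] at this
      exact this
    have h6 := idx_mul h4 h2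
    rw [h5, hJ.2.2] at h6
    have h7 : q ^ 2 * idx ((q : D)⁻¹ • (J * S.P q)) I = q ^ 2 * n ^ 2 := by rw [h6]; ring
    exact Nat.eq_of_mul_eq_mul_left (by have := hq.pos; positivity) h7
  refine Nat.card_congr ⟨fun J => ⟨(q : D)⁻¹ • (J.1 * S.P q), key J.1 J.2.choose, ?_⟩,
    fun J => ⟨J.1 * S.P q, ?_, ?_⟩, fun J => Subtype.ext ?_, fun J => Subtype.ext ?_⟩
  · have h1 := w_cls hqM J.2.choose.1
    rw [J.2.choose_spec] at h1
    exact (cls_smul _ (inv_ne_zero h0)).trans h1.symm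
  · have h1 := J.2.choose
    refine ⟨h1.1.mul_P hqM, (h1.1.mul_P_le hqM).trans h1.2.1, ?_⟩
    rw [← idx_mul (h1.1.mul_P_le hqM) h1.2.1, h1.1.idx_mul_P hqM, h1.2.2]
    ring
  · rw [← w_cls hqM J.2.choose.1, J.2.choose_spec, w_w]
  · change ((q : D)⁻¹ • (J.1 * S.P q)) * S.P q = J.1
    rw [smul_mul_assoc', J.2.choose.1.mul_P_mul_P hqM, inv_smul_smul' h0]
  · change (q : D)⁻¹ • ((J.1 * S.P q) * S.P q) = J.1
    rw [J.2.choose.1.mul_P_mul_P hqM, inv_smul_smul' h0]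

end QOrder

end Fermat.Agent.P2.Quat
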