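/-
P2, block 3: (h1) evenness of `B l x y` for `x, y` fixed by `w_m` when `-m` is not a square
modulo `l`.
-/
import Fermat.Agent.P2.Quat.Tau
import Fermat.Agent.P2.Quat.Hecke
import Fermat.Agent.P2.Quat.Unit

set_option autoImplicit false

open scoped Pointwise

namespace Fermat.Agent.P2.Quat

namespace QOrder

variable {D : Type} [DivisionRing D] [Algebra ℚ D] {S : QOrder D} {I J : Submodule ℤ D} {m l : ℕ}

/-- If `-m` is not a square mod `l`, no neighbour `J` of `I` is preserved by `y`, `y² = -m`. -/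
theorem isSquare_of_stable (hI : S.IsLat I) (hl : l.Prime) (hlM : ¬ l ∣ S.M) {y : D}
    (hyy : y * y = -(m : D)) (hyI : y • I ≤ I) (hJ : J ∈ S.Nb l I) (hyJ : y • J ≤ J) :
    IsSquare (-(m : ZMod l)) := by
  obtain ⟨c, hc⟩ := hI.exists_scalar hl hlM hyI hJ hyJ
  refine isSquare_of_scalar hyy hl hyJ hJ.2.2 (c := c) fun x hx => ?_
  rw [sub_mul]
  exact hc x hx

/-- (h1) -/
theorem even_B (hU : ∀ I : Submodule ℤ D, S.IsLat I → ∀ d : D, d • I = I * S.P m →
    d * d = -(m : D)) (hl : l.Prime) (hlM : ¬ l ∣ S.M) (hm : m ∣ S.M)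
    (hns : ¬ IsSquare (-(m : ZMod l))) {x y : S.X}
    (hx : S.w m hm x = x) (hy : S.w m hm y = y) : Even (S.B l x y) := by
  obtain ⟨I, hI, rfl⟩ := exists_cls x
  obtain ⟨d, hd0, hd⟩ : ∃ d : D, d ≠ 0 ∧ d • I = I * S.P m := by
    rw [w_cls hm hI, eq_comm, cls_eq_iff] at hx
    obtain ⟨d, hd, h⟩ := hx
    exact ⟨d, hd, h.symm⟩
  have hdd := hU I hI d hd
  rw [B_cls]
  let T : {J : Submodule ℤ D // ∃ h : J ∈ S.Nb l I, S.cls J h.1 = y} →
      {J : Submodule ℤ D // ∃ h : J ∈ S.Nb l I, S.cls J h.1 = y} := fun J =>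
    ⟨S.tau d m J.1, tau_mem_Nb hm hd0 hI hd J.2.choose, by
      obtain ⟨h, hcls⟩ := J.2
      have h1 : S.w m hm (S.cls J.1 h.1) = y := by rw [hcls]; exact hy
      rw [w_cls] at h1
      exact (cls_smul (h.1.mul_P hm) (inv_ne_zero hd0)).trans h1⟩
  refine even_card_of_invol T (fun J => ?_) (fun J hJ => ?_)
  · refine Subtype.ext ?_
    obtain ⟨h, -⟩ := J.2
    exact tau_tau hm hdd h.1
  · obtain ⟨h, -⟩ := J.2
    have h1 : S.tau d m J.1 = J.1 := congrArg Subtype.val hJ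
    rw [tau_eq_iff hd0] at h1
    have h2 : d • J.1 ≤ J.1 := by rw [h1]; exact h.1.mul_P_le hm
    exact hns (isSquare_of_stable hI hl hlM hdd (smul_le_of_eq hm hI hd) h h2)

/-- (h1) with a ramified prime `q ≡ 1` mod `12`. -/
theorem even_B' {q : ℕ} (hq : q.Prime) (hram : S.ram q) (h12 : q % 12 = 1)
    (hl : l.Prime) (hlM : ¬ l ∣ S.M) (hm : m ∣ S.M) (hm1 : m ≠ 1)
    (hns : ¬ IsSquare (-(m : ZMod l))) {x y : S.X}
    (hx : S.w m hm x = x) (hy : S.w m hm y = y) : Even (S.B l x y) :=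
  even_B (fun _ hI _ hd => hI.mul_self_eq_neg hq hram h12 hm hm1 hd) hl hlM hm hns hx hy

end QOrder

end Fermat.Agent.P2.Quat
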