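/-
P2, block 3: finiteness of the class set.
-/
import Fermat.Agent.P2.Quat.IsLat
import Fermat.Agent.P2.Quat.Nrd

set_option autoImplicit false

open scoped Pointwise

namespace Fermat.Agent.P2.Quat

section finiteInterval

variable {D : Type*} [AddCommGroup D]

/-- There are finitely many submodules between two submodules of finite index. -/
theorem finite_interval {A B : Submodule ℤ D} (h : idx A B ≠ 0) :
    Finite {J : Submodule ℤ D // A ≤ J ∧ J ≤ B} := by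
  let Q := A.toAddSubgroup.addSubgroupOf B.toAddSubgroup
  have hfin : Finite (B.toAddSubgroup ⧸ Q) := AddSubgroup.index_ne_zero_iff_finite.mp h
  let F : {J : Submodule ℤ D // A ≤ J ∧ J ≤ B} → Set (B.toAddSubgroup ⧸ Q) := fun J =>
    {q | ∃ x : B.toAddSubgroup, x.1 ∈ J.1 ∧ QuotientAddGroup.mk' Q x = q}
  refine Finite.of_injective F fun J J' hJ => Subtype.ext ?_
  have key : ∀ J J' : {J : Submodule ℤ D // A ≤ J ∧ J ≤ B}, F J = F J' → J.1 ≤ J'.1 := by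
    intro J J' hF x hx
    have h1 : QuotientAddGroup.mk' Q ⟨x, J.2.2 hx⟩ ∈ F J := ⟨⟨x, J.2.2 hx⟩, hx, rfl⟩
    rw [hF] at h1
    obtain ⟨y, hy, hyx⟩ := h1
    rw [QuotientAddGroup.mk'_apply, QuotientAddGroup.mk'_apply, QuotientAddGroup.eq] at hyx
    have h2 : -y.1 + x ∈ A := hyx
    have h3 : x = y.1 + (-y.1 + x) := by abel
    rw [h3]
    exact J'.1.add_mem hy (J'.2.1 h2)
  exact le_antisymm (key _ _ hJ) (key _ _ hJ.symm)

end finiteInterval

namespace QOrder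

variable {D : Type} [DivisionRing D] [Algebra ℚ D] (S : QOrder D)

/-- the basis vectors of the order, as elements of `D` -/
noncomputable def bv (i : Fin 4) : D := (S.basis i : D)

theorem bv_mem (i : Fin 4) : S.bv i ∈ S.O := (S.basis i).2

theorem sum_bv_mem (c : Fin 4 → ℤ) : ∑ i, c i • S.bv i ∈ S.OO :=
  S.OO.sum_mem fun i _ => S.OO.smul_mem _ (S.bv_mem i)

theorem sum_bv_ne_zero {c : Fin 4 → ℤ} (hc : c ≠ 0) : ∑ i, c i • S.bv i ≠ 0 := by
  intro h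
  apply hc
  have h1 : ∑ i, c i • S.basis i = 0 := by
    apply Subtype.ext
    rw [AddSubmonoidClass.coe_finsetSum]
    exact h
  funext i
  exact Fintype.linearIndependent_iff.mp S.basis.linearIndependent c h1 i

/-- the norm of small integral combinations of the basis -/
theorem nrd_sum_bv_le (c : Fin 4 → ℤ) (T : ℕ) (hc : ∀ i, |c i| ≤ T) :
    S.nrd (∑ i, c i • S.bv i) ≤ (4 * ∑ i, S.nrd (S.bv i)) * (T : ℚ) ^ 2 := by
  have h1 : ∀ i, S.nrd (c i • S.bv i) ≤ S.nrd (S.bv i) * (T : ℚ) ^ 2 := by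
    intro i
    rw [NL.nrd_zsmul, mul_comm]
    refine mul_le_mul_of_nonneg_left ?_ (NL.nrd_nonneg _ _)
    rw [sq_le_sq]
    have h2 : (|(c i : ℚ)|) ≤ (T : ℚ) := by exact_mod_cast hc i
    rwa [Nat.abs_cast]
  rw [Fin.sum_univ_four, Fin.sum_univ_four, add_assoc]
  have h2 := NL.nrd_add_le S.toQAlg (c 0 • S.bv 0 + c 1 • S.bv 1) (c 2 • S.bv 2 + c 3 • S.bv 3)
  have h3 := NL.nrd_add_le S.toQAlg (c 0 • S.bv 0) (c 1 • S.bv 1)
  have h4 := NL.nrd_add_le S.toQAlg (c 2 • S.bv 2) (c 3 • S.bv 3)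
  have := h1 0
  have := h1 1
  have := h1 2
  have := h1 3
  nlinarith

/-- a natural number bounding the norm form -/
theorem exists_nconst : ∃ C : ℕ, ∀ (c : Fin 4 → ℤ) (T : ℕ), (∀ i, |c i| ≤ T) →
    S.nrd (∑ i, c i • S.bv i) ≤ C * (T : ℚ) ^ 2 := by
  obtain ⟨C, hC⟩ := exists_nat_ge (4 * ∑ i, S.nrd (S.bv i))
  refine ⟨C, fun c T hc => (S.nrd_sum_bv_le c T hc).trans ?_⟩
  exact mul_le_mul_of_nonneg_right hC (sq_nonneg _)

variable {S}

/-- **Minkowski for lattices** (pigeonhole): every lattice contains a nonzero element `α` with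
`[I : α O]` bounded. -/
theorem exists_small {C : ℕ} (hC : ∀ (c : Fin 4 → ℤ) (T : ℕ), (∀ i, |c i| ≤ T) →
    S.nrd (∑ i, c i • S.bv i) ≤ C * (T : ℚ) ^ 2) {I : Submodule ℤ D} (hI : S.IsLat I) :
    ∃ α ∈ I, α ≠ 0 ∧ idx (α • S.OO) I ≤ C ^ 2 := by
  obtain ⟨n, hn, hle⟩ := hI.exists_smul_le isLat_OO
  have hnD := natCast_ne_zero' (D := D) hn
  set I₁ := (n : D) • I with hI₁
  have hL₁ : S.IsLat I₁ := hI.smul hnD
  set m := idx I₁ S.OO with hm
  have hm0 : 0 < m := hL₁.idx_pos isLat_OO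
  let Q := I₁.toAddSubgroup.addSubgroupOf S.OO.toAddSubgroup
  have hfin : Finite (S.OO.toAddSubgroup ⧸ Q) := AddSubgroup.index_ne_zero_iff_finite.mp hm0.ne'
  have hcardQ : Nat.card (S.OO.toAddSubgroup ⧸ Q) = m := rfl
  set T := Nat.sqrt (Nat.sqrt m) with hT
  have hT1 : T ^ 4 ≤ m := by
    have h1 : T ^ 2 ≤ Nat.sqrt m := Nat.sqrt_le' _
    have h2 : (Nat.sqrt m) ^ 2 ≤ m := Nat.sqrt_le' _
    calc T ^ 4 = (T ^ 2) ^ 2 := by ring
      _ ≤ (Nat.sqrt m) ^ 2 := Nat.pow_le_pow_left h1 2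
      _ ≤ m := h2
  have hT2 : m < (T + 1) ^ 4 := by
    have h1 : Nat.sqrt m + 1 ≤ (T + 1) ^ 2 := Nat.succ_le_of_lt (Nat.lt_succ_sqrt' _)
    have h2 : m < (Nat.sqrt m + 1) ^ 2 := Nat.lt_succ_sqrt' _
    calc m < (Nat.sqrt m + 1) ^ 2 := h2
      _ ≤ ((T + 1) ^ 2) ^ 2 := Nat.pow_le_pow_left h1 2
      _ = (T + 1) ^ 4 := by ring
  let vec : (Fin 4 → Fin (T + 1)) → S.OO.toAddSubgroup := fun c =>
    ⟨∑ i, ((c i : ℕ) : ℤ) • S.bv i, S.sum_bv_mem _⟩
  obtain ⟨c, c', hcc, hφ⟩ : ∃ c c', c ≠ c' ∧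
      QuotientAddGroup.mk' Q (vec c) = QuotientAddGroup.mk' Q (vec c') := by
    have := Fintype.ofFinite (S.OO.toAddSubgroup ⧸ Q)
    refine Fintype.exists_ne_map_eq_of_card_lt (fun c => QuotientAddGroup.mk' Q (vec c)) ?_
    rw [← Nat.card_eq_fintype_card, hcardQ, Fintype.card_fun, Fintype.card_fin, Fintype.card_fin]
    exact hT2
  let d : Fin 4 → ℤ := fun i => ((c' i : ℕ) : ℤ) - ((c i : ℕ) : ℤ)
  have hd0 : d ≠ 0 := by
    intro h
    apply hcc
    funext i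
    have h1 := congrFun h i
    change ((c' i : ℕ) : ℤ) - ((c i : ℕ) : ℤ) = 0 at h1
    apply Fin.ext
    omega
  have hdT : ∀ i, |d i| ≤ T := by
    intro i
    have h1 := (c i).2
    have h2 := (c' i).2
    change |((c' i : ℕ) : ℤ) - ((c i : ℕ) : ℤ)| ≤ T
    rw [abs_le]
    omega
  set α := ∑ i, d i • S.bv i with hα
  have hα0 : α ≠ 0 := S.sum_bv_ne_zero hd0
  have hαO : α ∈ S.O := S.sum_bv_mem d
  have hαI : α ∈ I₁ := by
    rw [QuotientAddGroup.mk'_apply, QuotientAddGroup.mk'_apply, QuotientAddGroup.eq] at hφ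
    have h1 : -(∑ i, ((c i : ℕ) : ℤ) • S.bv i) + ∑ i, ((c' i : ℕ) : ℤ) • S.bv i ∈ I₁ := hφ
    have h2 : α = -(∑ i, ((c i : ℕ) : ℤ) • S.bv i) + ∑ i, ((c' i : ℕ) : ℤ) • S.bv i := by
      rw [hα, ← Finset.sum_neg_distrib, ← Finset.sum_add_distrib]
      refine Finset.sum_congr rfl fun i _ => ?_
      rw [sub_smul]
      abel
    rwa [h2]
  have hαle : α • S.OO ≤ I₁ := by
    intro y hy
    obtain ⟨z, hz, rfl⟩ := mem_smul.mp hy
    exact hL₁.mul_mem hαI hz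
  have hidx : (idx (α • S.OO) I₁ : ℚ) * m = S.nrd α ^ 2 := by
    have h1 := idx_mul hαle hle
    have h2 : (idx (α • S.OO) S.OO : ℚ) = S.nrd α ^ 2 := S.index α hα0 hαO
    rw [← h2, ← h1]
    push_cast
    rfl
  have hbound : idx (α • S.OO) I₁ ≤ C ^ 2 := by
    have h1 := hC d T hdT
    have h2 : S.nrd α ^ 2 ≤ (C * (T : ℚ) ^ 2) ^ 2 :=
      pow_le_pow_left₀ (NL.nrd_nonneg _ _) h1 2
    have h3 : ((T : ℚ) ^ 4) ≤ m := by exact_mod_cast hT1
    have h4 : (idx (α • S.OO) I₁ : ℚ) * m ≤ (C : ℚ) ^ 2 * m := by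
      rw [hidx]
      calc S.nrd α ^ 2 ≤ (C * (T : ℚ) ^ 2) ^ 2 := h2
        _ = (C : ℚ) ^ 2 * (T : ℚ) ^ 4 := by ring
        _ ≤ (C : ℚ) ^ 2 * m := mul_le_mul_of_nonneg_left h3 (sq_nonneg _)
    have h5 := le_of_mul_le_mul_right h4 (by exact_mod_cast hm0)
    exact_mod_cast h5
  refine ⟨(n : D)⁻¹ * α, ?_, mul_ne_zero (inv_ne_zero hnD) hα0, ?_⟩
  · exact (mem_smul_iff hnD).mp hαI
  · rw [← idx_smul hnD, smul_smul, mul_inv_cancel_left₀ hnD]
    exact hbound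

/-- Every lattice is equivalent to a lattice between `K O` and `O`, `K` a constant. -/
theorem exists_reduced : ∃ K : ℕ, K ≠ 0 ∧ ∀ I : Submodule ℤ D, S.IsLat I → ∃ d : D, d ≠ 0 ∧
    (K : D) • S.OO ≤ d • I ∧ d • I ≤ S.OO := by
  obtain ⟨C, hC⟩ := S.exists_nconst
  refine ⟨(C ^ 2).factorial, Nat.factorial_ne_zero _, fun I hI => ?_⟩
  set K := (C ^ 2).factorial with hK
  have hKD := natCast_ne_zero' (D := D) (Nat.factorial_ne_zero (C ^ 2))
  obtain ⟨α, hα, hα0, hidx⟩ := exists_small hC hI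
  have hαle : α • S.OO ≤ I := by
    intro y hy
    obtain ⟨z, hz, rfl⟩ := mem_smul.mp hy
    exact hI.mul_mem hα hz
  have hpos : 0 < idx (α • S.OO) I := (isLat_OO.smul hα0).idx_pos hI
  have hdvd : idx (α • S.OO) I ∣ K := Nat.dvd_factorial hpos hidx
  refine ⟨(K : D) * α⁻¹, mul_ne_zero hKD (inv_ne_zero hα0), ?_, ?_⟩
  · rw [← smul_smul]
    refine smul_le_smul ?_
    rw [← inv_smul_smul' (I := S.OO) hα0]
    exact smul_le_smul hαle
  · rw [← smul_smul, natCast_smul_comm, ← inv_smul_smul' (I := S.OO) hα0]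
    refine smul_le_smul ?_
    rw [natCast_smul_le_iff]
    intro x hx
    obtain ⟨e, he⟩ := hdvd
    rw [he, mul_comm, mul_smul]
    exact (α • S.OO).smul_of_tower_mem _ (idx_smul_mem hx)

/-- **The class set is finite.** -/
instance finite_X : Finite S.X := by
  obtain ⟨K, hK, h⟩ := exists_reduced (S := S)
  have hfin : Finite {J : Submodule ℤ D // (K : D) • S.OO ≤ J ∧ J ≤ S.OO} :=
    finite_interval ((isLat_OO.smul (natCast_ne_zero' hK)).idx_ne_zero isLat_OO)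
  choose! d hd0 hd1 hd2 using h
  let f : S.X → {J : Submodule ℤ D // (K : D) • S.OO ≤ J ∧ J ≤ S.OO} := fun x =>
    ⟨d (Quotient.out x).1 • (Quotient.out x).1, hd1 _ (Quotient.out x).2,
      hd2 _ (Quotient.out x).2⟩
  refine Finite.of_injective f fun x y hxy => ?_
  have h1 : d (Quotient.out x).1 • (Quotient.out x).1 =
      d (Quotient.out y).1 • (Quotient.out y).1 := congrArg Subtype.val hxy
  rw [← Quotient.out_eq x, ← Quotient.out_eq y]
  refine Quotient.sound ?_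
  refine ⟨(d (Quotient.out y).1)⁻¹ * d (Quotient.out x).1,
    mul_ne_zero (inv_ne_zero (hd0 _ (Quotient.out y).2)) (hd0 _ (Quotient.out x).2), ?_⟩
  rw [← smul_smul, h1, inv_smul_smul' (hd0 _ (Quotient.out y).2)]

end QOrder

end Fermat.Agent.P2.Quat
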