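import Fermat.Agent.P2.Quat.GramDual

/-!
# Discriminant of the lattices `Hom(J, I)` and their theta series
-/

set_option autoImplicit false
set_option linter.unusedSectionVars false

open scoped Pointwise
open Matrix Fermat.Agent.P2.Theta

noncomputable section

namespace Fermat.Agent.P2.Quat.Gram

variable {D : Type} [DivisionRing D] [Algebra ℚ D] (S : QOrder D)

theorem det_map_intCast (A : Matrix (Fin 4) (Fin 4) ℤ) :
    (A.map (Int.cast : ℤ → ℚ)).det = ((A.det : ℤ) : ℚ) := by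
  have := RingHom.map_det (Int.castRingHom ℚ) A
  rw [RingHom.mapMatrix_apply] at this
  exact this.symm

theorem div_aux (a c u : ℚ) (hu : u ≠ 0) : a / c = a / (u * c) * u := by
  rcases eq_or_ne c 0 with rfl | hc
  · simp
  · field_simp

theorem EvenForm_det_pos {A : Matrix (Fin 4) (Fin 4) ℤ} (hE : EvenForm A) : 0 < A.det := by
  have h1 := hE.pos.det_pos
  have h2 : (A.map (Int.cast : ℤ → ℝ)).det = ((A.det : ℤ) : ℝ) := by
    have := RingHom.map_det (Int.castRingHom ℝ) A
    rw [RingHom.mapMatrix_apply] at this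
    exact this.symm
  rw [h2] at h1
  exact_mod_cast h1

/-- the basis of `O` in `D` -/
def obas (i : Fin 4) : D := (S.basis i : D)

theorem obas_mem (i : Fin 4) : obas S i ∈ S.O := (S.basis i).2

/-- the order as a `Hom` lattice -/
theorem hom_OO : hom S.OO S.OO = S.OO := by
  ext d
  constructor
  · intro h
    have := h 1 S.O.one_mem
    rwa [mul_one] at this
  · intro h y hy
    exact S.O.mul_mem h hy

/-- the Gram matrix of the order -/
theorem exists_even_O : ∃ A : Matrix (Fin 4) (Fin 4) ℤ,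
    A.map (Int.cast : ℤ → ℚ) = gram S 1 (obas S) ∧ EvenForm A := by
  obtain ⟨A, h1, h2, -⟩ := exists_even S (L := S.OO) S.basis one_pos (fun z hz => by
    obtain ⟨t, ht⟩ := S.nrd_int z hz
    exact ⟨t, by rw [one_mul, ht]⟩)
  exact ⟨A, h1, h2⟩

theorem det_obas_pos : 0 < (gram S 1 (obas S)).det := by
  obtain ⟨A, hA, hE⟩ := exists_even_O S
  rw [← hA, det_map_intCast]
  exact_mod_cast EvenForm_det_pos hE

/-- the discriminant of a `Hom` lattice is that of the order -/
theorem det_eq_det_obas {I J : Submodule ℤ D} (hI : S.IsLat I) (hJ : S.IsLat J) {κ : ℚ}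
    (h : IsKappa S I J κ) (b : Module.Basis (Fin 4) ℤ (hom I J))
    (hpos : 0 < (gram S κ (fun i => (b i : D))).det) :
    (gram S κ (fun i => (b i : D))).det = (gram S 1 (obas S)).det := by
  have hO := det_obas_pos S
  have key : (gram S κ (fun i => (b i : D))).det / (gram S 1 (obas S)).det = 1 := by
    refine UnitAt.eq_one (div_pos hpos hO) fun p hp => ?_
    obtain ⟨x, hx, hIx⟩ := hI p hp
    obtain ⟨y, hy, hJy⟩ := hJ p hp
    have hl := leq_hom S hx hy hIx hJy
    set w : Fin 4 → D := fun i => ((sandBasis S hx hy i : sand S x y) : D) with hw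
    have h1 : LocSpan p (fun i => (b i : D)) w :=
      locSpan_of_basis (sandBasis S hx hy) (fun i => (b i).2) hl.1
    have h2 : LocSpan p w (fun i => (b i : D)) :=
      locSpan_of_basis b (fun i => (sandBasis S hx hy i).2) hl.2
    have hg : gram S κ w = (κ * S.nrd x * S.nrd y⁻¹) • gram S 1 (obas S) := by
      rw [← gram_mul_mul]
      congr 1
      funext i
      rw [hw]
      change x * (obas S i * y⁻¹) = _
      rw [mul_assoc]
    have hdet : (gram S κ w).det = (κ * S.nrd x / S.nrd y) ^ 4 * (gram S 1 (obas S)).det := by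
      rw [hg, Matrix.det_smul, Fintype.card_fin, nrd_inv]
      rfl
    have hu := h.2 p hp x y hx hy hIx hJy
    have hne : (gram S κ w).det ≠ 0 := by
      rw [hdet]
      exact mul_ne_zero (pow_ne_zero _ hu.1) hO.ne'
    have h3 := unitAt_det S h1 h2 κ hpos.ne' hne
    have h4 : (gram S κ (fun i => (b i : D))).det / (gram S 1 (obas S)).det =
        (gram S κ (fun i => (b i : D))).det / (gram S κ w).det *
          (κ * S.nrd x / S.nrd y) ^ 4 := by
      rw [hdet]
      exact div_aux _ _ _ (pow_ne_zero _ hu.1)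
    rw [h4]
    exact h3.mul (hu.pow 4)
  rwa [div_eq_one_iff_eq hO.ne'] at key

/-- nondegeneracy -/
theorem eq_zero_of_bil (z : D) (h : ∀ i, bil S.toQAlg z (obas S i) = 0) : z = 0 := by
  have h1 : ∀ o ∈ S.O, bil S.toQAlg z o = 0 := by
    intro o ho
    have h2 := congrArg (Subalgebra.toSubmodule S.O).subtype (S.basis.sum_repr ⟨o, ho⟩)
    rw [map_sum] at h2
    have h3 : o = ∑ j, (S.basis.repr ⟨o, ho⟩ j) • (obas S j) := h2.symm
    rw [h3, bil_sum_right]
    refine Finset.sum_eq_zero fun j _ => ?_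
    rw [bil_zsmul_right, h j, mul_zero]
  obtain ⟨n, hn, hnz⟩ := S.full z
  have h2 := h1 _ hnz
  rw [bil_nsmul_right, bil_self] at h2
  by_contra hz
  have h3 := S.nrd_pos z hz
  have h4 : (n : ℚ) ≠ 0 := by exact_mod_cast hn
  have h5 : S.nrd z = 0 := by
    rcases mul_eq_zero.mp h2 with h | h
    · exact absurd h h4
    · linarith
  linarith

/-- **The discriminant of the order is `M²`.** -/
theorem det_obas : (gram S 1 (obas S)).det = (S.M : ℚ) ^ 2 := by
  have hO := det_obas_pos S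
  have hM0 : (0 : ℚ) < S.M := by exact_mod_cast Nat.pos_of_ne_zero S.M_sqf.ne_zero
  obtain ⟨e, he1, he2⟩ := exists_dual_family S 1 (obas S) hO.ne'
  simp only [one_mul] at he1 he2
  -- the family `f = M e` in `P M`
  set f : Fin 4 → D := fun i => S.M • e i with hf
  have hfP : ∀ i, f i ∈ S.P S.M := by
    intro i
    rw [hf]
    refine (S.dual (e i)).mp fun y hy => ?_
    obtain ⟨t, ht⟩ := bil_dual_int S (L := S.OO) S.basis (κ := 1) (e := e)
      (fun i j => by rw [one_mul]; exact he1 i j) i (conj_mem_O S hy)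
    refine ⟨t, ?_⟩
    rw [← ht, bil, S.conj_conj, one_mul]
  have hgf : gram S ((S.M : ℚ)⁻¹) f = (S.M : ℚ) • (gram S 1 (obas S))⁻¹ := by
    ext i j
    rw [gram_apply, Matrix.smul_apply, ← he2, hf, bil_nsmul_left, bil_nsmul_right, smul_eq_mul]
    field_simp
  have hdf : (gram S ((S.M : ℚ)⁻¹) f).det = (S.M : ℚ) ^ 4 / (gram S 1 (obas S)).det := by
    rw [hgf, Matrix.det_smul, Fintype.card_fin, Matrix.det_nonsing_inv, Ring.inverse_eq_inv',
      div_eq_mul_inv]
  have hdf0 : 0 < (gram S ((S.M : ℚ)⁻¹) f).det := by rw [hdf]; positivity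
  -- `w = Σ c_j f_j` for `w ∈ P M`
  have hspan : ∀ w ∈ S.P S.M, ∃ c : Fin 4 → ℤ, w = ∑ j, c j • f j := by
    intro w hw
    set u : D := algebraMap ℚ D ((S.M : ℚ)⁻¹) * w with hu
    have hMu : S.M • u = w := by
      rw [nsmul_eq, hu, ← mul_assoc, ← map_mul, mul_inv_cancel₀ hM0.ne', map_one, one_mul]
    have h1 := (S.dual u).mpr (by rw [hMu]; exact hw)
    have h2 : ∀ j, ∃ t : ℤ, bil S.toQAlg u (obas S j) = t := by
      intro j
      exact h1 _ (conj_mem_O S (obas_mem S j))
    choose c hc using h2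
    refine ⟨c, ?_⟩
    rw [← sub_eq_zero]
    apply eq_zero_of_bil S
    intro i
    rw [bil, sub_mul, trd_sub]
    change bil S.toQAlg w (obas S i) - bil S.toQAlg (∑ j, c j • f j) (obas S i) = 0
    rw [bil_sum_left]
    have h3 : ∀ j, bil S.toQAlg (c j • f j) (obas S i) =
        (c j : ℚ) * S.M * (if j = i then 1 else 0) := by
      intro j
      rw [bil_zsmul_left, hf, bil_nsmul_left, he1]
      ring
    rw [Finset.sum_congr rfl fun j _ => h3 j]
    have h4 : bil S.toQAlg w (obas S i) = S.M * c i := by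
      rw [← hc, ← hMu, bil_nsmul_left]
    rw [h4]
    simp
    ring
  have key : (gram S ((S.M : ℚ)⁻¹) f).det / (gram S 1 (obas S)).det = 1 := by
    refine UnitAt.eq_one (div_pos hdf0 hO) fun p hp => ?_
    obtain ⟨g, hg, hgl⟩ := S.P_loc S.M dvd_rfl p hp
    have hu := unitAt_P S hp hg hgl
    set w : Fin 4 → D := fun i => ((sandBasis S hg one_ne_zero i : sand S g 1) : D) with hw
    have hsand : sand S g 1 = g • S.OO := by
      ext z
      constructor
      · rintro ⟨o, ho, rfl⟩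
        rw [sandLin_apply, inv_one, mul_one]
        exact mul_mem_smul_OO S ho
      · rintro ⟨o, ho, rfl⟩
        refine ⟨o, ho, ?_⟩
        rw [sandLin_apply, inv_one, mul_one]
        rfl
    have h1 : LocSpan p f w :=
      locSpan_of_basis (sandBasis S hg one_ne_zero) hfP (by rw [hsand]; exact hgl.1)
    have h2 : LocSpan p w f := by
      obtain ⟨n, hn, h3⟩ := hgl.2
      have h4 : ∀ i, n • w i ∈ S.P S.M := by
        intro i
        apply h3
        have h5 : w i ∈ g • S.OO := by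
          rw [← hsand]
          exact (sandBasis S hg one_ne_zero i).2
        exact h5
      choose C hC using fun i => hspan _ (h4 i)
      exact ⟨n, hn, C, hC⟩
    have hgw : gram S ((S.M : ℚ)⁻¹) w = (S.nrd g / S.M) • gram S 1 (obas S) := by
      have h3 := gram_mul_mul S ((S.M : ℚ)⁻¹) g 1 (obas S)
      rw [nrd_one, mul_one] at h3
      have h4 : (S.nrd g / S.M : ℚ) = (S.M : ℚ)⁻¹ * S.nrd g := by rw [div_eq_mul_inv, mul_comm]
      rw [h4, ← h3]
      congr 1
      funext i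
      rw [hw]
      change g * (obas S i * 1⁻¹) = _
      rw [inv_one, mul_one, mul_one]
    have hdet : (gram S ((S.M : ℚ)⁻¹) w).det =
        (S.nrd g / S.M) ^ 4 * (gram S 1 (obas S)).det := by
      rw [hgw, Matrix.det_smul, Fintype.card_fin]
    have hne : (gram S ((S.M : ℚ)⁻¹) w).det ≠ 0 := by
      rw [hdet]
      exact mul_ne_zero (pow_ne_zero _ hu.1) hO.ne'
    have h3 := unitAt_det S h1 h2 ((S.M : ℚ)⁻¹) hdf0.ne' hne
    have h4 : (gram S ((S.M : ℚ)⁻¹) f).det / (gram S 1 (obas S)).det =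
        (gram S ((S.M : ℚ)⁻¹) f).det / (gram S ((S.M : ℚ)⁻¹) w).det *
          (S.nrd g / S.M) ^ 4 := by
      rw [hdet]
      exact div_aux _ _ _ (pow_ne_zero _ hu.1)
    rw [h4]
    exact h3.mul (hu.pow 4)
  rw [div_eq_one_iff_eq hO.ne', hdf, div_eq_iff hO.ne'] at key
  have h5 : ((gram S 1 (obas S)).det) ^ 2 = ((S.M : ℚ) ^ 2) ^ 2 := by
    rw [sq, ← key]; ring
  exact (pow_left_inj₀ hO.le (by positivity) two_ne_zero).mp h5

/-- **Gram matrix of `Hom(J, I)`**: even, positive definite, level `M`, discriminant `M²`. -/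
theorem exists_gram {I J : Submodule ℤ D} (hI : S.IsLat I) (hJ : S.IsLat J) {κ : ℚ}
    (h : IsKappa S I J κ) :
    ∃ (b : Module.Basis (Fin 4) ℤ (hom I J)) (A A' : Matrix (Fin 4) (Fin 4) ℤ),
      EvenForm A ∧ Theta.Dual A A' S.M ∧ A.det = ((S.M : ℕ) : ℤ) ^ 2 ∧
      ∀ x : Fin 4 → ℤ, ((qZ A x : ℤ) : ℚ) = κ * S.nrd (∑ i, x i • (b i : D)) := by
  obtain ⟨b⟩ := exists_basis S hI hJ
  obtain ⟨A, hA, hE, hq⟩ := exists_even S b h.1 (h.int S hI hJ)
  obtain ⟨A', hD⟩ := exists_dual S hI hJ h b hA hE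
  refine ⟨b, A, A', hE, hD, ?_, hq⟩
  have h1 : (0 : ℚ) < (gram S κ (fun i => (b i : D))).det := by
    rw [← hA, det_map_intCast]
    exact_mod_cast EvenForm_det_pos hE
  have h2 := det_eq_det_obas S hI hJ h b h1
  rw [det_obas, ← hA, det_map_intCast] at h2
  exact_mod_cast h2

theorem IntAt.padic_nonneg {p : ℕ} (hp : p.Prime) {r : ℚ} (hr : r ≠ 0) (h : IntAt p r) :
    0 ≤ padicValRat p r := by
  have := Fact.mk hp
  obtain ⟨n, hn, t, ht⟩ := h
  have hn0 : (n : ℚ) ≠ 0 := (UnitAt.natCast hp hn).1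
  have h1 : padicValRat p (n : ℚ) = 0 := by
    rw [padicValRat.of_nat]
    have : padicValNat p n = 0 := padicValNat.eq_zero_of_not_dvd
      ((Nat.Prime.coprime_iff_not_dvd hp).mp hn.symm)
    rw [this]
    rfl
  have h2 := padicValRat.mul (p := p) hn0 hr
  rw [ht, h1, zero_add] at h2
  rw [← h2, padicValRat.of_int]
  positivity

theorem UnitAt.padic_eq_zero {p : ℕ} (hp : p.Prime) {r : ℚ} (h : UnitAt p r) :
    padicValRat p r = 0 := by
  have := Fact.mk hp
  have h1 := h.2.1.padic_nonneg hp h.1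
  have h2 := h.2.2.padic_nonneg hp (inv_ne_zero h.1)
  rw [padicValRat.inv] at h2
  linarith

/-- **Index formula**. -/
theorem idx_smul_eq {I J : Submodule ℤ D} (hI : S.IsLat I) (hJ : S.IsLat J) {κ : ℚ}
    (h : IsKappa S I J κ) {d : D} (hd : d ≠ 0) (hdI : d ∈ hom I J) :
    ((idx (d • J) I : ℕ) : ℚ) = (κ * S.nrd d) ^ 2 := by
  have hle : d • J ≤ I := mem_hom_iff_smul_le.mp hdI
  have hdJ : S.IsLat (d • J) := QOrder.IsLat.smul hJ hd
  have hi0 : idx (d • J) I ≠ 0 := hdJ.idx_ne_zero hI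
  have hi0' : ((idx (d • J) I : ℕ) : ℚ) ≠ 0 := by exact_mod_cast hi0
  have hnd := S.nrd_pos d hd
  have hκ := h.1
  have hk0 : (κ * S.nrd d) ^ 2 ≠ 0 := by positivity
  have key : ((idx (d • J) I : ℕ) : ℚ) / (κ * S.nrd d) ^ 2 = 1 := by
    refine UnitAt.eq_one (div_pos (by positivity) (by positivity)) fun p hp => ?_
    have := Fact.mk hp
    obtain ⟨x, hx, hIx⟩ := hI p hp
    obtain ⟨y, hy, hJy⟩ := hJ p hp
    have hJy' : LEq p (d • J) ((d * y) • S.OO) := by
      rw [← smul_smul]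
      exact LEq.smul hJy d
    have h1 := hI.padicVal_idx hdJ hle hp hx (mul_ne_zero hd hy) hIx hJy'
    have hx0 := nrd_ne_zero S.toQAlg hx
    have hy0 := nrd_ne_zero S.toQAlg hy
    have hu := (h.2 p hp x y hx hy hIx hJy).padic_eq_zero hp
    apply unitAt_of_padicValRat hp (div_ne_zero hi0' hk0)
    rw [padicValRat.div hi0' hk0, padicValRat.of_nat, h1, padicValRat.pow,
      nrd_mul, nrd_mul, nrd_inv, padicValRat.mul (inv_ne_zero hx0) (mul_ne_zero hnd.ne' hy0),
      padicValRat.mul hnd.ne' hy0, padicValRat.mul hκ.ne' hnd.ne', padicValRat.inv]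
    rw [padicValRat.div (mul_ne_zero hκ.ne' hx0) hy0, padicValRat.mul hκ.ne' hx0] at hu
    push_cast
    linarith
  rwa [div_eq_one_iff_eq hk0] at key

/-- **Modularity of the theta series of `Hom(J, I)`.** -/
theorem exists_thetaForm {I J : Submodule ℤ D} (hI : S.IsLat I) (hJ : S.IsLat J) {κ : ℚ}
    (h : IsKappa S I J κ) :
    ∃ F : ModularForm (CongruenceSubgroup.Gamma0 S.M) 2, ∀ n : ℕ,
      ModularFormClass.qCoeff F n =
        ((Nat.card {d : D // d ∈ hom I J ∧ κ * S.nrd d = n} : ℕ) : ℂ) := by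
  obtain ⟨b, A, A', hE, hD, hdet, hq⟩ := exists_gram S hI hJ h
  refine ⟨thetaForm hE hD hdet, fun n => ?_⟩
  rw [qCoeff_thetaForm, rep]
  congr 1
  refine Nat.card_congr ?_
  have hsum : ∀ x : Fin 4 → ℤ, ((b.equivFun.symm x : hom I J) : D) = ∑ i, x i • (b i : D) := by
    intro x
    rw [Module.Basis.equivFun_symm_apply]
    have := map_sum (hom I J).subtype (fun i => x i • b i) Finset.univ
    exact this
  refine
    { toFun := fun x => ⟨(b.equivFun.symm x.1 : hom I J), (b.equivFun.symm x.1).2, ?_⟩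
      invFun := fun d => ⟨b.equivFun ⟨d.1, d.2.1⟩, ?_⟩
      left_inv := ?_
      right_inv := ?_ }
  · rw [hsum, ← hq, x.2]
    simp
  · have h1 := hq (b.equivFun ⟨d.1, d.2.1⟩)
    rw [← hsum, LinearEquiv.symm_apply_apply] at h1
    have h2 := h1.trans d.2.2
    exact_mod_cast h2
  · intro x
    apply Subtype.ext
    exact b.equivFun.apply_symm_apply x.1
  · intro d
    apply Subtype.ext
    simp

/-- the count in terms of indices -/
theorem card_eq_card_idx {I J : Submodule ℤ D} (hI : S.IsLat I) (hJ : S.IsLat J) {κ : ℚ}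
    (h : IsKappa S I J κ) (n : ℕ) (hn : 1 ≤ n) :
    Nat.card {d : D // d ∈ hom I J ∧ κ * S.nrd d = n} =
      Nat.card {d : D // d ≠ 0 ∧ d • J ≤ I ∧ idx (d • J) I = n ^ 2} := by
  refine Nat.card_congr (Equiv.subtypeEquivRight fun d => ?_)
  constructor
  · rintro ⟨h1, h2⟩
    have hd : d ≠ 0 := by
      rintro rfl
      rw [nrd_zero, mul_zero] at h2
      have : n = 0 := by exact_mod_cast h2.symm
      omega
    refine ⟨hd, mem_hom_iff_smul_le.mp h1, ?_⟩
    have h3 := idx_smul_eq S hI hJ h hd h1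
    rw [h2] at h3
    exact_mod_cast h3
  · rintro ⟨hd, h1, h2⟩
    have h1' := mem_hom_iff_smul_le.mpr h1
    refine ⟨h1', ?_⟩
    have h3 := idx_smul_eq S hI hJ h hd h1'
    rw [h2] at h3
    have h4 : (κ * S.nrd d) ^ 2 = (n : ℚ) ^ 2 := by rw [← h3]; push_cast; rfl
    have h5 : 0 ≤ κ * S.nrd d := mul_nonneg h.1.le (nrd_nonneg S.toQAlg d)
    exact (pow_left_inj₀ h5 (by positivity) two_ne_zero).mp h4

/-- **Modularity**, final form. -/
theorem exists_thetaForm_idx {I J : Submodule ℤ D} (hI : S.IsLat I) (hJ : S.IsLat J) :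
    ∃ F : ModularForm (CongruenceSubgroup.Gamma0 S.M) 2, ∀ n : ℕ, 1 ≤ n →
      ModularFormClass.qCoeff F n =
        ((Nat.card {d : D // d ≠ 0 ∧ d • J ≤ I ∧ idx (d • J) I = n ^ 2} : ℕ) : ℂ) := by
  obtain ⟨κ, h⟩ := exists_isKappa S hI hJ
  obtain ⟨F, hF⟩ := exists_thetaForm S hI hJ h
  exact ⟨F, fun n hn => by rw [hF, card_eq_card_idx S hI hJ h n hn]⟩

end Fermat.Agent.P2.Quat.Gram
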