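import Fermat.Agent.P2.B34.Sys
import Fermat.Agent.P2.Quat.BrandtHecke
import Fermat.Agent.P2.Quat.GramMain
import Fermat.Agent.P2.Quat.Even
import Fermat.Agent.P2.Quat.Fin

/-!
# P2: from a quaternion order to `BrandtSys`

All fields of `BrandtSys` which concern the Brandt matrices, the Atkin-Lehner permutations and the
theta series; the fields about the classes `[𝔠 O]` are explicit hypotheses.
-/

set_option autoImplicit false

noncomputable section

open ModularCurve CongruenceSubgroup NumberField ModularFormClass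
open scoped Pointwise

namespace Fermat.Agent.P2.Quat

variable {D : Type} [DivisionRing D] [Algebra ℚ D] (S₀ : QOrder D)

namespace QOrder

open Classical in
/-- The Atkin-Lehner permutation, for all indices. -/
def wN (m : ℕ) (x : S₀.X) : S₀.X := if h : m ∣ S₀.M then S₀.w m h x else x

theorem wN_eq {m : ℕ} (h : m ∣ S₀.M) (x : S₀.X) : S₀.wN m x = S₀.w m h x := dif_pos h

theorem wN_cls {m : ℕ} (h : m ∣ S₀.M) {I : Submodule ℤ D} (hI : S₀.IsLat I) :
    S₀.wN m (S₀.cls I hI) = S₀.cls (I * S₀.P m) (hI.mul_P h) := by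
  rw [wN_eq S₀ h, w_cls]

/-- Units are trivial if a prime `≡ 1 mod 12` is ramified. -/
theorem unitsTrivial_of_ram {q : ℕ} (hq : q.Prime) (hram : S₀.ram q) (h12 : q % 12 = 1) :
    S₀.UnitsTrivial := fun _ hI _ hu => hI.unit_eq hq hram h12 hu

theorem exists_theta (hU : S₀.UnitsTrivial) (x y : S₀.X) :
    ∃ F : ModularForm (Gamma0 S₀.M) 2, ∀ n : ℕ, 1 ≤ n → qCoeff F n = 2 * (S₀.B n x y : ℂ) := by
  obtain ⟨F, hF⟩ := Gram.exists_thetaForm_idx S₀ (isLat_rep x) (isLat_rep y)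
  refine ⟨F, fun n hn => ?_⟩
  rw [hF n hn]
  have h1 := card_smul_mem_Nb hU (isLat_rep x) (isLat_rep y) (Nat.one_le_iff_ne_zero.mp hn)
  rw [cls_rep, cls_rep] at h1
  have h2 : Nat.card {d : D // d ≠ 0 ∧ d • S₀.rep y ≤ S₀.rep x ∧
      idx (d • S₀.rep y) (S₀.rep x) = n ^ 2} = 2 * S₀.B n x y := by
    rw [← h1]
    refine Nat.card_congr (Equiv.subtypeEquivRight fun d => ?_)
    constructor
    · rintro ⟨h3, h4, h5⟩
      exact ⟨h3, (isLat_rep y).smul h3, h4, h5⟩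
    · rintro ⟨h3, -, h4, h5⟩
      exact ⟨h3, h4, h5⟩
  rw [h2]
  push_cast
  rfl

open Classical in
/-- The Brandt part of `BrandtSys`. -/
def toSys {S Q : Finset ℕ} {K : Type} [Field K] [NumberField K]
    (hM : S₀.M = lev S Q) (hQ : ∀ q ∈ Q, q.Prime) (hram : ∀ q ∈ Q, S₀.ram q)
    (hram2 : S₀.ram 2) {q₁ : ℕ} (hq₁ : q₁.Prime) (hr₁ : S₀.ram q₁) (h12 : q₁ % 12 = 1)
    (e : ClassGroup (𝓞 K) → S₀.X)
    (w_e : ∀ c, S₀.wN (∏ q ∈ S, q) (e c) = e c)
    (c0 : ClassGroup (𝓞 K))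
    (sep : ∀ (c c' : ClassGroup (𝓞 K)) (d : ℕ), d ∣ ∏ q ∈ Q, q → S₀.wN d (e c') = e c →
      c = c' ∨ c * c' = c0)
    (T : ∀ ℓ : ℕ, ℓ.Prime → ¬ ℓ ∣ lev S Q → ∀ (c : ClassGroup (𝓞 K)) (g : S₀.X → ZMod 2),
      (∀ d : ℕ, d ∣ ∏ q ∈ Q, q → ∀ x, g (S₀.wN d x) = g x) →
      (∀ x, g (S₀.wN (∏ q ∈ S, q) x) = g x) →
      letI := Fintype.ofFinite S₀.X
      ∑ y, (S₀.B ℓ (e c) y : ZMod 2) * g y =
        ∑ᶠ 𝔭 : {𝔭 : nonZeroDivisors (Ideal (𝓞 K)) // Ideal.absNorm (𝔭 : Ideal (𝓞 K)) = ℓ},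
          g (e (ClassGroup.mk0 (𝔭 : nonZeroDivisors (Ideal (𝓞 K))) * c))) :
    BrandtSys S Q K :=
  letI := Fintype.ofFinite S₀.X
  { X := S₀.X
    fin := inferInstance
    B := S₀.B
    B_one := fun x => by rw [B_one, if_pos rfl]
    B_one' := fun x y h => by rw [B_one, if_neg h]
    B_mul := fun ℓ hℓ hℓM n hn x z =>
      sum_mul_B (S₀.unitsTrivial_of_ram hq₁ hr₁ h12) hℓ (hM ▸ hℓM)
        (Nat.one_le_iff_ne_zero.mp hn) x z
    w := S₀.wN
    w_one := fun x => by rw [wN_eq S₀ (one_dvd _), w_one]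
    w_mul := fun m m' h _ x => by
      rw [← hM] at h
      have h' : m' * m ∣ S₀.M := by rwa [mul_comm]
      rw [wN_eq S₀ h, wN_eq S₀ (dvd_of_mul_left_dvd h), wN_eq S₀ (dvd_of_mul_right_dvd h),
        w_mul h']
      have key : ∀ k : ℕ, ∀ hk : k ∣ S₀.M, k = m' * m → S₀.w k hk x = S₀.w (m' * m) h' x := by
        rintro k hk rfl
        rfl
      exact (key (m * m') h (mul_comm _ _)).symm
    w_sq := fun m h x => by
      rw [← hM] at h
      rw [wN_eq S₀ h, wN_eq S₀ h, w_w]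
    B_w := fun m h ℓ _ _ x y => by
      rw [← hM] at h
      rw [wN_eq S₀ h, wN_eq S₀ h, B_w]
    B_q := fun q hq n hn x y => by
      have h := S₀.ram_dvd q (hQ q hq) (hram q hq)
      rw [wN_eq S₀ h]
      exact B_mul_ram (hQ q hq) (hram q hq) h (Nat.one_le_iff_ne_zero.mp hn) x y
    B_two := fun n hn x y => by
      have h := S₀.ram_dvd 2 Nat.prime_two hram2
      rw [wN_eq S₀ h]
      exact B_mul_ram Nat.prime_two hram2 h (Nat.one_le_iff_ne_zero.mp hn) x y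
    theta := fun x y => by
      rw [← hM]
      exact S₀.exists_theta (S₀.unitsTrivial_of_ram hq₁ hr₁ h12) x y
    e := e
    w_e := w_e
    c0 := c0
    sep := sep
    T := T
    even := fun ℓ hℓ hℓM d hd hd1 hns x y hx hy hdx hdy => by
      have h1 : d ∣ S₀.M := by
        rw [hM]
        exact hd.trans (Dvd.intro_left _ rfl)
      rw [wN_eq S₀ h1] at hdx hdy
      exact even_B' hq₁ hr₁ h12 hℓ (hM ▸ hℓM) h1 hd1 hns hdx hdy }

end QOrder

end Fermat.Agent.P2.Quat
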