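import Fermat.Agent.P2.Quat.GramLoc
import Fermat.Agent.P2.Quat.IsLat
import Fermat.Agent.P2.Theta.Modular

/-!
# Gram matrices of the lattices `Hom(J, I)`
-/

set_option autoImplicit false
set_option linter.unusedSectionVars false

open scoped Pointwise
open Matrix Fermat.Agent.P2.Theta

noncomputable section

namespace Fermat.Agent.P2.Quat.Gram

variable {D : Type} [DivisionRing D] [Algebra ℚ D] (S : QOrder D)

/-- The Gram matrix of a family for `κ trd (x conj y)`. -/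
def gram (κ : ℚ) (v : Fin 4 → D) : Matrix (Fin 4) (Fin 4) ℚ :=
  Matrix.of fun i j => κ * bil S.toQAlg (v i) (v j)

@[simp] theorem gram_apply (κ : ℚ) (v : Fin 4 → D) (i j : Fin 4) :
    gram S κ v i j = κ * bil S.toQAlg (v i) (v j) := rfl

theorem gram_comb (κ : ℚ) (C : Matrix (Fin 4) (Fin 4) ℤ) (w : Fin 4 → D) :
    gram S κ (fun i => ∑ j, C i j • w j) =
      C.map (Int.cast : ℤ → ℚ) * gram S κ w * (C.map (Int.cast : ℤ → ℚ))ᵀ := by
  ext i j
  rw [gram_apply, bil_sum_left]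
  simp only [Matrix.mul_apply, Matrix.transpose_apply, Matrix.map_apply, gram_apply,
    bil_sum_right, bil_zsmul_left, bil_zsmul_right, Finset.mul_sum, Finset.sum_mul]
  rw [Finset.sum_comm]
  refine Finset.sum_congr rfl fun k _ => Finset.sum_congr rfl fun l _ => ?_
  ring

theorem gram_nsmul (κ : ℚ) (n : ℕ) (v : Fin 4 → D) :
    gram S κ (fun i => n • v i) = ((n : ℚ) ^ 2) • gram S κ v := by
  ext i j
  rw [gram_apply, Matrix.smul_apply, gram_apply, bil_nsmul_left, bil_nsmul_right, smul_eq_mul]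
  ring

theorem gram_mul_mul (κ : ℚ) (a b : D) (v : Fin 4 → D) :
    gram S κ (fun i => a * v i * b) = (κ * S.nrd a * S.nrd b) • gram S 1 v := by
  ext i j
  rw [gram_apply, Matrix.smul_apply, gram_apply, bil_mul_mul, smul_eq_mul]
  ring

/-- `n v ⊆ ℤ w` -/
def LocSpan (p : ℕ) (v w : Fin 4 → D) : Prop :=
  ∃ n : ℕ, n.Coprime p ∧ ∃ C : Matrix (Fin 4) (Fin 4) ℤ, ∀ i, n • v i = ∑ j, C i j • w j

theorem LocSpan.det {p : ℕ} {v w : Fin 4 → D} (h : LocSpan p v w) (κ : ℚ) :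
    ∃ n : ℕ, n.Coprime p ∧ ∃ t : ℤ, (n : ℚ) * (gram S κ v).det = t * (gram S κ w).det := by
  obtain ⟨n, hn, C, hC⟩ := h
  refine ⟨n ^ 8, Nat.Coprime.pow_left 8 hn, C.det ^ 2, ?_⟩
  have h1 : gram S κ (fun i => n • v i) = gram S κ (fun i => ∑ j, C i j • w j) := by
    congr 1
    funext i
    exact hC i
  rw [gram_nsmul, gram_comb] at h1
  have h2 := congrArg Matrix.det h1
  rw [Matrix.det_smul, Matrix.det_mul, Matrix.det_mul, Matrix.det_transpose, Fintype.card_fin]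
    at h2
  have h3 : (C.map (Int.cast : ℤ → ℚ)).det = ((C.det : ℤ) : ℚ) := by
    have := RingHom.map_det (Int.castRingHom ℚ) C
    rw [RingHom.mapMatrix_apply] at this
    exact this.symm
  rw [h3] at h2
  rw [Nat.cast_pow, Int.cast_pow]
  calc (n : ℚ) ^ 8 * (gram S κ v).det = ((n : ℚ) ^ 2) ^ 4 * (gram S κ v).det := by ring
    _ = _ := by rw [h2]; ring

theorem unitAt_det {p : ℕ} {v w : Fin 4 → D} (h : LocSpan p v w) (h' : LocSpan p w v) (κ : ℚ)
    (hv : (gram S κ v).det ≠ 0) (hw : (gram S κ w).det ≠ 0) :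
    UnitAt p ((gram S κ v).det / (gram S κ w).det) := by
  refine ⟨div_ne_zero hv hw, ?_, ?_⟩
  · obtain ⟨n, hn, t, ht⟩ := h.det S κ
    refine ⟨n, hn, t, ?_⟩
    rw [← mul_div_assoc, ht, mul_div_assoc, div_self hw, mul_one]
  · obtain ⟨n, hn, t, ht⟩ := h'.det S κ
    refine ⟨n, hn, t, ?_⟩
    rw [inv_div, ← mul_div_assoc, ht, mul_div_assoc, div_self hv, mul_one]

theorem locSpan_of_basis {p : ℕ} {L L' : Submodule ℤ D} (b' : Module.Basis (Fin 4) ℤ L')
    {v : Fin 4 → D} (hv : ∀ i, v i ∈ L) (h : LLE p L L') :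
    LocSpan p v (fun i => (b' i : D)) := by
  obtain ⟨n, hn, h1⟩ := h
  refine ⟨n, hn, fun i j => b'.repr ⟨n • v i, h1 _ (hv i)⟩ j, fun i => ?_⟩
  have h2 := b'.sum_repr ⟨n • v i, h1 _ (hv i)⟩
  have h3 := congrArg (L'.subtype) h2
  rw [map_sum] at h3
  exact h3.symm

/-! ### integral positive definite forms -/

/-- rational positive definiteness -/
theorem gram_quad (κ : ℚ) (v : Fin 4 → D) (c : Fin 4 → ℤ) :
    (fun i => (c i : ℚ)) ⬝ᵥ (gram S κ v *ᵥ fun i => (c i : ℚ)) =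
      2 * (κ * S.nrd (∑ i, c i • v i)) := by
  have h1 := bil_self S.toQAlg (∑ i, c i • v i)
  rw [bil_sum_left] at h1
  simp only [bil_sum_right, bil_zsmul_left, bil_zsmul_right] at h1
  simp only [dotProduct, mulVec, gram_apply, Finset.mul_sum]
  rw [mul_left_comm, ← h1, Finset.mul_sum]
  refine Finset.sum_congr rfl fun i _ => ?_
  rw [Finset.mul_sum]
  refine Finset.sum_congr rfl fun j _ => ?_
  ring

theorem posDef_of_int {A : Matrix (Fin 4) (Fin 4) ℤ} (hs : A.IsSymm)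
    (hpos : ∀ c : Fin 4 → ℤ, c ≠ 0 → 0 < c ⬝ᵥ A *ᵥ c) :
    (A.map (Int.cast : ℤ → ℝ)).PosDef := by
  set B := A.map (Int.cast : ℤ → ℝ) with hB
  have hBs : Bᵀ = B := by
    rw [hB, ← Matrix.transpose_map, hs.eq]
  -- nonnegativity on rational vectors
  have hQ : ∀ c : Fin 4 → ℚ, 0 ≤ (fun i => (c i : ℝ)) ⬝ᵥ B *ᵥ (fun i => (c i : ℝ)) := by
    intro c
    -- clear denominators
    set N : ℕ := ∏ i, (c i).den with hN
    have hN0 : (0 : ℝ) < N := by
      have : N ≠ 0 := Finset.prod_ne_zero_iff.mpr fun i _ => (c i).den_nz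
      exact_mod_cast Nat.pos_of_ne_zero this
    have hint : ∀ i, ∃ t : ℤ, (N : ℝ) * (c i : ℝ) = t := by
      intro i
      obtain ⟨m, hm⟩ : (c i).den ∣ N := Finset.dvd_prod_of_mem _ (Finset.mem_univ i)
      refine ⟨m * (c i).num, ?_⟩
      have h1 : ((c i).den : ℚ) * c i = (c i).num := Rat.den_mul_eq_num (c i)
      have h2 : (N : ℚ) * c i = (m * (c i).num : ℤ) := by
        rw [hm]; push_cast; rw [← h1]; ring
      exact_mod_cast h2
    choose t ht using hint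
    have h1 : (fun i => (t i : ℝ)) ⬝ᵥ B *ᵥ (fun i => (t i : ℝ)) =
        (N : ℝ) ^ 2 * ((fun i => (c i : ℝ)) ⬝ᵥ B *ᵥ (fun i => (c i : ℝ))) := by
      have : (fun i => (t i : ℝ)) = (N : ℝ) • (fun i => (c i : ℝ)) := by
        funext i
        rw [Pi.smul_apply, smul_eq_mul, ht]
      rw [this, mulVec_smul, dotProduct_smul, smul_dotProduct, smul_eq_mul, smul_eq_mul]
      ring
    have h2 : (fun i => (t i : ℝ)) ⬝ᵥ B *ᵥ (fun i => (t i : ℝ)) = ((t ⬝ᵥ A *ᵥ t : ℤ) : ℝ) := by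
      simp only [dotProduct, mulVec, hB, Matrix.map_apply]
      push_cast
      rfl
    have h3 : 0 ≤ t ⬝ᵥ A *ᵥ t := by
      by_cases h : t = 0
      · rw [h]; simp
      · exact (hpos t h).le
    have h4 : (0 : ℝ) ≤ (N : ℝ) ^ 2 * ((fun i => (c i : ℝ)) ⬝ᵥ B *ᵥ (fun i => (c i : ℝ))) := by
      rw [← h1, h2]; exact_mod_cast h3
    exact nonneg_of_mul_nonneg_right h4 (by positivity)
  -- density
  have hR : ∀ x : Fin 4 → ℝ, 0 ≤ x ⬝ᵥ B *ᵥ x := by
    have hd : DenseRange (fun c : Fin 4 → ℚ => fun i => (c i : ℝ)) :=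
      DenseRange.piMap (fun _ => Rat.denseRange_cast)
    intro x
    have hc : Continuous fun x : Fin 4 → ℝ => x ⬝ᵥ B *ᵥ x := by
      simp only [dotProduct, mulVec]
      fun_prop
    refine hd.induction_on (p := fun x => 0 ≤ x ⬝ᵥ B *ᵥ x) x
      (isClosed_le continuous_const hc) hQ
  have hpsd : B.PosSemidef := by
    refine Matrix.PosSemidef.of_dotProduct_mulVec_nonneg ?_ ?_
    · rw [Matrix.IsHermitian, Matrix.conjTranspose, hBs]
      ext i j
      simp
    · intro x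
      simpa using hR x
  rw [hpsd.posDef_iff_det_ne_zero]
  have hdet : B.det = ((A.det : ℤ) : ℝ) := by
    have := RingHom.map_det (Int.castRingHom ℝ) A
    rw [RingHom.mapMatrix_apply] at this
    exact this.symm
  rw [hdet]
  intro h0
  have h1 : A.det = 0 := by exact_mod_cast h0
  obtain ⟨v, hv, hv'⟩ := (Matrix.exists_mulVec_eq_zero_iff).mpr h1
  have := hpos v hv
  rw [hv', dotProduct_zero] at this
  exact lt_irrefl _ this

/-- The Gram matrix of an integral lattice. -/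
theorem exists_even {L : Submodule ℤ D} (b : Module.Basis (Fin 4) ℤ L) {κ : ℚ} (hκ : 0 < κ)
    (hint : ∀ z ∈ L, ∃ t : ℤ, κ * S.nrd z = t) :
    ∃ A : Matrix (Fin 4) (Fin 4) ℤ, A.map (Int.cast : ℤ → ℚ) = gram S κ (fun i => (b i : D)) ∧
      EvenForm A ∧ ∀ x : Fin 4 → ℤ, ((qZ A x : ℤ) : ℚ) = κ * S.nrd (∑ i, x i • (b i : D)) := by
  have hbil : ∀ z ∈ L, ∀ w ∈ L, ∃ t : ℤ, κ * bil S.toQAlg z w = t := by
    intro z hz w hw
    obtain ⟨t1, h1⟩ := hint _ (L.add_mem hz hw)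
    obtain ⟨t2, h2⟩ := hint _ hz
    obtain ⟨t3, h3⟩ := hint _ hw
    refine ⟨t1 - t2 - t3, ?_⟩
    push_cast
    rw [← h1, ← h2, ← h3, nrd_add]
    ring
  choose A hA using fun i j => hbil (b i) (b i).2 (b j) (b j).2
  have hmap : (Matrix.of A).map (Int.cast : ℤ → ℚ) = gram S κ (fun i => (b i : D)) := by
    ext i j
    rw [Matrix.map_apply, Matrix.of_apply, gram_apply, hA]
  have hsymm : (Matrix.of A).IsSymm := by
    ext i j
    have : ((A j i : ℤ) : ℚ) = A i j := by rw [← hA, ← hA, bil_symm]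
    rw [Matrix.transpose_apply, Matrix.of_apply, Matrix.of_apply]
    exact_mod_cast this
  have heven : ∀ i, Even (Matrix.of A i i) := by
    intro i
    obtain ⟨t, ht⟩ := hint _ (b i).2
    refine ⟨t, ?_⟩
    have : ((A i i : ℤ) : ℚ) = t + t := by rw [← hA, bil_self, ← ht]; ring
    rw [Matrix.of_apply]
    exact_mod_cast this
  have hquad : ∀ c : Fin 4 → ℤ, ((c ⬝ᵥ Matrix.of A *ᵥ c : ℤ) : ℚ) =
      2 * (κ * S.nrd (∑ i, c i • (b i : D))) := by
    intro c
    rw [← gram_quad, ← hmap]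
    simp only [dotProduct, mulVec, Matrix.map_apply]
    push_cast
    rfl
  have hpos : ∀ c : Fin 4 → ℤ, c ≠ 0 → 0 < c ⬝ᵥ Matrix.of A *ᵥ c := by
    intro c hc
    have h1 : (∑ i, c i • (b i : D)) ≠ 0 := by
      intro h0
      apply hc
      have h2 : (∑ i, c i • b i) = 0 := by
        apply Subtype.ext
        rw [ZeroMemClass.coe_zero, ← h0]
        simp
      have h3 := b.linearIndependent
      rw [Fintype.linearIndependent_iff] at h3
      exact funext (h3 c h2)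
    have h2 : (0 : ℚ) < ((c ⬝ᵥ Matrix.of A *ᵥ c : ℤ) : ℚ) := by
      rw [hquad]
      have := S.nrd_pos _ h1
      positivity
    exact_mod_cast h2
  have hE : EvenForm (Matrix.of A) := ⟨hsymm, heven, posDef_of_int hsymm hpos⟩
  refine ⟨Matrix.of A, hmap, hE, fun x => ?_⟩
  have h1 := hE.two_mul_qZ x
  have h2 := hquad x
  rw [← h1] at h2
  push_cast at h2
  linarith

end Fermat.Agent.P2.Quat.Gram
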