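import Fermat.Agent.P2.Quat.Defs

/-!
# Norm form of a quaternion algebra: basic identities
-/

set_option autoImplicit false

noncomputable section

namespace Fermat.Agent.P2.Quat.Gram

variable {D : Type} [DivisionRing D] [Algebra ℚ D] (S : QAlg D)

theorem algMap_inj {r s : ℚ} (h : algebraMap ℚ D r = algebraMap ℚ D s) : r = s :=
  (algebraMap ℚ D).injective h

theorem algMap_comm (r : ℚ) (x : D) : algebraMap ℚ D r * x = x * algebraMap ℚ D r :=
  Algebra.commutes r x

/-- `conj` as an additive homomorphism. -/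
def conjAdd : D →+ D where
  toFun := S.conj
  map_zero' := by
    have h := S.conj_add 0 0
    rw [add_zero] at h
    exact left_eq_add.mp h
  map_add' := S.conj_add

@[simp] theorem conjAdd_apply (x : D) : conjAdd S x = S.conj x := rfl

theorem conj_zero : S.conj 0 = 0 := (conjAdd S).map_zero
theorem conj_neg (x : D) : S.conj (-x) = -S.conj x := (conjAdd S).map_neg x
theorem conj_sub (x y : D) : S.conj (x - y) = S.conj x - S.conj y := (conjAdd S).map_sub x y
theorem conj_sum {ι : Type*} (s : Finset ι) (f : ι → D) :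
    S.conj (∑ i ∈ s, f i) = ∑ i ∈ s, S.conj (f i) := map_sum (conjAdd S) f s

theorem conj_one : S.conj 1 = 1 := by
  have h := S.conj_mul (S.conj 1) 1
  rw [mul_one, S.conj_conj, mul_one] at h
  exact h.symm

theorem conj_zsmul (r : ℤ) (x : D) : S.conj (r • x) = r • S.conj x :=
  map_zsmul (conjAdd S) r x

theorem conj_nsmul (r : ℕ) (x : D) : S.conj (r • x) = r • S.conj x :=
  map_nsmul (conjAdd S) r x

theorem conj_algebraMap (r : ℚ) : S.conj (algebraMap ℚ D r) = algebraMap ℚ D r := by
  have h0 : (algebraMap ℚ D (r.den : ℚ)) ≠ 0 := by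
    rw [Ne, map_eq_zero_iff _ (algebraMap ℚ D).injective]
    exact_mod_cast r.den_nz
  have h1 : algebraMap ℚ D (r.den : ℚ) * algebraMap ℚ D r = algebraMap ℚ D (r.num : ℚ) := by
    rw [← map_mul, Rat.den_mul_eq_num]
  have hn : ∀ n : ℤ, S.conj (algebraMap ℚ D (n : ℚ)) = algebraMap ℚ D (n : ℚ) := by
    intro n
    have : (algebraMap ℚ D (n : ℚ)) = n • (1 : D) := by rw [map_intCast, zsmul_one]
    rw [this, conj_zsmul, conj_one]
  have h2 := congrArg S.conj h1
  have h3 : S.conj (algebraMap ℚ D (r.den : ℚ)) = algebraMap ℚ D (r.den : ℚ) := by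
    have := hn r.den
    simpa using this
  rw [S.conj_mul, hn, h3, ← algMap_comm, ← h1] at h2
  exact mul_left_cancel₀ h0 h2

theorem conj_algMap_mul (r : ℚ) (x : D) :
    S.conj (algebraMap ℚ D r * x) = algebraMap ℚ D r * S.conj x := by
  rw [S.conj_mul, conj_algebraMap, algMap_comm]

theorem conj_add_self (x : D) : S.conj x + x = algebraMap ℚ D (S.trd x) := by
  rw [add_comm, S.add_conj]

theorem trd_conj (x : D) : S.trd (S.conj x) = S.trd x := by
  apply algMap_inj (D := D)
  rw [← S.add_conj, ← S.add_conj, S.conj_conj, add_comm]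

theorem trd_add (x y : D) : S.trd (x + y) = S.trd x + S.trd y := by
  apply algMap_inj (D := D)
  rw [map_add, ← S.add_conj, ← S.add_conj, ← S.add_conj, S.conj_add]
  abel

theorem trd_algMap_mul (r : ℚ) (x : D) : S.trd (algebraMap ℚ D r * x) = r * S.trd x := by
  apply algMap_inj (D := D)
  rw [map_mul, ← S.add_conj, ← S.add_conj, conj_algMap_mul, mul_add]

/-- `trd` as an additive map. -/
def trdAdd : D →+ ℚ where
  toFun := S.trd
  map_zero' := by
    have h := trd_add S 0 0
    rw [add_zero] at h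
    linarith
  map_add' := trd_add S

@[simp] theorem trdAdd_apply (x : D) : trdAdd S x = S.trd x := rfl

theorem trd_zero : S.trd 0 = 0 := (trdAdd S).map_zero
theorem trd_neg (x : D) : S.trd (-x) = -S.trd x := (trdAdd S).map_neg x
theorem trd_sub (x y : D) : S.trd (x - y) = S.trd x - S.trd y := (trdAdd S).map_sub x y
theorem trd_sum {ι : Type*} (s : Finset ι) (f : ι → D) :
    S.trd (∑ i ∈ s, f i) = ∑ i ∈ s, S.trd (f i) := map_sum (trdAdd S) f s
theorem trd_zsmul (r : ℤ) (x : D) : S.trd (r • x) = r * S.trd x := by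
  have := map_zsmul (trdAdd S) r x
  simpa using this
theorem trd_nsmul (r : ℕ) (x : D) : S.trd (r • x) = r * S.trd x := by
  have := map_nsmul (trdAdd S) r x
  simpa using this

theorem nrd_zero : S.nrd 0 = 0 := by
  apply algMap_inj (D := D)
  rw [← S.mul_conj, zero_mul, map_zero]

theorem nrd_nonneg (x : D) : 0 ≤ S.nrd x := by
  by_cases h : x = 0
  · rw [h, nrd_zero]
  · exact (S.nrd_pos x h).le

theorem nrd_ne_zero {x : D} (h : x ≠ 0) : S.nrd x ≠ 0 := (S.nrd_pos x h).ne'

theorem conj_mul_self (x : D) : S.conj x * x = algebraMap ℚ D (S.nrd x) := by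
  by_cases h : x = 0
  · rw [h, mul_zero, nrd_zero, map_zero]
  · have h1 := S.mul_conj x
    have h2 : x * (S.conj x * x) = x * algebraMap ℚ D (S.nrd x) := by
      rw [← mul_assoc, h1, algMap_comm]
    exact mul_left_cancel₀ h h2

theorem nrd_conj (x : D) : S.nrd (S.conj x) = S.nrd x := by
  apply algMap_inj (D := D)
  rw [← S.mul_conj, S.conj_conj, conj_mul_self]

theorem nrd_mul (x y : D) : S.nrd (x * y) = S.nrd x * S.nrd y := by
  apply algMap_inj (D := D)
  rw [← S.mul_conj, S.conj_mul, mul_assoc, ← mul_assoc y, S.mul_conj y, ← mul_assoc,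
    ← algMap_comm, mul_assoc, S.mul_conj x, ← map_mul, mul_comm]

theorem nrd_one : S.nrd 1 = 1 := by
  apply algMap_inj (D := D)
  rw [← S.mul_conj, conj_one, mul_one, map_one]

theorem nrd_algebraMap (r : ℚ) : S.nrd (algebraMap ℚ D r) = r ^ 2 := by
  apply algMap_inj (D := D)
  rw [← S.mul_conj, conj_algebraMap, ← map_mul, sq]

theorem nrd_algMap_mul (r : ℚ) (x : D) : S.nrd (algebraMap ℚ D r * x) = r ^ 2 * S.nrd x := by
  rw [nrd_mul, nrd_algebraMap]

theorem zsmul_eq (r : ℤ) (x : D) : r • x = algebraMap ℚ D r * x := by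
  rw [map_intCast, zsmul_eq_mul]

theorem nsmul_eq (r : ℕ) (x : D) : r • x = algebraMap ℚ D r * x := by
  rw [map_natCast, nsmul_eq_mul]

theorem nrd_zsmul (r : ℤ) (x : D) : S.nrd (r • x) = (r : ℚ) ^ 2 * S.nrd x := by
  rw [zsmul_eq, nrd_algMap_mul]

theorem nrd_nsmul (r : ℕ) (x : D) : S.nrd (r • x) = (r : ℚ) ^ 2 * S.nrd x := by
  rw [nsmul_eq, nrd_algMap_mul]

theorem nrd_neg (x : D) : S.nrd (-x) = S.nrd x := by
  have := nrd_zsmul S (-1) x
  simpa using this

theorem nrd_inv (x : D) : S.nrd x⁻¹ = (S.nrd x)⁻¹ := by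
  by_cases h : x = 0
  · rw [h, inv_zero, nrd_zero, inv_zero]
  · refine (inv_eq_of_mul_eq_one_right ?_).symm
    rw [← nrd_mul, mul_inv_cancel₀ h, nrd_one]

/-- The bilinear form `trd (x conj y)`. -/
def bil (x y : D) : ℚ := S.trd (x * S.conj y)

theorem nrd_add (x y : D) : S.nrd (x + y) = S.nrd x + S.nrd y + bil S x y := by
  apply algMap_inj (D := D)
  rw [bil, map_add, map_add, ← S.mul_conj, ← S.mul_conj, ← S.mul_conj, ← S.add_conj,
    S.conj_mul, S.conj_conj, S.conj_add]
  noncomm_ring

theorem bil_symm (x y : D) : bil S x y = bil S y x := by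
  have h1 := nrd_add S x y
  have h2 := nrd_add S y x
  rw [add_comm y x] at h2
  linarith

theorem bil_self (x : D) : bil S x x = 2 * S.nrd x := by
  have h1 := nrd_add S x x
  have h2 : S.nrd (x + x) = 4 * S.nrd x := by
    have : x + x = (2 : ℤ) • x := by rw [two_smul]
    rw [this, nrd_zsmul]
    norm_num
  linarith

theorem bil_add_left (x y z : D) : bil S (x + y) z = bil S x z + bil S y z := by
  rw [bil, add_mul, trd_add]; rfl

theorem bil_add_right (x y z : D) : bil S x (y + z) = bil S x y + bil S x z := by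
  rw [bil_symm, bil_add_left, bil_symm S y, bil_symm S z]

theorem bil_algMap_mul_left (r : ℚ) (x y : D) :
    bil S (algebraMap ℚ D r * x) y = r * bil S x y := by
  rw [bil, mul_assoc, trd_algMap_mul]; rfl

theorem bil_algMap_mul_right (r : ℚ) (x y : D) :
    bil S x (algebraMap ℚ D r * y) = r * bil S x y := by
  rw [bil_symm, bil_algMap_mul_left, bil_symm]

/-- The bilinear form as an additive map in the first variable. -/
def bilAdd (y : D) : D →+ ℚ := AddMonoidHom.mk' (fun x => bil S x y) (fun a b => bil_add_left S a b y)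

@[simp] theorem bilAdd_apply (x y : D) : bilAdd S y x = bil S x y := rfl

theorem bil_zero_left (y : D) : bil S 0 y = 0 := (bilAdd S y).map_zero
theorem bil_zero_right (y : D) : bil S y 0 = 0 := by rw [bil_symm, bil_zero_left]

theorem bil_zsmul_left (r : ℤ) (x y : D) : bil S (r • x) y = r * bil S x y := by
  rw [zsmul_eq, bil_algMap_mul_left]

theorem bil_zsmul_right (r : ℤ) (x y : D) : bil S x (r • y) = r * bil S x y := by
  rw [zsmul_eq, bil_algMap_mul_right]

theorem bil_nsmul_left (r : ℕ) (x y : D) : bil S (r • x) y = r * bil S x y := by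
  rw [nsmul_eq, bil_algMap_mul_left]

theorem bil_nsmul_right (r : ℕ) (x y : D) : bil S x (r • y) = r * bil S x y := by
  rw [nsmul_eq, bil_algMap_mul_right]

theorem bil_sum_left {ι : Type*} (s : Finset ι) (f : ι → D) (y : D) :
    bil S (∑ i ∈ s, f i) y = ∑ i ∈ s, bil S (f i) y := map_sum (bilAdd S y) f s

theorem bil_sum_right {ι : Type*} (s : Finset ι) (f : ι → D) (y : D) :
    bil S y (∑ i ∈ s, f i) = ∑ i ∈ s, bil S y (f i) := by
  rw [bil_symm, bil_sum_left]
  exact Finset.sum_congr rfl fun i _ => bil_symm S _ _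

/-- `trd (x y) = trd (y x)`. -/
theorem trd_mul_comm (x y : D) : S.trd (x * y) = S.trd (y * x) := by
  have h1 := nrd_add S x (S.conj y)
  have h2 := nrd_add S y (S.conj x)
  rw [bil, S.conj_conj, nrd_conj] at h1 h2
  have h3 : S.nrd (x + S.conj y) = S.nrd (y + S.conj x) := by
    rw [← nrd_conj S (x + S.conj y), S.conj_add, S.conj_conj, add_comm]
  linarith

/-- Multiplying on both sides scales the form. -/
theorem bil_mul_mul (a b x y : D) :
    bil S (a * x * b) (a * y * b) = S.nrd a * S.nrd b * bil S x y := by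
  have h1 : a * x * b * S.conj (a * y * b) =
      algebraMap ℚ D (S.nrd b) * (a * (x * S.conj y) * S.conj a) := by
    rw [S.conj_mul, S.conj_mul]
    calc a * x * b * (S.conj b * (S.conj y * S.conj a))
        = a * x * (b * S.conj b) * (S.conj y * S.conj a) := by noncomm_ring
      _ = a * x * algebraMap ℚ D (S.nrd b) * (S.conj y * S.conj a) := by rw [S.mul_conj]
      _ = algebraMap ℚ D (S.nrd b) * (a * x) * (S.conj y * S.conj a) := by rw [algMap_comm]
      _ = _ := by noncomm_ring
  rw [bil, h1, trd_algMap_mul, mul_assoc a, trd_mul_comm, mul_assoc (x * S.conj y), conj_mul_self,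
    ← algMap_comm, trd_algMap_mul, bil]
  ring

theorem nrd_intCast (n : ℤ) : S.nrd (n : D) = (n : ℚ) ^ 2 := by
  have := nrd_zsmul S n 1
  rwa [nrd_one, mul_one, zsmul_one] at this

theorem conj_eq (x : D) : S.conj x = algebraMap ℚ D (S.trd x) - x := by
  rw [← S.add_conj]; abel

theorem trd_one : S.trd 1 = 2 := by
  apply algMap_inj (D := D)
  rw [← S.add_conj, conj_one]
  norm_num

end Fermat.Agent.P2.Quat.Gram
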