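import Fermat.Agent.P2.Quat.Gram

/-!
# Discriminant and level of the lattices `Hom(J, I)`
-/

set_option autoImplicit false
set_option linter.unusedSectionVars false

open scoped Pointwise
open Matrix Fermat.Agent.P2.Theta

noncomputable section

namespace Fermat.Agent.P2.Quat.Gram

/-! ### complements on local integrality -/

theorem IntAt.of_natCast_mul {p n : ℕ} {r : ℚ} (hn : n.Coprime p) (h : IntAt p (n * r)) :
    IntAt p r := by
  obtain ⟨m, hm, t, ht⟩ := h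
  exact ⟨m * n, Nat.Coprime.mul_left hm hn, t, by rw [← ht]; push_cast; ring⟩

theorem coprime_of_padicValNat {p n : ℕ} (hp : p.Prime) (hn : n ≠ 0) (h : padicValNat p n = 0) :
    n.Coprime p := by
  rw [Nat.coprime_comm, Nat.Prime.coprime_iff_not_dvd hp]
  intro hd
  have := Fact.mk hp
  have := one_le_padicValNat_of_dvd hn hd
  omega

theorem unitAt_of_padicValRat {p : ℕ} (hp : p.Prime) {r : ℚ} (hr : r ≠ 0)
    (h : padicValRat p r = 0) : UnitAt p r := by
  have := Fact.mk hp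
  have hnum : r.num ≠ 0 := Rat.num_ne_zero.mpr hr
  have hcop := r.reduced
  rw [padicValRat_def] at h
  have h1 : padicValNat p r.num.natAbs = 0 ∧ padicValNat p r.den = 0 := by
    have h2 : padicValNat p r.num.natAbs = padicValNat p r.den := by
      have : (padicValInt p r.num : ℤ) = padicValNat p r.den := by linarith
      rw [padicValInt] at this
      exact_mod_cast this
    by_cases h3 : padicValNat p r.den = 0
    · exact ⟨h2.trans h3, h3⟩
    · exfalso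
      have h4 : p ∣ r.den := dvd_of_one_le_padicValNat (by omega)
      have h5 : p ∣ r.num.natAbs := dvd_of_one_le_padicValNat (by omega)
      have h6 := Nat.dvd_gcd h5 h4
      rw [hcop] at h6
      exact hp.one_lt.ne' (Nat.dvd_one.mp h6)
  have hc1 : r.den.Coprime p := coprime_of_padicValNat hp r.den_nz h1.2
  have hc2 : r.num.natAbs.Coprime p :=
    coprime_of_padicValNat hp (Int.natAbs_ne_zero.mpr hnum) h1.1
  refine ⟨hr, ⟨r.den, hc1, r.num, Rat.den_mul_eq_num r⟩, ?_⟩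
  have h7 : (r.num : ℚ) * r⁻¹ = r.den := by
    have := Rat.den_mul_eq_num r
    rw [← this]
    field_simp
  rcases Int.natAbs_eq r.num with h8 | h8
  · refine ⟨r.num.natAbs, hc2, r.den, ?_⟩
    have h9 : ((r.num.natAbs : ℕ) : ℚ) = (r.num : ℚ) := by
      rw [← Int.cast_natCast, ← h8]
    rw [h9, h7]
    simp
  · refine ⟨r.num.natAbs, hc2, -r.den, ?_⟩
    have h9 : ((r.num.natAbs : ℕ) : ℚ) = -(r.num : ℚ) := by
      have : (r.num : ℚ) = ((-(r.num.natAbs : ℤ) : ℤ) : ℚ) := by rw [← h8]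
      rw [this]
      simp
    rw [h9, neg_mul, h7]
    simp

variable {D : Type} [DivisionRing D] [Algebra ℚ D] (S : QOrder D)

/-! ### scaling factors -/

/-- `κ` is the normalising factor of `Hom(J, I)`. -/
def IsKappa (I J : Submodule ℤ D) (κ : ℚ) : Prop :=
  0 < κ ∧ ∀ p : ℕ, p.Prime → ∀ x y : D, x ≠ 0 → y ≠ 0 → LEq p I (x • S.OO) →
    LEq p J (y • S.OO) → UnitAt p (κ * S.nrd x / S.nrd y)

theorem exists_isKappa {I J : Submodule ℤ D} (hI : S.IsLat I) (hJ : S.IsLat J) :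
    ∃ κ : ℚ, IsKappa S I J κ := by
  obtain ⟨gI, hgI⟩ := exists_isNorm S hI
  obtain ⟨gJ, hgJ⟩ := exists_isNorm S hJ
  refine ⟨gJ / gI, div_pos hgJ.1 hgI.1, fun p hp x y hx hy hIx hJy => ?_⟩
  have h1 := hgI.2 p hp x hx hIx
  have h2 := hgJ.2 p hp y hy hJy
  have h3 := h2.div h1
  have hx0 := nrd_ne_zero S.toQAlg hx
  have hy0 := nrd_ne_zero S.toQAlg hy
  convert h3 using 1
  field_simp

theorem IsKappa.int {I J : Submodule ℤ D} (hI : S.IsLat I) (hJ : S.IsLat J) {κ : ℚ}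
    (h : IsKappa S I J κ) (z : D) (hz : z ∈ hom I J) : ∃ t : ℤ, κ * S.nrd z = t := by
  refine IntAt.global fun p hp => ?_
  obtain ⟨x, hx, hIx⟩ := hI p hp
  obtain ⟨y, hy, hJy⟩ := hJ p hp
  obtain ⟨n, hn, h1, -⟩ := (leq_hom S hx hy hIx hJy).exists_common
  obtain ⟨o, ho, hoz⟩ := h1 z hz
  obtain ⟨t, ht⟩ := S.nrd_int o ho
  have hoz' : x * (o * y⁻¹) = n • z := hoz
  have h2 : (n : ℚ) ^ 2 * S.nrd z = S.nrd x * (S.nrd o * (S.nrd y)⁻¹) := by
    rw [← nrd_nsmul, ← hoz', nrd_mul, nrd_mul, nrd_inv]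
  apply IntAt.of_natCast_mul (Nat.Coprime.pow_left 2 hn)
  have h3 : ((n ^ 2 : ℕ) : ℚ) * (κ * S.nrd z) = (κ * S.nrd x / S.nrd y) * t := by
    push_cast
    rw [← ht]
    calc (n : ℚ) ^ 2 * (κ * S.nrd z) = κ * ((n : ℚ) ^ 2 * S.nrd z) := by ring
      _ = _ := by rw [h2]; ring
  rw [h3]
  exact (h.2 p hp x y hx hy hIx hJy).2.1.mul (IntAt.intCast p t)

/-! ### the ideal `P M` -/

theorem unitAt_P {p : ℕ} (hp : p.Prime) {g : D} (hg : g ≠ 0)
    (h : LEq p (S.P S.M) (g • S.OO)) : UnitAt p (S.nrd g / S.M) := by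
  have := Fact.mk hp
  have hM : S.M ≠ 0 := S.M_sqf.ne_zero
  have hM' : (S.M : ℚ) ≠ 0 := by exact_mod_cast hM
  have hg0 := nrd_ne_zero S.toQAlg hg
  have h1 := QOrder.isLat_OO.padicVal_idx (QOrder.isLat_P dvd_rfl) (S.P_le S.M dvd_rfl) hp
    one_ne_zero hg (LEq.of_eq (one_smul _ _).symm) h
  have h2 : idx (S.P S.M) S.OO = S.M ^ 2 := S.P_index S.M dvd_rfl
  rw [h2, inv_one, one_mul, padicValNat.pow] at h1
  apply unitAt_of_padicValRat hp (div_ne_zero hg0 hM')
  rw [padicValRat.div hg0 hM']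
  push_cast at h1
  linarith

theorem intAt_P {p : ℕ} (hp : p.Prime) {w : D} (hw : w ∈ S.P S.M) :
    IntAt p (S.nrd w / S.M) := by
  obtain ⟨g, hg, h⟩ := S.P_loc S.M dvd_rfl p hp
  obtain ⟨n, hn, h1, -⟩ := h.exists_common
  obtain ⟨o, ho, hoz⟩ := h1 w hw
  obtain ⟨t, ht⟩ := S.nrd_int o ho
  have hoz' : g * o = n • w := hoz
  apply IntAt.of_natCast_mul (Nat.Coprime.pow_left 2 hn)
  have h2 : ((n ^ 2 : ℕ) : ℚ) * (S.nrd w / S.M) = S.nrd g / S.M * t := by
    push_cast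
    rw [← ht, ← mul_div_assoc, ← nrd_nsmul, ← hoz', nrd_mul]
    ring
  rw [h2]
  exact (unitAt_P S hp hg h).2.1.mul (IntAt.intCast p t)

theorem conj_mem_O {o : D} (ho : o ∈ S.O) : S.conj o ∈ S.O := by
  obtain ⟨t, ht⟩ := S.trd_int o ho
  rw [Gram.conj_eq, ht, map_intCast]
  exact S.O.sub_mem (intCast_mem S.O t) ho

/-- elements of the dual of `Hom(J, I)` have `M κ nrd z` integral -/
theorem dual_int {I J : Submodule ℤ D} (hI : S.IsLat I) (hJ : S.IsLat J) {κ : ℚ}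
    (h : IsKappa S I J κ) {z : D} (hz : ∀ w ∈ hom I J, ∃ t : ℤ, κ * bil S.toQAlg z w = t) :
    ∃ t : ℤ, S.M * (κ * S.nrd z) = t := by
  refine IntAt.global fun p hp => ?_
  obtain ⟨x, hx, hIx⟩ := hI p hp
  obtain ⟨y, hy, hJy⟩ := hJ p hp
  obtain ⟨n, hn, -, h1⟩ := (leq_hom S hx hy hIx hJy).exists_common
  have hu := h.2 p hp x y hx hy hIx hJy
  obtain ⟨m, hm, r, hr⟩ := hu.2.2
  have hM' : (S.M : ℚ) ≠ 0 := by exact_mod_cast S.M_sqf.ne_zero
  have hx0 := nrd_ne_zero S.toQAlg hx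
  have hy0 := nrd_ne_zero S.toQAlg hy
  set t : D := x⁻¹ * z * y with ht
  have hzt : z = x * (t * y⁻¹) := by
    rw [ht]
    simp only [mul_assoc]
    rw [mul_inv_cancel₀ hy, mul_one, ← mul_assoc, mul_inv_cancel₀ hx, one_mul]
  -- integrality of `bil (N t) o`
  have h2 : ∀ o ∈ S.O, ∃ s : ℤ, ((m * n : ℕ) : ℚ) * bil S.toQAlg t o = s := by
    intro o ho
    obtain ⟨s, hs⟩ := hz _ (h1 _ (mem_sand_of S (x := x) (y := y) ho))
    refine ⟨r * s, ?_⟩
    have h3 : bil S.toQAlg z (x * (o * y⁻¹)) = S.nrd x * (S.nrd y)⁻¹ * bil S.toQAlg t o := by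
      have := bil_mul_mul S.toQAlg x y⁻¹ t o
      rw [nrd_inv, mul_assoc x t, mul_assoc x o] at this
      rw [hzt, this]
    rw [bil_nsmul_right, h3] at hs
    push_cast
    rw [← hr, ← hs]
    have hκ : κ ≠ 0 := h.1.ne'
    field_simp
  have h4 : (S.M : ℤ) • ((m * n : ℕ) • t) ∈ S.P S.M := by
    have h5 : ∀ y ∈ S.O, ∃ s : ℤ, S.trd (((m * n : ℕ) • t) * y) = s := by
      intro o ho
      obtain ⟨s, hs⟩ := h2 _ (conj_mem_O S ho)
      refine ⟨s, ?_⟩
      rw [smul_mul_assoc, trd_nsmul, ← hs, bil, S.conj_conj]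
    have h6 := (S.dual ((m * n : ℕ) • t)).mp h5
    rw [natCast_zsmul]
    exact h6
  have h7 := intAt_P S hp h4
  rw [nrd_zsmul, nrd_nsmul] at h7
  have h8 : IntAt p (S.M * S.nrd t) := by
    apply IntAt.of_natCast_mul (Nat.Coprime.pow_left 2 (Nat.Coprime.mul_left hm hn))
    convert h7 using 1
    push_cast
    field_simp
  have h9 : (S.M : ℚ) * (κ * S.nrd z) = (κ * S.nrd x / S.nrd y) * (S.M * S.nrd t) := by
    rw [hzt, nrd_mul, nrd_mul, nrd_inv]
    field_simp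
  rw [h9]
  exact hu.2.1.mul h8

/-! ### the dual family -/

theorem exists_dual_family (κ : ℚ) (b : Fin 4 → D) (hdet : (gram S κ b).det ≠ 0) :
    ∃ e : Fin 4 → D, (∀ i j, κ * bil S.toQAlg (e i) (b j) = if i = j then 1 else 0) ∧
      (∀ i j, κ * bil S.toQAlg (e i) (e j) = (gram S κ b)⁻¹ i j) := by
  set G := gram S κ b with hG
  have hunit : IsUnit G.det := isUnit_iff_ne_zero.mpr hdet
  have h1 : ∀ i j, κ * bil S.toQAlg (∑ k, algebraMap ℚ D (G⁻¹ i k) * b k) (b j) =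
      if i = j then 1 else 0 := by
    intro i j
    have h2 : (G⁻¹ * G) i j = if i = j then 1 else 0 := by
      rw [Matrix.nonsing_inv_mul _ hunit, Matrix.one_apply]
    rw [← h2, Matrix.mul_apply, bil_sum_left, Finset.mul_sum]
    refine Finset.sum_congr rfl fun k _ => ?_
    rw [bil_algMap_mul_left, hG, gram_apply]
    ring
  refine ⟨fun i => ∑ k, algebraMap ℚ D (G⁻¹ i k) * b k, h1, fun i j => ?_⟩
  have h3 : κ * bil S.toQAlg (∑ k, algebraMap ℚ D (G⁻¹ i k) * b k)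
      (∑ k, algebraMap ℚ D (G⁻¹ j k) * b k) = G⁻¹ j i := by
    rw [bil_sum_right, Finset.mul_sum]
    have : ∀ k, κ * bil S.toQAlg (∑ k, algebraMap ℚ D (G⁻¹ i k) * b k)
        (algebraMap ℚ D (G⁻¹ j k) * b k) = G⁻¹ j k * (if i = k then 1 else 0) := by
      intro k
      rw [bil_algMap_mul_right, ← h1 i k]
      ring
    rw [Finset.sum_congr rfl fun k _ => this k]
    simp
  have hsymm : G⁻¹ j i = G⁻¹ i j := by
    have h4 : Gᵀ = G := by
      ext a c
      rw [Matrix.transpose_apply, hG, gram_apply, gram_apply, bil_symm]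
    have h5 : (G⁻¹)ᵀ = G⁻¹ := by rw [Matrix.transpose_nonsing_inv, h4]
    calc G⁻¹ j i = (G⁻¹)ᵀ i j := rfl
      _ = _ := by rw [h5]
  rw [← hsymm]
  exact h3

/-- pairing the dual family with lattice elements -/
theorem bil_dual_int {L : Submodule ℤ D} (b : Module.Basis (Fin 4) ℤ L) {κ : ℚ} {e : Fin 4 → D}
    (he : ∀ i j, κ * bil S.toQAlg (e i) (b j) = if i = j then 1 else 0) (i : Fin 4) {w : D}
    (hw : w ∈ L) : ∃ t : ℤ, κ * bil S.toQAlg (e i) w = t := by
  have h1 := congrArg L.subtype (b.sum_repr ⟨w, hw⟩)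
  rw [map_sum] at h1
  have h2 : w = ∑ j, (b.repr ⟨w, hw⟩ j) • (b j : D) := h1.symm
  refine ⟨b.repr ⟨w, hw⟩ i, ?_⟩
  conv_lhs => rw [h2]
  rw [bil_sum_right, Finset.mul_sum]
  have : ∀ j, κ * bil S.toQAlg (e i) ((b.repr ⟨w, hw⟩ j) • (b j : D)) =
      (b.repr ⟨w, hw⟩ j) * (if i = j then 1 else 0) := by
    intro j
    rw [bil_zsmul_right, ← he]
    ring
  rw [Finset.sum_congr rfl fun j _ => this j]
  simp

/-- the dual Gram matrix -/
theorem exists_dual {I J : Submodule ℤ D} (hI : S.IsLat I) (hJ : S.IsLat J) {κ : ℚ}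
    (h : IsKappa S I J κ) (b : Module.Basis (Fin 4) ℤ (hom I J))
    {A : Matrix (Fin 4) (Fin 4) ℤ}
    (hA : A.map (Int.cast : ℤ → ℚ) = gram S κ (fun i => (b i : D))) (hE : EvenForm A) :
    ∃ A' : Matrix (Fin 4) (Fin 4) ℤ, Theta.Dual A A' S.M := by
  have hM0 : 0 < S.M := Nat.pos_of_ne_zero S.M_sqf.ne_zero
  have hAdet : A.det ≠ 0 := by
    have h1 := hE.pos.det_pos
    have h2 : (A.map (Int.cast : ℤ → ℝ)).det = ((A.det : ℤ) : ℝ) := by
      have := RingHom.map_det (Int.castRingHom ℝ) A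
      rw [RingHom.mapMatrix_apply] at this
      exact this.symm
    rw [h2] at h1
    intro h0
    rw [h0] at h1
    simp at h1
  have hGdet : (gram S κ (fun i => (b i : D))).det ≠ 0 := by
    rw [← hA]
    have h2 : (A.map (Int.cast : ℤ → ℚ)).det = ((A.det : ℤ) : ℚ) := by
      have := RingHom.map_det (Int.castRingHom ℚ) A
      rw [RingHom.mapMatrix_apply] at this
      exact this.symm
    rw [h2]
    exact_mod_cast hAdet
  obtain ⟨e, he1, he2⟩ := exists_dual_family S κ (fun i => (b i : D)) hGdet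
  -- integrality of `M κ nrd`
  have hnrd : ∀ z : D, (∀ w ∈ hom I J, ∃ t : ℤ, κ * bil S.toQAlg z w = t) →
      ∃ t : ℤ, S.M * (κ * S.nrd z) = t := fun z hz => dual_int S hI hJ h hz
  have hei : ∀ i, ∀ w ∈ hom I J, ∃ t : ℤ, κ * bil S.toQAlg (e i) w = t :=
    fun i w hw => bil_dual_int S b he1 i hw
  have hint : ∀ i j, ∃ t : ℤ, S.M * (κ * bil S.toQAlg (e i) (e j)) = t := by
    intro i j
    obtain ⟨t1, h1⟩ := hnrd (e i + e j) (fun w hw => by
      obtain ⟨a, ha⟩ := hei i w hw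
      obtain ⟨c, hc⟩ := hei j w hw
      exact ⟨a + c, by rw [bil_add_left, mul_add, ha, hc]; push_cast; rfl⟩)
    obtain ⟨t2, h2⟩ := hnrd (e i) (hei i)
    obtain ⟨t3, h3⟩ := hnrd (e j) (hei j)
    refine ⟨t1 - t2 - t3, ?_⟩
    push_cast
    rw [← h1, ← h2, ← h3, nrd_add]
    ring
  choose A' hA' using hint
  refine ⟨Matrix.of A', hM0, ?_, ?_, ?_⟩
  · ext i j
    have : ((A' j i : ℤ) : ℚ) = A' i j := by rw [← hA', ← hA', bil_symm]
    rw [Matrix.transpose_apply, Matrix.of_apply, Matrix.of_apply]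
    exact_mod_cast this
  · intro i
    obtain ⟨t, ht⟩ := hnrd (e i) (hei i)
    refine ⟨t, ?_⟩
    have : ((A' i i : ℤ) : ℚ) = t + t := by rw [← hA', bil_self, ← ht]; ring
    rw [Matrix.of_apply]
    exact_mod_cast this
  · have hmap : (Matrix.of A').map (Int.cast : ℤ → ℚ) =
        (S.M : ℚ) • (gram S κ (fun i => (b i : D)))⁻¹ := by
      ext i j
      rw [Matrix.map_apply, Matrix.of_apply, Matrix.smul_apply, ← he2, ← hA', smul_eq_mul]
    have hmul : (A * Matrix.of A').map (Int.cast : ℤ → ℚ) =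
        ((S.M : ℤ) • (1 : Matrix (Fin 4) (Fin 4) ℤ)).map (Int.cast : ℤ → ℚ) := by
      have h1 : (A * Matrix.of A').map (Int.cast : ℤ → ℚ) =
          A.map (Int.cast : ℤ → ℚ) * (Matrix.of A').map (Int.cast : ℤ → ℚ) := by
        have := (Int.castRingHom ℚ).map_matrix_mul A (Matrix.of A')
        ext i j
        exact this i j
      rw [h1, hmap, hA, Matrix.mul_smul, Matrix.mul_nonsing_inv _ (isUnit_iff_ne_zero.mpr hGdet)]
      ext i j
      rw [Matrix.smul_apply, Matrix.map_apply, Matrix.smul_apply]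
      by_cases hij : i = j
      · subst hij
        simp [Matrix.one_apply_eq]
      · simp [Matrix.one_apply_ne hij]
    ext i j
    have := congrFun (congrFun hmul i) j
    rw [Matrix.map_apply, Matrix.map_apply] at this
    exact_mod_cast this

end Fermat.Agent.P2.Quat.Gram
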