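import Fermat.Agent.P2.Quat.Loc
import Fermat.Agent.P2.Quat.GramAlg

/-!
# Local integrality in `ℚ`, the lattices `Hom(J, I)`, and norms of lattices
-/

set_option autoImplicit false
set_option linter.unusedSectionVars false

open scoped Pointwise

noncomputable section

namespace Fermat.Agent.P2.Quat.Gram

/-! ### local integrality -/

/-- `r ∈ ℤ_(p)` -/
def IntAt (p : ℕ) (r : ℚ) : Prop := ∃ n : ℕ, n.Coprime p ∧ ∃ t : ℤ, (n : ℚ) * r = t

theorem IntAt.intCast (p : ℕ) (t : ℤ) : IntAt p t := ⟨1, Nat.coprime_one_left p, t, by simp⟩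

theorem IntAt.of_int {p : ℕ} {r : ℚ} (h : ∃ t : ℤ, r = t) : IntAt p r := by
  obtain ⟨t, rfl⟩ := h
  exact IntAt.intCast p t

theorem IntAt.mul {p : ℕ} {r s : ℚ} (hr : IntAt p r) (hs : IntAt p s) : IntAt p (r * s) := by
  obtain ⟨n, hn, t, ht⟩ := hr
  obtain ⟨m, hm, u, hu⟩ := hs
  refine ⟨n * m, Nat.Coprime.mul_left hn hm, t * u, ?_⟩
  push_cast
  rw [← ht, ← hu]
  ring

theorem IntAt.add {p : ℕ} {r s : ℚ} (hr : IntAt p r) (hs : IntAt p s) : IntAt p (r + s) := by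
  obtain ⟨n, hn, t, ht⟩ := hr
  obtain ⟨m, hm, u, hu⟩ := hs
  refine ⟨n * m, Nat.Coprime.mul_left hn hm, m * t + n * u, ?_⟩
  push_cast
  rw [← ht, ← hu]
  ring

theorem IntAt.neg {p : ℕ} {r : ℚ} (hr : IntAt p r) : IntAt p (-r) := by
  obtain ⟨n, hn, t, ht⟩ := hr
  exact ⟨n, hn, -t, by push_cast; rw [← ht]; ring⟩

theorem IntAt.sum {p : ℕ} {ι : Type*} (s : Finset ι) (f : ι → ℚ) (h : ∀ i ∈ s, IntAt p (f i)) :
    IntAt p (∑ i ∈ s, f i) := by
  classical
  induction s using Finset.induction_on with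
  | empty => simpa using IntAt.intCast p 0
  | insert i s hi ih =>
    rw [Finset.sum_insert hi]
    exact (h i (by simp)).add (ih fun j hj => h j (by simp [hj]))

theorem IntAt.pow {p : ℕ} {r : ℚ} (hr : IntAt p r) (k : ℕ) : IntAt p (r ^ k) := by
  induction k with
  | zero => simpa using IntAt.intCast p 1
  | succ k ih => rw [pow_succ]; exact ih.mul hr

theorem IntAt.global {r : ℚ} (h : ∀ p : ℕ, p.Prime → IntAt p r) : ∃ t : ℤ, r = t := by
  have hden : r.den = 1 := by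
    by_contra hne
    obtain ⟨p, hp, hpd⟩ := Nat.exists_prime_and_dvd hne
    obtain ⟨n, hn, t, ht⟩ := h p hp
    have h1 : (n : ℤ) * r.num = t * r.den := by
      have h2 : (n : ℚ) * (r.num / r.den) = t := by rw [Rat.num_div_den]; exact ht
      have h3 : (r.den : ℚ) ≠ 0 := by exact_mod_cast r.den_nz
      field_simp at h2
      rw [mul_comm t]
      exact_mod_cast h2
    have h2 : (r.den : ℤ) ∣ (n : ℤ) * r.num := ⟨t, by rw [h1]; ring⟩
    have h3 : (r.den : ℤ) ∣ (n : ℤ) := by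
      refine IsCoprime.dvd_of_dvd_mul_right ?_ h2
      have := r.reduced
      rw [Int.isCoprime_iff_gcd_eq_one]
      exact Nat.Coprime.symm this
    have h4 : r.den ∣ n := by exact_mod_cast h3
    exact hp.one_lt.ne' (Nat.Coprime.eq_one_of_dvd hn.symm (hpd.trans h4))
  exact ⟨r.num, (Rat.coe_int_num_of_den_eq_one hden).symm⟩

/-- `r ∈ ℤ_(p)ˣ` -/
def UnitAt (p : ℕ) (r : ℚ) : Prop := r ≠ 0 ∧ IntAt p r ∧ IntAt p r⁻¹

theorem UnitAt.mul {p : ℕ} {r s : ℚ} (hr : UnitAt p r) (hs : UnitAt p s) : UnitAt p (r * s) :=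
  ⟨mul_ne_zero hr.1 hs.1, hr.2.1.mul hs.2.1, by rw [mul_inv]; exact hr.2.2.mul hs.2.2⟩

theorem UnitAt.inv {p : ℕ} {r : ℚ} (hr : UnitAt p r) : UnitAt p r⁻¹ :=
  ⟨inv_ne_zero hr.1, hr.2.2, by rw [inv_inv]; exact hr.2.1⟩

theorem UnitAt.div {p : ℕ} {r s : ℚ} (hr : UnitAt p r) (hs : UnitAt p s) : UnitAt p (r / s) := by
  rw [div_eq_mul_inv]; exact hr.mul hs.inv

theorem UnitAt.pow {p : ℕ} {r : ℚ} (hr : UnitAt p r) (k : ℕ) : UnitAt p (r ^ k) :=
  ⟨pow_ne_zero _ hr.1, hr.2.1.pow k, by rw [← inv_pow]; exact hr.2.2.pow k⟩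

theorem UnitAt.natCast {p n : ℕ} (hp : p.Prime) (hn : n.Coprime p) : UnitAt p (n : ℚ) := by
  have h0 : (n : ℚ) ≠ 0 := by
    rintro h
    have : n = 0 := by exact_mod_cast h
    rw [this, Nat.coprime_zero_left] at hn
    exact hp.one_lt.ne' hn
  exact ⟨h0, by simpa using IntAt.intCast p n, n, hn, 1, by rw [mul_inv_cancel₀ h0]; simp⟩

theorem UnitAt.eq_one {r : ℚ} (h0 : 0 < r) (h : ∀ p : ℕ, p.Prime → UnitAt p r) : r = 1 := by
  obtain ⟨t, ht⟩ := IntAt.global fun p hp => (h p hp).2.1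
  obtain ⟨s, hs⟩ := IntAt.global fun p hp => (h p hp).2.2
  have h1 : (t : ℚ) * s = 1 := by rw [← ht, ← hs, mul_inv_cancel₀ h0.ne']
  have h2 : t * s = 1 := by exact_mod_cast h1
  have h3 : 0 < t := by rw [ht] at h0; exact_mod_cast h0
  have h4 : t = 1 := by
    rcases Int.isUnit_iff.mp (IsUnit.of_mul_eq_one s h2) with h | h
    · exact h
    · omega
  rw [ht, h4, Int.cast_one]

/-! ### the lattices `Hom(J, I)` -/

variable {D : Type} [DivisionRing D] [Algebra ℚ D] (S : QOrder D)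

/-- `{d : d J ⊆ I}` -/
def hom (I J : Submodule ℤ D) : Submodule ℤ D where
  carrier := {d | ∀ y ∈ J, d * y ∈ I}
  zero_mem' := fun y _ => by rw [zero_mul]; exact I.zero_mem
  add_mem' := fun ha hb y hy => by rw [add_mul]; exact I.add_mem (ha y hy) (hb y hy)
  smul_mem' := fun c a ha y hy => by rw [smul_mul_assoc]; exact I.smul_mem c (ha y hy)

theorem mem_hom {I J : Submodule ℤ D} {d : D} : d ∈ hom I J ↔ ∀ y ∈ J, d * y ∈ I := Iff.rfl

theorem mem_hom_iff_smul_le {I J : Submodule ℤ D} {d : D} : d ∈ hom I J ↔ d • J ≤ I := by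
  constructor
  · rintro h _ ⟨y, hy, rfl⟩
    exact h y hy
  · intro h y hy
    exact h ⟨y, hy, rfl⟩

/-- `o ↦ x * o * y⁻¹` -/
def sandLin (x y : D) : D →ₗ[ℤ] D :=
  (AddMonoidHom.mulLeft x).toIntLinearMap.comp (AddMonoidHom.mulRight y⁻¹).toIntLinearMap

@[simp] theorem sandLin_apply (x y o : D) : sandLin x y o = x * (o * y⁻¹) := rfl

/-- `x O y⁻¹` -/
def sand (x y : D) : Submodule ℤ D := S.OO.map (sandLin x y)

theorem mem_sand_of {x y o : D} (ho : o ∈ S.O) : x * (o * y⁻¹) ∈ sand S x y :=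
  ⟨o, ho, rfl⟩

theorem mem_smul_OO {x z : D} (hx : x ≠ 0) : z ∈ x • S.OO ↔ x⁻¹ * z ∈ S.O := by
  constructor
  · rintro ⟨o, ho, rfl⟩
    change x⁻¹ * (x * o) ∈ S.O
    rw [← mul_assoc, inv_mul_cancel₀ hx, one_mul]
    exact ho
  · intro h
    refine ⟨x⁻¹ * z, h, ?_⟩
    change x * (x⁻¹ * z) = z
    rw [← mul_assoc, mul_inv_cancel₀ hx, one_mul]

theorem mul_mem_smul_OO {x o : D} (ho : o ∈ S.O) : x * o ∈ x • S.OO := ⟨o, ho, rfl⟩

theorem mem_smul_OO_mul {x z o : D} (hz : z ∈ x • S.OO) (ho : o ∈ S.O) : z * o ∈ x • S.OO := by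
  obtain ⟨o', ho', rfl⟩ := hz
  refine ⟨o' * o, S.O.mul_mem ho' ho, ?_⟩
  change x * (o' * o) = x * o' * o
  rw [mul_assoc]

theorem nsmul_mul (n : ℕ) (x y : D) : n • (x * y) = (n • x) * y := (smul_mul_assoc n x y).symm

theorem mul_nsmul' (n : ℕ) (x y : D) : n • (x * y) = x * (n • y) := (mul_smul_comm n x y).symm

theorem leq_hom {p : ℕ} {I J : Submodule ℤ D} {x y : D} (hx : x ≠ 0) (hy : y ≠ 0)
    (hI : LEq p I (x • S.OO)) (hJ : LEq p J (y • S.OO)) : LEq p (hom I J) (sand S x y) := by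
  obtain ⟨n, hn, h1, h2⟩ := hI.exists_common
  obtain ⟨m, hm, h3, h4⟩ := hJ.exists_common
  have hnm : (n * m).Coprime p := Nat.Coprime.mul_left hn hm
  refine ⟨⟨n * m, hnm, fun d hd => ?_⟩, ⟨n * m, hnm, ?_⟩⟩
  · -- `n m d = x (x⁻¹ n m d y) y⁻¹`
    have h5 : m • y ∈ J := by
      apply h4
      have := mul_mem_smul_OO S (x := y) S.O.one_mem
      rwa [mul_one] at this
    have h6 : n • (d * (m • y)) ∈ x • S.OO := h1 _ (hd _ h5)
    rw [mem_smul_OO S hx] at h6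
    have e : x * (x⁻¹ * (d * y) * y⁻¹) = d := by
      simp only [mul_assoc]
      rw [mul_inv_cancel₀ hy, mul_one, ← mul_assoc, mul_inv_cancel₀ hx, one_mul]
    have h7 : (n * m) • d = x * ((x⁻¹ * n • (d * (m • y))) * y⁻¹) := by
      simp only [mul_smul_comm, smul_mul_assoc, e, smul_smul]
    rw [h7]
    exact mem_sand_of S h6
  · rintro _ ⟨o, ho, rfl⟩ j hj
    have h5 : m • j ∈ y • S.OO := h3 j hj
    rw [mem_smul_OO S hy] at h5
    have h6 : x * (o * (y⁻¹ * m • j)) ∈ x • S.OO := mul_mem_smul_OO S (S.O.mul_mem ho h5)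
    have h7 := h2 _ h6
    rw [sandLin_apply]
    have h8 : (n * m) • (x * (o * y⁻¹)) * j = n • (x * (o * (y⁻¹ * m • j))) := by
      rw [smul_mul_assoc, mul_smul, mul_smul_comm, mul_smul_comm, mul_smul_comm]
      simp only [mul_assoc]
    rw [h8]
    exact h7

/-! ### norms of lattices -/

theorem exists_denom {I : Submodule ℤ D} (hI : S.IsLat I) :
    ∃ N : ℕ, N ≠ 0 ∧ ∀ z ∈ I, ∃ t : ℤ, (N : ℚ) * S.nrd z = t := by
  obtain ⟨x, hx, hIx⟩ := hI 2 Nat.prime_two
  obtain ⟨n, hn, h1, h2⟩ := hIx.exists_common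
  have hn0 : n ≠ 0 := by
    rintro rfl
    rw [Nat.coprime_zero_left] at hn
    omega
  refine ⟨n ^ 2 * (S.nrd x).den, mul_ne_zero (pow_ne_zero _ hn0) (S.nrd x).den_nz, ?_⟩
  intro z hz
  obtain ⟨o, ho, hoz⟩ := h1 z hz
  have hoz' : x * o = n • z := hoz
  obtain ⟨t, ht⟩ := S.nrd_int o ho
  have h3 : (n : ℚ) ^ 2 * S.nrd z = S.nrd x * t := by
    rw [← nrd_nsmul, ← hoz', nrd_mul, ht]
  refine ⟨(S.nrd x).num * t, ?_⟩
  push_cast
  have h4 := Rat.den_mul_eq_num (S.nrd x)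
  rw [← h4]
  calc (n : ℚ) ^ 2 * (S.nrd x).den * S.nrd z = (S.nrd x).den * ((n : ℚ) ^ 2 * S.nrd z) := by ring
    _ = _ := by rw [h3]; ring

/-- `g` is the (positive) norm of the lattice `I`. -/
def IsNorm (I : Submodule ℤ D) (g : ℚ) : Prop :=
  0 < g ∧ ∀ p : ℕ, p.Prime → ∀ x : D, x ≠ 0 → LEq p I (x • S.OO) → UnitAt p (g / S.nrd x)

theorem exists_isNorm {I : Submodule ℤ D} (hI : S.IsLat I) : ∃ g : ℚ, IsNorm S I g := by
  obtain ⟨N, hN0, hN⟩ := exists_denom S hI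
  have hN0' : (N : ℚ) ≠ 0 := by exact_mod_cast hN0
  set T : Set ℤ := {t | ∃ z ∈ I, (N : ℚ) * S.nrd z = t} with hT
  obtain ⟨a, ha⟩ := Int.subgroup_cyclic (AddSubgroup.closure T)
  have hTa : ∀ t ∈ T, a ∣ t := by
    intro t ht
    have h1 : t ∈ AddSubgroup.closure T := AddSubgroup.subset_closure ht
    rw [ha, AddSubgroup.mem_closure_singleton] at h1
    obtain ⟨c, hc⟩ := h1
    exact ⟨c, by rw [← hc, smul_eq_mul, mul_comm]⟩
  -- for `x` local generator at `p`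
  have key1 : ∀ p : ℕ, p.Prime → ∀ x : D, x ≠ 0 → LEq p I (x • S.OO) →
      ∃ n : ℕ, n.Coprime p ∧ ∃ c : ℤ, (n : ℚ) * (N * S.nrd x) = a * c := by
    intro p hp x hx hIx
    obtain ⟨n, hn, h1, h2⟩ := hIx.exists_common
    refine ⟨n ^ 2, Nat.Coprime.pow_left 2 hn, ?_⟩
    have h3 : n • x ∈ I := by
      apply h2
      have := mul_mem_smul_OO S (x := x) S.O.one_mem
      rwa [mul_one] at this
    obtain ⟨t, ht⟩ := hN _ h3
    obtain ⟨c, hc⟩ := hTa t ⟨_, h3, ht⟩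
    refine ⟨c, ?_⟩
    rw [nrd_nsmul] at ht
    push_cast
    calc (n : ℚ) ^ 2 * (N * S.nrd x) = N * ((n : ℚ) ^ 2 * S.nrd x) := by ring
      _ = _ := by rw [ht, hc]; push_cast; ring
  have key2 : ∀ p : ℕ, p.Prime → ∀ x : D, x ≠ 0 → LEq p I (x • S.OO) →
      ∃ n : ℕ, n.Coprime p ∧ ∃ c : ℤ, (n : ℚ) * a = (N * S.nrd x) * c := by
    intro p hp x hx hIx
    obtain ⟨n, hn, h1, h2⟩ := hIx.exists_common
    refine ⟨n ^ 2, Nat.Coprime.pow_left 2 hn, ?_⟩
    have h4 : a ∈ AddSubgroup.closure T := by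
      rw [ha]; exact AddSubgroup.mem_closure_singleton_self a
    have h5 : ∀ t ∈ AddSubgroup.closure T, ∃ c : ℤ,
        ((n ^ 2 : ℕ) : ℚ) * t = (N * S.nrd x) * c := by
      intro t ht
      induction ht using AddSubgroup.closure_induction with
      | mem t ht =>
        obtain ⟨z, hz, hzt⟩ := ht
        obtain ⟨o, ho, hoz⟩ := h1 z hz
        have hoz' : x * o = n • z := hoz
        obtain ⟨c, hc⟩ := S.nrd_int o ho
        refine ⟨c, ?_⟩
        have h3 : (n : ℚ) ^ 2 * S.nrd z = S.nrd x * c := by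
          rw [← nrd_nsmul, ← hoz', nrd_mul, hc]
        rw [← hzt]
        push_cast
        calc (n : ℚ) ^ 2 * (N * S.nrd z) = N * ((n : ℚ) ^ 2 * S.nrd z) := by ring
          _ = _ := by rw [h3]; ring
      | zero => exact ⟨0, by simp⟩
      | add s t _ _ hs ht =>
        obtain ⟨c, hc⟩ := hs
        obtain ⟨d, hd⟩ := ht
        exact ⟨c + d, by push_cast at hc hd ⊢; rw [mul_add, hc, hd]; ring⟩
      | neg t _ ht =>
        obtain ⟨c, hc⟩ := ht
        exact ⟨-c, by push_cast at hc ⊢; rw [mul_neg, hc]; ring⟩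
    exact h5 a h4
  -- `a ≠ 0`
  have ha0 : a ≠ 0 := by
    rintro rfl
    obtain ⟨x, hx, hIx⟩ := hI 2 Nat.prime_two
    obtain ⟨n, hn, c, hc⟩ := key1 2 Nat.prime_two x hx hIx
    have hn0 : (n : ℚ) ≠ 0 := (UnitAt.natCast Nat.prime_two hn).1
    have h1 : (n : ℚ) * (N * S.nrd x) ≠ 0 :=
      mul_ne_zero hn0 (mul_ne_zero hN0' (nrd_ne_zero S.toQAlg hx))
    apply h1
    rw [hc]
    simp
  have ha0' : (a : ℚ) ≠ 0 := by exact_mod_cast ha0
  have habs : (|a| : ℚ) = a ∨ (|a| : ℚ) = -a := abs_choice (a : ℚ)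
  refine ⟨|(a : ℚ)| / N, div_pos (abs_pos.mpr ha0') (by positivity), ?_⟩
  intro p hp x hx hIx
  have hx0 := nrd_ne_zero S.toQAlg hx
  have h1 : UnitAt p ((a : ℚ) / N / S.nrd x) := by
    refine ⟨div_ne_zero (div_ne_zero ha0' hN0') hx0, ?_, ?_⟩
    · obtain ⟨n, hn, c, hc⟩ := key2 p hp x hx hIx
      refine ⟨n, hn, c, ?_⟩
      field_simp
      linarith [hc]
    · obtain ⟨n, hn, c, hc⟩ := key1 p hp x hx hIx
      refine ⟨n, hn, c, ?_⟩
      field_simp
      linarith [hc]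
  rcases habs with h | h
  · rw [h]; exact h1
  · rw [h]
    have h2 : UnitAt p (-1) := ⟨by norm_num, by simpa using IntAt.intCast p (-1),
      by simpa using IntAt.intCast p (-1)⟩
    have := h2.mul h1
    convert this using 1
    ring

/-! ### bases -/

theorem sandLin_injective {x y : D} (hx : x ≠ 0) (hy : y ≠ 0) :
    Function.Injective (sandLin x y) := by
  intro a b h
  rw [sandLin_apply, sandLin_apply] at h
  exact mul_right_cancel₀ (inv_ne_zero hy) (mul_left_cancel₀ hx h)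

/-- the basis `x o_i y⁻¹` of `x O y⁻¹` -/
def sandBasis {x y : D} (hx : x ≠ 0) (hy : y ≠ 0) : Module.Basis (Fin 4) ℤ (sand S x y) :=
  S.basis.map (Submodule.equivMapOfInjective (sandLin x y) (sandLin_injective hx hy) S.OO)

theorem sandBasis_apply {x y : D} (hx : x ≠ 0) (hy : y ≠ 0) (i : Fin 4) :
    ((sandBasis S hx hy i : sand S x y) : D) = x * ((S.basis i : D) * y⁻¹) := rfl

theorem charZero : CharZero D := algebraRat.charZero D

theorem exists_basis {I J : Submodule ℤ D} (hI : S.IsLat I) (hJ : S.IsLat J) :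
    Nonempty (Module.Basis (Fin 4) ℤ (hom I J)) := by
  obtain ⟨x, hx, hIx⟩ := hI 2 Nat.prime_two
  obtain ⟨y, hy, hJy⟩ := hJ 2 Nat.prime_two
  obtain ⟨n, hn, h1, h2⟩ := (leq_hom S hx hy hIx hJy).exists_common
  have hn0 : n ≠ 0 := by
    rintro rfl
    rw [Nat.coprime_zero_left] at hn
    omega
  have : CharZero D := charZero
  let f : hom I J →ₗ[ℤ] sand S x y :=
    LinearMap.codRestrict _ ((n : ℤ) • (hom I J).subtype) (fun z => by
      have := h1 z z.2
      rw [← natCast_zsmul] at this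
      exact this)
  let g : sand S x y →ₗ[ℤ] hom I J :=
    LinearMap.codRestrict _ ((n : ℤ) • (sand S x y).subtype) (fun z => by
      have := h2 z z.2
      rw [← natCast_zsmul] at this
      exact this)
  have hn0' : (n : ℤ) ≠ 0 := by exact_mod_cast hn0
  have hf : Function.Injective f := by
    intro a b hab
    have h3 : (n : ℤ) • (a : D) = (n : ℤ) • (b : D) := congrArg (Subtype.val) hab
    exact Subtype.ext (smul_right_injective D hn0' h3)
  have hg : Function.Injective g := by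
    intro a b hab
    have h3 : (n : ℤ) • (a : D) = (n : ℤ) • (b : D) := congrArg (Subtype.val) hab
    exact Subtype.ext (smul_right_injective D hn0' h3)
  have : Module.Free ℤ (sand S x y) := Module.Free.of_basis (sandBasis S hx hy)
  have : Module.Finite ℤ (sand S x y) := Module.Finite.of_basis (sandBasis S hx hy)
  have hrk : Module.finrank ℤ (sand S x y) = 4 := by
    rw [Module.finrank_eq_card_basis (sandBasis S hx hy), Fintype.card_fin]
  have : Module.Finite ℤ (hom I J) := Module.Finite.of_injective f hf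
  have : Module.Free ℤ (hom I J) := Module.free_of_finite_type_torsion_free'
  have h4 : Module.finrank ℤ (hom I J) = 4 := by
    apply le_antisymm
    · rw [← hrk]; exact LinearMap.finrank_le_finrank_of_injective hf
    · rw [← hrk]; exact LinearMap.finrank_le_finrank_of_injective hg
  exact ⟨Module.finBasisOfFinrankEq ℤ _ h4⟩

end Fermat.Agent.P2.Quat.Gram
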