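import Fermat.Agent.P2.Quat.Par
import Fermat.Agent.P2.Quat.Lat

/-!
# P2, block 3 (A): basis, fullness, integrality, the index formula `[O : xO] = nrd(x)²`.
-/

open scoped Pointwise

namespace Fermat.Agent.P2.Quat

namespace Par

variable (P : Par)

/-- the coordinate map -/
def toO : (Fin 4 → ℤ) →ₗ[ℤ] P.O where
  toFun v := ⟨P.el (v 0) (v 1) (v 2) (v 3), P.el_mem _ _ _ _⟩
  map_add' v w := Subtype.ext (P.el_add _ _ _ _ _ _ _ _).symm
  map_smul' k v := Subtype.ext (by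
    change P.el (k * v 0) (k * v 1) (k * v 2) (k * v 3) = k • P.el (v 0) (v 1) (v 2) (v 3)
    rw [zsmul_eq_mul, P.el_smul])

theorem toO_bijective : Function.Bijective P.toO := by
  constructor
  · intro v w h
    obtain ⟨h0, h1, h2, h3⟩ := P.el_inj (congrArg Subtype.val h)
    funext i
    fin_cases i
    · exact h0
    · exact h1
    · exact h2
    · exact h3
  · rintro ⟨_, x0, x1, x2, x3, rfl⟩
    exact ⟨![x0, x1, x2, x3], rfl⟩

/-- the basis `1, ω, i, g` -/
noncomputable def bas : Module.Basis (Fin 4) ℤ P.O :=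
  Module.Basis.ofEquivFun (LinearEquiv.ofBijective P.toO P.toO_bijective).symm

theorem full' (x : P.D) : ∃ n : ℕ, n ≠ 0 ∧ n • x ∈ P.O := by
  refine ⟨x.re.den * x.imI.den * x.imJ.den * x.imK.den, by simp, ?_⟩
  set a := x.re.num * x.imI.den * x.imJ.den * x.imK.den with ha
  set b := x.imI.num * x.re.den * x.imJ.den * x.imK.den with hb
  set c := x.imJ.num * x.re.den * x.imI.den * x.imK.den with hc
  set d := x.imK.num * x.re.den * x.imI.den * x.imJ.den with hd
  refine ⟨a - (c - 2 * P.c * d), 2 * (c - 2 * P.c * d), b - P.p * d, 2 * P.p * d, ?_⟩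
  have hp : (P.p : ℚ) ≠ 0 := by exact_mod_cast P.p_pos.ne'
  have h1 := Rat.mul_den_eq_num x.re
  have h2 := Rat.mul_den_eq_num x.imI
  have h3 := Rat.mul_den_eq_num x.imJ
  have h4 := Rat.mul_den_eq_num x.imK
  rw [nsmul_eq_mul]
  ext
  · simp [el]
    rw [ha]
    push_cast
    rw [← h1]
    ring
  · simp [el]
    rw [hb, hd]
    push_cast
    rw [← h2, ← h4]
    ring
  · simp [el]
    rw [hc, hd]
    push_cast
    rw [← h3, ← h4]
    field_simp
    ring
  · simp [el]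
    rw [hd]
    push_cast
    rw [← h4]
    field_simp

theorem trd_int' (x : P.D) (hx : x ∈ P.O) : ∃ t : ℤ, P.qalg.trd x = t := by
  obtain ⟨x0, x1, x2, x3, rfl⟩ := hx
  exact ⟨_, P.re_el x0 x1 x2 x3⟩

theorem nrd_int' (x : P.D) (hx : x ∈ P.O) : ∃ t : ℤ, P.qalg.nrd x = t := by
  obtain ⟨x0, x1, x2, x3, rfl⟩ := hx
  exact ⟨_, P.nr_el x0 x1 x2 x3⟩

/-! ### the index formula -/

/-- elements with rational coordinates -/
def elQ (x0 x1 x2 x3 : ℚ) : P.D :=
  ⟨x0 + x1 / 2, x2 + x3 / 2, x1 / 2 + P.c * x3 / P.p, x3 / (2 * P.p)⟩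

theorem el_eq (x0 x1 x2 x3 : ℤ) : P.el x0 x1 x2 x3 = P.elQ x0 x1 x2 x3 := rfl

/-- the rational coordinates -/
noncomputable def coordQ : P.D ≃ₗ[ℚ] (Fin 4 → ℚ) where
  toFun x := ![x.re - (x.imJ - 2 * P.c * x.imK), 2 * (x.imJ - 2 * P.c * x.imK),
    x.imI - P.p * x.imK, 2 * P.p * x.imK]
  invFun v := P.elQ (v 0) (v 1) (v 2) (v 3)
  map_add' x y := by
    funext i
    fin_cases i <;> simp <;> ring
  map_smul' k x := by
    funext i
    fin_cases i <;> simp <;> ring
  left_inv x := by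
    have hp : (P.p : ℚ) ≠ 0 := by exact_mod_cast P.p_pos.ne'
    ext <;> simp [elQ] <;> field_simp <;> ring
  right_inv v := by
    have hp : (P.p : ℚ) ≠ 0 := by exact_mod_cast P.p_pos.ne'
    funext i
    fin_cases i <;> simp [elQ] <;> field_simp <;> ring

/-- the rational basis `1, ω, i, g` -/
noncomputable def basQ : Module.Basis (Fin 4) ℚ P.D := Module.Basis.ofEquivFun P.coordQ

theorem basQ_0 : P.basQ 0 = P.el 1 0 0 0 := by
  rw [basQ, Module.Basis.coe_ofEquivFun]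
  simp [coordQ, el_eq]

theorem basQ_1 : P.basQ 1 = P.el 0 1 0 0 := by
  rw [basQ, Module.Basis.coe_ofEquivFun]
  simp [coordQ, el_eq]

theorem basQ_2 : P.basQ 2 = P.el 0 0 1 0 := by
  rw [basQ, Module.Basis.coe_ofEquivFun]
  simp [coordQ, el_eq]

theorem basQ_3 : P.basQ 3 = P.el 0 0 0 1 := by
  rw [basQ, Module.Basis.coe_ofEquivFun]
  simp [coordQ, el_eq]

theorem basQ_mem (i : Fin 4) : P.basQ i ∈ P.O := by
  fin_cases i
  · exact P.basQ_0 ▸ P.el_mem _ _ _ _
  · exact P.basQ_1 ▸ P.el_mem _ _ _ _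
  · exact P.basQ_2 ▸ P.el_mem _ _ _ _
  · exact P.basQ_3 ▸ P.el_mem _ _ _ _

theorem el_basQ (x0 x1 x2 x3 : ℤ) : P.el x0 x1 x2 x3 =
    x0 • P.basQ 0 + x1 • P.basQ 1 + x2 • P.basQ 2 + x3 • P.basQ 3 := by
  rw [basQ_0, basQ_1, basQ_2, basQ_3]
  simp only [zsmul_eq_mul]
  rw [el_smul, el_smul, el_smul, el_smul, el_add, el_add, el_add]
  congr 1 <;> ring

/-- left multiplication by a nonzero element. -/
noncomputable def lmul (x : P.D) (hx : x ≠ 0) : P.D ≃ₗ[ℚ] P.D where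
  toFun y := x * y
  invFun y := x⁻¹ * y
  map_add' _ _ := mul_add _ _ _
  map_smul' _ _ := mul_smul_comm _ _ _
  left_inv y := inv_mul_cancel_left₀ hx y
  right_inv y := mul_inv_cancel_left₀ hx y

theorem closure_smul_basQ (x : P.D) (hx : x ≠ 0) :
    (x • Subalgebra.toSubmodule P.O).toAddSubgroup =
      AddSubgroup.closure (Set.range (P.basQ.map (P.lmul x hx))) := by
  have e : ∀ i, P.basQ.map (P.lmul x hx) i = x * P.basQ i := fun i => rfl
  apply le_antisymm
  · intro y hy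
    obtain ⟨z, hz, rfl⟩ := mem_smul.mp hy
    obtain ⟨x0, x1, x2, x3, rfl⟩ := hz
    rw [el_basQ]
    simp only [mul_add, mul_smul_comm]
    have h : ∀ (k : ℤ) (i : Fin 4), k • (x * P.basQ i) ∈
        AddSubgroup.closure (Set.range (P.basQ.map (P.lmul x hx))) := fun k i =>
      zsmul_mem (AddSubgroup.subset_closure (Set.mem_range_self i)) _
    exact add_mem (add_mem (add_mem (h _ _) (h _ _)) (h _ _)) (h _ _)
  · rw [AddSubgroup.closure_le]
    rintro _ ⟨i, rfl⟩
    exact mem_smul.mpr ⟨P.basQ i, P.basQ_mem i, rfl⟩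

theorem closure_basQ : (Subalgebra.toSubmodule P.O).toAddSubgroup =
      AddSubgroup.closure (Set.range P.basQ) := by
  apply le_antisymm
  · rintro y ⟨x0, x1, x2, x3, rfl⟩
    rw [el_basQ]
    have h : ∀ (k : ℤ) (i : Fin 4), k • P.basQ i ∈
        AddSubgroup.closure (Set.range P.basQ) := fun k i =>
      zsmul_mem (AddSubgroup.subset_closure (Set.mem_range_self i)) _
    exact add_mem (add_mem (add_mem (h _ _) (h _ _)) (h _ _)) (h _ _)
  · rw [AddSubgroup.closure_le]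
    rintro _ ⟨i, rfl⟩
    exact P.basQ_mem i

/-- the standard basis `1, i, j, k` -/
noncomputable abbrev bstd : Module.Basis (Fin 4) ℚ P.D := QuaternionAlgebra.basisOneIJK _ _ _

theorem bstd_re (i : Fin 4) : (P.bstd i).re = if i = 0 then 1 else 0 := by
  have h := congrArg (fun v : Fin 4 →₀ ℚ => v 0) (P.bstd.repr_self i)
  exact h.trans Finsupp.single_apply

theorem bstd_imI (i : Fin 4) : (P.bstd i).imI = if i = 1 then 1 else 0 := by
  have h := congrArg (fun v : Fin 4 →₀ ℚ => v 1) (P.bstd.repr_self i)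
  exact h.trans Finsupp.single_apply

theorem bstd_imJ (i : Fin 4) : (P.bstd i).imJ = if i = 2 then 1 else 0 := by
  have h := congrArg (fun v : Fin 4 →₀ ℚ => v 2) (P.bstd.repr_self i)
  exact h.trans Finsupp.single_apply

theorem bstd_imK (i : Fin 4) : (P.bstd i).imK = if i = 3 then 1 else 0 := by
  have h := congrArg (fun v : Fin 4 →₀ ℚ => v 3) (P.bstd.repr_self i)
  exact h.trans Finsupp.single_apply

theorem det_lmul (x : P.D) (hx : x ≠ 0) :
    LinearMap.det (P.lmul x hx : P.D →ₗ[ℚ] P.D) = P.nr x ^ 2 := by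
  have e : LinearMap.toMatrix P.bstd P.bstd (P.lmul x hx : P.D →ₗ[ℚ] P.D) =
      !![x.re, -P.N * x.imI, -(P.Q * P.p) * x.imJ, -(P.N * (P.Q * P.p)) * x.imK;
        x.imI, x.re, -(P.Q * P.p) * x.imK, (P.Q * P.p) * x.imJ;
        x.imJ, P.N * x.imK, x.re, -P.N * x.imI;
        x.imK, -x.imJ, x.imI, x.re] := by
    ext i j
    rw [LinearMap.toMatrix_apply]
    fin_cases i <;> fin_cases j <;>
      simp [lmul, QuaternionAlgebra.coe_basisOneIJK_repr, bstd_re, bstd_imI, bstd_imJ, bstd_imK]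
  rw [← LinearMap.det_toMatrix P.bstd, e]
  simp [Matrix.det_succ_row_zero, Fin.sum_univ_succ, nr, Fin.succAbove]
  ring

theorem index' (x : P.D) (hx : x ≠ 0) (hxO : x ∈ P.O) :
    (idx (x • Subalgebra.toSubmodule P.O) (Subalgebra.toSubmodule P.O) : ℚ) =
      P.qalg.nrd x ^ 2 := by
  have hle : (x • Subalgebra.toSubmodule P.O).toAddSubgroup ≤
      (Subalgebra.toSubmodule P.O).toAddSubgroup := by
    intro y hy
    obtain ⟨z, hz, rfl⟩ := mem_smul.mp hy
    exact P.O.mul_mem hxO hz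
  have h1 := AddSubgroup.relIndex_eq_abs_det _ _ hle _ _ (P.closure_smul_basQ x hx) P.closure_basQ
  have h2 : P.basQ.det (P.basQ.map (P.lmul x hx)) = P.nr x ^ 2 := by
    have h3 : ⇑(P.basQ.map (P.lmul x hx)) = (P.lmul x hx : P.D →ₗ[ℚ] P.D) ∘ P.basQ := rfl
    rw [h3, Module.Basis.det_comp, Module.Basis.det_self, mul_one, P.det_lmul x hx]
  rw [h2, abs_of_nonneg (by positivity)] at h1
  exact h1

end Par

end Fermat.Agent.P2.Quat
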