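import Fermat.Agent.P2.Quat.Inst1

/-!
# P2, block 3 (A): the ideals `P m`: coordinates, ideal property, products.
-/

open scoped Pointwise

namespace Fermat.Agent.P2.Quat

namespace Par

variable (P : Par)

/-- coordinates of `z0 + z1 ω + z2 i + z3 g` -/
theorem tr_mul (x0 x1 x2 x3 y0 y1 y2 y3 : ℤ) :
    P.qalg.trd (P.el x0 x1 x2 x3 * P.el y0 y1 y2 y3) =
      (((2 * x0 + x1) * y0 + (x0 + (1 - 2 * P.β) * x1 - P.c * P.Q * x3) * y1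
        - (P.N * (2 * x2 + x3)) * y2
        - (P.c * P.Q * x1 + P.N * x2 + 2 * P.δ * x3) * y3 : ℤ) : ℚ) := by
  rw [el_mul]
  refine (P.re_el _ _ _ _).trans ?_
  congr 1
  simp only [m0, m1]
  have h1 := P.hQ1
  have h2 := P.hn
  linear_combination (-P.c * x1 * y3 - P.c * x3 * y1) * h1 + (x2 * y3 + x3 * y2) * h2

theorem tr_comm (x y : P.D) : P.qalg.trd (x * y) = P.qalg.trd (y * x) := by
  simp [qalg]; ring

/-- the ideals `P m` -/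
def PP (m : ℕ) : Submodule ℤ P.D where
  carrier := {x | x ∈ P.O ∧ ∀ y ∈ P.O, ∃ k : ℤ, P.qalg.trd (x * y) = m * k}
  add_mem' := by
    rintro x x' ⟨hx, h⟩ ⟨hx', h'⟩
    refine ⟨add_mem hx hx', fun y hy => ?_⟩
    obtain ⟨k, hk⟩ := h y hy
    obtain ⟨k', hk'⟩ := h' y hy
    exact ⟨k + k', by rw [add_mul, QAlg.trd_add, hk, hk']; push_cast; ring⟩
  zero_mem' := by
    refine ⟨zero_mem _, fun y _ => ⟨0, ?_⟩⟩
    rw [zero_mul]
    simp [qalg]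
  smul_mem' := by
    rintro k x ⟨hx, h⟩
    refine ⟨P.O.smul_mem hx k, fun y hy => ?_⟩
    obtain ⟨l, hl⟩ := h y hy
    refine ⟨k * l, ?_⟩
    have e : P.qalg.trd (k • x * y) = k * P.qalg.trd (x * y) := by
      simp [qalg]; ring
    rw [e, hl]
    push_cast
    ring

theorem mem_PP {m : ℕ} {x : P.D} : x ∈ P.PP m ↔
    x ∈ P.O ∧ ∀ y ∈ P.O, ∃ k : ℤ, P.qalg.trd (x * y) = m * k := Iff.rfl

theorem PP_mul_O {m : ℕ} {x y : P.D} (hx : x ∈ P.PP m) (hy : y ∈ P.O) : x * y ∈ P.PP m := by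
  refine ⟨P.O.mul_mem hx.1 hy, fun z hz => ?_⟩
  rw [mul_assoc]
  exact hx.2 _ (P.O.mul_mem hy hz)

theorem O_mul_PP {m : ℕ} {x y : P.D} (hx : x ∈ P.PP m) (hy : y ∈ P.O) : y * x ∈ P.PP m := by
  refine ⟨P.O.mul_mem hy hx.1, fun z hz => ?_⟩
  rw [mul_assoc, P.tr_comm, mul_assoc]
  exact hx.2 _ (P.O.mul_mem hz hy)

theorem natCast_mem_PP (m : ℕ) : (m : P.D) ∈ P.PP m := by
  refine ⟨natCast_mem _ _, fun y hy => ?_⟩
  obtain ⟨k, hk⟩ := P.trd_int' y hy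
  refine ⟨k, ?_⟩
  rw [← hk]
  simp [qalg]
  ring

theorem PP_mono {m m' : ℕ} (h : m' ∣ m) : P.PP m ≤ P.PP m' := by
  rintro x ⟨hx, h'⟩
  refine ⟨hx, fun y hy => ?_⟩
  obtain ⟨k, hk⟩ := h' y hy
  obtain ⟨l, rfl⟩ := h
  exact ⟨l * k, by rw [hk]; push_cast; ring⟩

theorem PP_inf {m m' : ℕ} (h : m.Coprime m') {x : P.D} (hx : x ∈ P.PP m) (hx' : x ∈ P.PP m') :
    x ∈ P.PP (m * m') := by
  refine ⟨hx.1, fun y hy => ?_⟩
  obtain ⟨k, hk⟩ := hx.2 y hy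
  obtain ⟨k', hk'⟩ := hx'.2 y hy
  have h1 : (m : ℤ) * k = m' * k' := by
    have : ((m : ℤ) * k : ℚ) = ((m' * k' : ℤ) : ℚ) := by
      push_cast; rw [← hk, ← hk']
    exact_mod_cast this
  have h2 : (m' : ℤ) ∣ m * k := ⟨k', h1⟩
  obtain ⟨l, hl⟩ := (Nat.isCoprime_iff_coprime.mpr h.symm).dvd_of_dvd_mul_left h2
  exact ⟨l, by rw [hk, hl]; push_cast; ring⟩

theorem PP_one : P.PP 1 = Subalgebra.toSubmodule P.O := by
  refine le_antisymm (fun x hx => hx.1) fun x hx => ⟨hx, fun y hy => ?_⟩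
  obtain ⟨k, hk⟩ := P.trd_int' _ (P.O.mul_mem hx hy)
  exact ⟨k, by rw [hk]; simp⟩

theorem PP_le (m : ℕ) : P.PP m ≤ Subalgebra.toSubmodule P.O := fun _ hx => hx.1

theorem O_PP (m : ℕ) : Subalgebra.toSubmodule P.O * P.PP m = P.PP m := by
  refine le_antisymm (Submodule.mul_le.mpr fun y hy x hx => P.O_mul_PP hx hy) fun x hx => ?_
  rw [← one_mul x]
  exact Submodule.mul_mem_mul (one_mem P.O) hx

theorem PP_O (m : ℕ) : P.PP m * Subalgebra.toSubmodule P.O = P.PP m := by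
  refine le_antisymm (Submodule.mul_le.mpr fun y hy x hx => P.PP_mul_O hy hx) fun x hx => ?_
  rw [← mul_one x]
  exact Submodule.mul_mem_mul hx (one_mem P.O)

theorem PP_mul (m m' : ℕ) (h : m.Coprime m') : P.PP m * P.PP m' = P.PP (m * m') := by
  refine le_antisymm (Submodule.mul_le.mpr fun y hy x hx =>
    P.PP_inf h (P.PP_mul_O hy hx.1) (P.O_mul_PP hx hy.1)) fun x hx => ?_
  obtain ⟨u, v, huv⟩ := Nat.isCoprime_iff_coprime.mpr h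
  have hx1 : x ∈ P.PP m := P.PP_mono (dvd_mul_right _ _) hx
  have hx2 : x ∈ P.PP m' := P.PP_mono (dvd_mul_left _ _) hx
  have e : x = u • ((m : P.D) * x) + v • (x * (m' : P.D)) := by
    rw [← (Nat.cast_commute m' x).eq, zsmul_eq_mul, zsmul_eq_mul, ← mul_assoc, ← mul_assoc,
      ← add_mul]
    have := congrArg (fun a : ℤ => (a : P.D)) huv
    simp only [Int.cast_add, Int.cast_mul, Int.cast_natCast, Int.cast_one] at this
    rw [this, one_mul]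
  rw [e]
  refine add_mem (Submodule.smul_mem _ _ ?_) (Submodule.smul_mem _ _ ?_)
  · exact Submodule.mul_mem_mul (P.natCast_mem_PP m) hx2
  · exact Submodule.mul_mem_mul hx1 (P.natCast_mem_PP m')

/-! ### Coordinates -/

theorem M_int : (P.M : ℤ) = P.N * P.Q := by
  unfold M; push_cast; rfl

theorem cop_m_p {m : ℕ} (hm : m ∣ P.M) : IsCoprime (m : ℤ) (P.p : ℤ) := by
  rw [Nat.isCoprime_iff_coprime]
  refine Nat.Coprime.symm ((Nat.Prime.coprime_iff_not_dvd P.p_prime).mpr fun h => ?_)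
  rcases (Nat.Prime.dvd_mul P.p_prime).mp (h.trans hm) with h | h
  · exact P.p_N h
  · exact P.p_Q h

theorem mem_PP_el {m : ℕ} (hm : m ∣ P.M) {x0 x1 x2 x3 : ℤ} : P.el x0 x1 x2 x3 ∈ P.PP m ↔
    (m : ℤ) ∣ 2 * x0 + x1 ∧ (m : ℤ) ∣ P.Q * (P.p * x0 - P.c * x3) ∧
      (m : ℤ) ∣ P.N * (2 * x2 + x3) := by
  have key : ∀ y0 y1 y2 y3 : ℤ,
      (∃ k : ℤ, P.qalg.trd (P.el x0 x1 x2 x3 * P.el y0 y1 y2 y3) = m * k) ↔
      (m : ℤ) ∣ (2 * x0 + x1) * y0 + (x0 + (1 - 2 * P.β) * x1 - P.c * P.Q * x3) * y1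
        - (P.N * (2 * x2 + x3)) * y2
        - (P.c * P.Q * x1 + P.N * x2 + 2 * P.δ * x3) * y3 := by
    intro y0 y1 y2 y3
    rw [tr_mul]
    exact ⟨fun ⟨k, hk⟩ => ⟨k, by exact_mod_cast hk⟩, fun ⟨k, hk⟩ => ⟨k, by exact_mod_cast hk⟩⟩
  have hb := P.hb
  constructor
  · intro h
    have h0 := (key 1 0 0 0).mp (h.2 _ (P.el_mem _ _ _ _))
    have h1 := (key 0 1 0 0).mp (h.2 _ (P.el_mem _ _ _ _))
    have h2 := (key 0 0 1 0).mp (h.2 _ (P.el_mem _ _ _ _))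
    have h0' : (m : ℤ) ∣ 2 * x0 + x1 := by
      have e : 2 * x0 + x1 = (2 * x0 + x1) * 1 + (x0 + (1 - 2 * P.β) * x1 - P.c * P.Q * x3) * 0
        - (P.N * (2 * x2 + x3)) * 0 - (P.c * P.Q * x1 + P.N * x2 + 2 * P.δ * x3) * 0 := by ring
      rwa [e]
    refine ⟨h0', ?_, ?_⟩
    · have e : (P.Q : ℤ) * (P.p * x0 - P.c * x3) = ((2 * x0 + x1) * 0 +
        (x0 + (1 - 2 * P.β) * x1 - P.c * P.Q * x3) * 1
        - (P.N * (2 * x2 + x3)) * 0 - (P.c * P.Q * x1 + P.N * x2 + 2 * P.δ * x3) * 0)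
        - (1 - 2 * P.β) * (2 * x0 + x1) := by
          linear_combination x0 * hb
      rw [e]
      exact dvd_sub h1 (dvd_mul_of_dvd_right h0' _)
    · have e : (P.N : ℤ) * (2 * x2 + x3) = -((2 * x0 + x1) * 0 +
        (x0 + (1 - 2 * P.β) * x1 - P.c * P.Q * x3) * 0
        - (P.N * (2 * x2 + x3)) * 1 - (P.c * P.Q * x1 + P.N * x2 + 2 * P.δ * x3) * 0) := by
          ring
      rw [e]
      exact (dvd_neg).mpr h2
  · rintro ⟨h0, h1, h2⟩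
    refine ⟨P.el_mem _ _ _ _, ?_⟩
    rintro _ ⟨y0, y1, y2, y3, rfl⟩
    refine (key y0 y1 y2 y3).mpr ?_
    have hM : (m : ℤ) ∣ P.N * P.Q := by rw [← P.M_int]; exact_mod_cast hm
    -- row 2
    have r2 : (m : ℤ) ∣ x0 + (1 - 2 * P.β) * x1 - P.c * P.Q * x3 := by
      have e : x0 + (1 - 2 * P.β) * x1 - P.c * P.Q * x3 =
        P.Q * (P.p * x0 - P.c * x3) + (1 - 2 * P.β) * (2 * x0 + x1) := by
          linear_combination -x0 * hb
      rw [e]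
      exact dvd_add h1 (dvd_mul_of_dvd_right h0 _)
    -- the auxiliary quantity
    have r3 : (m : ℤ) ∣ P.N * (P.p * x2 + 2 * P.γ * x3) := by
      have a1 : (m : ℤ) ∣ P.Q * (P.N * (P.p * x2 + 2 * P.γ * x3)) := by
        have e : (P.Q : ℤ) * (P.N * (P.p * x2 + 2 * P.γ * x3)) =
          (P.N * P.Q) * (P.p * x2 + 2 * P.γ * x3) := by ring
        rw [e]; exact dvd_mul_of_dvd_left hM _
      have a2 : (m : ℤ) ∣ 2 * (P.N * (P.p * x2 + 2 * P.γ * x3)) := by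
        have hγ := P.hγ
        have e : 2 * (P.N * (P.p * x2 + 2 * P.γ * x3)) =
          P.p * (P.N * (2 * x2 + x3)) + (P.N * P.Q) * x3 := by
            linear_combination -P.N * x3 * hγ
        rw [e]
        exact dvd_add (dvd_mul_of_dvd_right h2 _) (dvd_mul_of_dvd_left hM _)
      obtain ⟨k, hk⟩ := P.Q_odd
      have e : P.N * (P.p * x2 + 2 * P.γ * x3) =
        P.Q * (P.N * (P.p * x2 + 2 * P.γ * x3)) - k * (2 * (P.N * (P.p * x2 + 2 * P.γ * x3))) := by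
          rw [hk]; ring
      rw [e]
      exact dvd_sub a1 (dvd_mul_of_dvd_right a2 _)
    have r4 : (m : ℤ) ∣ P.c * P.Q * x1 + P.N * x2 + 2 * P.δ * x3 := by
      refine (P.cop_m_p hm).dvd_of_dvd_mul_left ?_
      have hδ := P.hδ
      have ht := P.ht
      have hγ := P.hγ
      have e : P.p * (P.c * P.Q * x1 + P.N * x2 + 2 * P.δ * x3) =
        P.c * P.Q * P.p * (2 * x0 + x1) - 2 * P.c * (P.Q * (P.p * x0 - P.c * x3)) +
          P.N * (P.p * x2 + 2 * P.γ * x3) := by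
        have h2 : 2 * (P.p * (P.c * P.Q * x1 + P.N * x2 + 2 * P.δ * x3)) =
          2 * (P.c * P.Q * P.p * (2 * x0 + x1) - 2 * P.c * (P.Q * (P.p * x0 - P.c * x3)) +
            P.N * (P.p * x2 + 2 * P.γ * x3)) := by
          linear_combination (-P.p * x3) * hδ + (P.Q * x3) * ht + (P.N * x3) * hγ
        exact mul_left_cancel₀ two_ne_zero h2
      rw [e]
      exact dvd_add (dvd_sub (dvd_mul_of_dvd_right h0 _) (dvd_mul_of_dvd_right h1 _)) r3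
    exact dvd_sub (dvd_sub (dvd_add (dvd_mul_of_dvd_left h0 _) (dvd_mul_of_dvd_left r2 _))
      (dvd_mul_of_dvd_left h2 _)) (dvd_mul_of_dvd_left r4 _)

/-- `i` -/
def I : P.D := P.el 0 0 1 0

/-- `j` -/
def J : P.D := P.el (-1) 2 0 0

theorem N_dvd_M : P.N ∣ P.M := dvd_mul_right _ _

theorem Q_dvd_M : P.Q ∣ P.M := dvd_mul_left _ _

theorem I_mem : P.I ∈ P.PP P.N := by
  rw [I, P.mem_PP_el P.N_dvd_M]
  refine ⟨by simp, by simp, dvd_mul_right _ _⟩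

theorem J_mem : P.J ∈ P.PP P.Q := by
  rw [J, P.mem_PP_el P.Q_dvd_M]
  refine ⟨by simp, dvd_mul_right _ _, by simp⟩

theorem cop_NQ : IsCoprime (P.N : ℤ) (P.Q : ℤ) := Nat.isCoprime_iff_coprime.mpr P.cop

theorem I_mul_PP {x : P.D} (hx : x ∈ P.PP P.N) : ∃ y ∈ P.O, P.I * x = (P.N : P.D) * y := by
  obtain ⟨x0, x1, x2, x3, rfl⟩ := hx.1
  obtain ⟨⟨u, hu⟩, h1, -⟩ := (P.mem_PP_el P.N_dvd_M).mp hx
  obtain ⟨v, hv⟩ := P.cop_NQ.dvd_of_dvd_mul_left h1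
  have hn := P.hn
  have ht := P.ht
  have hp1 := P.hp1
  have a0 : (P.N : ℤ) ∣ P.m0 0 0 1 0 x0 x1 x2 x3 := by
    refine (P.cop_m_p P.N_dvd_M).dvd_of_dvd_mul_left ?_
    refine ⟨-P.p * x2 + P.p * P.c * u - 2 * P.c * v + (1 - P.p1) * x3, ?_⟩
    refine mul_left_cancel₀ (two_ne_zero (α := ℤ)) ?_
    simp only [m0]
    linear_combination (2 * P.p * P.c) * hu - (4 * P.c) * hv + x3 * ht + P.p * x3 * hn +
      P.N * x3 * hp1
  have a1 : (P.N : ℤ) ∣ P.m1 0 0 1 0 x0 x1 x2 x3 := by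
    refine (P.cop_m_p P.N_dvd_M).dvd_of_dvd_mul_left ?_
    refine ⟨-2 * P.p * P.c * u + 4 * P.c * v - x3, ?_⟩
    simp only [m1]
    linear_combination (-2 * P.p * P.c) * hu + (4 * P.c) * hv - x3 * ht
  have a2 : (P.N : ℤ) ∣ P.m2 0 0 1 0 x0 x1 x2 x3 := by
    refine ⟨v + (1 - P.p1) * u, ?_⟩
    simp only [m2]
    linear_combination (1 - P.p1) * hu + hv + x0 * hp1
  have a3 : (P.N : ℤ) ∣ P.m3 0 0 1 0 x0 x1 x2 x3 := by
    refine ⟨P.p * u - 2 * v, ?_⟩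
    simp only [m3]
    linear_combination P.p * hu - 2 * hv
  obtain ⟨b0, h0⟩ := a0
  obtain ⟨b1, h1⟩ := a1
  obtain ⟨b2, h2⟩ := a2
  obtain ⟨b3, h3⟩ := a3
  refine ⟨P.el b0 b1 b2 b3, P.el_mem _ _ _ _, ?_⟩
  rw [I, el_mul, h0, h1, h2, h3, ← el_smul]
  push_cast
  rfl

theorem J_mul_PP {x : P.D} (hx : x ∈ P.PP P.Q) : ∃ y ∈ P.O, P.J * x = (P.Q : P.D) * y := by
  obtain ⟨x0, x1, x2, x3, rfl⟩ := hx.1
  obtain ⟨⟨u, hu⟩, -, h1⟩ := (P.mem_PP_el P.Q_dvd_M).mp hx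
  obtain ⟨w, hw⟩ := P.cop_NQ.symm.dvd_of_dvd_mul_left h1
  have hb := P.hb
  have hQ1 := P.hQ1
  have hp1 := P.hp1
  have hγ := P.hγ
  have hQ2 : IsCoprime (P.Q : ℤ) 2 := by
    obtain ⟨k, hk⟩ := P.Q_odd
    exact ⟨1, -k, by rw [hk]; ring⟩
  have a0 : (P.Q : ℤ) ∣ P.m0 (-1) 2 0 0 x0 x1 x2 x3 := by
    refine hQ2.dvd_of_dvd_mul_left ?_
    refine ⟨-u - P.p * x1 - 2 * P.c * w - 2 * P.c * x3, ?_⟩
    simp only [m0]
    linear_combination -1 * hu - 2 * P.c * hw + x1 * hb - 2 * P.c * x3 * hQ1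
  have a1 : (P.Q : ℤ) ∣ P.m1 (-1) 2 0 0 x0 x1 x2 x3 := by
    refine ⟨u + 2 * P.c * w, ?_⟩
    simp only [m1]
    linear_combination hu + 2 * P.c * hw
  have a2 : (P.Q : ℤ) ∣ P.m2 (-1) 2 0 0 x0 x1 x2 x3 := by
    refine hQ2.dvd_of_dvd_mul_left ?_
    refine ⟨P.p * w + x3, ?_⟩
    simp only [m2]
    linear_combination P.p * hw + 2 * x2 * hp1 - x3 * hγ
  have a3 : (P.Q : ℤ) ∣ P.m3 (-1) 2 0 0 x0 x1 x2 x3 := by
    refine ⟨-P.p * w, ?_⟩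
    simp only [m3]
    linear_combination -P.p * hw - x3 * hp1
  obtain ⟨b0, h0⟩ := a0
  obtain ⟨b1, h1⟩ := a1
  obtain ⟨b2, h2⟩ := a2
  obtain ⟨b3, h3⟩ := a3
  refine ⟨P.el b0 b1 b2 b3, P.el_mem _ _ _ _, ?_⟩
  rw [J, el_mul, h0, h1, h2, h3, ← el_smul]
  push_cast
  rfl

end Par

end Fermat.Agent.P2.Quat
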