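import Fermat.Agent.P2.Quat.Inst2

/-!
# P2, block 3 (A): the ideals `P m`: squares, local generators, indices.
-/

open scoped Pointwise

namespace Fermat.Agent.P2.Quat

namespace Par

variable (P : Par)

/-- `k = ij` -/
def K : P.D := P.I * P.J

theorem I_eq : P.I = ⟨0, 1, 0, 0⟩ := by
  ext <;> simp [I, el]

theorem J_eq : P.J = ⟨0, 0, 1, 0⟩ := by
  ext <;> simp [J, el]

theorem K_eq : P.K = ⟨0, 0, 0, 1⟩ := by
  rw [K, I_eq, J_eq]
  ext <;> simp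

theorem K_sq : P.K * P.K = -((P.M * P.p : ℕ) : P.D) := by
  rw [K_eq, M]
  ext <;> simp
  ring

theorem I_sq : P.I * P.I = -(P.N : P.D) := by
  rw [I_eq]
  ext <;> simp

theorem K_ne : P.K ≠ 0 := by
  rw [K_eq]
  intro h
  have := congrArg QuaternionAlgebra.imK h
  simp at this

theorem I_ne : P.I ≠ 0 := by
  rw [I_eq]
  intro h
  have := congrArg QuaternionAlgebra.imI h
  simp at this

theorem K_mem : P.K ∈ P.PP P.M :=
  P.PP_inf P.cop (P.PP_mul_O P.I_mem P.J_mem.1) (P.O_mul_PP P.J_mem P.I_mem.1)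

theorem natCast_ne {m : ℕ} (hm : m ≠ 0) : (m : P.D) ≠ 0 := by
  intro h
  have := congrArg QuaternionAlgebra.re h
  simp at this
  exact hm this

theorem K_mul_PP {x : P.D} (hx : x ∈ P.PP P.M) : ∃ y ∈ P.O, P.K * x = (P.M : P.D) * y := by
  obtain ⟨y, hy, h1⟩ := P.J_mul_PP (P.PP_mono P.Q_dvd_M hx)
  have hy' : y ∈ P.PP P.N := by
    refine mem_of_coprime (I := P.PP P.N) P.cop ?_ ?_
    · rw [nsmul_eq_mul]
      exact P.PP_mul_O (P.natCast_mem_PP _) hy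
    · rw [nsmul_eq_mul, ← h1]
      exact P.O_mul_PP (P.PP_mono P.N_dvd_M hx) P.J_mem.1
  obtain ⟨z, hz, h2⟩ := P.I_mul_PP hy'
  refine ⟨z, hz, ?_⟩
  rw [K, mul_assoc, h1, ← mul_assoc, ← (Nat.cast_commute P.Q P.I).eq, mul_assoc, h2, ← mul_assoc,
    M, mul_comm P.N, Nat.cast_mul]

theorem p_mul_PP {x : P.D} (hx : x ∈ P.PP P.M) : ∃ y ∈ P.O, P.p • x = P.K * y := by
  obtain ⟨y, hy, h⟩ := P.K_mul_PP hx
  refine ⟨-y, neg_mem hy, ?_⟩
  have h1 : P.K * (P.K * x) = P.K * ((P.M : P.D) * y) := by rw [h]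
  rw [← mul_assoc, K_sq, ← mul_assoc, ← (Nat.cast_commute P.M P.K).eq, mul_assoc, Nat.cast_mul,
    neg_mul, mul_assoc] at h1
  have h2 : (P.M : P.D) * (P.p * x) = (P.M : P.D) * (P.K * (-y)) := by
    rw [mul_neg, mul_neg, ← h1, neg_neg]
  rw [nsmul_eq_mul]
  exact mul_left_cancel₀ (P.natCast_ne P.M_pos.ne') h2

theorem natCast_mul_mem {m m' : ℕ} {x : P.D} (hx : x ∈ P.PP m) :
    (m' : P.D) * x ∈ P.PP (m * m') := by
  refine ⟨P.O.mul_mem (natCast_mem _ _) hx.1, fun y hy => ?_⟩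
  obtain ⟨k, hk⟩ := hx.2 y hy
  refine ⟨k, ?_⟩
  have e : P.qalg.trd ((m' : P.D) * x * y) = m' * P.qalg.trd (x * y) := by
    simp [qalg]; ring
  rw [e, hk]
  push_cast
  ring

theorem cop_p_M : Nat.Coprime P.p P.M := by
  have := P.cop_m_p (dvd_refl P.M)
  exact (Nat.isCoprime_iff_coprime.mp this).symm

theorem PP_M_mul {x y : P.D} (hx : x ∈ P.PP P.M) (hy : y ∈ P.PP P.M) :
    x * y ∈ (P.M : P.D) • Subalgebra.toSubmodule P.O := by
  obtain ⟨a, ha, h1⟩ := P.p_mul_PP hx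
  obtain ⟨b, hb, h2⟩ := P.K_mul_PP (P.O_mul_PP hy ha)
  refine mem_of_coprime P.cop_p_M ?_ ?_
  · rw [← smul_mul_assoc, h1, mul_assoc, h2]
    exact mem_smul.mpr ⟨b, hb, rfl⟩
  · exact nsmul_mem_smul _ (P.O.mul_mem hx.1 hy.1)

theorem cop_of_mul {m m' : ℕ} (h : P.M = m * m') : Nat.Coprime m m' := by
  have := P.M_sqf
  rw [h] at this
  exact Nat.coprime_of_squarefree_mul this

theorem PP_mul_mem {m : ℕ} (hm : m ∣ P.M) {x y : P.D} (hx : x ∈ P.PP m) (hy : y ∈ P.PP m) :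
    x * y ∈ (m : P.D) • Subalgebra.toSubmodule P.O := by
  obtain ⟨m', hm'⟩ := hm
  have hx' : (m' : P.D) * x ∈ P.PP P.M := hm' ▸ P.natCast_mul_mem hx
  have hy' : (m' : P.D) * y ∈ P.PP P.M := hm' ▸ P.natCast_mul_mem hy
  have h0 : m' ≠ 0 := by
    rintro rfl
    exact P.M_pos.ne' (by rw [hm', mul_zero])
  obtain ⟨b, hb, h⟩ := mem_smul.mp (P.PP_M_mul hx' hy')
  refine mem_of_coprime (P.cop_of_mul hm').symm ?_ ?_
  · refine mem_smul.mpr ⟨b, hb, ?_⟩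
    refine mul_left_cancel₀ (P.natCast_ne h0) ?_
    rw [nsmul_eq_mul, ← mul_assoc, ← Nat.cast_mul, mul_comm m' m, ← hm', h, ← mul_assoc,
      mul_assoc (m' : P.D) x, ← (Nat.cast_commute m' x).eq, mul_assoc, mul_assoc]
  · exact nsmul_mem_smul _ (P.O.mul_mem hx.1 hy.1)

theorem PP_sq (m : ℕ) (hm : m ∣ P.M) :
    P.PP m * P.PP m = (m : P.D) • Subalgebra.toSubmodule P.O := by
  refine le_antisymm (Submodule.mul_le.mpr fun x hx y hy => P.PP_mul_mem hm hx hy) ?_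
  have h1 : (m : P.D) ∈ P.PP m * P.PP m := by
    have hK : P.K ∈ P.PP m := P.PP_mono hm P.K_mem
    have h2 : P.K * P.K ∈ P.PP m * P.PP m := Submodule.mul_mem_mul hK hK
    have h3 : (m : P.D) * (m : P.D) ∈ P.PP m * P.PP m :=
      Submodule.mul_mem_mul (P.natCast_mem_PP m) (P.natCast_mem_PP m)
    obtain ⟨m', hm'⟩ := hm
    have hc : IsCoprime (m : ℤ) ((m' * P.p : ℕ) : ℤ) := by
      rw [Nat.isCoprime_iff_coprime]
      refine Nat.Coprime.mul_right (P.cop_of_mul hm') ?_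
      exact (Nat.Coprime.coprime_dvd_right ⟨m', hm'⟩ P.cop_p_M).symm
    obtain ⟨u, v, huv⟩ := hc
    have e : (m : P.D) = u • ((m : P.D) * m) + (-v) • (P.K * P.K) := by
      rw [K_sq, hm', neg_smul, smul_neg, neg_neg, zsmul_eq_mul, zsmul_eq_mul]
      have e1 : (m : ℤ) = u * ((m : ℤ) * m) + v * ((m * m' * P.p : ℕ) : ℤ) := by
        push_cast at huv ⊢
        linear_combination (-(m : ℤ)) * huv
      have := congrArg (Int.cast : ℤ → P.D) e1
      simp only [Int.cast_add, Int.cast_mul, Int.cast_natCast] at this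
      exact this
    rw [e]
    exact add_mem (Submodule.smul_mem _ _ h3) (Submodule.smul_mem _ _ h2)
  intro x hx
  obtain ⟨y, hy, rfl⟩ := mem_smul.mp hx
  have e : P.PP m * P.PP m = P.PP m * P.PP m * Subalgebra.toSubmodule P.O := by
    rw [mul_assoc, P.PP_O]
  rw [e]
  exact Submodule.mul_mem_mul h1 hy

theorem PP_loc (m : ℕ) (hm : m ∣ P.M) (l : ℕ) (hl : l.Prime) : ∃ g : P.D, g ≠ 0 ∧
    LEq l (P.PP m) (g • Subalgebra.toSubmodule P.O) := by
  by_cases hlm : l ∣ m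
  · refine ⟨P.K, P.K_ne, ?_, LLE.of_le fun x hx => ?_⟩
    · obtain ⟨m', hm'⟩ := hm
      refine ⟨P.p * m', ?_, fun x hx => ?_⟩
      · refine Nat.Coprime.mul_left ?_ ?_
        · exact Nat.Coprime.coprime_dvd_right (hlm.trans ⟨m', hm'⟩) P.cop_p_M
        · exact Nat.Coprime.coprime_dvd_right hlm (P.cop_of_mul hm').symm
      · have hx' : m' • x ∈ P.PP P.M := by
          rw [nsmul_eq_mul]; exact hm' ▸ P.natCast_mul_mem hx
        obtain ⟨y, hy, h⟩ := P.p_mul_PP hx'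
        rw [mul_smul, h]
        exact mem_smul.mpr ⟨y, hy, rfl⟩
    · obtain ⟨y, hy, rfl⟩ := mem_smul.mp hx
      exact P.PP_mul_O (P.PP_mono hm P.K_mem) hy
  · refine ⟨1, one_ne_zero, ?_⟩
    rw [one_smul]
    refine ⟨LLE.of_le (P.PP_le m), m, ?_, fun x hx => ?_⟩
    · exact ((Nat.Prime.coprime_iff_not_dvd hl).mpr hlm).symm
    · rw [nsmul_eq_mul]
      exact P.PP_mul_O (P.natCast_mem_PP m) hx

/-- `i O = P N`. -/
theorem I_smul : P.I • Subalgebra.toSubmodule P.O = P.PP P.N := by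
  apply le_antisymm
  · intro x hx
    obtain ⟨y, hy, rfl⟩ := mem_smul.mp hx
    exact P.PP_mul_O P.I_mem hy
  · intro x hx
    obtain ⟨y, hy, h⟩ := P.I_mul_PP hx
    refine mem_smul.mpr ⟨-y, neg_mem hy, ?_⟩
    have h1 : P.I * (P.I * x) = P.I * ((P.N : P.D) * y) := by rw [h]
    rw [← mul_assoc, I_sq, ← mul_assoc, ← (Nat.cast_commute P.N P.I).eq, mul_assoc,
      neg_mul] at h1
    refine mul_left_cancel₀ (P.natCast_ne P.N_pos.ne') ?_
    rw [mul_neg, mul_neg, ← h1, neg_neg]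

/-! ### the index of `P m` -/

theorem mem_PP_el' {m m1 m2 : ℕ} (h1 : m1 ∣ P.N) (h2 : m2 ∣ P.Q) (hm : m = m1 * m2)
    {x0 x1 x2 x3 : ℤ} : P.el x0 x1 x2 x3 ∈ P.PP m ↔
    (m : ℤ) ∣ 2 * x0 + x1 ∧ (m1 : ℤ) ∣ P.p * x0 - P.c * x3 ∧ (m2 : ℤ) ∣ 2 * x2 + x3 := by
  have hmM : m ∣ P.M := hm ▸ mul_dvd_mul h1 h2
  have h1' : (m1 : ℤ) ∣ P.N := by exact_mod_cast h1
  have h2' : (m2 : ℤ) ∣ P.Q := by exact_mod_cast h2
  have hc : IsCoprime (m1 : ℤ) (m2 : ℤ) :=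
    (P.cop_NQ.of_isCoprime_of_dvd_left h1').of_isCoprime_of_dvd_right h2'
  rw [P.mem_PP_el hmM]
  refine and_congr_right fun _ => and_congr ?_ ?_
  · rw [hm, Nat.cast_mul]
    refine ⟨fun h => ?_, fun h => ?_⟩
    · exact (P.cop_NQ.of_isCoprime_of_dvd_left h1').dvd_of_dvd_mul_left
        ((dvd_mul_right _ _).trans h)
    · rw [mul_comm]
      exact mul_dvd_mul h2' h
  · rw [hm, Nat.cast_mul]
    refine ⟨fun h => ?_, fun h => ?_⟩
    · exact (P.cop_NQ.symm.of_isCoprime_of_dvd_left h2').dvd_of_dvd_mul_left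
        ((dvd_mul_left _ _).trans h)
    · exact mul_dvd_mul h1' h

/-- the coordinate hom -/
def phi (m m1 m2 : ℕ) : (Fin 4 → ℤ) →+ ZMod m × ZMod m1 × ZMod m2 where
  toFun x := (((2 * x 0 + x 1 : ℤ) : ZMod m), ((P.p * x 0 - P.c * x 3 : ℤ) : ZMod m1),
    ((2 * x 2 + x 3 : ℤ) : ZMod m2))
  map_zero' := by simp
  map_add' x y := by
    ext <;> simp <;> ring

theorem phi_surjective {m m1 m2 : ℕ} (h1 : m1 ∣ P.N) :
    Function.Surjective (P.phi m m1 m2) := by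
  rintro ⟨a, b, d⟩
  obtain ⟨a, rfl⟩ := ZMod.intCast_surjective a
  obtain ⟨b, rfl⟩ := ZMod.intCast_surjective b
  obtain ⟨d, rfl⟩ := ZMod.intCast_surjective d
  have hc : IsCoprime (m1 : ℤ) (P.p : ℤ) :=
    (P.cop_m_p (P.N_dvd_M)).of_isCoprime_of_dvd_left (by exact_mod_cast h1)
  obtain ⟨u, v, huv⟩ := hc
  refine ⟨![v * (b + P.c * d), a - 2 * (v * (b + P.c * d)), 0, d], ?_⟩
  simp only [phi, AddMonoidHom.coe_mk, ZeroHom.coe_mk]
  ext
  · simp
  · simp only [Matrix.cons_val]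
    have e : (P.p * (v * (b + P.c * d)) - P.c * d : ℤ) = b - m1 * (u * (b + P.c * d)) := by
      linear_combination (b + P.c * d) * huv
    rw [e]
    push_cast
    simp
  · simp

/-- the coordinate map with values in `D` -/
def toD : (Fin 4 → ℤ) →+ P.D where
  toFun v := P.el (v 0) (v 1) (v 2) (v 3)
  map_zero' := P.el_zero.symm
  map_add' _ _ := (P.el_add _ _ _ _ _ _ _ _).symm

theorem range_toD : P.toD.range = (Subalgebra.toSubmodule P.O).toAddSubgroup := by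
  ext x
  constructor
  · rintro ⟨v, rfl⟩
    exact P.el_mem _ _ _ _
  · rintro ⟨x0, x1, x2, x3, rfl⟩
    exact ⟨![x0, x1, x2, x3], rfl⟩

theorem PP_index (m : ℕ) (hm : m ∣ P.M) :
    idx (P.PP m) (Subalgebra.toSubmodule P.O) = m ^ 2 := by
  obtain ⟨m1, m2, h1, h2, rfl⟩ := (Nat.dvd_mul).mp hm
  have e1 : (P.PP (m1 * m2)).toAddSubgroup.comap P.toD = (P.phi (m1 * m2) m1 m2).ker := by
    ext v
    rw [AddSubgroup.mem_comap, AddMonoidHom.mem_ker]
    change P.el _ _ _ _ ∈ P.PP _ ↔ _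
    rw [P.mem_PP_el' h1 h2 rfl]
    simp only [phi, AddMonoidHom.coe_mk, ZeroHom.coe_mk, Prod.mk_eq_zero,
      ZMod.intCast_zmod_eq_zero_iff_dvd]
  rw [idx, ← range_toD, ← AddSubgroup.index_comap, e1, AddSubgroup.index_ker,
    AddMonoidHom.range_eq_top.mpr (P.phi_surjective h1),
    Nat.card_congr AddSubgroup.topEquiv.toEquiv, Nat.card_prod, Nat.card_prod, Nat.card_zmod,
    Nat.card_zmod, Nat.card_zmod]
  ring

end Par

end Fermat.Agent.P2.Quat
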