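import Fermat.Agent.P2.Quat.Inst3

/-!
# P2, block 3 (A): duality, ramified primes, the instance.
-/

open scoped Pointwise

namespace Fermat.Agent.P2.Quat

namespace Par

variable (P : Par)

theorem tr_eq (z : P.D) (y0 y1 y2 y3 : ℤ) : P.qalg.trd (z * P.el y0 y1 y2 y3) =
    2 * z.re * (y0 + y1 / 2) - 2 * P.N * z.imI * (y2 + y3 / 2)
      - 2 * (P.Q * P.p) * z.imJ * (y1 / 2 + P.c * y3 / P.p)
      - 2 * (P.N * (P.Q * P.p)) * z.imK * (y3 / (2 * P.p)) := by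
  simp [qalg, el]
  ring

theorem dual' (z : P.D) : (∀ y ∈ P.O, ∃ t : ℤ, P.qalg.trd (z * y) = t) ↔
    P.M • z ∈ P.PP P.M := by
  have hM0 : (P.M : ℚ) ≠ 0 := by exact_mod_cast P.M_pos.ne'
  have key : ∀ y : P.D, P.qalg.trd ((P.M • z) * y) = P.M * P.qalg.trd (z * y) := by
    intro y
    simp [qalg]; ring
  constructor
  · intro h
    refine ⟨?_, fun y hy => ?_⟩
    · obtain ⟨w0, h0⟩ := h _ (P.el_mem 1 0 0 0)
      obtain ⟨w1, h1⟩ := h _ (P.el_mem 0 1 0 0)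
      obtain ⟨w2, h2⟩ := h _ (P.el_mem 0 0 1 0)
      obtain ⟨w3, h3⟩ := h _ (P.el_mem 0 0 0 1)
      have hp : (P.p : ℚ) ≠ 0 := by exact_mod_cast P.p_pos.ne'
      rw [tr_eq] at h0 h1 h2 h3
      have e0 : (w0 : ℚ) = 2 * z.re := by rw [← h0]; push_cast; ring
      have e1 : (w1 : ℚ) = z.re - P.Q * P.p * z.imJ := by rw [← h1]; push_cast; ring
      have e2 : (w2 : ℚ) = -2 * P.N * z.imI := by rw [← h2]; push_cast; ring
      have e3 : (w3 : ℚ) = -P.N * z.imI - 2 * P.Q * P.c * z.imJ - P.N * P.Q * z.imK := by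
        rw [← h3]; push_cast; field_simp; ring
      have r1 : (2 : ℚ) * P.p * P.t = 4 * P.c ^ 2 + P.N := by exact_mod_cast P.ht
      have r2 : (P.N : ℚ) = 2 * P.n := by exact_mod_cast P.hn
      have r3 : (P.p : ℚ) + P.Q = 4 * P.γ := by exact_mod_cast P.hγ
      refine ⟨P.n * P.Q * w0 + P.c * (w2 - 2 * w3) - P.t * (w0 - 2 * w1),
        -2 * P.c * (w2 - 2 * w3) + 2 * P.t * (w0 - 2 * w1),
        P.c * (w0 - 2 * w1) + P.p * w3 - 2 * P.γ * w2,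
        -2 * P.c * (w0 - 2 * w1) + P.p * (w2 - 2 * w3), ?_⟩
      rw [nsmul_eq_mul, M]
      ext
      · simp only [el]
        push_cast
        rw [e0, e1, e2, e3]
        simp
        linear_combination (P.Q : ℚ) * z.re * r2
      · simp only [el]
        push_cast
        rw [e0, e1, e2, e3]
        simp
        linear_combination (P.N : ℚ) * z.imI * r3
      · simp only [el]
        push_cast
        rw [e0, e1, e2, e3]
        simp
        field_simp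
        linear_combination (-(P.Q : ℚ) * z.imJ * P.p) * r1
      · simp only [el]
        push_cast
        rw [e0, e1, e2, e3]
        simp
        field_simp
        ring
    · obtain ⟨t, ht⟩ := h y hy
      exact ⟨t, by rw [key, ht]⟩
  · intro h y hy
    obtain ⟨k, hk⟩ := h.2 y hy
    rw [key] at hk
    exact ⟨k, mul_left_cancel₀ hM0 hk⟩

theorem nf_mul (x0 x1 x2 x3 : ℤ) : 4 * P.p ^ 2 * P.nf x0 x1 x2 x3 =
    P.p ^ 2 * (2 * x0 + x1) ^ 2 + P.N * P.p ^ 2 * (2 * x2 + x3) ^ 2 +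
      P.Q * P.p * (P.p * x1 + 2 * P.c * x3) ^ 2 + P.N * (P.Q * P.p) * x3 ^ 2 := by
  have hp : (P.p : ℚ) ≠ 0 := by exact_mod_cast P.p_pos.ne'
  have h := P.nr_el x0 x1 x2 x3
  have h1 : (4 * P.p ^ 2 : ℚ) * P.nr (P.el x0 x1 x2 x3) =
      P.p ^ 2 * (2 * x0 + x1) ^ 2 + P.N * P.p ^ 2 * (2 * x2 + x3) ^ 2 +
      P.Q * P.p * (P.p * x1 + 2 * P.c * x3) ^ 2 + P.N * (P.Q * P.p) * x3 ^ 2 := by
    simp only [nr, el]
    field_simp
    ring
  rw [h] at h1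
  exact_mod_cast h1

theorem p_zmod {q : ℕ} [Fact q.Prime] (hq : q ∣ P.M) : ((P.p : ℕ) : ZMod q) ≠ 0 := by
  intro h
  rw [ZMod.natCast_eq_zero_iff] at h
  have h1 := Nat.Coprime.eq_one_of_dvd ((Nat.Coprime.coprime_dvd_right hq P.cop_p_M).symm) h
  exact (Fact.out : q.Prime).one_lt.ne' h1

theorem ram_N {q : ℕ} (hq : q.Prime) (hqN : q ∣ P.N) (hex : q ≠ P.ex) (h2 : q ≠ 2)
    {x0 x1 x2 x3 : ℤ} (h : (q : ℤ) ∣ P.nf x0 x1 x2 x3) : P.el x0 x1 x2 x3 ∈ P.PP q := by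
  have := Fact.mk hq
  have hqM : q ∣ P.M := hqN.trans P.N_dvd_M
  have hN0 : ((P.N : ℕ) : ZMod q) = 0 := (ZMod.natCast_eq_zero_iff _ _).mpr hqN
  have hp0 := P.p_zmod hqM
  have h20 : (2 : ZMod q) ≠ 0 := by
    have : ((2 : ℕ) : ZMod q) ≠ 0 := by
      rw [Ne, ZMod.natCast_eq_zero_iff]
      exact fun h => h2 ((Nat.prime_dvd_prime_iff_eq hq Nat.prime_two).mp h)
    exact_mod_cast this
  have h3 := congrArg (fun a : ℤ => (a : ZMod q)) (P.nf_mul x0 x1 x2 x3)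
  have h4 : ((P.nf x0 x1 x2 x3 : ℤ) : ZMod q) = 0 := (ZMod.intCast_zmod_eq_zero_iff_dvd _ _).mpr h
  simp only [Int.cast_mul, Int.cast_add, Int.cast_pow, h4, mul_zero, Int.cast_natCast, hN0,
    zero_mul, add_zero, Int.cast_ofNat] at h3
  set a : ZMod q := 2 * x0 + x1 with ha
  set b : ZMod q := P.p * x1 + 2 * P.c * x3 with hb
  have hb0 : b = 0 := by
    by_contra hb0
    refine P.hN q hq h2 hex hqN ⟨P.p * a / b, ?_⟩
    field_simp
    push_cast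
    linear_combination h3
  have ha0 : a = 0 := by
    rw [hb0] at h3
    have h5 : (P.p : ZMod q) ^ 2 * a ^ 2 = 0 := by linear_combination -h3
    rcases mul_eq_zero.mp h5 with h | h
    · exact absurd (pow_eq_zero_iff two_ne_zero |>.mp h) hp0
    · exact pow_eq_zero_iff two_ne_zero |>.mp h
  rw [P.mem_PP_el' hqN (one_dvd _) (mul_one q).symm]
  refine ⟨?_, ?_, by simp⟩
  · rw [← ZMod.intCast_zmod_eq_zero_iff_dvd]
    push_cast
    exact ha0
  · rw [← ZMod.intCast_zmod_eq_zero_iff_dvd]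
    push_cast
    refine (mul_eq_zero.mp (?_ : (2 : ZMod q) * _ = 0)).resolve_left h20
    have e : (2 : ZMod q) * (P.p * x0 - P.c * x3) = P.p * a - b := by rw [ha, hb]; ring
    rw [e, ha0, hb0, mul_zero, sub_zero]

theorem ram_Q {q : ℕ} (hq : q.Prime) (hqQ : q ∣ P.Q)
    {x0 x1 x2 x3 : ℤ} (h : (q : ℤ) ∣ P.nf x0 x1 x2 x3) : P.el x0 x1 x2 x3 ∈ P.PP q := by
  have := Fact.mk hq
  have hqM : q ∣ P.M := hqQ.trans P.Q_dvd_M
  have hQ0 : ((P.Q : ℕ) : ZMod q) = 0 := (ZMod.natCast_eq_zero_iff _ _).mpr hqQ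
  have hp0 := P.p_zmod hqM
  have h3 := congrArg (fun a : ℤ => (a : ZMod q)) (P.nf_mul x0 x1 x2 x3)
  have h4 : ((P.nf x0 x1 x2 x3 : ℤ) : ZMod q) = 0 := (ZMod.intCast_zmod_eq_zero_iff_dvd _ _).mpr h
  simp only [Int.cast_mul, Int.cast_add, Int.cast_pow, h4, mul_zero, Int.cast_natCast, hQ0,
    zero_mul, add_zero, Int.cast_ofNat] at h3
  set a : ZMod q := 2 * x0 + x1 with ha
  set b : ZMod q := 2 * x2 + x3 with hb
  have h5 : a ^ 2 = -(P.N : ZMod q) * b ^ 2 := by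
    refine mul_left_cancel₀ (pow_ne_zero 2 hp0) ?_
    linear_combination -h3
  have hb0 : b = 0 := by
    by_contra hb0
    refine P.hQ q hq hqQ ⟨a / b, ?_⟩
    field_simp
    linear_combination -h5
  have ha0 : a = 0 := by
    rw [hb0] at h5
    refine pow_eq_zero_iff two_ne_zero |>.mp (h5.trans ?_)
    ring
  rw [P.mem_PP_el' (one_dvd _) hqQ (one_mul q).symm]
  refine ⟨?_, by simp, ?_⟩
  · rw [← ZMod.intCast_zmod_eq_zero_iff_dvd]
    push_cast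
    exact ha0
  · rw [← ZMod.intCast_zmod_eq_zero_iff_dvd]
    push_cast
    exact hb0

theorem ram_two {x0 x1 x2 x3 : ℤ} (h : (2 : ℤ) ∣ P.nf x0 x1 x2 x3) :
    P.el x0 x1 x2 x3 ∈ P.PP 2 := by
  have key : ∀ a b c x : ZMod 2, a ^ 2 + a * b + b ^ 2 + c ^ 2 * x ^ 2 + c * b * x = 0 →
      b = 0 ∧ a + c * x = 0 := by decide
  have h4 : ((P.nf x0 x1 x2 x3 : ℤ) : ZMod 2) = 0 := (ZMod.intCast_zmod_eq_zero_iff_dvd _ _).mpr h
  have hN0 : ((P.N : ℕ) : ZMod 2) = 0 := (ZMod.natCast_eq_zero_iff _ _).mpr P.two_dvd_N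
  have hodd : ∀ k : ℤ, Odd k → (k : ZMod 2) = 1 := by
    rintro _ ⟨k, rfl⟩
    push_cast
    have : (2 : ZMod 2) = 0 := rfl
    rw [this]; ring
  have hQ1 : ((P.Q : ℤ) : ZMod 2) = 1 := hodd _ P.Q_odd
  have hp1 : ((P.p : ℤ) : ZMod 2) = 1 := hodd _ P.p_odd
  have hβ := hodd _ P.β_odd
  have hδ : P.δ = 2 * (P.t * P.γ) - P.c ^ 2 := by
    have h1 := P.hδ
    have h2 := P.ht
    have h3 := P.hγ
    have h5 : 4 * P.δ = 4 * (2 * (P.t * P.γ) - P.c ^ 2) := by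
      linear_combination -h1 - h2 + 2 * P.t * h3
    exact mul_left_cancel₀ four_ne_zero h5
  have hδ' : ((P.δ : ℤ) : ZMod 2) = (P.c : ZMod 2) ^ 2 := by
    rw [hδ]
    push_cast
    have : (2 : ZMod 2) = 0 := rfl
    have h1 : (-1 : ZMod 2) = 1 := rfl
    rw [this, zero_mul, zero_sub]
    linear_combination (P.c : ZMod 2) ^ 2 * h1
  obtain ⟨hb, ha⟩ := key x0 x1 P.c x3 (by
    rw [← h4]
    simp only [nf]
    push_cast at hQ1 ⊢
    rw [hδ', hβ, hN0, hQ1]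
    ring)
  rw [P.mem_PP_el' (m := 2) (m1 := 2) (m2 := 1) P.two_dvd_N (one_dvd _) rfl]
  refine ⟨?_, ?_, by simp⟩
  · refine dvd_add (dvd_mul_right _ _) ?_
    exact (ZMod.intCast_zmod_eq_zero_iff_dvd _ 2).mp hb
  · refine (ZMod.intCast_zmod_eq_zero_iff_dvd _ 2).mp ?_
    push_cast at hp1 ⊢
    rw [hp1, one_mul, ← ha]
    have h1 : (-1 : ZMod 2) = 1 := rfl
    linear_combination (P.c : ZMod 2) * x3 * h1

theorem ram' (q : ℕ) (hq : q.Prime) (hqM : q ∣ P.M) (hex : q ≠ P.ex) (x : P.D) (hx : x ∈ P.O)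
    (h : ∃ t : ℤ, P.qalg.nrd x = q * t) : x ∈ P.PP q := by
  obtain ⟨x0, x1, x2, x3, rfl⟩ := hx
  obtain ⟨t, ht⟩ := h
  have h1 : (q : ℤ) ∣ P.nf x0 x1 x2 x3 := ⟨t, by
    have h2 := (P.nr_el x0 x1 x2 x3).symm.trans ht
    exact_mod_cast h2⟩
  rcases (Nat.Prime.dvd_mul hq).mp hqM with h2 | h2
  · by_cases h3 : q = 2
    · subst h3
      exact P.ram_two h1
    · exact P.ram_N hq h2 hex h3 h1
  · exact P.ram_Q hq h2 h1

/-- the primes where the algebra is (known to be) ramified -/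
def ram (q : ℕ) : Prop := q.Prime ∧ q ∣ P.M ∧ q ≠ P.ex

/-- the instance, given the splitting away from `M`. -/
noncomputable def qorder (hsplit : ∀ l : ℕ, l.Prime → ¬ l ∣ P.M →
    ∃ π : P.O →+* Matrix (Fin 2) (Fin 2) (ZMod l),
      Function.Surjective π ∧ ∀ x, π x = 0 → ∃ y, x = (l : ℤ) • y) : QOrder P.D where
  toQAlg := P.qalg
  M := P.M
  M_sqf := P.M_sqf
  O := P.O
  basis := P.bas
  full := P.full'
  trd_int := P.trd_int'
  nrd_int := P.nrd_int'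
  index := P.index'
  split := hsplit
  P := P.PP
  P_one := P.PP_one
  P_mul m m' _ h' := P.PP_mul m m' h'
  P_sq := P.PP_sq
  O_P m _ := P.O_PP m
  P_O m _ := P.PP_O m
  P_le m _ := P.PP_le m
  P_loc := P.PP_loc
  P_index := P.PP_index
  ram := P.ram
  ram_dvd _ _ h := h.2.1
  ram_P q hq h := P.ram' q hq h.2.1 h.2.2
  dual := P.dual'

/-- the embedding `√-N`. -/
def root (hsplit : ∀ l : ℕ, l.Prime → ¬ l ∣ P.M →
    ∃ π : P.O →+* Matrix (Fin 2) (Fin 2) (ZMod l),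
      Function.Surjective π ∧ ∀ x, π x = 0 → ∃ y, x = (l : ℤ) • y) :
    QOrder.Root (P.qorder hsplit) P.N where
  dvd := P.N_dvd_M
  i := P.I
  sq := P.I_sq
  smul := P.I_smul

end Par

end Fermat.Agent.P2.Quat
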