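/-
P2, block 3 (A): the explicit quaternion order as a complete instance of `QOrder`, and its
existence for given sets of primes.
-/
import Fermat.Agent.P2.Quat.Inst4
import Fermat.Agent.P2.Quat.Split
import Fermat.Agent.P2.Quat.Exists

open scoped Pointwise

namespace Fermat.Agent.P2.Quat

namespace Par

variable (P : Par)

/-- The quaternion order. -/
noncomputable def qo : QOrder P.D := P.qorder P.exists_split

/-- The embedding `√-N`. -/
noncomputable def rt : QOrder.Root P.qo P.N := P.root P.exists_split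

@[simp] theorem qo_M : P.qo.M = P.N * P.Q := rfl

theorem qo_ram {q : ℕ} : P.qo.ram q ↔ q.Prime ∧ q ∣ P.N * P.Q ∧ q ≠ P.ex := Iff.rfl

end Par

/-- **Existence of the quaternion order** for `N = ∏ S` (`2 ∈ S`) and `∏ Q`, ramified at all
primes of `S ∪ Q` with the possible exception of one given odd prime `q0 ∈ S`. -/
theorem exists_order (S Q : Finset ℕ) (hS : ∀ q ∈ S, q.Prime) (h2 : 2 ∈ S) {q0 : ℕ}
    (hq0 : q0 ∈ S) (hq02 : q0 ≠ 2)
    (hQ : ∀ q ∈ Q, q.Prime ∧ q ∉ S ∧ ¬ IsSquare (-((∏ p ∈ S, p : ℕ) : ZMod q))) :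
    ∃ P : Par, P.N = ∏ q ∈ S, q ∧ P.Q = ∏ q ∈ Q, q ∧
      ∀ q, q ∈ S ∪ Q → q ≠ q0 → P.qo.ram q := by
  classical
  have hSp : (∏ q ∈ S, q).primeFactors = S := Nat.primeFactors_prod hS
  have hQp : (∏ q ∈ Q, q).primeFactors = Q := Nat.primeFactors_prod fun q hq => (hQ q hq).1
  have hS0 : (∏ q ∈ S, q) ≠ 0 := Finset.prod_ne_zero_iff.2 fun q hq => (hS q hq).ne_zero
  have hQ0 : (∏ q ∈ Q, q) ≠ 0 := Finset.prod_ne_zero_iff.2 fun q hq => (hQ q hq).1.ne_zero
  have hsqf : ∀ T : Finset ℕ, (∀ q ∈ T, q.Prime) → Squarefree (∏ q ∈ T, q) := by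
    intro T hT
    induction T using Finset.induction_on with
    | empty => simp
    | insert a T ha ih =>
      rw [Finset.prod_insert ha]
      have hT' := fun q hq => hT q (Finset.mem_insert_of_mem hq)
      rw [Nat.squarefree_mul]
      · exact ⟨(hT a (Finset.mem_insert_self _ _)).squarefree, ih hT'⟩
      · apply Nat.Coprime.prod_right
        intro q hq
        rw [Nat.coprime_primes (hT a (Finset.mem_insert_self _ _)) (hT' q hq)]
        rintro rfl
        exact ha hq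
  have hSs := hsqf S hS
  have hQs := hsqf Q fun q hq => (hQ q hq).1
  have hcop : (∏ q ∈ S, q).Coprime (∏ q ∈ Q, q) := by
    apply Nat.Coprime.prod_right
    intro q hq
    apply Nat.Coprime.prod_left
    intro p hp
    rw [Nat.coprime_primes (hS p hp) (hQ q hq).1]
    rintro rfl
    exact (hQ _ hq).2.1 hp
  have hN4 : (∏ q ∈ S, q) % 4 = 2 := by
    have h2d : 2 ∣ ∏ q ∈ S, q := Finset.dvd_prod_of_mem (fun q => q) h2
    have h4 : ¬ 4 ∣ ∏ q ∈ S, q := by
      intro h
      have := (Nat.squarefree_iff_prime_squarefree.1 hSs) 2 Nat.prime_two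
      exact this h
    omega
  have hQd : ∀ q : ℕ, q.Prime → q ∣ (∏ q ∈ Q, q) → q ∈ Q := by
    intro q hq hd
    rw [← hQp]
    exact Nat.mem_primeFactors.2 ⟨hq, hd, hQ0⟩
  set ex : ℕ := if Odd ((∏ q ∈ S, q) * ∏ q ∈ Q, q).primeFactors.card then 0 else q0 with hex
  obtain ⟨P, hP1, hP2, hP3, -, -⟩ := Par.exists_par (ex := ex) hN4 hSs hQs hcop
    (fun q hq hd => (hQ q (hQd q hq hd)).2.2)
    (by
      by_cases h : Odd ((∏ q ∈ S, q) * ∏ q ∈ Q, q).primeFactors.card
      · exact Or.inl ⟨h, by rw [hex, if_pos h]⟩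
      · refine Or.inr ⟨Nat.not_odd_iff_even.1 h, ?_⟩
        rw [hex, if_neg h]
        exact ⟨hS q0 hq0, hq02, Finset.dvd_prod_of_mem (fun q => q) hq0⟩) 0
  refine ⟨P, hP1, hP2, fun q hq hqq => ?_⟩
  rw [Par.qo_ram, hP1, hP2, hP3]
  have hqp : q.Prime := by
    rcases Finset.mem_union.1 hq with h | h
    · exact hS q h
    · exact (hQ q h).1
  refine ⟨hqp, ?_, ?_⟩
  · rcases Finset.mem_union.1 hq with h | h
    · exact dvd_mul_of_dvd_left (Finset.dvd_prod_of_mem (fun q => q) h) _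
    · exact dvd_mul_of_dvd_right (Finset.dvd_prod_of_mem (fun q => q) h) _
  · rw [hex]
    split_ifs
    · exact hqp.ne_zero
    · exact hqq

end Fermat.Agent.P2.Quat
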